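import Mathlib
import Fermat.Agent.CFT.AN.H25MainCoset

/-!
# W2-C, block C, slice C3-AN (helper17): sums of a shift-bounded function over residue classes

Abstract part (any commutative ring `R`).  For a summable `f : R → ℝ` with the shift bounds
`Σ_{x ∈ T} |f (x + a) - f x| ≤ Bd a`, coprime ideals `J`, `𝔪` and an `𝔪`-periodic predicate `P`:

  `|Σ_{x ∈ J, P x} f x - k · Σ_{z ∈ J𝔪} f z| ≤ B`,

where `k` is the number of residue classes modulo `𝔪` on which `P` holds (independent of `J`).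
-/

set_option autoImplicit false

namespace H17RAY

open scoped BigOperators

section abstract

variable {R : Type*} [CommRing R]

/-- shift over an ideal -/
theorem h17ray_shift_ideal (Λ : Ideal R) (f : R → ℝ) (hf : Summable f) (a : R) (B : ℝ)
    (hB : ∀ T : Finset R, ∑ x ∈ T, |f (x + a) - f x| ≤ B) :
    Summable (fun x : Λ => f (x.1 + a)) ∧
      |∑' x : Λ, f (x.1 + a) - ∑' x : Λ, f x.1| ≤ B := by
  have hfJ : Summable (fun x : Λ => f x.1) := hf.subtype _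
  obtain ⟨hs, hle⟩ := H25Main.h25main_summable_shift_sub Λ f a B hB
  have hs' : Summable (fun x : Λ => f (x.1 + a) - f x.1) := hs.of_abs
  have hsq : Summable (fun x : Λ => f (x.1 + a)) := by
    have := hs'.add hfJ
    simpa using this
  refine ⟨hsq, ?_⟩
  rw [← hsq.tsum_sub hfJ]
  refine le_trans ?_ hle
  have := norm_tsum_le_tsum_norm (f := fun x : Λ => f (x.1 + a) - f x.1)
    (by simpa [Real.norm_eq_abs] using hs)
  simpa [Real.norm_eq_abs] using this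

/-- the residue classes modulo `𝔪` on which `P` holds somewhere -/
def h17ray_resSet (𝔪 : Ideal R) (P : R → Prop) : Set (R ⧸ 𝔪) :=
  {ρ | ∃ x, Ideal.Quotient.mk 𝔪 x = ρ ∧ P x}

/-- the classes modulo `J * 𝔪` whose representative lies in `J` and satisfies `P` -/
def h17ray_cosSet (J 𝔪 : Ideal R) (P : R → Prop) : Set (R ⧸ (J * 𝔪)) :=
  {q | H25Main.h25main_rep (J * 𝔪) q ∈ J ∧ P (H25Main.h25main_rep (J * 𝔪) q)}

theorem h17ray_periodic_of_sub {𝔪 : Ideal R} {P : R → Prop}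
    (hP : ∀ x m, m ∈ 𝔪 → (P (x + m) ↔ P x)) {x y : R} (h : x - y ∈ 𝔪) : P x ↔ P y := by
  have := hP y (x - y) h
  rwa [add_sub_cancel] at this

/-- CRT count: the two sets have the same cardinality when `J` and `𝔪` are coprime. -/
theorem h17ray_card_cosSet (J 𝔪 : Ideal R) (hcop : IsCoprime J 𝔪) (P : R → Prop)
    (hP : ∀ x m, m ∈ 𝔪 → (P (x + m) ↔ P x)) :
    Nat.card (h17ray_cosSet J 𝔪 P) = Nat.card (h17ray_resSet 𝔪 P) := by
  have hle𝔪 : J * 𝔪 ≤ 𝔪 := Ideal.mul_le_right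
  have hleJ : J * 𝔪 ≤ J := Ideal.mul_le_left
  have hinf : J ⊓ 𝔪 = J * 𝔪 := (Ideal.mul_eq_inf_of_isCoprime hcop).symm
  let θ : h17ray_cosSet J 𝔪 P → h17ray_resSet 𝔪 P := fun q =>
    ⟨Ideal.Quotient.mk 𝔪 (H25Main.h25main_rep (J * 𝔪) q.1), ⟨_, rfl, q.2.2⟩⟩
  apply Nat.card_eq_of_bijective θ
  constructor
  · rintro ⟨q, hq⟩ ⟨q', hq'⟩ h
    have h1 : Ideal.Quotient.mk 𝔪 (H25Main.h25main_rep (J * 𝔪) q) =
        Ideal.Quotient.mk 𝔪 (H25Main.h25main_rep (J * 𝔪) q') := congrArg Subtype.val h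
    have h2 : H25Main.h25main_rep (J * 𝔪) q - H25Main.h25main_rep (J * 𝔪) q' ∈ 𝔪 :=
      Ideal.Quotient.eq.mp h1
    have h3 : H25Main.h25main_rep (J * 𝔪) q - H25Main.h25main_rep (J * 𝔪) q' ∈ J :=
      J.sub_mem hq.1 hq'.1
    have h4 : H25Main.h25main_rep (J * 𝔪) q - H25Main.h25main_rep (J * 𝔪) q' ∈ J * 𝔪 :=
      (le_of_eq hinf) ⟨h3, h2⟩
    have h5 : Ideal.Quotient.mk (J * 𝔪) (H25Main.h25main_rep (J * 𝔪) q) =
        Ideal.Quotient.mk (J * 𝔪) (H25Main.h25main_rep (J * 𝔪) q') := Ideal.Quotient.eq.mpr h4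
    rw [H25Main.h25main_mk_rep, H25Main.h25main_mk_rep] at h5
    exact Subtype.ext h5
  · rintro ⟨ρ, x, rfl, hx⟩
    obtain ⟨j, hj, m, hm, hjm⟩ : ∃ j ∈ J, ∃ m ∈ 𝔪, j + m = 1 := by
      have h1 : (1 : R) ∈ J ⊔ 𝔪 := by
        rw [Ideal.isCoprime_iff_sup_eq.mp hcop]; trivial
      obtain ⟨j, hj, m, hm, h⟩ := Submodule.mem_sup.mp h1
      exact ⟨j, hj, m, hm, h⟩
    set x' : R := x * j with hx'
    have hx'J : x' ∈ J := J.mul_mem_left _ hj
    have hx'x : x' - x ∈ 𝔪 := by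
      have : x' - x = -(x * m) := by
        rw [hx']
        have : j = 1 - m := by rw [← hjm]; ring
        rw [this]; ring
      rw [this]
      exact 𝔪.neg_mem (𝔪.mul_mem_left _ hm)
    set q : R ⧸ (J * 𝔪) := Ideal.Quotient.mk (J * 𝔪) x' with hq
    have hr : H25Main.h25main_rep (J * 𝔪) q - x' ∈ J * 𝔪 := by
      apply Ideal.Quotient.eq.mp
      rw [H25Main.h25main_mk_rep]
    have hrJ : H25Main.h25main_rep (J * 𝔪) q ∈ J := by
      have := J.add_mem (hleJ hr) hx'J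
      simpa using this
    have hrx : H25Main.h25main_rep (J * 𝔪) q - x ∈ 𝔪 := by
      have := 𝔪.add_mem (hle𝔪 hr) hx'x
      simpa using this
    have hrP : P (H25Main.h25main_rep (J * 𝔪) q) := (h17ray_periodic_of_sub hP hrx).mpr hx
    refine ⟨⟨q, hrJ, hrP⟩, ?_⟩
    apply Subtype.ext
    show Ideal.Quotient.mk 𝔪 (H25Main.h25main_rep (J * 𝔪) q) = Ideal.Quotient.mk 𝔪 x
    exact Ideal.Quotient.eq.mpr hrx

open scoped Classical in
/-- **periodic sum**: the sum of `f` over the elements of `J` satisfying the `𝔪`-periodic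
predicate `P` is `k` times the sum over `J * 𝔪`, up to a bounded error. -/
theorem h17ray_periodic_sum (J 𝔪 : Ideal R) [Fintype (R ⧸ (J * 𝔪))] (hcop : IsCoprime J 𝔪)
    (P : R → Prop) (hP : ∀ x m, m ∈ 𝔪 → (P (x + m) ↔ P x))
    (f : R → ℝ) (hf : Summable f)
    (Bd : R → ℝ) (hBd : ∀ a : R, ∀ T : Finset R, ∑ x ∈ T, |f (x + a) - f x| ≤ Bd a) :
    |∑' x : R, Set.indicator {x | x ∈ J ∧ P x} f x -
        (Nat.card (h17ray_resSet 𝔪 P) : ℝ) * ∑' z : (J * 𝔪 : Ideal R), f z.1| ≤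
      ∑ q : R ⧸ (J * 𝔪), Bd (H25Main.h25main_rep (J * 𝔪) q) := by
  have hle𝔪 : J * 𝔪 ≤ 𝔪 := Ideal.mul_le_right
  have hleJ : J * 𝔪 ≤ J := Ideal.mul_le_left
  have hgs : Summable (Set.indicator {x | x ∈ J ∧ P x} f) := hf.indicator _
  have h1 := H25Main.h25main_tsum_eq_sum_cosets (J * 𝔪) (Set.indicator {x | x ∈ J ∧ P x} f) hgs
  -- the coefficient of a coset
  have hcoset : ∀ q : R ⧸ (J * 𝔪),
      ∑' z : (J * 𝔪 : Ideal R),
        Set.indicator {x | x ∈ J ∧ P x} f (z.1 + H25Main.h25main_rep (J * 𝔪) q) =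
      (if q ∈ h17ray_cosSet J 𝔪 P then (1 : ℝ) else 0) *
        ∑' z : (J * 𝔪 : Ideal R), f (z.1 + H25Main.h25main_rep (J * 𝔪) q) := by
    intro q
    rw [← tsum_mul_left]
    refine tsum_congr fun z => ?_
    have hzJ : (z.1 + H25Main.h25main_rep (J * 𝔪) q ∈ J) ↔
        H25Main.h25main_rep (J * 𝔪) q ∈ J := by
      constructor
      · intro h
        have := J.sub_mem h (hleJ z.2)
        simpa using this
      · intro h
        exact J.add_mem (hleJ z.2) h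
    have hzP : P (z.1 + H25Main.h25main_rep (J * 𝔪) q) ↔
        P (H25Main.h25main_rep (J * 𝔪) q) := by
      rw [add_comm]
      exact hP _ _ (hle𝔪 z.2)
    by_cases hq : q ∈ h17ray_cosSet J 𝔪 P
    · have hmem : z.1 + H25Main.h25main_rep (J * 𝔪) q ∈ {x | x ∈ J ∧ P x} :=
        ⟨hzJ.mpr hq.1, hzP.mpr hq.2⟩
      rw [Set.indicator_of_mem hmem, if_pos hq, one_mul]
    · have hmem : z.1 + H25Main.h25main_rep (J * 𝔪) q ∉ {x | x ∈ J ∧ P x} := by
        rintro ⟨h1, h2⟩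
        exact hq ⟨hzJ.mp h1, hzP.mp h2⟩
      rw [Set.indicator_of_notMem hmem, if_neg hq, zero_mul]
  have hk : (Nat.card (h17ray_resSet 𝔪 P) : ℝ) =
      ∑ q : R ⧸ (J * 𝔪), (if q ∈ h17ray_cosSet J 𝔪 P then (1 : ℝ) else 0) := by
    rw [← h17ray_card_cosSet J 𝔪 hcop P hP]
    rw [Finset.sum_boole, Nat.card_eq_fintype_card, Fintype.card_subtype]
  rw [h1, hk, Finset.sum_mul, ← Finset.sum_sub_distrib]
  refine le_trans (Finset.abs_sum_le_sum_abs _ _) ?_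
  apply Finset.sum_le_sum
  intro q _
  rw [hcoset q, ← mul_sub, abs_mul]
  obtain ⟨-, hb⟩ := h17ray_shift_ideal (J * 𝔪) f hf (H25Main.h25main_rep (J * 𝔪) q) _
    (hBd (H25Main.h25main_rep (J * 𝔪) q))
  have hc1 : |(if q ∈ h17ray_cosSet J 𝔪 P then (1 : ℝ) else 0)| ≤ 1 := by
    by_cases hq : q ∈ h17ray_cosSet J 𝔪 P
    · simp [hq]
    · simp [hq]
  calc |(if q ∈ h17ray_cosSet J 𝔪 P then (1 : ℝ) else 0)| *
        |∑' z : (J * 𝔪 : Ideal R), f (z.1 + H25Main.h25main_rep (J * 𝔪) q) -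
          ∑' z : (J * 𝔪 : Ideal R), f z.1|
      ≤ 1 * Bd (H25Main.h25main_rep (J * 𝔪) q) :=
        mul_le_mul hc1 hb (abs_nonneg _) zero_le_one
    _ = Bd (H25Main.h25main_rep (J * 𝔪) q) := one_mul _

end abstract

end H17RAY
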