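import Mathlib
import Fermat.Agent.CFT.AN.H17SI

/-!
# W2-C, block C, slice C3-AN (helper17): orbit sums with a predicate, coprime representatives

* `h17ray_orbit_pred` : for a predicate `Q` on the nonzero ideals with `J * I` principal whenever
  `Q I`, the smoothed sum over the generators `x` of the ideals `J * I` (`Q I`) is
  `w · N(J)^{-s} · Σ_{Q I} N(I)^{-s}`;
* `h17ray_exists_coprime_rep` : every ideal class contains an integral ideal prime to `𝔪`.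
-/

set_option autoImplicit false

namespace H17RAY

open NumberField NumberField.mixedEmbedding NumberField.Units
open scoped nonZeroDivisors

variable (K : Type) [Field K] [NumberField K]

/-- the smoothed summand is `h12_G` for helper4's weight -/
theorem h17ray_f_eq (s : ℝ) (x : 𝓞 K) :
    H25Main.h25main_f K s x = H12AN.h12_G (H4AN.h4an_W K) s x := rfl

theorem h17ray_f_nonneg (s : ℝ) (x : 𝓞 K) : 0 ≤ H25Main.h25main_f K s x := by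
  rw [h17ray_f_eq]
  exact H12AN.h12_G_nonneg _ H12AN.h12_h4an_W_nonneg s x

theorem h17ray_f_zero (s : ℝ) (hs : s ≠ 0) : H25Main.h25main_f K s 0 = 0 := by
  rw [h17ray_f_eq]
  exact H12AN.h12_G_zero _ s hs

theorem h17ray_orbitSum : H4AN.h4an_OrbitSum K :=
  H12AN.h12_orbitSum K (H4AN.h4an_unitSum K)

theorem h17ray_f_summable (s : ℝ) (hs : 1 < s) : Summable (H25Main.h25main_f K s) :=
  (H25Main.h25main_hasSum_top K (h17ray_orbitSum K) s hs).summable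

variable {K}

/-- **orbit sum with a predicate** -/
theorem h17ray_orbit_pred (J : (Ideal (𝓞 K))⁰) (Q : (Ideal (𝓞 K))⁰ → Prop)
    (hQ : ∀ I, Q I → ((J : Ideal (𝓞 K)) * (I : Ideal (𝓞 K))).IsPrincipal)
    (s : ℝ) (hs : 1 < s) :
    HasSum (fun x : 𝓞 K => Set.indicator
        {x : 𝓞 K | ∃ I : (Ideal (𝓞 K))⁰, Q I ∧
          Ideal.span ({x} : Set (𝓞 K)) = (J : Ideal (𝓞 K)) * (I : Ideal (𝓞 K))}
        (H25Main.h25main_f K s) x)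
      ((torsionOrder K : ℝ) * (Ideal.absNorm (J : Ideal (𝓞 K)) : ℝ) ^ (-s) *
        ∑' I : {I : (Ideal (𝓞 K))⁰ // Q I}, (Ideal.absNorm (I.1 : Ideal (𝓞 K)) : ℝ) ^ (-s)) := by
  have hZ := H12AN.h12_zetaSummable K
  have hU := H4AN.h4an_unitSum K
  set Y : Set (𝓞 K) := {x : 𝓞 K | ∃ I : (Ideal (𝓞 K))⁰, Q I ∧
          Ideal.span ({x} : Set (𝓞 K)) = (J : Ideal (𝓞 K)) * (I : Ideal (𝓞 K))} with hY
  -- the parametrisation
  let Φ : (Σ I : {I : (Ideal (𝓞 K))⁰ // Q I}, {x : 𝓞 K // Ideal.span ({x} : Set (𝓞 K)) =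
      (J : Ideal (𝓞 K)) * ((I.1 : (Ideal (𝓞 K))⁰) : Ideal (𝓞 K))}) → 𝓞 K := fun p => p.2.1
  have hΦinj : Function.Injective Φ := by
    rintro ⟨I, x, hx⟩ ⟨I', x', hx'⟩ h
    have hxx : x = x' := h
    subst hxx
    have h1 : (J : Ideal (𝓞 K)) * ((I.1 : (Ideal (𝓞 K))⁰) : Ideal (𝓞 K)) =
        (J : Ideal (𝓞 K)) * ((I'.1 : (Ideal (𝓞 K))⁰) : Ideal (𝓞 K)) :=
      hx.symm.trans hx'
    have h2 : ((I.1 : (Ideal (𝓞 K))⁰) : Ideal (𝓞 K)) = ((I'.1 : (Ideal (𝓞 K))⁰) : Ideal (𝓞 K)) :=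
      mul_left_cancel₀ (nonZeroDivisors.coe_ne_zero J) h1
    have h3 : I = I' := Subtype.ext (Subtype.ext h2)
    subst h3
    rfl
  have hΦmem : ∀ p, Φ p ∈ Y := by
    rintro ⟨I, x, hx⟩
    exact ⟨I.1, I.2, hx⟩
  have hΦrange : ∀ x : 𝓞 K, x ∉ Set.range Φ →
      Set.indicator Y (H25Main.h25main_f K s) x = 0 := by
    intro x hx
    by_cases hxY : x ∈ Y
    · exfalso
      apply hx
      obtain ⟨I, hI, hxI⟩ := hxY
      exact ⟨⟨⟨I, hI⟩, ⟨x, hxI⟩⟩, rfl⟩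
    · exact Set.indicator_of_notMem hxY _
  rw [← hΦinj.hasSum_iff hΦrange]
  have hcomp : ∀ p, (fun x : 𝓞 K => Set.indicator Y (H25Main.h25main_f K s) x) (Φ p) =
      H12AN.h12_G (H4AN.h4an_W K) s p.2.1 := by
    intro p
    exact Set.indicator_of_mem (hΦmem p) _
  have hfun : ((fun x : 𝓞 K => Set.indicator Y (H25Main.h25main_f K s) x) ∘ Φ) =
      fun p => H12AN.h12_G (H4AN.h4an_W K) s p.2.1 := funext hcomp
  rw [hfun]
  -- fibre sums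
  have hfib : ∀ I : {I : (Ideal (𝓞 K))⁰ // Q I},
      HasSum (fun x : {x : 𝓞 K // Ideal.span ({x} : Set (𝓞 K)) =
        (J : Ideal (𝓞 K)) * ((I.1 : (Ideal (𝓞 K))⁰) : Ideal (𝓞 K))} =>
          H12AN.h12_G (H4AN.h4an_W K) s x.1)
      ((torsionOrder K : ℝ) * (Ideal.absNorm (J : Ideal (𝓞 K)) : ℝ) ^ (-s) *
        (Ideal.absNorm ((I.1 : (Ideal (𝓞 K))⁰) : Ideal (𝓞 K)) : ℝ) ^ (-s)) := by
    intro I
    have h := H12AN.h12_hasSum_gen (H4AN.h4an_W K) _ hU s _ (H12AN.h12_mul_ne_bot J I.1)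
      (hQ I.1 I.2)
    rw [map_mul, Nat.cast_mul, Real.mul_rpow (Nat.cast_nonneg _) (Nat.cast_nonneg _),
      ← mul_assoc] at h
    exact h
  -- outer sum
  have hsumCI : Summable (fun I : {I : (Ideal (𝓞 K))⁰ // Q I} =>
      (Ideal.absNorm ((I.1 : (Ideal (𝓞 K))⁰) : Ideal (𝓞 K)) : ℝ) ^ (-s)) :=
    (hZ s hs).subtype _
  have houter : HasSum (fun I : {I : (Ideal (𝓞 K))⁰ // Q I} =>
        (torsionOrder K : ℝ) * (Ideal.absNorm (J : Ideal (𝓞 K)) : ℝ) ^ (-s) *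
        (Ideal.absNorm ((I.1 : (Ideal (𝓞 K))⁰) : Ideal (𝓞 K)) : ℝ) ^ (-s))
      ((torsionOrder K : ℝ) * (Ideal.absNorm (J : Ideal (𝓞 K)) : ℝ) ^ (-s) *
        ∑' I : {I : (Ideal (𝓞 K))⁰ // Q I},
          (Ideal.absNorm ((I.1 : (Ideal (𝓞 K))⁰) : Ideal (𝓞 K)) : ℝ) ^ (-s)) :=
    hsumCI.hasSum.mul_left _
  refine HasSum.sigma_of_hasSum houter hfib ?_
  rw [summable_sigma_of_nonneg (fun p => H12AN.h12_G_nonneg _ H12AN.h12_h4an_W_nonneg s _)]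
  refine ⟨fun I => (hfib I).summable, ?_⟩
  have : (fun I : {I : (Ideal (𝓞 K))⁰ // Q I} =>
      ∑' x : {x : 𝓞 K // Ideal.span ({x} : Set (𝓞 K)) =
        (J : Ideal (𝓞 K)) * ((I.1 : (Ideal (𝓞 K))⁰) : Ideal (𝓞 K))},
          H12AN.h12_G (H4AN.h4an_W K) s x.1) =
      fun I : {I : (Ideal (𝓞 K))⁰ // Q I} =>
        (torsionOrder K : ℝ) * (Ideal.absNorm (J : Ideal (𝓞 K)) : ℝ) ^ (-s) *
        (Ideal.absNorm ((I.1 : (Ideal (𝓞 K))⁰) : Ideal (𝓞 K)) : ℝ) ^ (-s) :=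
    funext fun I => (hfib I).tsum_eq
  rw [this]
  exact houter.summable

/-- Every ideal class contains an integral ideal prime to a given nonzero ideal `𝔪`. -/
theorem h17ray_exists_coprime_rep (𝔪 : Ideal (𝓞 K)) (h𝔪 : 𝔪 ≠ ⊥) (c : ClassGroup (𝓞 K)) :
    ∃ B : (Ideal (𝓞 K))⁰, ClassGroup.mk0 B = c ∧ IsCoprime (B : Ideal (𝓞 K)) 𝔪 := by
  by_cases htop : 𝔪 = ⊤
  · obtain ⟨B, hB⟩ := ClassGroup.mk0_surjective c
    refine ⟨B, hB, ?_⟩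
    rw [Ideal.isCoprime_iff_sup_eq, htop, sup_top_eq]
  obtain ⟨J, hJ⟩ := ClassGroup.mk0_surjective c⁻¹
  have hJ0 : (J : Ideal (𝓞 K)) ≠ 0 := mem_nonZeroDivisors_iff_ne_zero.mp J.2
  have h𝔪0 : 𝔪 ≠ 0 := h𝔪
  obtain ⟨a, ha⟩ := IsDedekindDomain.exists_sup_span_eq
    (I := (J : Ideal (𝓞 K)) * 𝔪) (J := (J : Ideal (𝓞 K)))
    Ideal.mul_le_left (mul_ne_zero hJ0 h𝔪0)
  have haJ : a ∈ (J : Ideal (𝓞 K)) := by
    rw [← ha]
    exact Ideal.mem_sup_right (Ideal.mem_span_singleton_self a)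
  obtain ⟨B, hB⟩ : (J : Ideal (𝓞 K)) ∣ Ideal.span {a} :=
    Ideal.dvd_iff_le.mpr ((Ideal.span_singleton_le_iff_mem _).mpr haJ)
  have hcop : 𝔪 ⊔ B = ⊤ := by
    have h1 : (J : Ideal (𝓞 K)) * (𝔪 ⊔ B) = (J : Ideal (𝓞 K)) * ⊤ := by
      rw [Ideal.mul_sup, ← hB, ha, Ideal.mul_top]
    exact mul_left_cancel₀ hJ0 h1
  have hB0 : B ≠ 0 := by
    rintro rfl
    apply htop
    rw [← hcop]
    simp
  refine ⟨⟨B, mem_nonZeroDivisors_iff_ne_zero.mpr hB0⟩, ?_, ?_⟩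
  · have h1 : ClassGroup.mk0 J * ClassGroup.mk0 ⟨B, mem_nonZeroDivisors_iff_ne_zero.mpr hB0⟩ = 1 := by
      rw [← map_mul]
      have hmem : (J : Ideal (𝓞 K)) * B ∈ (Ideal (𝓞 K))⁰ :=
        mem_nonZeroDivisors_iff_ne_zero.mpr (mul_ne_zero hJ0 hB0)
      have : J * ⟨B, mem_nonZeroDivisors_iff_ne_zero.mpr hB0⟩ =
          (⟨(J : Ideal (𝓞 K)) * B, hmem⟩ : (Ideal (𝓞 K))⁰) := rfl
      rw [this, ClassGroup.mk0_eq_one_iff hmem, ← hB]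
      exact ⟨⟨a, rfl⟩⟩
    rw [hJ] at h1
    exact (inv_mul_eq_one.mp h1).symm ▸ rfl
  · rw [Ideal.isCoprime_iff_sup_eq, sup_comm]
    exact hcop

end H17RAY
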