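import Mathlib
import Fermat.Agent.CFT2.C.ANRayCoset_helper17
import Fermat.Agent.CFT2.C.ANRayOrbit_helper17

/-!
# W2-C, block C, slice C3-AN (helper17): partial zeta functions of ray classes

`φ : (Ideal (𝓞 K))⁰ →* X` is a homomorphism into a commutative group which is trivial on the
principal ideals `(a)` with `a ≡ 1 mod 𝔪` (`h17ray_RayTrivial`).  The partial zeta function
`h17ray_zeta 𝔪 φ y s = Σ_{I prime to 𝔪, φ I = y} N(I)^{-s}` differs from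
`h17ray_zeta 𝔪 φ 1 s` by a bounded function on `(1, 2]` (`h17ray_pzb`).
-/

set_option autoImplicit false

namespace H17RAY

open NumberField NumberField.mixedEmbedding NumberField.Units
open scoped nonZeroDivisors

variable {K : Type} [Field K] [NumberField K] {X : Type*} [CommGroup X]

/-- hypothesis (i): `φ` is trivial on the principal ideals `(a)` with `a ≡ 1 mod 𝔪`. -/
def h17ray_RayTrivial (𝔪 : Ideal (𝓞 K)) (φ : (Ideal (𝓞 K))⁰ →* X) : Prop :=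
  ∀ (A : (Ideal (𝓞 K))⁰) (a : 𝓞 K), (A : Ideal (𝓞 K)) = Ideal.span {a} → a - 1 ∈ 𝔪 → φ A = 1

/-- the partial zeta function of the fibre of `φ` over `y` among the ideals prime to `𝔪` in the
ideal class `C` -/
noncomputable def h17ray_zetaC (𝔪 : Ideal (𝓞 K)) (φ : (Ideal (𝓞 K))⁰ →* X)
    (C : ClassGroup (𝓞 K)) (y : X) (s : ℝ) : ℝ :=
  ∑' I : {I : (Ideal (𝓞 K))⁰ // (IsCoprime (I : Ideal (𝓞 K)) 𝔪 ∧ φ I = y) ∧
      ClassGroup.mk0 I = C}, (Ideal.absNorm (I.1 : Ideal (𝓞 K)) : ℝ) ^ (-s)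

/-- the partial zeta function of the fibre of `φ` over `y` among the ideals prime to `𝔪` -/
noncomputable def h17ray_zeta (𝔪 : Ideal (𝓞 K)) (φ : (Ideal (𝓞 K))⁰ →* X) (y : X) (s : ℝ) : ℝ :=
  ∑' I : {I : (Ideal (𝓞 K))⁰ // IsCoprime (I : Ideal (𝓞 K)) 𝔪 ∧ φ I = y},
    (Ideal.absNorm (I.1 : Ideal (𝓞 K)) : ℝ) ^ (-s)

theorem h17ray_span_ne_zero {A : (Ideal (𝓞 K))⁰} {x : 𝓞 K}
    (hA : (A : Ideal (𝓞 K)) = Ideal.span {x}) : x ≠ 0 := by
  rintro rfl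
  have h0 : (A : Ideal (𝓞 K)) ≠ ⊥ := nonZeroDivisors.coe_ne_zero A
  apply h0
  rw [hA]
  simp

/-- **(L1)** `φ` of a principal ideal prime to `𝔪` depends only on the generator modulo `𝔪`. -/
theorem h17ray_phi_congr {𝔪 : Ideal (𝓞 K)} {φ : (Ideal (𝓞 K))⁰ →* X}
    (hφ : h17ray_RayTrivial 𝔪 φ) {A A' : (Ideal (𝓞 K))⁰} {x x' : 𝓞 K}
    (hA : (A : Ideal (𝓞 K)) = Ideal.span {x}) (hA' : (A' : Ideal (𝓞 K)) = Ideal.span {x'})
    (hx : x' - x ∈ 𝔪) (hcop : IsCoprime (A : Ideal (𝓞 K)) 𝔪) : φ A = φ A' := by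
  have hx0 : x ≠ 0 := h17ray_span_ne_zero hA
  have hx'0 : x' ≠ 0 := h17ray_span_ne_zero hA'
  have h1 : (1 : 𝓞 K) ∈ (A : Ideal (𝓞 K)) ⊔ 𝔪 := by
    rw [Ideal.isCoprime_iff_sup_eq.mp hcop]; trivial
  obtain ⟨u, hu, v, hv, huv⟩ := Submodule.mem_sup.mp h1
  rw [hA] at hu
  obtain ⟨γ, hγ⟩ := Ideal.mem_span_singleton'.mp hu
  by_cases hγ0 : γ = 0
  · -- then `1 ∈ 𝔪`
    have hv1 : v = 1 := by
      rw [← huv, ← hγ, hγ0, zero_mul, zero_add]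
    have htop : ∀ z : 𝓞 K, z ∈ 𝔪 := by
      intro z
      have : z = z * v := by rw [hv1, mul_one]
      rw [this]
      exact 𝔪.mul_mem_left _ hv
    rw [hφ A x hA (htop _), hφ A' x' hA' (htop _)]
  · have hΓ : Ideal.span ({γ} : Set (𝓞 K)) ∈ (Ideal (𝓞 K))⁰ := by
      apply mem_nonZeroDivisors_of_ne_zero
      rw [Ne, Ideal.zero_eq_bot, Ideal.span_singleton_eq_bot]
      exact hγ0
    set Γ : (Ideal (𝓞 K))⁰ := ⟨Ideal.span {γ}, hΓ⟩ with hΓdef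
    have e1 : ((A * Γ : (Ideal (𝓞 K))⁰) : Ideal (𝓞 K)) = Ideal.span {x * γ} := by
      show (A : Ideal (𝓞 K)) * Ideal.span {γ} = _
      rw [hA, Ideal.span_singleton_mul_span_singleton]
    have e2 : ((A' * Γ : (Ideal (𝓞 K))⁰) : Ideal (𝓞 K)) = Ideal.span {x' * γ} := by
      show (A' : Ideal (𝓞 K)) * Ideal.span {γ} = _
      rw [hA', Ideal.span_singleton_mul_span_singleton]
    have m1 : x * γ - 1 ∈ 𝔪 := by
      have : x * γ - 1 = -v := by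
        rw [mul_comm, hγ, ← huv]; ring
      rw [this]
      exact 𝔪.neg_mem hv
    have m2 : x' * γ - 1 ∈ 𝔪 := by
      have : x' * γ - 1 = (x' - x) * γ + (x * γ - 1) := by ring
      rw [this]
      exact 𝔪.add_mem (𝔪.mul_mem_right _ hx) m1
    have p1 := hφ (A * Γ) (x * γ) e1 m1
    have p2 := hφ (A' * Γ) (x' * γ) e2 m2
    rw [map_mul] at p1 p2
    exact mul_right_cancel (p1.trans p2.symm)

/-- the element-level predicate: `x` is congruent modulo `𝔪` to a generator of an ideal prime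
to `𝔪` with `φ`-value `t`. -/
def h17ray_P (𝔪 : Ideal (𝓞 K)) (φ : (Ideal (𝓞 K))⁰ →* X) (t : X) (x : 𝓞 K) : Prop :=
  ∃ (x' : 𝓞 K) (A : (Ideal (𝓞 K))⁰), x' - x ∈ 𝔪 ∧ (A : Ideal (𝓞 K)) = Ideal.span {x'} ∧
    IsCoprime (A : Ideal (𝓞 K)) 𝔪 ∧ φ A = t

theorem h17ray_P_periodic (𝔪 : Ideal (𝓞 K)) (φ : (Ideal (𝓞 K))⁰ →* X) (t : X) :
    ∀ x m : 𝓞 K, m ∈ 𝔪 → (h17ray_P 𝔪 φ t (x + m) ↔ h17ray_P 𝔪 φ t x) := by
  intro x m hm
  constructor
  · rintro ⟨x', A, h1, h2, h3, h4⟩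
    refine ⟨x', A, ?_, h2, h3, h4⟩
    have : x' - x = (x' - (x + m)) + m := by ring
    rw [this]
    exact 𝔪.add_mem h1 hm
  · rintro ⟨x', A, h1, h2, h3, h4⟩
    refine ⟨x', A, ?_, h2, h3, h4⟩
    have : x' - (x + m) = (x' - x) - m := by ring
    rw [this]
    exact 𝔪.sub_mem h1 hm

theorem h17ray_P_iff {𝔪 : Ideal (𝓞 K)} {φ : (Ideal (𝓞 K))⁰ →* X}
    (hφ : h17ray_RayTrivial 𝔪 φ) (t : X) {A : (Ideal (𝓞 K))⁰} {x : 𝓞 K}
    (hA : (A : Ideal (𝓞 K)) = Ideal.span {x}) :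
    h17ray_P 𝔪 φ t x ↔ IsCoprime (A : Ideal (𝓞 K)) 𝔪 ∧ φ A = t := by
  constructor
  · rintro ⟨x', A', h1, h2, h3, h4⟩
    have hcop : IsCoprime (A : Ideal (𝓞 K)) 𝔪 := by
      rw [Ideal.isCoprime_iff_sup_eq, eq_top_iff, ← Ideal.isCoprime_iff_sup_eq.mp h3]
      apply sup_le _ le_sup_right
      rw [h2, Ideal.span_singleton_le_iff_mem]
      have : x' = x + (x' - x) := by ring
      rw [this]
      apply Ideal.add_mem
      · apply Ideal.mem_sup_left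
        rw [hA]
        exact Ideal.mem_span_singleton_self x
      · exact Ideal.mem_sup_right h1
    refine ⟨hcop, ?_⟩
    rw [← h4]
    exact h17ray_phi_congr hφ hA h2 h1 hcop
  · rintro ⟨h1, h2⟩
    exact ⟨x, A, by simp, hA, h1, h2⟩

/-- the number of residue classes modulo `𝔪` of the generators with `φ`-value `t` -/
noncomputable def h17ray_kappa (𝔪 : Ideal (𝓞 K)) (φ : (Ideal (𝓞 K))⁰ →* X) (t : X) : ℕ :=
  Nat.card (h17ray_resSet 𝔪 (h17ray_P 𝔪 φ t))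

theorem h17ray_one_le_absNorm (I : (Ideal (𝓞 K))⁰) :
    (1 : ℝ) ≤ (Ideal.absNorm (I : Ideal (𝓞 K)) : ℝ) := by
  exact_mod_cast Nat.pos_of_ne_zero (Ideal.absNorm_ne_zero_of_nonZeroDivisors I)

/-- the two descriptions of the set of generators agree (as indicator functions) -/
theorem h17ray_indicator_eq {𝔪 : Ideal (𝓞 K)} {φ : (Ideal (𝓞 K))⁰ →* X}
    (hφ : h17ray_RayTrivial 𝔪 φ) (J : (Ideal (𝓞 K))⁰) (hJ : IsCoprime (J : Ideal (𝓞 K)) 𝔪)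
    (y : X) (s : ℝ) (hs : s ≠ 0) :
    (fun x : 𝓞 K => Set.indicator
        {x : 𝓞 K | ∃ I : (Ideal (𝓞 K))⁰,
          ((IsCoprime (I : Ideal (𝓞 K)) 𝔪 ∧ φ I = y) ∧
            ClassGroup.mk0 I = (ClassGroup.mk0 J)⁻¹) ∧
          Ideal.span ({x} : Set (𝓞 K)) = (J : Ideal (𝓞 K)) * (I : Ideal (𝓞 K))}
        (H25Main.h25main_f K s) x) =
      fun x : 𝓞 K => Set.indicator
        {x : 𝓞 K | x ∈ (J : Ideal (𝓞 K)) ∧ h17ray_P 𝔪 φ (y * φ J) x}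
        (H25Main.h25main_f K s) x := by
  funext x
  by_cases hx0 : x = 0
  · subst hx0
    show Set.indicator _ (H25Main.h25main_f K s) 0 = Set.indicator _ (H25Main.h25main_f K s) 0
    rw [Set.indicator_apply_eq_zero.mpr (fun _ => h17ray_f_zero K s hs),
      Set.indicator_apply_eq_zero.mpr (fun _ => h17ray_f_zero K s hs)]
  by_cases hx : x ∈ {x : 𝓞 K | x ∈ (J : Ideal (𝓞 K)) ∧ h17ray_P 𝔪 φ (y * φ J) x}
  · rw [Set.indicator_of_mem hx, Set.indicator_of_mem]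
    obtain ⟨hxJ, hxP⟩ := hx
    obtain ⟨I, hI⟩ := Ideal.dvd_span_singleton.mpr hxJ
    have hI0 : I ≠ ⊥ := by
      rintro rfl
      rw [Ideal.mul_bot, Ideal.span_singleton_eq_bot] at hI
      exact hx0 hI
    let I' : (Ideal (𝓞 K))⁰ := ⟨I, mem_nonZeroDivisors_of_ne_zero hI0⟩
    have hA : ((J * I' : (Ideal (𝓞 K))⁰) : Ideal (𝓞 K)) = Ideal.span {x} := hI.symm
    have hP := (h17ray_P_iff hφ (y * φ J) hA).mp hxP
    have hmk : ClassGroup.mk0 I' = (ClassGroup.mk0 J)⁻¹ := by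
      have h1 : ClassGroup.mk0 (J * I') = 1 := by
        rw [ClassGroup.mk0_eq_one_iff (J * I').2]
        refine ⟨⟨x, ?_⟩⟩
        exact hA
      rw [map_mul] at h1
      exact eq_inv_of_mul_eq_one_right h1
    have hcopI : IsCoprime (I' : Ideal (𝓞 K)) 𝔪 := by
      have h2 : IsCoprime ((J : Ideal (𝓞 K)) * (I' : Ideal (𝓞 K))) 𝔪 := hP.1
      exact IsCoprime.of_mul_left_right h2
    have hφI : φ I' = y := by
      have h2 := hP.2
      rw [map_mul, mul_comm] at h2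
      exact mul_right_cancel h2
    exact ⟨I', ⟨⟨hcopI, hφI⟩, hmk⟩, hI⟩
  · rw [Set.indicator_of_notMem hx, Set.indicator_of_notMem]
    rintro ⟨I, ⟨⟨hcopI, hφI⟩, hmk⟩, hI⟩
    apply hx
    have hxJ : x ∈ (J : Ideal (𝓞 K)) := by
      rw [← Ideal.dvd_span_singleton, hI]
      exact Dvd.intro _ rfl
    refine ⟨hxJ, ?_⟩
    have hA : ((J * I : (Ideal (𝓞 K))⁰) : Ideal (𝓞 K)) = Ideal.span {x} := hI.symm
    rw [h17ray_P_iff hφ (y * φ J) hA]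
    refine ⟨?_, ?_⟩
    · show IsCoprime ((J : Ideal (𝓞 K)) * (I : Ideal (𝓞 K))) 𝔪
      exact IsCoprime.mul_left hJ hcopI
    · rw [map_mul, hφI, mul_comm]

end H17RAY
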