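import Mathlib
import Fermat.Agent.CFT2.C.ANRayZeta_helper17

/-!
# W2-C, block C, slice C3-AN (helper17): the main term of a ray partial zeta function

`h17ray_box`: for `J` prime to `𝔪`,
`ζ_{[J]⁻¹}(y, s) = κ(y φ(J)) · N(𝔪)^{-s} · ζ(s, 1) + O(1)` on `(1, 2]`.
-/

set_option autoImplicit false

namespace H17RAY

open NumberField NumberField.mixedEmbedding NumberField.Units
open scoped nonZeroDivisors

variable {K : Type} [Field K] [NumberField K] {X : Type*} [CommGroup X]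

/-- real arithmetic of the main step -/
theorem h17ray_box_real {w a m Zc ζ' ζ₁ κ B₁ B₀ N s : ℝ} (hw : 1 ≤ w) (ha : 0 < a)
    (haN : N ^ (-(2 : ℝ)) ≤ a) (hN : 1 ≤ N) (hm0 : 0 ≤ m) (hm1 : m ≤ 1) (hκ : 0 ≤ κ)
    (_hs : s ≤ 2)
    (h1 : |w * a * Zc - κ * (w * (a * m) * ζ')| ≤ B₁) (h2 : |ζ' - ζ₁| ≤ B₀) :
    |Zc - κ * m * ζ₁| ≤ B₁ * N ^ (2 : ℝ) + κ * |B₀| := by
  have hN0 : 0 < N := by linarith
  have hwa : 0 < w * a := mul_pos (by linarith) ha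
  have hB1 : 0 ≤ B₁ := le_trans (abs_nonneg _) h1
  have e1 : w * a * Zc - κ * (w * (a * m) * ζ') = (w * a) * (Zc - κ * m * ζ') := by ring
  rw [e1, abs_mul, abs_of_pos hwa] at h1
  have hNpow : 0 < N ^ (2 : ℝ) := Real.rpow_pos_of_pos hN0 _
  have hinv : N ^ (-(2 : ℝ)) * N ^ (2 : ℝ) = 1 := by
    rw [← Real.rpow_add hN0]; simp
  have h3 : |Zc - κ * m * ζ'| ≤ B₁ * N ^ (2 : ℝ) := by
    have h4 : N ^ (-(2 : ℝ)) * |Zc - κ * m * ζ'| ≤ B₁ := by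
      refine le_trans ?_ h1
      apply mul_le_mul_of_nonneg_right _ (abs_nonneg _)
      calc N ^ (-(2 : ℝ)) ≤ a := haN
        _ = 1 * a := (one_mul a).symm
        _ ≤ w * a := mul_le_mul_of_nonneg_right hw ha.le
    have h5 := mul_le_mul_of_nonneg_right h4 hNpow.le
    have h6 : N ^ (-(2 : ℝ)) * |Zc - κ * m * ζ'| * N ^ (2 : ℝ) = |Zc - κ * m * ζ'| := by
      calc N ^ (-(2 : ℝ)) * |Zc - κ * m * ζ'| * N ^ (2 : ℝ)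
          = (N ^ (-(2 : ℝ)) * N ^ (2 : ℝ)) * |Zc - κ * m * ζ'| := by ring
        _ = |Zc - κ * m * ζ'| := by rw [hinv, one_mul]
    rw [h6] at h5
    exact h5
  have h7 : |κ * m * ζ' - κ * m * ζ₁| ≤ κ * |B₀| := by
    have : κ * m * ζ' - κ * m * ζ₁ = (κ * m) * (ζ' - ζ₁) := by ring
    rw [this, abs_mul, abs_of_nonneg (mul_nonneg hκ hm0)]
    have h8 : |ζ' - ζ₁| ≤ |B₀| := h2.trans (le_abs_self _)
    calc κ * m * |ζ' - ζ₁| ≤ κ * 1 * |B₀| := by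
          apply mul_le_mul _ h8 (abs_nonneg _) (by positivity)
          exact mul_le_mul_of_nonneg_left hm1 hκ
      _ = κ * |B₀| := by ring
  calc |Zc - κ * m * ζ₁| = |(Zc - κ * m * ζ') + (κ * m * ζ' - κ * m * ζ₁)| := by
        congr 1; ring
    _ ≤ |Zc - κ * m * ζ'| + |κ * m * ζ' - κ * m * ζ₁| := abs_add_le _ _
    _ ≤ B₁ * N ^ (2 : ℝ) + κ * |B₀| := add_le_add h3 h7

/-- **the main term** of the ray partial zeta function in the class `[J]⁻¹`. -/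
theorem h17ray_box {𝔪 : Ideal (𝓞 K)} (h𝔪 : 𝔪 ≠ ⊥) {φ : (Ideal (𝓞 K))⁰ →* X}
    (hφ : h17ray_RayTrivial 𝔪 φ) (J : (Ideal (𝓞 K))⁰) (hJ : IsCoprime (J : Ideal (𝓞 K)) 𝔪)
    (y : X) :
    ∃ B : ℝ, ∀ s ∈ Set.Ioc (1 : ℝ) 2,
      |h17ray_zetaC 𝔪 φ (ClassGroup.mk0 J)⁻¹ y s -
        (h17ray_kappa 𝔪 φ (y * φ J) : ℝ) * (Ideal.absNorm 𝔪 : ℝ) ^ (-s) *
          H17AN.zetaC K 1 s| ≤ B := by
  classical
  choose Bd hBd using H4AN.h4an_shiftBound K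
  obtain ⟨B₀, hB₀⟩ := H17AN.h17an_partialZetaBounded K
  have hJ0 : (J : Ideal (𝓞 K)) ≠ ⊥ := nonZeroDivisors.coe_ne_zero J
  have hJ𝔪0 : (J : Ideal (𝓞 K)) * 𝔪 ≠ ⊥ := mul_ne_zero hJ0 h𝔪
  have hfin : Finite (𝓞 K ⧸ ((J : Ideal (𝓞 K)) * 𝔪)) :=
    Ideal.finiteQuotientOfFreeOfNeBot _ hJ𝔪0
  let _ : Fintype (𝓞 K ⧸ ((J : Ideal (𝓞 K)) * 𝔪)) := Fintype.ofFinite _
  let 𝔪' : (Ideal (𝓞 K))⁰ := ⟨𝔪, mem_nonZeroDivisors_of_ne_zero h𝔪⟩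
  refine ⟨(∑ q : 𝓞 K ⧸ ((J : Ideal (𝓞 K)) * 𝔪),
      Bd (H25Main.h25main_rep ((J : Ideal (𝓞 K)) * 𝔪) q)) *
        (Ideal.absNorm (J : Ideal (𝓞 K)) : ℝ) ^ (2 : ℝ) +
      (h17ray_kappa 𝔪 φ (y * φ J) : ℝ) * |B₀|, ?_⟩
  intro s hs
  have hs1 : 1 < s := hs.1
  have hs0 : s ≠ 0 := by linarith
  have hsI : s ∈ Set.Icc (1 : ℝ) 2 := ⟨hs.1.le, hs.2⟩
  -- the orbit sum with the predicate
  have horb := h17ray_orbit_pred J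
    (fun I : (Ideal (𝓞 K))⁰ => (IsCoprime (I : Ideal (𝓞 K)) 𝔪 ∧ φ I = y) ∧
      ClassGroup.mk0 I = (ClassGroup.mk0 J)⁻¹)
    (fun I hI => by
      have h1 : ClassGroup.mk0 (J * I) = 1 := by
        rw [map_mul, hI.2, mul_inv_cancel]
      exact (ClassGroup.mk0_eq_one_iff (J * I).2).mp h1) s hs1
  rw [h17ray_indicator_eq hφ J hJ y s hs0] at horb
  -- the periodic sum
  have hper := h17ray_periodic_sum (J : Ideal (𝓞 K)) 𝔪 hJ (h17ray_P 𝔪 φ (y * φ J))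
    (h17ray_P_periodic 𝔪 φ (y * φ J)) (H25Main.h25main_f K s) (h17ray_f_summable K s hs1) Bd
    (fun a T => hBd a s hsI T)
  rw [horb.tsum_eq] at hper
  -- the orbit sum of `J * 𝔪`
  have hid := H25Main.h25main_hasSum_ideal K (h17ray_orbitSum K) (J * 𝔪') s hs1
  have hid' : ∑' z : ((J : Ideal (𝓞 K)) * 𝔪 : Ideal (𝓞 K)), H25Main.h25main_f K s z.1 =
      (torsionOrder K : ℝ) * ((Ideal.absNorm (J : Ideal (𝓞 K)) : ℝ) ^ (-s) *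
        (Ideal.absNorm 𝔪 : ℝ) ^ (-s)) * H17AN.zetaC K (ClassGroup.mk0 (J * 𝔪'))⁻¹ s := by
    have h1 := hid.tsum_eq
    have h2 : (Ideal.absNorm ((J * 𝔪' : (Ideal (𝓞 K))⁰) : Ideal (𝓞 K)) : ℝ) ^ (-s) =
        (Ideal.absNorm (J : Ideal (𝓞 K)) : ℝ) ^ (-s) * (Ideal.absNorm 𝔪 : ℝ) ^ (-s) := by
      show (Ideal.absNorm ((J : Ideal (𝓞 K)) * 𝔪) : ℝ) ^ (-s) = _
      rw [map_mul, Nat.cast_mul, Real.mul_rpow (Nat.cast_nonneg _) (Nat.cast_nonneg _)]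
    rw [h2] at h1
    exact h1
  rw [hid'] at hper
  -- real arithmetic
  have hw : (1 : ℝ) ≤ (torsionOrder K : ℝ) := by
    exact_mod_cast Nat.one_le_iff_ne_zero.mpr (torsionOrder_pos K).ne'
  have hN1 : (1 : ℝ) ≤ (Ideal.absNorm (J : Ideal (𝓞 K)) : ℝ) := h17ray_one_le_absNorm J
  have hNpos : (0 : ℝ) < (Ideal.absNorm (J : Ideal (𝓞 K)) : ℝ) := by linarith
  have ha : 0 < (Ideal.absNorm (J : Ideal (𝓞 K)) : ℝ) ^ (-s) := Real.rpow_pos_of_pos hNpos _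
  have haN : (Ideal.absNorm (J : Ideal (𝓞 K)) : ℝ) ^ (-(2 : ℝ)) ≤
      (Ideal.absNorm (J : Ideal (𝓞 K)) : ℝ) ^ (-s) :=
    Real.rpow_le_rpow_of_exponent_le hN1 (by linarith [hs.2])
  have hm1' : (1 : ℝ) ≤ (Ideal.absNorm 𝔪 : ℝ) := h17ray_one_le_absNorm 𝔪'
  have hm0 : 0 ≤ (Ideal.absNorm 𝔪 : ℝ) ^ (-s) := Real.rpow_nonneg (by linarith) _
  have hm1 : (Ideal.absNorm 𝔪 : ℝ) ^ (-s) ≤ 1 :=
    Real.rpow_le_one_of_one_le_of_nonpos hm1' (by linarith)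
  exact h17ray_box_real hw ha haN hN1 hm0 hm1 (Nat.cast_nonneg _) hs.2 hper
    (hB₀ (ClassGroup.mk0 (J * 𝔪'))⁻¹ s hs)

end H17RAY
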