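import Mathlib
import Fermat.Agent.CFT2.C.ANRayBox_helper17

/-!
# W2-C, block C, slice C3-AN (helper17): bounded differences of the ray partial zeta functions

`h17ray_pzb`: if `φ` is trivial on the principal ideals `(a)`, `a ≡ 1 mod 𝔪`, and every element of
`X` is the `φ`-value of an ideal prime to `𝔪`, then
`|ζ_φ(y, s) - ζ_φ(1, s)| ≤ B` on `(1, 2]`, for all `y : X`.
-/

set_option autoImplicit false

namespace H17RAY

open NumberField NumberField.mixedEmbedding NumberField.Units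
open scoped nonZeroDivisors

variable {K : Type} [Field K] [NumberField K] {X : Type*} [CommGroup X]

/-- decomposition of the ray partial zeta function along the ideal classes -/
theorem h17ray_zeta_eq_sum (𝔪 : Ideal (𝓞 K)) (φ : (Ideal (𝓞 K))⁰ →* X) (y : X) {s : ℝ}
    (hs : 1 < s) :
    h17ray_zeta 𝔪 φ y s = ∑ C : ClassGroup (𝓞 K), h17ray_zetaC 𝔪 φ C y s := by
  have hsum : Summable (fun I : {I : (Ideal (𝓞 K))⁰ // IsCoprime (I : Ideal (𝓞 K)) 𝔪 ∧ φ I = y} =>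
      (Ideal.absNorm ((I.1 : (Ideal (𝓞 K))⁰) : Ideal (𝓞 K)) : ℝ) ^ (-s)) :=
    (H12AN.h12_zetaSummable K s hs).subtype _
  have h1 := hsum.hasSum.tsum_fiberwise
    (fun I : {I : (Ideal (𝓞 K))⁰ // IsCoprime (I : Ideal (𝓞 K)) 𝔪 ∧ φ I = y} =>
      ClassGroup.mk0 I.1)
  have h2 := h1.tsum_eq
  rw [tsum_fintype] at h2
  unfold h17ray_zeta
  rw [← h2]
  refine Finset.sum_congr rfl fun C _ => ?_
  unfold h17ray_zetaC
  exact (Equiv.subtypeSubtypeEquivSubtypeInter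
    (fun I : (Ideal (𝓞 K))⁰ => IsCoprime (I : Ideal (𝓞 K)) 𝔪 ∧ φ I = y)
    (fun I : (Ideal (𝓞 K))⁰ => ClassGroup.mk0 I = C)).tsum_eq
    (fun I => (Ideal.absNorm ((I.1 : (Ideal (𝓞 K))⁰) : Ideal (𝓞 K)) : ℝ) ^ (-s))

/-- **bounded differences of the ray partial zeta functions** -/
theorem h17ray_pzb [Finite X] {𝔪 : Ideal (𝓞 K)} (h𝔪 : 𝔪 ≠ ⊥) {φ : (Ideal (𝓞 K))⁰ →* X}
    (hφ : h17ray_RayTrivial 𝔪 φ)
    (hgen : ∀ y : X, ∃ I : (Ideal (𝓞 K))⁰, IsCoprime (I : Ideal (𝓞 K)) 𝔪 ∧ φ I = y) :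
    ∃ B : ℝ, ∀ y : X, ∀ s ∈ Set.Ioc (1 : ℝ) 2,
      |h17ray_zeta 𝔪 φ y s - h17ray_zeta 𝔪 φ 1 s| ≤ B := by
  classical
  let _ : Fintype X := Fintype.ofFinite X
  choose Iy hIy using hgen
  choose Jc hJc using fun C : ClassGroup (𝓞 K) => h17ray_exists_coprime_rep 𝔪 h𝔪 C⁻¹
  -- the two applications of the main term lemma
  have hb1 : ∀ (C : ClassGroup (𝓞 K)) (y : X), ∃ B : ℝ, ∀ s ∈ Set.Ioc (1 : ℝ) 2,
      |h17ray_zetaC 𝔪 φ C y s -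
        (h17ray_kappa 𝔪 φ (y * φ (Jc C)) : ℝ) * (Ideal.absNorm 𝔪 : ℝ) ^ (-s) *
          H17AN.zetaC K 1 s| ≤ B := by
    intro C y
    have h := h17ray_box h𝔪 hφ (Jc C) (hJc C).2 y
    rw [(hJc C).1, inv_inv] at h
    exact h
  have hb2 : ∀ (C : ClassGroup (𝓞 K)) (y : X), ∃ B : ℝ, ∀ s ∈ Set.Ioc (1 : ℝ) 2,
      |h17ray_zetaC 𝔪 φ (C * (ClassGroup.mk0 (Iy y))⁻¹) 1 s -
        (h17ray_kappa 𝔪 φ (y * φ (Jc C)) : ℝ) * (Ideal.absNorm 𝔪 : ℝ) ^ (-s) *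
          H17AN.zetaC K 1 s| ≤ B := by
    intro C y
    have hcop : IsCoprime ((Jc C * Iy y : (Ideal (𝓞 K))⁰) : Ideal (𝓞 K)) 𝔪 := by
      show IsCoprime ((Jc C : Ideal (𝓞 K)) * (Iy y : Ideal (𝓞 K))) 𝔪
      exact IsCoprime.mul_left (hJc C).2 (hIy y).1
    have h := h17ray_box h𝔪 hφ (Jc C * Iy y) hcop (1 : X)
    have e1 : (ClassGroup.mk0 (Jc C * Iy y))⁻¹ = C * (ClassGroup.mk0 (Iy y))⁻¹ := by
      rw [map_mul, (hJc C).1, mul_inv, inv_inv]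
    have e2 : (1 : X) * φ (Jc C * Iy y) = y * φ (Jc C) := by
      rw [one_mul, map_mul, (hIy y).2, mul_comm]
    rw [e1, e2] at h
    exact h
  choose B1 hB1 using hb1
  choose B2 hB2 using hb2
  refine ⟨∑ y : X, ∑ C : ClassGroup (𝓞 K), (B1 C y + B2 C y), fun y s hs => ?_⟩
  have hs1 : 1 < s := hs.1
  have hnn : ∀ (C : ClassGroup (𝓞 K)) (y : X), 0 ≤ B1 C y + B2 C y := by
    intro C y
    have h1 := le_trans (abs_nonneg _) (hB1 C y s hs)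
    have h2 := le_trans (abs_nonneg _) (hB2 C y s hs)
    linarith
  rw [h17ray_zeta_eq_sum 𝔪 φ y hs1, h17ray_zeta_eq_sum 𝔪 φ 1 hs1]
  have hre : ∑ C : ClassGroup (𝓞 K), h17ray_zetaC 𝔪 φ C 1 s =
      ∑ C : ClassGroup (𝓞 K), h17ray_zetaC 𝔪 φ (C * (ClassGroup.mk0 (Iy y))⁻¹) 1 s :=
    (Equiv.sum_comp (Equiv.mulRight (ClassGroup.mk0 (Iy y))⁻¹)
      (fun C => h17ray_zetaC 𝔪 φ C 1 s)).symm
  rw [hre, ← Finset.sum_sub_distrib]
  calc |∑ C : ClassGroup (𝓞 K), (h17ray_zetaC 𝔪 φ C y s -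
          h17ray_zetaC 𝔪 φ (C * (ClassGroup.mk0 (Iy y))⁻¹) 1 s)|
      ≤ ∑ C : ClassGroup (𝓞 K), |h17ray_zetaC 𝔪 φ C y s -
          h17ray_zetaC 𝔪 φ (C * (ClassGroup.mk0 (Iy y))⁻¹) 1 s| :=
        Finset.abs_sum_le_sum_abs _ _
    _ ≤ ∑ C : ClassGroup (𝓞 K), (B1 C y + B2 C y) := by
        refine Finset.sum_le_sum fun C _ => ?_
        have h1 := hB1 C y s hs
        have h2 := hB2 C y s hs
        rw [abs_le] at h1 h2 ⊢
        constructor <;> linarith [h1.1, h1.2, h2.1, h2.2]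
    _ ≤ ∑ y : X, ∑ C : ClassGroup (𝓞 K), (B1 C y + B2 C y) :=
        Finset.single_le_sum (f := fun y => ∑ C : ClassGroup (𝓞 K), (B1 C y + B2 C y))
          (fun y _ => Finset.sum_nonneg fun C _ => hnn C y) (Finset.mem_univ y)

end H17RAY
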