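import Mathlib
import Fermat.Agent.CFT2.C.ANRayPZB_helper17

/-!
# W2-C, block C, slice C3-AN (helper17): the product of the ray class `L`-series

`h17ray_classProduct`: if `φ` is trivial on `(a)`, `a ≡ 1 mod 𝔪`, and surjective on the ideals
prime to `𝔪`, and if all primes in `S` are prime to `𝔪` with `φ P = 1`, then
`exp (|X| · Σ_{P ∈ S} N(P)^{-s}) ≤ B' · ζ_E(s)` on `(1, 2]`.
-/

set_option autoImplicit false

namespace H17RAY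

open NumberField H17AN
open scoped nonZeroDivisors

variable {E : Type} [Field E] [NumberField E] {X : Type*} [CommGroup X]

open scoped Classical in
/-- the cut-off `I ↦ [I prime to 𝔪]` as a monoid homomorphism -/
noncomputable def h17ray_cut (𝔪 : Ideal (𝓞 E)) : (Ideal (𝓞 E))⁰ →* ℂ where
  toFun I := if IsCoprime (I : Ideal (𝓞 E)) 𝔪 then 1 else 0
  map_one' := by
    have : IsCoprime (((1 : (Ideal (𝓞 E))⁰) : Ideal (𝓞 E))) 𝔪 := isCoprime_one_left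
    rw [if_pos this]
  map_mul' I J := by
    have h : IsCoprime ((I : Ideal (𝓞 E)) * (J : Ideal (𝓞 E))) 𝔪 ↔
        IsCoprime (I : Ideal (𝓞 E)) 𝔪 ∧ IsCoprime (J : Ideal (𝓞 E)) 𝔪 :=
      IsCoprime.mul_left_iff
    show (if IsCoprime ((I : Ideal (𝓞 E)) * (J : Ideal (𝓞 E))) 𝔪 then (1 : ℂ) else 0) =
      (if IsCoprime (I : Ideal (𝓞 E)) 𝔪 then (1 : ℂ) else 0) *
        (if IsCoprime (J : Ideal (𝓞 E)) 𝔪 then (1 : ℂ) else 0)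
    by_cases hI : IsCoprime (I : Ideal (𝓞 E)) 𝔪 <;>
      by_cases hJ : IsCoprime (J : Ideal (𝓞 E)) 𝔪 <;> simp [h, hI, hJ]

open scoped Classical in
theorem h17ray_cut_apply (𝔪 : Ideal (𝓞 E)) (I : (Ideal (𝓞 E))⁰) :
    h17ray_cut 𝔪 I = if IsCoprime (I : Ideal (𝓞 E)) 𝔪 then 1 else 0 := rfl

theorem h17ray_cut_of_coprime {𝔪 : Ideal (𝓞 E)} {I : (Ideal (𝓞 E))⁰}
    (h : IsCoprime (I : Ideal (𝓞 E)) 𝔪) : h17ray_cut 𝔪 I = 1 := by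
  classical
  rw [h17ray_cut_apply, if_pos h]

theorem h17ray_cut_of_not_coprime {𝔪 : Ideal (𝓞 E)} {I : (Ideal (𝓞 E))⁰}
    (h : ¬ IsCoprime (I : Ideal (𝓞 E)) 𝔪) : h17ray_cut 𝔪 I = 0 := by
  classical
  rw [h17ray_cut_apply, if_neg h]

/-- the twisted norm character `I ↦ [I prime to 𝔪] χ(φ I) N(I)^{-s}` -/
noncomputable def h17ray_f (𝔪 : Ideal (𝓞 E)) (φ : (Ideal (𝓞 E))⁰ →* X) (χ : X →* ℂˣ) (s : ℝ) :
    (Ideal (𝓞 E))⁰ →* ℂ :=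
  (((Units.coeHom ℂ).comp (χ.comp φ)) * h17ray_cut 𝔪) *
    ((Complex.ofRealHom : ℝ →+* ℂ).toMonoidHom.comp (h17an_normPow E s))

theorem h17ray_f_apply (𝔪 : Ideal (𝓞 E)) (φ : (Ideal (𝓞 E))⁰ →* X) (χ : X →* ℂˣ) (s : ℝ)
    (I : (Ideal (𝓞 E))⁰) :
    h17ray_f 𝔪 φ χ s I = ((χ (φ I) : ℂˣ) : ℂ) * h17ray_cut 𝔪 I *
      (((Ideal.absNorm (I : Ideal (𝓞 E)) : ℝ) ^ (-s) : ℝ) : ℂ) := rfl

theorem h17ray_f_of_coprime (𝔪 : Ideal (𝓞 E)) (φ : (Ideal (𝓞 E))⁰ →* X) (χ : X →* ℂˣ) (s : ℝ)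
    {I : (Ideal (𝓞 E))⁰} (h : IsCoprime (I : Ideal (𝓞 E)) 𝔪) :
    h17ray_f 𝔪 φ χ s I = ((χ (φ I) : ℂˣ) : ℂ) *
      (((Ideal.absNorm (I : Ideal (𝓞 E)) : ℝ) ^ (-s) : ℝ) : ℂ) := by
  rw [h17ray_f_apply, h17ray_cut_of_coprime h, mul_one]

theorem h17ray_f_of_not_coprime (𝔪 : Ideal (𝓞 E)) (φ : (Ideal (𝓞 E))⁰ →* X) (χ : X →* ℂˣ)
    (s : ℝ) {I : (Ideal (𝓞 E))⁰} (h : ¬ IsCoprime (I : Ideal (𝓞 E)) 𝔪) :
    h17ray_f 𝔪 φ χ s I = 0 := by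
  rw [h17ray_f_apply, h17ray_cut_of_not_coprime h, mul_zero, zero_mul]

section finite

variable [Finite X]

theorem h17ray_norm_f_le (𝔪 : Ideal (𝓞 E)) (φ : (Ideal (𝓞 E))⁰ →* X) (χ : X →* ℂˣ) (s : ℝ)
    (I : (Ideal (𝓞 E))⁰) :
    ‖h17ray_f 𝔪 φ χ s I‖ ≤ (Ideal.absNorm (I : Ideal (𝓞 E)) : ℝ) ^ (-s) := by
  by_cases h : IsCoprime (I : Ideal (𝓞 E)) 𝔪
  · rw [h17ray_f_of_coprime 𝔪 φ χ s h, norm_mul, h17an_norm_char, one_mul, Complex.norm_real]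
    exact (Real.norm_of_nonneg (h17an_normPow_pos E s I).le).le
  · rw [h17ray_f_of_not_coprime 𝔪 φ χ s h, norm_zero]
    exact (h17an_normPow_pos E s I).le

theorem h17ray_norm_f_of_coprime (𝔪 : Ideal (𝓞 E)) (φ : (Ideal (𝓞 E))⁰ →* X) (χ : X →* ℂˣ)
    (s : ℝ) {I : (Ideal (𝓞 E))⁰} (h : IsCoprime (I : Ideal (𝓞 E)) 𝔪) :
    ‖h17ray_f 𝔪 φ χ s I‖ = (Ideal.absNorm (I : Ideal (𝓞 E)) : ℝ) ^ (-s) := by
  rw [h17ray_f_of_coprime 𝔪 φ χ s h, norm_mul, h17an_norm_char, one_mul, Complex.norm_real]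
  exact Real.norm_of_nonneg (h17an_normPow_pos E s I).le

theorem h17ray_summable_f (𝔪 : Ideal (𝓞 E)) (φ : (Ideal (𝓞 E))⁰ →* X) (χ : X →* ℂˣ) {s : ℝ}
    (hs : 1 < s) : Summable fun I : (Ideal (𝓞 E))⁰ => ‖h17ray_f 𝔪 φ χ s I‖ :=
  Summable.of_nonneg_of_le (fun _ => norm_nonneg _) (h17ray_norm_f_le 𝔪 φ χ s)
    (H12AN.h12_zetaSummable E s hs)

/-- the `L`-series of a ray class character (real `s > 1`) -/
noncomputable def h17ray_L (𝔪 : Ideal (𝓞 E)) (φ : (Ideal (𝓞 E))⁰ →* X) (χ : X →* ℂˣ) (s : ℝ) : ℂ :=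
  ∑' I : (Ideal (𝓞 E))⁰, h17ray_f 𝔪 φ χ s I

/-- the `L`-series as a finite combination of ray partial zeta functions -/
theorem h17ray_L_eq_sum [Fintype X] (𝔪 : Ideal (𝓞 E)) (φ : (Ideal (𝓞 E))⁰ →* X) (χ : X →* ℂˣ)
    {s : ℝ} (hs : 1 < s) :
    h17ray_L 𝔪 φ χ s = ∑ y : X, ((χ y : ℂˣ) : ℂ) * ((h17ray_zeta 𝔪 φ y s : ℝ) : ℂ) := by
  have hsum : Summable fun I : (Ideal (𝓞 E))⁰ => h17ray_f 𝔪 φ χ s I :=
    (h17ray_summable_f 𝔪 φ χ hs).of_norm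
  -- restrict to the ideals prime to `𝔪`
  have hsupp : Function.support (fun I : (Ideal (𝓞 E))⁰ => h17ray_f 𝔪 φ χ s I) ⊆
      {I : (Ideal (𝓞 E))⁰ | IsCoprime (I : Ideal (𝓞 E)) 𝔪} := by
    intro I hI
    by_contra hcon
    exact hI (h17ray_f_of_not_coprime 𝔪 φ χ s hcon)
  have h0 : h17ray_L 𝔪 φ χ s =
      ∑' I : {I : (Ideal (𝓞 E))⁰ // IsCoprime (I : Ideal (𝓞 E)) 𝔪}, h17ray_f 𝔪 φ χ s I.1 :=
    (tsum_subtype_eq_of_support_subset hsupp).symm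
  have hsum' : Summable fun I : {I : (Ideal (𝓞 E))⁰ // IsCoprime (I : Ideal (𝓞 E)) 𝔪} =>
      h17ray_f 𝔪 φ χ s I.1 := hsum.subtype _
  have h1 := hsum'.hasSum.tsum_fiberwise
    (fun I : {I : (Ideal (𝓞 E))⁰ // IsCoprime (I : Ideal (𝓞 E)) 𝔪} => φ I.1)
  have h2 := h1.tsum_eq
  rw [tsum_fintype] at h2
  rw [h0, ← h2]
  refine Finset.sum_congr rfl fun y _ => ?_
  have h3 := (Equiv.subtypeSubtypeEquivSubtypeInter
    (fun I : (Ideal (𝓞 E))⁰ => IsCoprime (I : Ideal (𝓞 E)) 𝔪)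
    (fun I : (Ideal (𝓞 E))⁰ => φ I = y)).tsum_eq
    (fun I => h17ray_f 𝔪 φ χ s I.1)
  have h4 : ∀ I : {I : (Ideal (𝓞 E))⁰ // IsCoprime (I : Ideal (𝓞 E)) 𝔪 ∧ φ I = y},
      h17ray_f 𝔪 φ χ s I.1 = ((χ y : ℂˣ) : ℂ) *
        (((Ideal.absNorm ((I.1 : (Ideal (𝓞 E))⁰) : Ideal (𝓞 E)) : ℝ) ^ (-s) : ℝ) : ℂ) := by
    intro I
    rw [h17ray_f_of_coprime 𝔪 φ χ s I.2.1, I.2.2]
  have h5 : ∑' I : {I : (Ideal (𝓞 E))⁰ // IsCoprime (I : Ideal (𝓞 E)) 𝔪 ∧ φ I = y},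
      h17ray_f 𝔪 φ χ s I.1 = ((χ y : ℂˣ) : ℂ) * ((h17ray_zeta 𝔪 φ y s : ℝ) : ℂ) := by
    rw [tsum_congr h4, tsum_mul_left]
    congr 1
    rw [← Complex.ofReal_tsum]
    rfl
  rw [← h5]
  exact h3

/-- `‖L(s, 1)‖ ≤ ζ_E(s)` -/
theorem h17ray_norm_L_one_le (𝔪 : Ideal (𝓞 E)) (φ : (Ideal (𝓞 E))⁰ →* X) {s : ℝ} (hs : 1 < s) :
    ‖h17ray_L 𝔪 φ (1 : X →* ℂˣ) s‖ ≤ zetaI E s := by
  unfold h17ray_L zetaI
  refine le_trans (norm_tsum_le_tsum_norm (h17ray_summable_f 𝔪 φ 1 hs)) ?_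
  exact (h17ray_summable_f 𝔪 φ 1 hs).tsum_le_tsum (h17ray_norm_f_le 𝔪 φ 1 s)
    (H12AN.h12_zetaSummable E s hs)

/-- for `χ ≠ 1` the `L`-series is bounded by `|X| · B`. -/
theorem h17ray_norm_L_le [Fintype X] (𝔪 : Ideal (𝓞 E)) (φ : (Ideal (𝓞 E))⁰ →* X)
    {χ : X →* ℂˣ} (hχ : χ ≠ 1) {s : ℝ} (hs : 1 < s) {B : ℝ}
    (hB : ∀ y : X, |h17ray_zeta 𝔪 φ y s - h17ray_zeta 𝔪 φ 1 s| ≤ B) :
    ‖h17ray_L 𝔪 φ χ s‖ ≤ (Fintype.card X : ℝ) * B := by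
  rw [h17ray_L_eq_sum 𝔪 φ χ hs]
  have h0 : ∑ y : X, ((χ y : ℂˣ) : ℂ) = 0 := h17an_sum_apply_char hχ
  have h1 : ∑ y : X, ((χ y : ℂˣ) : ℂ) * ((h17ray_zeta 𝔪 φ y s : ℝ) : ℂ) =
      ∑ y : X, ((χ y : ℂˣ) : ℂ) *
        (((h17ray_zeta 𝔪 φ y s - h17ray_zeta 𝔪 φ 1 s : ℝ)) : ℂ) := by
    have : ∑ y : X, ((χ y : ℂˣ) : ℂ) *
        (((h17ray_zeta 𝔪 φ y s - h17ray_zeta 𝔪 φ 1 s : ℝ)) : ℂ) =
        ∑ y : X, ((χ y : ℂˣ) : ℂ) * ((h17ray_zeta 𝔪 φ y s : ℝ) : ℂ) -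
        (∑ y : X, ((χ y : ℂˣ) : ℂ)) * ((h17ray_zeta 𝔪 φ 1 s : ℝ) : ℂ) := by
      rw [Finset.sum_mul, ← Finset.sum_sub_distrib]
      refine Finset.sum_congr rfl fun y _ => ?_
      push_cast
      ring
    rw [this, h0, zero_mul, sub_zero]
  rw [h1]
  calc ‖∑ y : X, ((χ y : ℂˣ) : ℂ) *
        (((h17ray_zeta 𝔪 φ y s - h17ray_zeta 𝔪 φ 1 s : ℝ)) : ℂ)‖
      ≤ ∑ y : X, ‖((χ y : ℂˣ) : ℂ) *
        (((h17ray_zeta 𝔪 φ y s - h17ray_zeta 𝔪 φ 1 s : ℝ)) : ℂ)‖ := norm_sum_le _ _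
    _ ≤ ∑ _y : X, B := by
        refine Finset.sum_le_sum fun y _ => ?_
        rw [norm_mul, h17an_norm_char, one_mul, Complex.norm_real, Real.norm_eq_abs]
        exact hB y
    _ = (Fintype.card X : ℝ) * B := by
        rw [Finset.sum_const, Finset.card_univ, nsmul_eq_mul]

open scoped Classical in
/-- `N(P)^{-s}` if `P` is prime to `𝔪` with `φ P = 1`, else `0` -/
noncomputable def h17ray_ind (𝔪 : Ideal (𝓞 E)) (φ : (Ideal (𝓞 E))⁰ →* X) (s : ℝ)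
    (P : h17an_Pr E) : ℝ :=
  if IsCoprime ((P.1 : (Ideal (𝓞 E))⁰) : Ideal (𝓞 E)) 𝔪 ∧ φ P.1 = 1 then h17an_x s P else 0

omit [Finite X] in
theorem h17ray_ind_nonneg (𝔪 : Ideal (𝓞 E)) (φ : (Ideal (𝓞 E))⁰ →* X) (s : ℝ) (P : h17an_Pr E) :
    0 ≤ h17ray_ind 𝔪 φ s P := by
  unfold h17ray_ind
  split_ifs
  · exact (h17an_x_pos s P).le
  · exact le_rfl

omit [Finite X] in
theorem h17ray_ind_le (𝔪 : Ideal (𝓞 E)) (φ : (Ideal (𝓞 E))⁰ →* X) (s : ℝ) (P : h17an_Pr E) :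
    h17ray_ind 𝔪 φ s P ≤ h17an_x s P := by
  unfold h17ray_ind
  split_ifs
  · exact le_rfl
  · exact (h17an_x_pos s P).le

omit [Finite X] in
theorem h17ray_ind_of_mem (𝔪 : Ideal (𝓞 E)) (φ : (Ideal (𝓞 E))⁰ →* X) (s : ℝ) (P : h17an_Pr E)
    (hP : IsCoprime ((P.1 : (Ideal (𝓞 E))⁰) : Ideal (𝓞 E)) 𝔪 ∧ φ P.1 = 1) :
    h17ray_ind 𝔪 φ s P = h17an_x s P := by
  unfold h17ray_ind
  rw [if_pos hP]

section local_factor

variable [Fintype (X →* ℂˣ)]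

theorem h17ray_card_chars : Fintype.card (X →* ℂˣ) = Nat.card X := by
  rw [← Nat.card_eq_fintype_card, h17an_card_char]

open scoped Classical in
/-- the sum of the real parts of the character values -/
theorem h17ray_sum_re (g : X) :
    ∑ χ : X →* ℂˣ, ((χ g : ℂˣ) : ℂ).re = if g = 1 then (Nat.card X : ℝ) else 0 := by
  have h := h17an_sum_char_apply_eq g
  have h2 := congrArg Complex.re h
  rw [Complex.re_sum] at h2
  rw [h2]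
  split_ifs with hg
  · rw [Complex.natCast_re]
  · simp

/-- **local factor bound** -/
theorem h17ray_local (𝔪 : Ideal (𝓞 E)) (φ : (Ideal (𝓞 E))⁰ →* X) (s : ℝ) (hs : 0 < s)
    (P : h17an_Pr E) :
    Real.exp ((Nat.card X : ℝ) * (h17ray_ind 𝔪 φ s P - h17an_x s P ^ 2 / 2)) ≤
      ‖∏ χ : X →* ℂˣ, (1 - h17ray_f 𝔪 φ χ s P.1)⁻¹‖ := by
  classical
  have hxdef : h17an_x s P =
      (Ideal.absNorm ((P.1 : (Ideal (𝓞 E))⁰) : Ideal (𝓞 E)) : ℝ) ^ (-s) := rfl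
  have hx1 : h17an_x s P < 1 := h17an_normPow_lt_one E hs P.1 P.2
  have hx0 : 0 < h17an_x s P := h17an_x_pos s P
  -- each factor is nonzero
  have hne : ∀ χ : X →* ℂˣ, 0 < ‖1 - h17ray_f 𝔪 φ χ s P.1‖ := by
    intro χ
    rw [norm_pos_iff]
    intro h0
    have h1 : h17ray_f 𝔪 φ χ s P.1 = 1 := (sub_eq_zero.mp h0).symm
    have h2 := h17ray_norm_f_le 𝔪 φ χ s P.1
    rw [h1, norm_one, ← hxdef] at h2
    linarith
  have hprod : ∏ χ : X →* ℂˣ, ‖1 - h17ray_f 𝔪 φ χ s P.1‖ ≤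
      Real.exp (-((Nat.card X : ℝ) * (h17ray_ind 𝔪 φ s P - h17an_x s P ^ 2 / 2))) := by
    by_cases hcop : IsCoprime ((P.1 : (Ideal (𝓞 E))⁰) : Ideal (𝓞 E)) 𝔪
    · have hle : ∀ χ : X →* ℂˣ, ‖1 - h17ray_f 𝔪 φ χ s P.1‖ ≤
          Real.exp (-(((χ (φ P.1) : ℂˣ) : ℂ).re * h17an_x s P) + h17an_x s P ^ 2 / 2) := by
        intro χ
        have := h17an_norm_one_sub_le (h17ray_f 𝔪 φ χ s P.1)
        have hre : (h17ray_f 𝔪 φ χ s P.1).re = ((χ (φ P.1) : ℂˣ) : ℂ).re * h17an_x s P := by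
          rw [h17ray_f_of_coprime 𝔪 φ χ s hcop, Complex.re_mul_ofReal, hxdef]
        rw [hre, h17ray_norm_f_of_coprime 𝔪 φ χ s hcop, ← hxdef] at this
        exact this
      calc ∏ χ : X →* ℂˣ, ‖1 - h17ray_f 𝔪 φ χ s P.1‖
          ≤ ∏ χ : X →* ℂˣ,
              Real.exp (-(((χ (φ P.1) : ℂˣ) : ℂ).re * h17an_x s P) + h17an_x s P ^ 2 / 2) :=
            Finset.prod_le_prod (fun χ _ => (hne χ).le) (fun χ _ => hle χ)
        _ = Real.exp (∑ χ : X →* ℂˣ,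
              (-(((χ (φ P.1) : ℂˣ) : ℂ).re * h17an_x s P) + h17an_x s P ^ 2 / 2)) :=
            (Real.exp_sum _ _).symm
        _ = Real.exp (-((Nat.card X : ℝ) * (h17ray_ind 𝔪 φ s P - h17an_x s P ^ 2 / 2))) := by
            congr 1
            rw [Finset.sum_add_distrib, Finset.sum_neg_distrib, ← Finset.sum_mul, h17ray_sum_re,
              Finset.sum_const, Finset.card_univ, h17ray_card_chars, nsmul_eq_mul]
            unfold h17ray_ind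
            by_cases hg : φ P.1 = 1
            · rw [if_pos hg, if_pos ⟨hcop, hg⟩]; ring
            · rw [if_neg hg, if_neg (fun h => hg h.2)]; ring
    · have h1 : ∀ χ : X →* ℂˣ, ‖1 - h17ray_f 𝔪 φ χ s P.1‖ = 1 := by
        intro χ
        rw [h17ray_f_of_not_coprime 𝔪 φ χ s hcop, sub_zero, norm_one]
      have h2 : h17ray_ind 𝔪 φ s P = 0 := by
        unfold h17ray_ind
        rw [if_neg (fun h => hcop h.1)]
      rw [Finset.prod_congr rfl (fun χ _ => h1 χ), Finset.prod_const_one, h2]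
      rw [← Real.exp_zero]
      apply Real.exp_le_exp.mpr
      have : 0 ≤ (Nat.card X : ℝ) * (h17an_x s P ^ 2 / 2) := by positivity
      linarith
  have hpos : 0 < ∏ χ : X →* ℂˣ, ‖1 - h17ray_f 𝔪 φ χ s P.1‖ :=
    Finset.prod_pos fun χ _ => hne χ
  rw [norm_prod]
  simp only [norm_inv]
  rw [Finset.prod_inv_distrib]
  rw [le_inv_comm₀ (Real.exp_pos _) hpos, ← Real.exp_neg]
  exact hprod

end local_factor

omit [Finite X] in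
/-- the prime sum over `S` is bounded by the sum of `ind` when the primes in `S` are prime to `𝔪`
with `φ P = 1`. -/
theorem h17ray_primeSum_le (𝔪 : Ideal (𝓞 E)) (φ : (Ideal (𝓞 E))⁰ →* X)
    (S : Set (Ideal (𝓞 E)))
    (hS : ∀ P : (Ideal (𝓞 E))⁰, (P : Ideal (𝓞 E)).IsPrime → (P : Ideal (𝓞 E)) ∈ S →
      IsCoprime (P : Ideal (𝓞 E)) 𝔪 ∧ φ P = 1) {s : ℝ} (hs : 1 < s) :
    primeSum E S s ≤ ∑' P : h17an_Pr E, h17ray_ind 𝔪 φ s P := by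
  have hZ := H12AN.h12_zetaSummable E
  have hxsum := h17an_summable_x hZ hs
  have hindsum : Summable fun P : h17an_Pr E => h17ray_ind 𝔪 φ s P :=
    Summable.of_nonneg_of_le (h17ray_ind_nonneg 𝔪 φ s) (h17ray_ind_le 𝔪 φ s) hxsum
  have hfsum : Summable fun Q : PrimesIn E S => h17an_x s (h17an_iota S Q) :=
    hxsum.comp_injective (h17an_iota_injective S)
  have e : primeSum E S s = ∑' Q : PrimesIn E S, h17an_x s (h17an_iota S Q) :=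
    tsum_congr fun Q => (h17an_x_iota S s Q).symm
  rw [e]
  refine Summable.tsum_le_tsum_of_inj (h17an_iota S) (h17an_iota_injective S)
    (fun P _ => h17ray_ind_nonneg 𝔪 φ s P) (fun Q => ?_) hfsum hindsum
  have hQ := hS (h17an_iota S Q).1 (h17an_iota S Q).2 Q.2.2.2
  rw [h17ray_ind_of_mem 𝔪 φ s _ hQ]

/-- **the ray class product**. -/
theorem h17ray_classProduct {𝔪 : Ideal (𝓞 E)} (h𝔪 : 𝔪 ≠ ⊥) {φ : (Ideal (𝓞 E))⁰ →* X}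
    (hφ : h17ray_RayTrivial 𝔪 φ)
    (hgen : ∀ y : X, ∃ I : (Ideal (𝓞 E))⁰, IsCoprime (I : Ideal (𝓞 E)) 𝔪 ∧ φ I = y) :
    ∃ B' : ℝ, ∀ S : Set (Ideal (𝓞 E)),
      (∀ P : (Ideal (𝓞 E))⁰, (P : Ideal (𝓞 E)).IsPrime → (P : Ideal (𝓞 E)) ∈ S →
        IsCoprime (P : Ideal (𝓞 E)) 𝔪 ∧ φ P = 1) →
      ∀ s ∈ Set.Ioc (1 : ℝ) 2,
        Real.exp ((Nat.card X : ℝ) * primeSum E S s) ≤ B' * zetaI E s := by
  have hZ := H12AN.h12_zetaSummable E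
  have hEP := H12AN.h12_eulerProd E
  have hfin : Finite (X →* ℂˣ) := h17an_finite_char _
  let _ : Fintype (X →* ℂˣ) := Fintype.ofFinite _
  let _ : Fintype X := Fintype.ofFinite X
  classical
  obtain ⟨B, hB⟩ := h17ray_pzb h𝔪 hφ hgen
  obtain ⟨K₂, hK₂⟩ : ∃ K₂ : ℝ, K₂ = ∑' P : h17an_Pr E, h17an_x 2 P := ⟨_, rfl⟩
  obtain ⟨A, hA⟩ : ∃ A : ℝ, A = max 1 ((Fintype.card X : ℝ) * B) := ⟨_, rfl⟩
  have hA1 : 1 ≤ A := hA ▸ le_max_left _ _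
  have hAB : (Fintype.card X : ℝ) * B ≤ A := hA ▸ le_max_right _ _
  refine ⟨Real.exp ((Nat.card X : ℝ) * (K₂ / 2)) * A ^ (Nat.card X), fun S hS s hs => ?_⟩
  have hs1 : 1 < s := hs.1
  have hs0 : 0 < s := by linarith
  -- Euler products
  have hEu : ∀ χ : X →* ℂˣ,
      HasProd (fun P : h17an_Pr E => (1 - h17ray_f 𝔪 φ χ s P.1)⁻¹) (h17ray_L 𝔪 φ χ s) :=
    fun χ => hEP (h17ray_f 𝔪 φ χ s) (h17ray_summable_f 𝔪 φ χ hs1)
  have hprod : HasProd (fun P : h17an_Pr E =>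
      ∏ χ : X →* ℂˣ, (1 - h17ray_f 𝔪 φ χ s P.1)⁻¹)
      (∏ χ : X →* ℂˣ, h17ray_L 𝔪 φ χ s) :=
    hasProd_prod fun χ _ => hEu χ
  have hnorm := hprod.norm
  -- the comparison series
  have hxsum := h17an_summable_x hZ hs1
  have h2sum := h17an_summable_x hZ (s := 2) (by norm_num)
  have hindsum : Summable fun P : h17an_Pr E => h17ray_ind 𝔪 φ s P :=
    Summable.of_nonneg_of_le (h17ray_ind_nonneg 𝔪 φ s) (h17ray_ind_le 𝔪 φ s) hxsum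
  have hsqsum : Summable fun P : h17an_Pr E => h17an_x s P ^ 2 / 2 := by
    refine Summable.of_nonneg_of_le (fun P => by positivity) (fun P => ?_) h2sum
    have := h17an_x_sq_le hs1.le P
    have hp : 0 ≤ h17an_x s P ^ 2 := by positivity
    linarith
  have hgsum : Summable fun P : h17an_Pr E =>
      (Nat.card X : ℝ) * (h17ray_ind 𝔪 φ s P - h17an_x s P ^ 2 / 2) :=
    (hindsum.sub hsqsum).mul_left _
  have hexp := hgsum.hasSum.rexp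
  -- comparison of the products
  have hle : Real.exp (∑' P : h17an_Pr E,
      (Nat.card X : ℝ) * (h17ray_ind 𝔪 φ s P - h17an_x s P ^ 2 / 2)) ≤
      ‖∏ χ : X →* ℂˣ, h17ray_L 𝔪 φ χ s‖ := by
    refine le_of_tendsto_of_tendsto' hexp hnorm fun F => ?_
    exact Finset.prod_le_prod (fun P _ => (Real.exp_pos _).le)
      (fun P _ => h17ray_local 𝔪 φ s hs0 P)
  -- lower bound of the sum
  have hps := h17ray_primeSum_le 𝔪 φ S hS hs1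
  have hK : ∑' P : h17an_Pr E, h17an_x s P ^ 2 / 2 ≤ K₂ / 2 := by
    have h1 : ∑' P : h17an_Pr E, h17an_x s P ^ 2 / 2 ≤ ∑' P : h17an_Pr E, h17an_x 2 P / 2 := by
      refine hsqsum.tsum_le_tsum (fun P => ?_) (h2sum.div_const 2)
      have := h17an_x_sq_le hs1.le P
      linarith
    have h2 : ∑' P : h17an_Pr E, h17an_x 2 P / 2 = K₂ / 2 := by
      rw [tsum_div_const, hK₂]
    exact h1.trans h2.le
  have hsum_ge : (Nat.card X : ℝ) * (primeSum E S s - K₂ / 2) ≤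
      ∑' P : h17an_Pr E, (Nat.card X : ℝ) * (h17ray_ind 𝔪 φ s P - h17an_x s P ^ 2 / 2) := by
    rw [tsum_mul_left, hindsum.tsum_sub hsqsum]
    apply mul_le_mul_of_nonneg_left _ (Nat.cast_nonneg _)
    linarith
  -- upper bound of the product of the `L`-series
  have hB0 : ∀ y : X, |h17ray_zeta 𝔪 φ y s - h17ray_zeta 𝔪 φ 1 s| ≤ B := fun y => hB y s hs
  have hLχ : ∀ χ : X →* ℂˣ, χ ≠ 1 → ‖h17ray_L 𝔪 φ χ s‖ ≤ A :=
    fun χ hχ => (h17ray_norm_L_le 𝔪 φ hχ hs1 hB0).trans hAB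
  have hL1 : ‖h17ray_L 𝔪 φ (1 : X →* ℂˣ) s‖ ≤ zetaI E s := h17ray_norm_L_one_le 𝔪 φ hs1
  have hup : ‖∏ χ : X →* ℂˣ, h17ray_L 𝔪 φ χ s‖ ≤ zetaI E s * A ^ (Nat.card X) := by
    rw [norm_prod, ← Finset.mul_prod_erase Finset.univ _ (Finset.mem_univ (1 : X →* ℂˣ))]
    apply mul_le_mul hL1 _ (Finset.prod_nonneg fun χ _ => norm_nonneg _) (h17an_zetaI_nonneg s)
    calc ∏ χ ∈ Finset.univ.erase (1 : X →* ℂˣ), ‖h17ray_L 𝔪 φ χ s‖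
        ≤ ∏ _χ ∈ Finset.univ.erase (1 : X →* ℂˣ), A :=
          Finset.prod_le_prod (fun χ _ => norm_nonneg _)
            (fun χ hχ => hLχ χ (Finset.ne_of_mem_erase hχ))
      _ = A ^ (Finset.univ.erase (1 : X →* ℂˣ)).card := Finset.prod_const _
      _ ≤ A ^ (Nat.card X) := by
          apply pow_le_pow_right₀ hA1
          rw [Finset.card_erase_of_mem (Finset.mem_univ _), Finset.card_univ,
            h17ray_card_chars]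
          exact Nat.sub_le _ _
  -- conclusion
  have e : (Nat.card X : ℝ) * primeSum E S s =
      (Nat.card X : ℝ) * (primeSum E S s - K₂ / 2) + (Nat.card X : ℝ) * (K₂ / 2) := by
    ring
  calc Real.exp ((Nat.card X : ℝ) * primeSum E S s)
      = Real.exp ((Nat.card X : ℝ) * (primeSum E S s - K₂ / 2)) *
          Real.exp ((Nat.card X : ℝ) * (K₂ / 2)) := by
        rw [e, Real.exp_add]
    _ ≤ Real.exp (∑' P : h17an_Pr E,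
          (Nat.card X : ℝ) * (h17ray_ind 𝔪 φ s P - h17an_x s P ^ 2 / 2)) *
          Real.exp ((Nat.card X : ℝ) * (K₂ / 2)) :=
        mul_le_mul_of_nonneg_right (Real.exp_le_exp.mpr hsum_ge) (Real.exp_pos _).le
    _ ≤ (zetaI E s * A ^ (Nat.card X)) * Real.exp ((Nat.card X : ℝ) * (K₂ / 2)) :=
        mul_le_mul_of_nonneg_right (hle.trans hup) (Real.exp_pos _).le
    _ = Real.exp ((Nat.card X : ℝ) * (K₂ / 2)) * A ^ (Nat.card X) * zetaI E s := by ring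

end finite

end H17RAY
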