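import Mathlib
import Fermat.Agent.CFT2.C.ANRayProduct_helper17

/-!
# W2-C, block C, slice C3-AN (helper17): the second inequality in ray class form

`H17RAY.h17ray_secondInequality`: let `M/E` be a Galois extension of number fields, `𝔪 ≠ 0` an
ideal of `𝓞 E`, `X` a commutative group and `φ : (Ideal (𝓞 E))⁰ →* X` a homomorphism such that

* (gen) every element of `X` is `φ I` for some `I` prime to `𝔪`;
* (i)   `φ (a) = 1` for all `a ∈ 𝓞 E` with `a ≡ 1 mod 𝔪`;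
* (ii)  `φ P = 1` for all primes `P` with `N P ∤ D` which split completely in `M`.

Then `X` is finite and `|X| ≤ [M : E]`.
-/

set_option autoImplicit false

namespace H17RAY

open NumberField H17AN
open scoped nonZeroDivisors

variable {E : Type} [Field E] [NumberField E] {X : Type*} [CommGroup X]

/-- **finiteness** of the ray class quotient `X`. -/
theorem h17ray_finite {𝔪 : Ideal (𝓞 E)} (h𝔪 : 𝔪 ≠ ⊥) {φ : (Ideal (𝓞 E))⁰ →* X}
    (hφ : h17ray_RayTrivial 𝔪 φ)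
    (hgen : ∀ y : X, ∃ I : (Ideal (𝓞 E))⁰, IsCoprime (I : Ideal (𝓞 E)) 𝔪 ∧ φ I = y) :
    Finite X := by
  classical
  choose Jc hJc using fun C : ClassGroup (𝓞 E) => h17ray_exists_coprime_rep 𝔪 h𝔪 C⁻¹
  have hfin𝔪 : Finite (𝓞 E ⧸ 𝔪) := Ideal.finiteQuotientOfFreeOfNeBot _ h𝔪
  set T : ClassGroup (𝓞 E) → (𝓞 E ⧸ 𝔪) → Set X := fun C ρ =>
    {y | ∃ (x : 𝓞 E) (A : (Ideal (𝓞 E))⁰), Ideal.Quotient.mk 𝔪 x = ρ ∧
      (A : Ideal (𝓞 E)) = Ideal.span {x} ∧ IsCoprime (A : Ideal (𝓞 E)) 𝔪 ∧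
      y = φ A * (φ (Jc C))⁻¹} with hT
  have hsub : ∀ C ρ, (T C ρ).Subsingleton := by
    rintro C ρ y₁ ⟨x₁, A₁, h1, h2, h3, rfl⟩ y₂ ⟨x₂, A₂, h1', h2', h3', rfl⟩
    have hx : x₂ - x₁ ∈ 𝔪 := by
      rw [← Ideal.Quotient.eq, h1, h1']
    rw [h17ray_phi_congr hφ h2 h2' hx h3]
  have hcover : (Set.univ : Set X) ⊆ ⋃ C, ⋃ ρ, T C ρ := by
    intro y _
    obtain ⟨I, hI, rfl⟩ := hgen y
    set C : ClassGroup (𝓞 E) := ClassGroup.mk0 I with hC
    have hprin : ((I * Jc C : (Ideal (𝓞 E))⁰) : Ideal (𝓞 E)).IsPrincipal := by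
      have h1 : ClassGroup.mk0 (I * Jc C) = 1 := by
        rw [map_mul, (hJc C).1, mul_inv_cancel]
      exact (ClassGroup.mk0_eq_one_iff (I * Jc C).2).mp h1
    obtain ⟨x, hx⟩ := hprin.principal
    have hcop : IsCoprime ((I * Jc C : (Ideal (𝓞 E))⁰) : Ideal (𝓞 E)) 𝔪 := by
      show IsCoprime ((I : Ideal (𝓞 E)) * (Jc C : Ideal (𝓞 E))) 𝔪
      exact IsCoprime.mul_left hI (hJc C).2
    simp only [Set.mem_iUnion]
    refine ⟨C, Ideal.Quotient.mk 𝔪 x, x, I * Jc C, rfl, ?_, hcop, ?_⟩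
    · rw [hx]
    · rw [map_mul, mul_inv_cancel_right]
  have hfinU : (⋃ C, ⋃ ρ, T C ρ).Finite :=
    Set.finite_iUnion fun C => Set.finite_iUnion fun ρ => (hsub C ρ).finite
  exact Set.finite_univ_iff.mp (hfinU.subset hcover)

/-- a prime whose norm does not divide `N 𝔪` is prime to `𝔪` -/
theorem h17ray_coprime_of_not_dvd {𝔪 : Ideal (𝓞 E)} (P : (Ideal (𝓞 E))⁰)
    (hP : (P : Ideal (𝓞 E)).IsPrime)
    (h : ¬ (Ideal.absNorm (P : Ideal (𝓞 E)) ∣ Ideal.absNorm 𝔪)) :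
    IsCoprime (P : Ideal (𝓞 E)) 𝔪 := by
  have hP0 : (P : Ideal (𝓞 E)) ≠ ⊥ := nonZeroDivisors.coe_ne_zero P
  have hmax : (P : Ideal (𝓞 E)).IsMaximal := hP.isMaximal hP0
  rw [Ideal.isCoprime_iff_sup_eq]
  by_contra hne
  have hle : (P : Ideal (𝓞 E)) ⊔ 𝔪 = (P : Ideal (𝓞 E)) := by
    have := hmax.eq_of_le hne le_sup_left
    exact this.symm
  have h𝔪P : 𝔪 ≤ (P : Ideal (𝓞 E)) := by
    rw [← hle]; exact le_sup_right
  exact h (Ideal.absNorm_dvd_absNorm_of_le h𝔪P)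

/-- **(SI), ray class form.** -/
theorem h17ray_secondInequality (E M : Type) [Field E] [NumberField E] [Field M]
    [NumberField M] [Algebra E M] [IsGalois E M] {X : Type*} [CommGroup X]
    (𝔪 : Ideal (𝓞 E)) (D : ℕ) (φ : (Ideal (𝓞 E))⁰ →* X) (h𝔪 : 𝔪 ≠ ⊥) (hD : D ≠ 0)
    (hgen : ∀ y : X, ∃ I : (Ideal (𝓞 E))⁰, IsCoprime (I : Ideal (𝓞 E)) 𝔪 ∧ φ I = y)
    (hφ : ∀ (A : (Ideal (𝓞 E))⁰) (a : 𝓞 E), (A : Ideal (𝓞 E)) = Ideal.span {a} →
      a - 1 ∈ 𝔪 → φ A = 1)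
    (hsp : ∀ P : (Ideal (𝓞 E))⁰, (P : Ideal (𝓞 E)).IsPrime →
      ¬ (Ideal.absNorm (P : Ideal (𝓞 E)) ∣ D) →
      H14CFT.SplitsCompletely E M (P : Ideal (𝓞 E)) → φ P = 1) :
    Finite X ∧ Nat.card X ≤ Module.finrank E M := by
  have hfinX : Finite X := h17ray_finite h𝔪 hφ hgen
  refine ⟨hfinX, ?_⟩
  by_contra hcon
  rw [not_le] at hcon
  have hN𝔪 : Ideal.absNorm 𝔪 ≠ 0 := fun h => h𝔪 (Ideal.absNorm_eq_zero_iff.mp h)
  set D' : ℕ := D * Ideal.absNorm 𝔪 with hD'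
  have hD'0 : D' ≠ 0 := mul_ne_zero hD hN𝔪
  obtain ⟨cE, CE, hcE, hE⟩ := h17an_zetaBounds' E
  obtain ⟨cM, CM, hcM, hM⟩ := h17an_zetaBounds' M
  obtain ⟨D₀, hD₀, hG⟩ := H25SP.h25sp_primeSumGood E M
  obtain ⟨C, hC⟩ := H12AN.h12_primeUpper M (D' * D₀) (mul_ne_zero hD'0 hD₀)
  obtain ⟨B', hB'⟩ := h17ray_classProduct h𝔪 hφ hgen
  set S : Set (Ideal (𝓞 E)) := {P | ¬ (Ideal.absNorm P ∣ D') ∧ H14CFT.SplitsCompletely E M P}
    with hS
  have hSN : ∀ P : (Ideal (𝓞 E))⁰, (P : Ideal (𝓞 E)).IsPrime → (P : Ideal (𝓞 E)) ∈ S →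
      IsCoprime (P : Ideal (𝓞 E)) 𝔪 ∧ φ P = 1 := by
    intro P hP hPS
    refine ⟨?_, ?_⟩
    · apply h17ray_coprime_of_not_dvd P hP
      intro hdvd
      exact hPS.1 (hdvd.trans (Dvd.intro_left _ rfl))
    · apply hsp P hP _ hPS.2
      intro hdvd
      exact hPS.1 (hdvd.trans (Dvd.intro _ rfl))
  set n := Module.finrank E M with hn
  set h := Nat.card X with hh
  refine h17an_pole_contra (c := cM) (K := C ^ h * B' ^ n) (C := CE) hcM (m := n) (n := h)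
    hcon ?_
  intro s hs
  have hs1 : 1 < s := hs.1
  have hspos : 0 < s - 1 := by linarith
  have h1 := hG D' s hD'0 hs1
  have h2 := hB' S hSN s hs
  have h3 := hC s hs
  have hzM : cM / (s - 1) ≤ zetaI M s := (hM s hs).1
  have hzE : zetaI E s ≤ CE / (s - 1) := (hE s hs).2
  have hzEpos : 0 < zetaI E s := lt_of_lt_of_le (div_pos hcE hspos) (hE s hs).1
  have hzMpos : 0 < zetaI M s := lt_of_lt_of_le (div_pos hcM hspos) hzM
  have hCpos : 0 < C := by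
    by_contra hneg
    rw [not_lt] at hneg
    have : C * Real.exp (primeSum M (degOne M (D' * D₀)) s) ≤ 0 :=
      mul_nonpos_of_nonpos_of_nonneg hneg (Real.exp_pos _).le
    linarith
  have hBpos : 0 < B' := by
    by_contra hneg
    rw [not_lt] at hneg
    have : B' * zetaI E s ≤ 0 := mul_nonpos_of_nonpos_of_nonneg hneg hzEpos.le
    have := Real.exp_pos ((h : ℝ) * primeSum E S s)
    linarith
  -- `exp (n h Σ_S) ≤ (B' ζ_E) ^ n`
  have h4 : Real.exp ((n : ℝ) * ((h : ℝ) * primeSum E S s)) ≤ (B' * zetaI E s) ^ n := by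
    rw [Real.exp_nat_mul]
    exact pow_le_pow_left₀ (Real.exp_pos _).le h2 _
  -- `ζ_M ^ h ≤ C ^ h exp (h n Σ_S)`
  have h5 : (zetaI M s) ^ h ≤ C ^ h * Real.exp ((h : ℝ) * ((n : ℝ) * primeSum E S s)) := by
    calc (zetaI M s) ^ h ≤ (C * Real.exp (primeSum M (degOne M (D' * D₀)) s)) ^ h :=
          pow_le_pow_left₀ hzMpos.le h3 _
      _ = C ^ h * Real.exp ((h : ℝ) * primeSum M (degOne M (D' * D₀)) s) := by
          rw [mul_pow, ← Real.exp_nat_mul]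
      _ ≤ C ^ h * Real.exp ((h : ℝ) * ((n : ℝ) * primeSum E S s)) := by
          apply mul_le_mul_of_nonneg_left _ (pow_pos hCpos _).le
          apply Real.exp_le_exp.mpr
          exact mul_le_mul_of_nonneg_left h1 (Nat.cast_nonneg _)
  have h6 : (h : ℝ) * ((n : ℝ) * primeSum E S s) = (n : ℝ) * ((h : ℝ) * primeSum E S s) := by
    ring
  calc (cM / (s - 1)) ^ h ≤ (zetaI M s) ^ h :=
        pow_le_pow_left₀ (div_pos hcM hspos).le hzM _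
    _ ≤ C ^ h * Real.exp ((h : ℝ) * ((n : ℝ) * primeSum E S s)) := h5
    _ = C ^ h * Real.exp ((n : ℝ) * ((h : ℝ) * primeSum E S s)) := by rw [h6]
    _ ≤ C ^ h * (B' * zetaI E s) ^ n :=
        mul_le_mul_of_nonneg_left h4 (pow_pos hCpos _).le
    _ ≤ C ^ h * (B' * (CE / (s - 1))) ^ n := by
        apply mul_le_mul_of_nonneg_left _ (pow_pos hCpos _).le
        apply pow_le_pow_left₀ (mul_pos hBpos hzEpos).le
        exact mul_le_mul_of_nonneg_left hzE hBpos.le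
    _ = C ^ h * B' ^ n * (CE / (s - 1)) ^ n := by rw [mul_pow]; ring

end H17RAY
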