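/-
W2-C (S55) block C-finite (helper17, architect): the finite-level global class module — INTERFACE, part 1.

MODEL (tensor model; no completions of number fields, no decomposition groups):
  `QS S = ∏_{q ∈ S} ℚ_q`,  `KS S K = K ⊗_ℚ ℚ_S`,  `I_K = (KS S K)ˣ`  (ideles at `S`),
  `latS S K = 𝓞_K ⊗ ℤ_S ⊆ K_S` (subring),  `unitIdele S K = Λ_Kˣ ≤ I_K`,
  `PrimesS S K` = primes of `𝓞_K` not above `S`,  `DivS S K = PrimesS S K →₀ ℤ`,
  `AmbS S K = Additive I_K × DivS S K`,  `princS S K` = image of `Kˣ`,  `ClS S K = AmbS / princS`  ("C_K").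
For a Galois extension `L/K` the group `Gal(L/K)` acts on all of these (`ambAct`, `clsRep`).
Plan, slices and owners: NOTES/W2C-C.md.  Nothing here is proved by a placeholder.  Namespace `H17C`.
-/
import Mathlib

set_option autoImplicit false

noncomputable section

namespace H17C

open NumberField TensorProduct IsDedekindDomain
open scoped Pointwise

variable (S : Finset Nat.Primes)

instance h17c_fact (q : S) : Fact ((q : Nat.Primes) : ℕ).Prime := ⟨q.1.2⟩

/-- `ℚ_S = ∏_{q ∈ S} ℚ_q` -/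
abbrev QS : Type := ∀ q : S, ℚ_[((q : Nat.Primes) : ℕ)]

/-- `ℤ_S = ∏_{q ∈ S} ℤ_q` -/
abbrev ZS : Type := ∀ q : S, ℤ_[((q : Nat.Primes) : ℕ)]

/-- `ℤ_S → ℚ_S` -/
def zsToQs : ZS S →+* QS S :=
  RingHom.pi fun q =>
    (PadicInt.Coe.ringHom (p := ((q : Nat.Primes) : ℕ))).comp (Pi.evalRingHom _ q)

/-- the `S`-number `m_S = ∏_{q ∈ S} q` -/
def mS : ℕ := ∏ q ∈ S, (q : ℕ)

/-! ### the semilocal algebra `K_S` and the ideles at `S` -/

section field

variable (K : Type) [Field K] [NumberField K]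

/-- `K_S = K ⊗_ℚ ℚ_S` -/
def KS : Type := K ⊗[ℚ] QS S

instance instCommRingKS : CommRing (KS S K) :=
  inferInstanceAs (CommRing (K ⊗[ℚ] QS S))

instance instAlgebraRatKS : Algebra ℚ (KS S K) :=
  inferInstanceAs (Algebra ℚ (K ⊗[ℚ] QS S))

instance instAlgebraKS : Algebra K (KS S K) :=
  inferInstanceAs (Algebra K (K ⊗[ℚ] QS S))

/-- the pure tensor `x ⊗ y` -/
def tmulS (x : K) (y : QS S) : KS S K := x ⊗ₜ[ℚ] y

/-- the diagonal embedding `K → K_S`, `x ↦ x ⊗ 1` -/
def diagRing : K →ₐ[ℚ] KS S K := Algebra.TensorProduct.includeLeft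

/-- `ℚ_S → K_S`, `y ↦ 1 ⊗ y` -/
def locRing : QS S →ₐ[ℚ] KS S K := Algebra.TensorProduct.includeRight

theorem diagRing_apply (x : K) : diagRing S K x = tmulS S K x 1 := rfl

theorem locRing_apply (y : QS S) : locRing S K y = tmulS S K 1 y := rfl

/-- the maximal order `Λ_K = 𝓞_K ⊗ ℤ_S` inside `K_S` (as a subring): generated by `𝓞_K ⊗ 1` and
`1 ⊗ ℤ_S` -/
def latS : Subring (KS S K) :=
  Subring.closure ({x | ∃ a : 𝓞 K, x = diagRing S K (a : K)} ∪
    {x | ∃ z : ZS S, x = locRing S K (zsToQs S z)})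

/-- the unit ideles `U_K = Λ_Kˣ` -/
def unitIdele : Subgroup (KS S K)ˣ where
  carrier := {u | (u : KS S K) ∈ latS S K ∧ ((u⁻¹ : (KS S K)ˣ) : KS S K) ∈ latS S K}
  one_mem' := ⟨by simp [(latS S K).one_mem], by simp [(latS S K).one_mem]⟩
  mul_mem' := by
    rintro a b ⟨ha, ha'⟩ ⟨hb, hb'⟩
    refine ⟨by simpa using (latS S K).mul_mem ha hb, ?_⟩
    rw [mul_inv_rev, Units.val_mul]
    exact (latS S K).mul_mem hb' ha'
  inv_mem' := by
    rintro a ⟨ha, ha'⟩
    exact ⟨ha', by simpa using ha⟩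

/-- the congruence subgroup `1 + n Λ_K` of `U_K` (for `n` an `S`-number this is an open subgroup) -/
def congIdele (n : ℕ) : Subgroup (KS S K)ˣ where
  carrier := {u | u ∈ unitIdele S K ∧ ∃ y ∈ latS S K, (u : KS S K) = 1 + (n : KS S K) * y}
  one_mem' := ⟨(unitIdele S K).one_mem, 0, (latS S K).zero_mem, by simp⟩
  mul_mem' := by
    rintro a b ⟨ha, y, hy, hya⟩ ⟨hb, z, hz, hzb⟩
    refine ⟨(unitIdele S K).mul_mem ha hb, y + z + (n : KS S K) * (y * z),
      (latS S K).add_mem ((latS S K).add_mem hy hz)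
        ((latS S K).mul_mem (by simpa using (latS S K).natCast_mem n) ((latS S K).mul_mem hy hz)), ?_⟩
    rw [Units.val_mul, hya, hzb]
    ring
  inv_mem' := by
    rintro a ⟨ha, y, hy, hya⟩
    refine ⟨(unitIdele S K).inv_mem ha, -(((a⁻¹ : (KS S K)ˣ) : KS S K) * y),
      (latS S K).neg_mem ((latS S K).mul_mem ha.2 hy), ?_⟩
    have h1 : ((a⁻¹ : (KS S K)ˣ) : KS S K) * (a : KS S K) = 1 := by simp
    rw [hya] at h1
    linear_combination h1

/-- the diagonal embedding `Kˣ → I_K = K_Sˣ` -/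
def diagS : Kˣ →* (KS S K)ˣ := Units.map (diagRing S K : K →* KS S K)

/-! ### primes outside `S` and divisors -/

/-- the primes of `𝓞_K` not above `S` -/
def PrimesS : Type :=
  {P : Ideal (𝓞 K) // P.IsPrime ∧ P ≠ ⊥ ∧ ∀ q ∈ S, (((q : ℕ) : ℤ) : 𝓞 K) ∉ P}

end field

section prime

variable {S} {K : Type} [Field K] [NumberField K]

/-- a prime outside `S` as a height one prime -/
def PrimesS.toHOS (P : PrimesS S K) : HeightOneSpectrum (𝓞 K) := ⟨P.1, P.2.1, P.2.2.1⟩

theorem PrimesS.toHOS_injective :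
    Function.Injective (PrimesS.toHOS : PrimesS S K → HeightOneSpectrum (𝓞 K)) := by
  intro P Q h
  apply Subtype.ext
  exact congrArg HeightOneSpectrum.asIdeal h

/-- `ord_P(x)` (normalized: `ord_P(π) = 1`) -/
def ordP (P : PrimesS S K) (x : K) : ℤ :=
  - WithZero.log (P.toHOS.valuation K x)

theorem ordP_mul (P : PrimesS S K) {x y : K} (hx : x ≠ 0) (hy : y ≠ 0) :
    ordP P (x * y) = ordP P x + ordP P y := by
  unfold ordP
  rw [map_mul, WithZero.log_mul ((Valuation.ne_zero_iff _).mpr hx)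
    ((Valuation.ne_zero_iff _).mpr hy)]
  ring

theorem ordP_one (P : PrimesS S K) : ordP P (1 : K) = 0 := by
  unfold ordP
  simp

theorem ordP_finite {x : K} (hx : x ≠ 0) : {P : PrimesS S K | ordP P x ≠ 0}.Finite := by
  have h1 := HeightOneSpectrum.Support.finite (𝓞 K) x
  have h2 := HeightOneSpectrum.Support.finite (𝓞 K) x⁻¹
  refine Set.Finite.subset ((h1.union h2).preimage (PrimesS.toHOS_injective.injOn)) ?_
  intro P hP
  simp only [Set.mem_ofPred_eq] at hP
  simp only [Set.mem_preimage, Set.mem_union, HeightOneSpectrum.Support, Set.mem_ofPred_eq]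
  have hv : P.toHOS.valuation K x ≠ 0 := (Valuation.ne_zero_iff _).mpr hx
  rcases lt_trichotomy (P.toHOS.valuation K x) 1 with h | h | h
  · right
    rw [map_inv₀]
    exact (one_lt_inv₀ (zero_lt_iff.mpr hv)).mpr h
  · exfalso
    apply hP
    unfold ordP
    rw [h]
    simp
  · left; exact h

end prime

section field2

variable (K : Type) [Field K] [NumberField K]

/-- the divisors prime to `S` (free abelian group on the primes outside `S`) -/
abbrev DivS : Type := PrimesS S K →₀ ℤ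

/-- the divisor (prime to `S`) of `x ∈ Kˣ` -/
def divFun (x : Kˣ) : DivS S K :=
  Finsupp.ofSupportFinite (fun P => ordP P (x : K)) (ordP_finite x.ne_zero)

theorem divFun_apply (x : Kˣ) (P : PrimesS S K) : divFun S K x P = ordP P (x : K) := rfl

/-- `div : Kˣ → Div_S(K)` -/
def divS : Additive Kˣ →+ DivS S K where
  toFun x := divFun S K (Additive.toMul x)
  map_zero' := by
    ext P
    simp [divFun_apply, ordP_one]
  map_add' x y := by
    ext P
    simp only [divFun_apply, toMul_add, Units.val_mul, Finsupp.add_apply]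
    exact ordP_mul P (Additive.toMul x).ne_zero (Additive.toMul y).ne_zero

theorem divS_apply (x : Additive Kˣ) (P : PrimesS S K) :
    divS S K x P = ordP P ((Additive.toMul x : Kˣ) : K) := rfl

/-- the ambient group `A_K = I_K × Div_S(K)` (written additively) -/
abbrev AmbS : Type := Additive (KS S K)ˣ × DivS S K

/-- `Kˣ → A_K`, `x ↦ (x ⊗ 1, div x)` -/
def princHom : Additive Kˣ →+ AmbS S K :=
  AddMonoidHom.prod (MonoidHom.toAdditive (diagS S K)) (divS S K)

/-- the principal subgroup: the image of `Kˣ` in `A_K` -/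
def princS : Submodule ℤ (AmbS S K) := LinearMap.range (princHom S K).toIntLinearMap

theorem mem_princS_iff (z : AmbS S K) : z ∈ princS S K ↔ ∃ x : Additive Kˣ, princHom S K x = z :=
  Iff.rfl

/-- the `S`-idele class group `C_K = (I_K × Div_S(K)) / Kˣ` -/
abbrev ClS : Type := AmbS S K ⧸ princS S K

/-- `A_K → C_K` -/
def clsMk : AmbS S K →ₗ[ℤ] ClS S K := (princS S K).mkQ

theorem clsMk_surjective : Function.Surjective (clsMk S K) := Submodule.mkQ_surjective _

theorem clsMk_eq_zero_iff (z : AmbS S K) : clsMk S K z = 0 ↔ z ∈ princS S K :=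
  Submodule.Quotient.mk_eq_zero _

/-- the `S`-units of `K`: the kernel of `div` -/
def sUnitsK : AddSubgroup (Additive Kˣ) := (divS S K).ker

end field2

end H17C
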