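/-
W2-C (S55) block C-finite (helper17): INTERFACE, part 2 — the Galois action.
For `L/K` (number fields, `[Algebra K L]`), `G = L ≃ₐ[K] L` acts on `L_S`, `I_L`, `PrimesS S L`,
`DivS S L`, `AmbS S L`, and on the class group `ClS S L` (`clsRep`).  Base change `K_S → L_S`.
-/
import Fermat.Agent.CFT2.C.Defs_helper17

set_option autoImplicit false
set_option linter.unusedSectionVars false
set_option linter.unusedVariables false

noncomputable section

namespace H17C

open NumberField TensorProduct IsDedekindDomain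
open scoped Pointwise WithZero

variable (S : Finset Nat.Primes)

section ind

variable {S} {K : Type} [Field K] [NumberField K]

/-- induction principle for `K_S` -/
theorem ks_induction {motive : KS S K → Prop} (z : KS S K) (zero : motive 0)
    (tmul : ∀ x y, motive (tmulS S K x y))
    (add : ∀ a b, motive a → motive b → motive (a + b)) : motive z :=
  TensorProduct.induction_on (motive := motive) z zero tmul add

theorem tmulS_mul (x x' : K) (y y' : QS S) :
    tmulS S K x y * tmulS S K x' y' = tmulS S K (x * x') (y * y') :=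
  Algebra.TensorProduct.tmul_mul_tmul x x' y y'

theorem tmulS_add_left (x x' : K) (y : QS S) :
    tmulS S K (x + x') y = tmulS S K x y + tmulS S K x' y :=
  TensorProduct.add_tmul x x' y

theorem tmulS_add_right (x : K) (y y' : QS S) :
    tmulS S K x (y + y') = tmulS S K x y + tmulS S K x y' :=
  TensorProduct.tmul_add x y y'

theorem tmulS_one : tmulS S K 1 1 = 1 := rfl

theorem tmulS_smul (r : ℚ) (x : K) (y : QS S) :
    tmulS S K (r • x) y = tmulS S K x (r • y) :=
  TensorProduct.smul_tmul r x y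

end ind

section val

variable {K L : Type} [Field K] [NumberField K] [Field L] [NumberField L] [Algebra K L]

theorem h17c_val_le_of {a b : ℤᵐ⁰} (hb0 : b ≠ 0) (hb1 : b ≤ 1)
    (h : ∀ n : ℕ, b ≤ WithZero.exp (-(n : ℤ)) → a ≤ WithZero.exp (-(n : ℤ))) : a ≤ b := by
  have hlog : WithZero.log b ≤ 0 := by
    have := (WithZero.log_le_log hb0 one_ne_zero).mpr hb1
    simpa using this
  obtain ⟨k, hk⟩ := Int.exists_eq_neg_ofNat hlog
  have hb : b = WithZero.exp (-(k : ℤ)) := by
    rw [← hk, WithZero.exp_log hb0]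
  rw [hb]
  exact h k (le_of_eq hb)

theorem h17c_intVal_smul (σ : L ≃ₐ[K] L) (v w : HeightOneSpectrum (𝓞 L))
    (hvw : w.asIdeal = σ • v.asIdeal) (r : 𝓞 L) :
    w.intValuation (σ • r) = v.intValuation r := by
  by_cases hr : r = 0
  · subst hr
    simp
  have hσr : σ • r ≠ 0 := by
    intro h
    apply hr
    have := congrArg (fun x => σ⁻¹ • x) h
    simpa using this
  have key : ∀ n : ℕ, w.intValuation (σ • r) ≤ WithZero.exp (-(n : ℤ)) ↔
      v.intValuation r ≤ WithZero.exp (-(n : ℤ)) := by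
    intro n
    rw [HeightOneSpectrum.intValuation_le_pow_iff_mem, HeightOneSpectrum.intValuation_le_pow_iff_mem,
      hvw]
    have e : (σ • v.asIdeal) ^ n = σ • (v.asIdeal ^ n) := by
      rw [Ideal.pointwise_smul_def, Ideal.pointwise_smul_def, Ideal.map_pow]
    rw [e, Ideal.smul_mem_pointwise_smul_iff]
  apply le_antisymm
  · exact h17c_val_le_of (HeightOneSpectrum.intValuation_ne_zero _ _ hr)
      (HeightOneSpectrum.intValuation_le_one _ _) (fun n hn => (key n).mpr hn)
  · exact h17c_val_le_of (HeightOneSpectrum.intValuation_ne_zero _ _ hσr)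
      (HeightOneSpectrum.intValuation_le_one _ _) (fun n hn => (key n).mp hn)

/-- `v_{σP}(σ x) = v_P(x)` -/
theorem h17c_val_smul (σ : L ≃ₐ[K] L) (v w : HeightOneSpectrum (𝓞 L))
    (hvw : w.asIdeal = σ • v.asIdeal) (x : L) :
    w.valuation L (σ x) = v.valuation L x := by
  obtain ⟨a, b, hb, rfl⟩ := IsFractionRing.div_surjective (A := 𝓞 L) x
  have e1 : σ (algebraMap (𝓞 L) L a / algebraMap (𝓞 L) L b) =
      algebraMap (𝓞 L) L (σ • a) / algebraMap (𝓞 L) L (σ • b) := by
    rw [map_div₀]
    rfl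
  rw [e1, map_div₀, map_div₀, HeightOneSpectrum.valuation_of_algebraMap,
    HeightOneSpectrum.valuation_of_algebraMap, HeightOneSpectrum.valuation_of_algebraMap,
    HeightOneSpectrum.valuation_of_algebraMap, h17c_intVal_smul σ v w hvw,
    h17c_intVal_smul σ v w hvw]

end val

section galois

variable (K L : Type) [Field K] [NumberField K] [Field L] [NumberField L] [Algebra K L]

/-- the action of `σ ∈ Gal(L/K)` on `L_S` -/
def ksAut (σ : L ≃ₐ[K] L) : KS S L ≃ₐ[ℚ] KS S L :=
  Algebra.TensorProduct.congr (σ.restrictScalars ℚ) AlgEquiv.refl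

theorem ksAut_tmul (σ : L ≃ₐ[K] L) (x : L) (y : QS S) :
    ksAut S K L σ (tmulS S L x y) = tmulS S L (σ x) y := rfl

theorem ksAut_one (z : KS S L) : ksAut S K L 1 z = z := by
  induction z using ks_induction with
  | zero => exact map_zero _
  | tmul x y => rfl
  | add a b ha hb => rw [map_add, ha, hb]

theorem ksAut_mul (σ τ : L ≃ₐ[K] L) (z : KS S L) :
    ksAut S K L (σ * τ) z = ksAut S K L σ (ksAut S K L τ z) := by
  induction z using ks_induction with
  | zero => simp only [map_zero]
  | tmul x y => rfl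
  | add a b ha hb => rw [map_add, ha, hb, map_add, map_add]

/-- the action of `Gal(L/K)` on `I_L` -/
instance instIdeleAct : MulDistribMulAction (L ≃ₐ[K] L) (KS S L)ˣ where
  smul σ u := Units.map ((ksAut S K L σ : KS S L →ₐ[ℚ] KS S L) : KS S L →* KS S L) u
  one_smul u := Units.ext (ksAut_one S K L u)
  mul_smul σ τ u := Units.ext (ksAut_mul S K L σ τ u)
  smul_mul σ u v := map_mul _ u v
  smul_one σ := map_one _

theorem ideleAct_coe (σ : L ≃ₐ[K] L) (u : (KS S L)ˣ) :
    ((σ • u : (KS S L)ˣ) : KS S L) = ksAut S K L σ u := rfl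

theorem ideleAct_diagS (σ : L ≃ₐ[K] L) (x : Lˣ) :
    σ • diagS S L x = diagS S L (Units.map (σ : L →* L) x) := by
  apply Units.ext
  rfl

/-- the base change map `K_S → L_S` -/
def ksBase : KS S K →ₐ[ℚ] KS S L :=
  Algebra.TensorProduct.map ((algebraMap K L).toRatAlgHom) (AlgHom.id ℚ (QS S))

theorem ksBase_tmul (x : K) (y : QS S) :
    ksBase S K L (tmulS S K x y) = tmulS S L (algebraMap K L x) y := rfl

/-- the base change map `I_K → I_L` -/
def ideleBase : (KS S K)ˣ →* (KS S L)ˣ := Units.map (ksBase S K L : KS S K →* KS S L)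

/-- the action of `Gal(L/K)` on the primes of `L` outside `S` -/
instance instSMulPrimesS : SMul (L ≃ₐ[K] L) (PrimesS S L) where
  smul σ P := ⟨σ • P.1, by
    obtain ⟨h1, h2, h3⟩ := P.2
    refine ⟨?_, ?_, ?_⟩
    · rw [Ideal.pointwise_smul_def]
      exact Ideal.map_isPrime_of_equiv (MulSemiringAction.toRingEquiv (L ≃ₐ[K] L) (𝓞 L) σ)
    · intro h
      apply h2
      have := congrArg (fun I => σ⁻¹ • I) h
      simpa using this
    · intro q hq hmem
      apply h3 q hq
      rw [Ideal.mem_pointwise_smul_iff_inv_smul_mem] at hmem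
      have e : σ⁻¹ • ((((q : ℕ) : ℤ) : 𝓞 L)) = (((q : ℕ) : ℤ) : 𝓞 L) :=
        map_intCast (MulSemiringAction.toRingHom (L ≃ₐ[K] L) (𝓞 L) σ⁻¹) _
      rwa [e] at hmem⟩

theorem smul_primesS_coe (σ : L ≃ₐ[K] L) (P : PrimesS S L) :
    (σ • P : PrimesS S L).1 = σ • P.1 := rfl

instance instMulActionPrimesS : MulAction (L ≃ₐ[K] L) (PrimesS S L) where
  one_smul P := Subtype.ext (one_smul _ P.1)
  mul_smul σ τ P := Subtype.ext (mul_smul σ τ P.1)

/-- `ord_{σP}(σ x) = ord_P(x)` -/
theorem ordP_smul (σ : L ≃ₐ[K] L) (P : PrimesS S L) (x : L) :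
    ordP (σ • P) (σ x) = ordP P x := by
  unfold ordP
  rw [h17c_val_smul σ P.toHOS (σ • P).toHOS rfl x]

/-- the action of `Gal(L/K)` on `Div_S(L)` -/
def divRep : Representation ℤ (L ≃ₐ[K] L) (DivS S L) where
  toFun σ := Finsupp.lmapDomain ℤ ℤ (fun P : PrimesS S L => σ • P)
  map_one' := by
    ext P Q
    simp [Finsupp.lmapDomain_apply, Finsupp.mapDomain_single]
  map_mul' σ τ := by
    ext P Q
    simp [Finsupp.lmapDomain_apply, Finsupp.mapDomain_single, mul_smul]

theorem divRep_single (σ : L ≃ₐ[K] L) (P : PrimesS S L) (n : ℤ) :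
    divRep S K L σ (Finsupp.single P n) = Finsupp.single (σ • P) n := by
  simp [divRep, Finsupp.lmapDomain_apply, Finsupp.mapDomain_single]

theorem divRep_apply_smul (σ : L ≃ₐ[K] L) (d : DivS S L) (P : PrimesS S L) :
    divRep S K L σ d (σ • P) = d P := by
  change Finsupp.mapDomain (fun P : PrimesS S L => σ • P) d (σ • P) = d P
  exact Finsupp.mapDomain_apply (MulAction.injective σ) d P

/-- `div (σ x) = σ (div x)` -/
theorem divS_smul (σ : L ≃ₐ[K] L) (x : Lˣ) :
    divS S L (Additive.ofMul (Units.map (σ : L →* L) x)) =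
      divRep S K L σ (divS S L (Additive.ofMul x)) := by
  ext P
  obtain ⟨Q, rfl⟩ : ∃ Q : PrimesS S L, σ • Q = P := ⟨σ⁻¹ • P, by simp⟩
  rw [divRep_apply_smul, divS_apply, divS_apply]
  exact ordP_smul S K L σ Q (x : L)

/-- the action of `Gal(L/K)` on `I_L`, as a representation on `Additive I_L` -/
def ideleRep : Representation ℤ (L ≃ₐ[K] L) (Additive (KS S L)ˣ) :=
  Representation.ofMulDistribMulAction (L ≃ₐ[K] L) (KS S L)ˣ

/-- the action of `Gal(L/K)` on `A_L = I_L × Div_S(L)` -/
def ambRep : Representation ℤ (L ≃ₐ[K] L) (AmbS S L) :=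
  (ideleRep S K L).prod (divRep S K L)

theorem ambRep_apply (σ : L ≃ₐ[K] L) (z : AmbS S L) :
    ambRep S K L σ z = (ideleRep S K L σ z.1, divRep S K L σ z.2) := rfl

theorem ambRep_princHom (σ : L ≃ₐ[K] L) (x : Lˣ) :
    ambRep S K L σ (princHom S L (Additive.ofMul x)) =
      princHom S L (Additive.ofMul (Units.map (σ : L →* L) x)) := by
  rw [ambRep_apply]
  refine Prod.ext ?_ ?_
  · exact congrArg Additive.ofMul (ideleAct_diagS S K L σ x)
  · exact (divS_smul S K L σ x).symm

theorem princS_stable (σ : L ≃ₐ[K] L) :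
    princS S L ≤ (princS S L).comap (ambRep S K L σ) := by
  rintro _ ⟨x, rfl⟩
  exact ⟨Additive.ofMul (Units.map (σ : L →* L) (Additive.toMul x)),
    (ambRep_princHom S K L σ (Additive.toMul x)).symm⟩

/-- the action of `Gal(L/K)` on the class group `C_L` -/
def clsRep : Representation ℤ (L ≃ₐ[K] L) (ClS S L) :=
  (ambRep S K L).quotient (princS S L) (princS_stable S K L)

theorem clsRep_mk (σ : L ≃ₐ[K] L) (z : AmbS S L) :
    clsRep S K L σ (clsMk S L z) = clsMk S L (ambRep S K L σ z) := rfl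

/-- `C_L` as an object of `Rep ℤ Gal(L/K)` -/
def clsObj : Rep ℤ (L ≃ₐ[K] L) := Rep.of (clsRep S K L)

end galois

end H17C
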