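/-
W2-C (S55) block C-finite (helper17, architect): INTERFACE, part 3 — the SLICES.
Every `def … : Prop` below is the exact statement of one slice; its owner proves
`theorem h<seat>c_<name> : H17C.<Name>` in `Fermat/Agent/CFT2/C/<Name>_<seat>.lean`.
Plan, proofs on paper and owners: NOTES/W2C-C.md.  Nothing here is proved by a placeholder.

CONVENTION.  A number field `L` carries the action of its full automorphism group
`Aut(L) = L ≃ₐ[ℚ] L` on `L_S`, `I_L`, `Div_S(L)`, `C_L = ClS S L`  (`clsRep S ℚ L`).  A Galois extension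
`L/F` is given by the SUBGROUP `H = Gal(L/F) ≤ Aut(L)` (`F = IntermediateField.fixedField H`), so that
all cohomology groups are those of `H20A.resSub (clsObj S ℚ L) H`, the format of `H20A.IsPClassModule`.
-/
import Fermat.Agent.CFT2.C.DefsAct_helper17
import Fermat.Agent.CFT2.A.Defs3
import Fermat.Agent.CFT2.A.H25Herbrand

set_option autoImplicit false
set_option linter.unusedSectionVars false
set_option linter.unusedVariables false
set_option linter.style.haveILetI false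

noncomputable section

namespace H17C

open NumberField TensorProduct IsDedekindDomain CategoryTheory
open scoped Pointwise WithZero

variable (S : Finset Nat.Primes)

/-! ### definitions for the statements -/

section defs

variable (L : Type) [Field L] [NumberField L]

/-- `Aut(L)` -/
abbrev AutQ : Type := L ≃ₐ[ℚ] L

/-- `H ≤ Aut(L)` is unramified outside `S`: the inertia groups in `H` of the primes of `L` outside
`S` are trivial. -/
def UnramOutside (H : Subgroup (AutQ L)) : Prop :=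
  ∀ Q : PrimesS S L, ∀ σ ∈ H, (∀ x : 𝓞 L, σ • x - x ∈ Q.1) → σ = 1

/-- `σ - 1` on `C_L` -/
def clsD (σ : AutQ L) : ClS S L →+ ClS S L :=
  ((clsRep S ℚ L σ - 1 : ClS S L →ₗ[ℤ] ClS S L)).toAddMonoidHom

/-- the norm `N_H = ∑_{h ∈ H} h` on `C_L` -/
def clsN (H : Subgroup (AutQ L)) : ClS S L →+ ClS S L :=
  letI : Fintype H := Fintype.ofFinite H
  ((∑ h : H, clsRep S ℚ L (h : AutQ L) : ClS S L →ₗ[ℤ] ClS S L)).toAddMonoidHom

/-- `σ - 1` on `A_L = I_L × Div_S(L)` -/
def ambD (σ : AutQ L) : AmbS S L →+ AmbS S L :=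
  ((ambRep S ℚ L σ - 1 : AmbS S L →ₗ[ℤ] AmbS S L)).toAddMonoidHom

/-- the norm `N_H` on `A_L` -/
def ambN (H : Subgroup (AutQ L)) : AmbS S L →+ AmbS S L :=
  letI : Fintype H := Fintype.ofFinite H
  ((∑ h : H, ambRep S ℚ L (h : AutQ L) : AmbS S L →ₗ[ℤ] AmbS S L)).toAddMonoidHom

/-- the action of `Aut(L)` on the units of `𝓞_L` -/
instance instUnitAct : MulDistribMulAction (AutQ L) (𝓞 L)ˣ where
  smul σ u := Units.map (MulSemiringAction.toRingHom (AutQ L) (𝓞 L) σ : 𝓞 L →* 𝓞 L) u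
  one_smul u := Units.ext (one_smul (AutQ L) (u : 𝓞 L))
  mul_smul σ τ u := Units.ext (mul_smul σ τ (u : 𝓞 L))
  smul_mul σ u v := map_mul _ u v
  smul_one σ := map_one _

theorem unitAct_coe (σ : AutQ L) (u : (𝓞 L)ˣ) : ((σ • u : (𝓞 L)ˣ) : 𝓞 L) = σ • (u : 𝓞 L) := rfl

/-- the action of `Aut(L)` on the units of `𝓞_L`, as a representation -/
def unitRep : Representation ℤ (AutQ L) (Additive (𝓞 L)ˣ) :=
  Representation.ofMulDistribMulAction (AutQ L) (𝓞 L)ˣ

/-- `σ - 1` on the units of `𝓞_L` -/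
def unitDL (σ : AutQ L) : Additive (𝓞 L)ˣ →+ Additive (𝓞 L)ˣ :=
  ((unitRep L σ - 1 : Additive (𝓞 L)ˣ →ₗ[ℤ] Additive (𝓞 L)ˣ)).toAddMonoidHom

/-- the norm `N_H` on the units of `𝓞_L` -/
def unitNL (H : Subgroup (AutQ L)) : Additive (𝓞 L)ˣ →+ Additive (𝓞 L)ˣ :=
  letI : Fintype H := Fintype.ofFinite H
  ((∑ h : H, unitRep L (h : AutQ L) : Additive (𝓞 L)ˣ →ₗ[ℤ] Additive (𝓞 L)ˣ)).toAddMonoidHom

/-- `σ - 1` on `I_L` -/
def ideleD (σ : AutQ L) : Additive (KS S L)ˣ →+ Additive (KS S L)ˣ :=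
  ((ideleRep S ℚ L σ - 1 : Additive (KS S L)ˣ →ₗ[ℤ] Additive (KS S L)ˣ)).toAddMonoidHom

/-- the norm `N_H` on `I_L` -/
def ideleN (H : Subgroup (AutQ L)) : Additive (KS S L)ˣ →+ Additive (KS S L)ˣ :=
  letI : Fintype H := Fintype.ofFinite H
  ((∑ h : H, ideleRep S ℚ L (h : AutQ L) :
    Additive (KS S L)ˣ →ₗ[ℤ] Additive (KS S L)ˣ)).toAddMonoidHom

/-- the unit ideles `U_L` as an additive subgroup of `Additive I_L` -/
def unitIdeleAdd : AddSubgroup (Additive (KS S L)ˣ) := (unitIdele S L).toAddSubgroup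

/-- the congruence ideles `1 + nΛ_L` as an additive subgroup of `Additive I_L` -/
def congIdeleAdd (n : ℕ) : AddSubgroup (Additive (KS S L)ˣ) := (congIdele S L n).toAddSubgroup

end defs

section base

variable (K L : Type) [Field K] [NumberField K] [Field L] [NumberField L] [Algebra K L]

/-- the prime of `K` under a prime of `L` outside `S` -/
def PrimesS.under (Q : PrimesS S L) : PrimesS S K :=
  ⟨Q.1.comap (algebraMap (𝓞 K) (𝓞 L)), by
    obtain ⟨h1, h2, h3⟩ := Q.2
    haveI := h1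
    refine ⟨Ideal.comap_isPrime _ _, ?_, ?_⟩
    · intro h
      exact h2 (Ideal.eq_bot_of_comap_eq_bot h)
    · intro q hq hmem
      apply h3 q hq
      rw [Ideal.mem_comap, map_intCast] at hmem
      exact hmem⟩

/-- pull-back of divisors `Div_S(K) → Div_S(L)`, `d ↦ (Q ↦ d (Q ∩ K))`, as a function.
(This is the extension of divisors when `L/K` is unramified outside `S`.) -/
def divBaseFun (d : DivS S K) (Q : PrimesS S L) : ℤ := d (PrimesS.under S K L Q)

end base

/-! ### the slices -/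

section slices

/-- **(WA) weak approximation**: `Kˣ · (1 + nΛ_K) = I_K` for every `n ≠ 0`. -/
def WeakApprox : Prop :=
  ∀ (S : Finset Nat.Primes) (K : Type) [Field K] [NumberField K] (n : ℕ), n ≠ 0 →
    ∀ u : (KS S K)ˣ, ∃ a : Kˣ, u * (diagS S K a)⁻¹ ∈ congIdele S K n

/-- **(POW) powers are open**: for `n ≠ 0` there is `N ≠ 0` with `1 + NΛ_K ⊆ (U_K)ⁿ`. -/
def PowOpenS : Prop :=
  ∀ (S : Finset Nat.Primes) (K : Type) [Field K] [NumberField K] (n : ℕ), n ≠ 0 →
    ∃ N : ℕ, N ≠ 0 ∧ ∀ u ∈ congIdele S K N, ∃ v ∈ unitIdele S K, v ^ n = u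

/-- **(DESC-I) Galois descent for `L_S`**: the `H`-invariants of `L_S` are `F_S`, `F = L^H`. -/
def DescIdele : Prop :=
  ∀ (S : Finset Nat.Primes) (L : Type) [Field L] [NumberField L] (H : Subgroup (AutQ L)),
    Function.Injective (ksBase S (IntermediateField.fixedField H) L) ∧
    ∀ z : KS S L, (∀ σ ∈ H, ksAut S ℚ L σ z = z) →
      ∃ w : KS S (IntermediateField.fixedField H), ksBase S (IntermediateField.fixedField H) L w = z

/-- **(DESC-D) descent for divisors**: if `H` is unramified outside `S`, an `H`-invariant divisor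
of `L` (prime to `S`) is the pull-back of a divisor of `F = L^H`, and `div_L x` is the pull-back
of `div_F x` for `x ∈ Fˣ`. -/
def DescDiv : Prop :=
  ∀ (S : Finset Nat.Primes) (L : Type) [Field L] [NumberField L] (H : Subgroup (AutQ L)),
    UnramOutside S L H →
    (∀ d : DivS S L, (∀ σ ∈ H, divRep S ℚ L σ d = d) →
      ∃ c : DivS S (IntermediateField.fixedField H), ∀ Q : PrimesS S L,
        d Q = divBaseFun S (IntermediateField.fixedField H) L c Q) ∧
    (∀ (x : (IntermediateField.fixedField H)ˣ) (Q : PrimesS S L),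
      ordP Q ((x : IntermediateField.fixedField H) : L) =
        ordP (PrimesS.under S (IntermediateField.fixedField H) L Q)
          (x : IntermediateField.fixedField H))

/-- **(FI-E) Herbrand quotient of the global units**: `h(H, 𝓞_Lˣ) = 1/p` for `|H| = p` odd. -/
def UnitHerbrand : Prop :=
  ∀ (p : ℕ) (L : Type) [Field L] [NumberField L] (H : Subgroup (AutQ L)),
    p.Prime → p ≠ 2 → Nat.card H = p → ∀ σ ∈ H, σ ≠ 1 →
    H25Herb.h0 (unitDL L σ) (unitNL L H) ≠ 0 ∧
    H25Herb.h1 (unitDL L σ) (unitNL L H) = p * H25Herb.h0 (unitDL L σ) (unitNL L H)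

/-- **(FI-U) Herbrand quotient of the semilocal units**: there is an `H`-stable subgroup
`V ≤ U_L` of finite index in `U_L` with `Ĥ⁰(H, V) = Ĥ⁻¹(H, V) = 0`:  `V^H = N_H V` and
`ker N_H|_V = (σ - 1) V`.  (`V = 1 + n·Λ₀`, `Λ₀ = (𝓞_F ⊗ ℤ_S)[H]·θ`, `θ` a normal basis element.) -/
def SemilocalUnits : Prop :=
  ∀ (p : ℕ) (S : Finset Nat.Primes) (L : Type) [Field L] [NumberField L] (H : Subgroup (AutQ L)),
    p.Prime → Nat.card H = p → ∀ σ ∈ H, σ ≠ 1 →
    ∃ V : AddSubgroup (Additive (KS S L)ˣ), V ≤ unitIdeleAdd S L ∧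
      V.relIndex (unitIdeleAdd S L) ≠ 0 ∧
      (∀ τ ∈ H, ∀ v ∈ V, ideleRep S ℚ L τ v ∈ V) ∧
      (∀ v ∈ V, ideleD S L σ v = 0 → ∃ w ∈ V, ideleN S L H w = v) ∧
      (∀ v ∈ V, ideleN S L H v = 0 → ∃ w ∈ V, ideleD S L σ w = v)

/-- **(FI-FIN) finiteness**: the image of `U_L` in `C_L` has finite index (the quotient is the
class group of `𝓞_L`), and its kernel is the group of global units:
`(u, 0) ∈ Lˣ·` iff `u = ε ⊗ 1` with `ε ∈ 𝓞_Lˣ`. -/
def UnitIndexFinite : Prop :=
  ∀ (S : Finset Nat.Primes) (L : Type) [Field L] [NumberField L],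
    ((unitIdeleAdd S L).map ((clsMk S L).toAddMonoidHom.comp
      (AddMonoidHom.inl (Additive (KS S L)ˣ) (DivS S L)))).index ≠ 0 ∧
    ∀ u ∈ unitIdeleAdd S L, clsMk S L (u, 0) = 0 →
      ∃ ε : (𝓞 L)ˣ, diagS S L (Units.map (algebraMap (𝓞 L) L : 𝓞 L →* L) ε) = Additive.toMul u

/-- **(FI) first inequality**: `h(H, C_L) = p` for `|H| = p` odd
(no ramification hypothesis). -/
def FirstIneqS : Prop :=
  ∀ (p : ℕ) (S : Finset Nat.Primes) (L : Type) [Field L] [NumberField L]
    (H : Subgroup (AutQ L)),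
    p.Prime → p ≠ 2 → Nat.card H = p → ∀ σ ∈ H, σ ≠ 1 →
    H25Herb.h1 (clsD S L σ) (clsN S L H) ≠ 0 ∧
    H25Herb.h0 (clsD S L σ) (clsN S L H) = p * H25Herb.h1 (clsD S L σ) (clsN S L H)

/-- **(SI-A) second inequality on `A_L`**: for `|H| = p`, `H` unramified outside `S`:
`[A_L^H : Fˣ · N_H A_L] ≤ p` (finite), in the form: there are at most `p` classes of
`H`-invariant elements of `A_L` modulo `princ + N_H A_L`. -/
def SecondIneqAmb : Prop :=
  ∀ (p : ℕ) (S : Finset Nat.Primes) (L : Type) [Field L] [NumberField L]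
    (H : Subgroup (AutQ L)),
    p.Prime → Nat.card H = p → UnramOutside S L H → ∀ σ ∈ H, σ ≠ 1 →
    ((ambN S L H).range ⊔ (princS S L).toAddSubgroup).relIndex (ambD S L σ).ker ≠ 0 ∧
    ((ambN S L H).range ⊔ (princS S L).toAddSubgroup).relIndex (ambD S L σ).ker ≤ p

/-- **(SI) second inequality**: `[C_L^H : N_H C_L] ≤ p` for `|H| = p`, `H` unramified outside `S`. -/
def SecondIneqS : Prop :=
  ∀ (p : ℕ) (S : Finset Nat.Primes) (L : Type) [Field L] [NumberField L]
    (H : Subgroup (AutQ L)),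
    p.Prime → Nat.card H = p → UnramOutside S L H → ∀ σ ∈ H, σ ≠ 1 →
    H25Herb.h0 (clsD S L σ) (clsN S L H) ≠ 0 ∧ H25Herb.h0 (clsD S L σ) (clsN S L H) ≤ p

/-- **(CYC) the cyclic case**: for `|H| = p` odd, `H` unramified outside `S`:
`H¹(H, C_L) = 0` and `|H²(H, C_L)| = p`. -/
def CyclicClass : Prop :=
  ∀ (p : ℕ) (S : Finset Nat.Primes) (L : Type) [Field L] [NumberField L]
    (H : Subgroup (AutQ L)),
    p.Prime → p ≠ 2 → Nat.card H = p → UnramOutside S L H →
    Limits.IsZero (groupCohomology (H20A.resSub (clsObj S ℚ L) H) 1) ∧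
    Nat.card (groupCohomology (H20A.resSub (clsObj S ℚ L) H) 2) = p

/-- **(CM) the class module, upper bounds**: for a `p`-subgroup `H ≤ Aut(L)` unramified outside
`S` (`p` odd): `H¹(H, C_L) = 0` and `|H²(H, C_L)|` is finite and `≤ |H|`. -/
def ClassModuleLe : Prop :=
  ∀ (p : ℕ) (S : Finset Nat.Primes) (L : Type) [Field L] [NumberField L]
    (H : Subgroup (AutQ L)),
    p.Prime → p ≠ 2 → IsPGroup p H → UnramOutside S L H →
    Limits.IsZero (groupCohomology (H20A.resSub (clsObj S ℚ L) H) 1) ∧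
    Finite (groupCohomology (H20A.resSub (clsObj S ℚ L) H) 2) ∧
    Nat.card (groupCohomology (H20A.resSub (clsObj S ℚ L) H) 2) ≤ Nat.card H

/-- **(FC) the fundamental class**: for `L/ℚ` Galois, unramified outside `S`, `p ∈ S` odd, the
`Gal(L/ℚ)`-module `C_L` is a `p`-class module. -/
def FundamentalClass : Prop :=
  ∀ (p : ℕ) (S : Finset Nat.Primes) (L : Type) [Field L] [NumberField L] [IsGalois ℚ L],
    p.Prime → p ≠ 2 → (∃ q ∈ S, (q : ℕ) = p) → UnramOutside S L ⊤ →
    ∃ γ : groupCohomology (clsObj S ℚ L) 2, H20A.IsPClassModule p (clsObj S ℚ L) γ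

end slices

end H17C
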