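/-
W2-C (S55) block C-finite, slice SI-A (helper17), part 1: divisors of ideals, pull-back of divisors.
-/
import Fermat.Agent.CFT2.C.Slices_helper17

set_option autoImplicit false
set_option linter.unusedSectionVars false
set_option linter.unusedVariables false
set_option linter.style.haveILetI false

noncomputable section

namespace H17SI

open H17C NumberField IsDedekindDomain
open scoped Pointwise WithZero nonZeroDivisors

variable (S : Finset Nat.Primes)

section ideals

variable (K : Type) [Field K] [NumberField K]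

/-- the exponent of `P` in the ideal `I` -/
def idlCount (I : Ideal (𝓞 K)) (P : PrimesS S K) : ℤ :=
  FractionalIdeal.count K P.toHOS (I : FractionalIdeal (𝓞 K)⁰ K)

theorem h17si_idlCount_finite (I : Ideal (𝓞 K)) : {P : PrimesS S K | idlCount S K I P ≠ 0}.Finite := by
  have h := FractionalIdeal.finite_factors (K := K) (I : FractionalIdeal (𝓞 K)⁰ K)
  rw [Filter.eventually_cofinite] at h
  refine Set.Finite.subset (h.preimage (PrimesS.toHOS_injective (S := S) (K := K)).injOn) ?_
  intro P hP
  exact hP

/-- the divisor (prime to `S`) of an ideal -/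
def idlDivFun (I : Ideal (𝓞 K)) : DivS S K :=
  Finsupp.ofSupportFinite (idlCount S K I) (h17si_idlCount_finite S K I)

theorem h17si_idlDivFun_apply (I : Ideal (𝓞 K)) (P : PrimesS S K) :
    idlDivFun S K I P = idlCount S K I P := rfl

theorem h17si_idlDivFun_mul {I J : Ideal (𝓞 K)} (hI : I ≠ ⊥) (hJ : J ≠ ⊥) :
    idlDivFun S K (I * J) = idlDivFun S K I + idlDivFun S K J := by
  ext P
  rw [Finsupp.add_apply, h17si_idlDivFun_apply, h17si_idlDivFun_apply, h17si_idlDivFun_apply]
  unfold idlCount
  rw [FractionalIdeal.coeIdeal_mul]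
  exact FractionalIdeal.count_mul K P.toHOS
    (by simpa using hI) (by simpa using hJ)

theorem h17si_idlDivFun_one : idlDivFun S K (1 : Ideal (𝓞 K)) = 0 := by
  ext P
  rw [h17si_idlDivFun_apply]
  unfold idlCount
  rw [Ideal.one_eq_top, FractionalIdeal.coeIdeal_top]
  exact FractionalIdeal.count_one K P.toHOS

theorem h17si_idlDivFun_prime (P : PrimesS S K) :
    idlDivFun S K P.1 = Finsupp.single P 1 := by
  classical
  ext Q
  rw [h17si_idlDivFun_apply]
  unfold idlCount
  by_cases h : Q = P
  · subst h
    rw [Finsupp.single_eq_same]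
    exact FractionalIdeal.count_self K Q.toHOS
  · rw [Finsupp.single_eq_of_ne (by exact h)]
    have h' : P.toHOS ≠ Q.toHOS := fun e => h (PrimesS.toHOS_injective e).symm
    exact FractionalIdeal.count_maximal_coprime K Q.toHOS h'

theorem h17si_idlDivFun_pow {I : Ideal (𝓞 K)} (hI : I ≠ ⊥) (n : ℕ) :
    idlDivFun S K (I ^ n) = n • idlDivFun S K I := by
  induction n with
  | zero => simpa using h17si_idlDivFun_one S K
  | succ n ih =>
    rw [pow_succ, h17si_idlDivFun_mul S K (pow_ne_zero n hI) hI, ih, succ_nsmul]

/-- `div (a) = div a` -/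
theorem h17si_idlDivFun_span (a : 𝓞 K) (ha : a ≠ 0) (x : Kˣ) (hx : (x : K) = (a : K)) :
    idlDivFun S K (Ideal.span {a}) = divS S K (Additive.ofMul x) := by
  classical
  ext P
  rw [h17si_idlDivFun_apply, divS_apply]
  unfold idlCount ordP
  have hsp : (Ideal.span {a} : Ideal (𝓞 K)) ≠ 0 := by
    simpa using ha
  rw [FractionalIdeal.count_coe K P.toHOS hsp]
  change _ = - WithZero.log (P.toHOS.valuation K (x : K))
  rw [hx]
  change _ = - WithZero.log (P.toHOS.valuation K (algebraMap (𝓞 K) K a))
  rw [HeightOneSpectrum.valuation_of_algebraMap, HeightOneSpectrum.intValuation_if_neg _ ha,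
    WithZero.log_exp]
  simp

end ideals

end H17SI
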