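/-
W2-C (S55) block C-finite, slice SI-A (helper17), part 2: pull-back of divisors, effective divisors.
-/
import Fermat.Agent.CFT2.C.SIPrep1_helper17

set_option autoImplicit false
set_option linter.unusedSectionVars false
set_option linter.unusedVariables false
set_option linter.style.haveILetI false

noncomputable section

namespace H17SI

open H17C NumberField IsDedekindDomain
open scoped Pointwise WithZero nonZeroDivisors

variable (S : Finset Nat.Primes)

section pull

variable (K L : Type) [Field K] [NumberField K] [Field L] [NumberField L] [Algebra K L]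

theorem h17si_under_fiber_finite (P : PrimesS S K) :
    {Q : PrimesS S L | PrimesS.under S K L Q = P}.Finite := by
  haveI : P.1.IsPrime := P.2.1
  haveI : P.1.IsMaximal := Ideal.IsPrime.isMaximal P.2.1 P.2.2.1
  have hfin := IsDedekindDomain.primesOver_finite P.1 (𝓞 L)
  have hinj : Function.Injective (fun Q : PrimesS S L => Q.1) := fun _ _ h => Subtype.ext h
  refine Set.Finite.subset (hfin.preimage hinj.injOn) ?_
  intro Q hQ
  simp only [Set.mem_ofPred_eq] at hQ
  simp only [Set.mem_preimage]
  refine ⟨Q.2.1, ⟨?_⟩⟩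
  have := congrArg Subtype.val hQ
  exact this.symm

theorem h17si_pull_finite (c : DivS S K) :
    {Q : PrimesS S L | divBaseFun S K L c Q ≠ 0}.Finite := by
  classical
  have h : {Q : PrimesS S L | divBaseFun S K L c Q ≠ 0} ⊆
      ⋃ P ∈ c.support, {Q : PrimesS S L | PrimesS.under S K L Q = P} := by
    intro Q hQ
    simp only [Set.mem_ofPred_eq, divBaseFun] at hQ
    simp only [Set.mem_iUnion, Set.mem_ofPred_eq]
    exact ⟨PrimesS.under S K L Q, Finsupp.mem_support_iff.mpr hQ, rfl⟩
  refine Set.Finite.subset ?_ h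
  exact Set.Finite.biUnion c.support.finite_toSet (fun P _ => h17si_under_fiber_finite S K L P)

/-- pull-back of divisors `Div_S(K) → Div_S(L)` -/
def pullDiv : DivS S K →+ DivS S L where
  toFun c := Finsupp.ofSupportFinite (divBaseFun S K L c) (h17si_pull_finite S K L c)
  map_zero' := by
    ext Q
    rfl
  map_add' c c' := by
    ext Q
    rfl

theorem h17si_pullDiv_apply (c : DivS S K) (Q : PrimesS S L) :
    pullDiv S K L c Q = c (PrimesS.under S K L Q) := rfl

end pull

section eff

variable (K : Type) [Field K] [NumberField K]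

/-- the ideal `∏ P^{c_P}` of an effective divisor -/
def effIdeal (c : PrimesS S K →₀ ℕ) : Ideal (𝓞 K) := c.prod (fun P n => P.1 ^ n)

theorem h17si_effIdeal_ne_bot (c : PrimesS S K →₀ ℕ) : effIdeal S K c ≠ ⊥ := by
  unfold effIdeal Finsupp.prod
  change _ ≠ (0 : Ideal (𝓞 K))
  rw [Finset.prod_ne_zero_iff]
  intro P _
  exact pow_ne_zero _ P.2.2.1

/-- the `ℤ`-valued divisor of an `ℕ`-valued one -/
def toIntDiv (c : PrimesS S K →₀ ℕ) : DivS S K := c.mapRange (fun n : ℕ => (n : ℤ)) rfl

theorem h17si_toIntDiv_apply (c : PrimesS S K →₀ ℕ) (P : PrimesS S K) :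
    toIntDiv S K c P = (c P : ℤ) := rfl

theorem h17si_idlDivFun_effIdeal (c : PrimesS S K →₀ ℕ) :
    idlDivFun S K (effIdeal S K c) = toIntDiv S K c := by
  classical
  induction c using Finsupp.induction with
  | zero =>
    have : effIdeal S K 0 = 1 := by simp [effIdeal]
    rw [this, h17si_idlDivFun_one]
    ext P
    simp [h17si_toIntDiv_apply]
  | single_add P n c hP hn ih =>
    have e : effIdeal S K (Finsupp.single P n + c) = P.1 ^ n * effIdeal S K c := by
      unfold effIdeal
      rw [Finsupp.prod_add_index' (by intro; simp) (by intro a b₁ b₂; exact pow_add _ _ _),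
        Finsupp.prod_single_index (by simp)]
    rw [e, h17si_idlDivFun_mul S K (pow_ne_zero n P.2.2.1) (h17si_effIdeal_ne_bot S K c), ih,
      h17si_idlDivFun_pow S K P.2.2.1, h17si_idlDivFun_prime]
    ext Q
    simp only [Finsupp.add_apply, Finsupp.smul_apply, h17si_toIntDiv_apply]
    by_cases h : Q = P
    · subst h
      simp
    · rw [Finsupp.single_eq_of_ne (by exact h), Finsupp.single_eq_of_ne (by exact h)]
      simp

/-- a prime outside `S` does not contain an integer supported on `S` -/
theorem h17si_notMem_of_supported (P : PrimesS S K) (m : ℕ) (hm0 : m ≠ 0)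
    (hm : ∀ r : ℕ, r.Prime → r ∣ m → ∃ q ∈ S, (q : ℕ) = r) :
    ((m : ℤ) : 𝓞 K) ∉ P.1 := by
  haveI : P.1.IsPrime := P.2.1
  induction m using Nat.strong_induction_on with
  | _ m ih =>
    intro hmem
    by_cases h1 : m = 1
    · subst h1
      apply (Ideal.IsPrime.ne_top ‹P.1.IsPrime›)
      rw [Ideal.eq_top_iff_one]
      simpa using hmem
    · have hr : (Nat.minFac m).Prime := Nat.minFac_prime h1
      obtain ⟨m', hm'⟩ := Nat.minFac_dvd m
      have hm'0 : m' ≠ 0 := by
        rintro rfl
        simp at hm'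
        exact hm0 hm'
      have hlt : m' < m := by
        have h2 : 2 ≤ Nat.minFac m := hr.two_le
        have hpos : 0 < m' := Nat.pos_of_ne_zero hm'0
        nlinarith
      have hcast : ((m : ℤ) : 𝓞 K) = ((Nat.minFac m : ℤ) : 𝓞 K) * ((m' : ℤ) : 𝓞 K) := by
        conv_lhs => rw [hm']
        push_cast
        ring
      rw [hcast] at hmem
      rcases Ideal.IsPrime.mem_or_mem ‹P.1.IsPrime› hmem with h | h
      · obtain ⟨q, hq, hqr⟩ := hm _ hr (Nat.minFac_dvd m)
        apply P.2.2.2 q hq
        rw [hqr]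
        exact h
      · exact ih m' hlt hm'0 (fun r hr' hdvd => hm r hr' (hdvd.trans ⟨Nat.minFac m, by rw [mul_comm]; exact hm'⟩)) h

/-- an effective divisor prime to `S` is coprime to every integer supported on `S` -/
theorem h17si_effIdeal_coprime (c : PrimesS S K →₀ ℕ) (m : ℕ) (hm0 : m ≠ 0)
    (hm : ∀ r : ℕ, r.Prime → r ∣ m → ∃ q ∈ S, (q : ℕ) = r) :
    IsCoprime (effIdeal S K c) (Ideal.span {((m : ℤ) : 𝓞 K)}) := by
  classical
  unfold effIdeal Finsupp.prod
  apply IsCoprime.prod_left
  intro P _
  apply IsCoprime.pow_left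
  haveI : P.1.IsPrime := P.2.1
  have hmax : P.1.IsMaximal := Ideal.IsPrime.isMaximal P.2.1 P.2.2.1
  rw [Ideal.isCoprime_iff_sup_eq]
  by_contra hne
  have heq : P.1 = P.1 ⊔ Ideal.span {((m : ℤ) : 𝓞 K)} := hmax.eq_of_le hne le_sup_left
  have hle : Ideal.span {((m : ℤ) : 𝓞 K)} ≤ P.1 := by
    rw [heq]
    exact le_sup_right
  exact h17si_notMem_of_supported S K P m hm0 hm (hle (Ideal.subset_span rfl))

end eff

end H17SI
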