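/-
W2-C (S55) block C-finite (helper17, architect): INTERFACE, part 4 — additional slices.
-/
import Fermat.Agent.CFT2.C.Slices_helper17
import Fermat.Agent.CFT2.C.SIPrep2_helper17

set_option autoImplicit false

noncomputable section

namespace H17C

open NumberField

/-- **(CU) congruence units**: `1 + m_S Λ_K ⊆ Λ_Kˣ` (`Λ_K` is `m_S`-adically complete: geometric
series). -/
def CongUnit : Prop :=
  ∀ (S : Finset Nat.Primes) (K : Type) [Field K] [NumberField K], ∀ y ∈ latS S K,
    ∃ y' ∈ latS S K, (1 + (mS S : KS S K) * y) * y' = 1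

/-- **(POW') powers are open**, preferred form: for `n ≠ 0` there is `k` with
`1 + m_S^k Λ_K ⊆ (U_K)ⁿ`.  (Implies `PowOpenS` with `N = m_S ^ k`.) -/
def PowOpenS' : Prop :=
  ∀ (S : Finset Nat.Primes) (K : Type) [Field K] [NumberField K] (n : ℕ), n ≠ 0 →
    ∃ k : ℕ, ∀ u ∈ congIdele S K (mS S ^ k), ∃ v ∈ unitIdele S K, v ^ n = u

section base

variable (S : Finset Nat.Primes)
  (K L : Type) [Field K] [NumberField K] [Field L] [NumberField L] [Algebra K L]

/-- base change `A_K → A_L`, `(u, c) ↦ (u_L, pull-back of c)` (the right map when `L/K` is unramified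
outside `S`) -/
def ambBase : AmbS S K →+ AmbS S L :=
  AddMonoidHom.prodMap (MonoidHom.toAdditive (ideleBase S K L)) (H17SI.pullDiv S K L)

theorem ambBase_apply (z : AmbS S K) :
    ambBase S K L z = (Additive.ofMul (ideleBase S K L (Additive.toMul z.1)),
      H17SI.pullDiv S K L z.2) := rfl

end base

/-- **(DESC-C) descent for the class group**: for `N ≤ Aut(L)` unramified outside `S`,
`F = L^N`:  `C_F → C_L` is well defined, injective, and its image is `(C_L)^N`. -/
def DescCls : Prop :=
  ∀ (S : Finset Nat.Primes) (L : Type) [Field L] [NumberField L] (N : Subgroup (AutQ L)),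
    UnramOutside S L N →
    (∀ z ∈ princS S (IntermediateField.fixedField N),
      ambBase S (IntermediateField.fixedField N) L z ∈ princS S L) ∧
    (∀ z : AmbS S (IntermediateField.fixedField N),
      ambBase S (IntermediateField.fixedField N) L z ∈ princS S L →
        z ∈ princS S (IntermediateField.fixedField N)) ∧
    (∀ z : AmbS S L, (∀ h ∈ N, clsRep S ℚ L h (clsMk S L z) = clsMk S L z) →
      ∃ w : AmbS S (IntermediateField.fixedField N),
        clsMk S L (ambBase S (IntermediateField.fixedField N) L w) = clsMk S L z)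

end H17C
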