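/-
W2-C (S55) block C-finite (helper17, architect): INTERFACE, part 5 — CORRECTED wave-2 slices
(`S.Nonempty` added: for `S = ∅` the algebra `ℚ_S` is the zero ring and `C_L = Cl(L)`, so
`FirstIneqS`, `SecondIneqS`, `CyclicClass`, `ClassModuleLe`, `DescCls` of `Slices*_helper17.lean` are
false as stated; found by helper22) and the pure group cohomology slice GEN.
The owners of FI, SI, CYC, CM prove the `…NE` forms below.
-/
import Fermat.Agent.CFT2.C.Slices2_helper17

set_option autoImplicit false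
set_option linter.unusedSectionVars false
set_option linter.unusedVariables false

noncomputable section

namespace H17C

open NumberField CategoryTheory

/-- **(FI) first inequality**, corrected: `h(H, C_L) = p` for `|H| = p` odd, `S ≠ ∅`. -/
def FirstIneqNE : Prop :=
  ∀ (p : ℕ) (S : Finset Nat.Primes) (L : Type) [Field L] [NumberField L]
    (H : Subgroup (AutQ L)),
    S.Nonempty → p.Prime → p ≠ 2 → Nat.card H = p → ∀ σ ∈ H, σ ≠ 1 →
    H25Herb.h1 (clsD S L σ) (clsN S L H) ≠ 0 ∧
    H25Herb.h0 (clsD S L σ) (clsN S L H) = p * H25Herb.h1 (clsD S L σ) (clsN S L H)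

/-- **(SI) second inequality**, corrected: `[C_L^H : N_H C_L] ≤ p` for `|H| = p`, `H` unramified
outside `S ≠ ∅`. -/
def SecondIneqNE : Prop :=
  ∀ (p : ℕ) (S : Finset Nat.Primes) (L : Type) [Field L] [NumberField L]
    (H : Subgroup (AutQ L)),
    S.Nonempty → p.Prime → Nat.card H = p → UnramOutside S L H → ∀ σ ∈ H, σ ≠ 1 →
    H25Herb.h0 (clsD S L σ) (clsN S L H) ≠ 0 ∧ H25Herb.h0 (clsD S L σ) (clsN S L H) ≤ p

/-- **(CYC) the cyclic case**, corrected: for `|H| = p` odd, `H` unramified outside `S ≠ ∅`: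
`H¹(H, C_L) = 0` and `|H²(H, C_L)| = p`. -/
def CyclicClassNE : Prop :=
  ∀ (p : ℕ) (S : Finset Nat.Primes) (L : Type) [Field L] [NumberField L]
    (H : Subgroup (AutQ L)),
    S.Nonempty → p.Prime → p ≠ 2 → Nat.card H = p → UnramOutside S L H →
    Limits.IsZero (groupCohomology (H20A.resSub (clsObj S ℚ L) H) 1) ∧
    Nat.card (groupCohomology (H20A.resSub (clsObj S ℚ L) H) 2) = p

/-- **(CM) the class module, upper bounds**, corrected: for a `p`-subgroup `H ≤ Aut(L)` unramified
outside `S ≠ ∅` (`p` odd): `H¹(H, C_L) = 0` and `|H²(H, C_L)|` is finite and `≤ |H|`. -/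
def ClassModuleNE : Prop :=
  ∀ (p : ℕ) (S : Finset Nat.Primes) (L : Type) [Field L] [NumberField L]
    (H : Subgroup (AutQ L)),
    S.Nonempty → p.Prime → p ≠ 2 → IsPGroup p H → UnramOutside S L H →
    Limits.IsZero (groupCohomology (H20A.resSub (clsObj S ℚ L) H) 1) ∧
    Finite (groupCohomology (H20A.resSub (clsObj S ℚ L) H) 2) ∧
    Nat.card (groupCohomology (H20A.resSub (clsObj S ℚ L) H) 2) ≤ Nat.card H

/-- **(GEN)** pure group cohomology (uses AR1 `H20A.IndexKillsCohStatement`, landed by helper26, and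
Sylow): if `H¹(H, C) = 0` and `|H²(H, C)| ≤ |H|` for all `p`-subgroups `H`, and the restriction of
`γ ∈ H²(G, C)` to every Sylow `p`-subgroup `P` has order divisible by `|P|`, then `(C, γ)` is a
`p`-class module.  (If `m • res_H γ = 0` then `[G:H]·m • γ = 0`, so `|P|` divides `[G:H]·m` for a Sylow
`P ≥ H`, so `|H|` divides `m`; hence `res_H γ` has order `≥ |H| ≥ |H²(H, C)|`.) -/
def GenStatement (G : Type) [Group G] [Finite G] : Prop :=
  ∀ (p : ℕ) [Fact p.Prime] (C : Rep ℤ G) (γ : groupCohomology C 2),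
    (∀ H : Subgroup G, IsPGroup p H → Limits.IsZero (groupCohomology (H20A.resSub C H) 1)) →
    (∀ H : Subgroup G, IsPGroup p H → Finite (groupCohomology (H20A.resSub C H) 2) ∧
      Nat.card (groupCohomology (H20A.resSub C H) 2) ≤ Nat.card H) →
    (∀ (P : Sylow p G) (k : ℕ), k • H20A.resCoh C (P : Subgroup G) 2 γ = 0 → Nat.card P ∣ k) →
    H20A.IsPClassModule p C γ

end H17C
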