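/-
W2-C (S55) block C-finite (helper17, architect): INTERFACE, part 6 — the PURE ALGEBRA slices of the
fundamental class (FC) and of the transport:  CYC-COC, ABS-FC, PCM-EMB.
Paper proofs: NOTES/W2C-C-FC.md.  Nothing here is proved by a placeholder.
-/
import Fermat.Agent.CFT2.C.Slices3_helper17

set_option autoImplicit false
set_option linter.unusedSectionVars false
set_option linter.unusedVariables false

noncomputable section

namespace H17C

open CategoryTheory groupCohomology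

section defs

variable {G : Type} [Group G] [Finite G]

/-- the relative norm (transfer) `∑_{x ∈ G/N} x • w` on the representatives `Quotient.out`;
for an `N`-invariant `w` it does not depend on the representatives -/
def relNorm {V : Type} [AddCommGroup V] {mV : Module ℤ V}
    (ρ : @Representation ℤ G V _ _ _ mV) (N : Subgroup G) (w : V) : V :=
  letI : Fintype (G ⧸ N) := Fintype.ofFinite _
  ∑ q : G ⧸ N, ρ (Quotient.out q) w

/-- the norm of a subgroup `∑_{n ∈ N} n • x` -/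
def subNorm {V : Type} [AddCommGroup V] {mV : Module ℤ V}
    (ρ : @Representation ℤ G V _ _ _ mV) (N : Subgroup G) (x : V) : V :=
  letI : Fintype N := Fintype.ofFinite _
  ∑ n : N, ρ (n : G) x

/-- the least exponent `i` with `σ ^ i = g` (`0` if there is none) -/
def cycIdx (σ g : G) : ℕ :=
  open Classical in if h : ∃ i : ℕ, σ ^ i = g then Nat.find h else 0

/-- the standard 2-cochain of a cyclic group `G = ⟨σ⟩` of order `n` attached to `c`:
`(σ^i, σ^j) ↦ c` if `i + j ≥ n`, `↦ 0` otherwise (`0 ≤ i, j < n`) -/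
def stdCocFun (σ : G) {V : Type} [AddCommGroup V] (c : V) : G × G → V :=
  fun gh => if Nat.card G ≤ cycIdx σ gh.1 + cycIdx σ gh.2 then c else 0

end defs

/-- **(CYC-COC)**: for a cyclic group `G = ⟨σ⟩` and a `G`-invariant `c`, the standard cochain is a
2-cocycle, and its class vanishes iff `c` is a norm.
(cocycle: `⌊(i+j)/n⌋ = (i + j - ((i+j) mod n))/n` is a coboundary over `ℚ`; `c = N d` ⇒ coboundary of
`σ^i ↦ ∑_{l<i} σ^l d`; coboundary of `b` ⇒ `c = N (b σ)`, summing the relation over `(σ^i, σ)`.) -/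
def CycCocStatement (G : Type) [Group G] [Finite G] : Prop :=
  ∀ (C : Rep ℤ G) (σ : G), (∀ x : G, x ∈ Subgroup.zpowers σ) →
    ∀ c : C.V, (∀ g, C.ρ g c = c) →
    ∃ h : stdCocFun σ c ∈ cocycles₂ C,
      ((H2π C).hom ⟨stdCocFun σ c, h⟩ = 0 ↔ ∃ d : C.V, subNorm C.ρ ⊤ d = c)

/-- **(ABS-FC)** the abstract fundamental class ("ugly lemma" + order), pure group cohomology.
`Γ = Gal(Ω/ℚ)`, `C = C_Ω`, `N_L = Gal(Ω/L)`, `N_M = Gal(Ω/ℚ_M)` with `Γ/N_M` cyclic of order `p^M`,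
`N_L ∩ N_M = 1`, `[L:ℚ] = p^a m'`, `a ≤ M`.  Hypotheses: `H¹(H, C) = 0` for the `p`-subgroups;
`c₀ ∈ C^Γ` has order `≥ p^M` modulo the norms from `C^{N_M}`; `p^{M-a} c₀` is a norm from `N_L`.
Conclusion: a class `γ ∈ H²(Γ/N_L, C^{N_L})` whose restriction to every Sylow `p`-subgroup `P` has
order divisible by `|P|`. -/
def AbsFCStatement (Γ : Type) [Group Γ] [Finite Γ] : Prop :=
  ∀ (p : ℕ) [Fact p.Prime] (C : Rep ℤ Γ) (NL NM : Subgroup Γ) [NL.Normal] [NM.Normal]
    (M a m' : ℕ),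
    NL ⊓ NM = ⊥ → IsCyclic (Γ ⧸ NM) → Nat.card (Γ ⧸ NM) = p ^ M →
    a ≤ M → ¬ p ∣ m' → Nat.card (Γ ⧸ NL) = p ^ a * m' →
    (∀ H : Subgroup Γ, IsPGroup p H →
      Limits.IsZero (groupCohomology (H20A.resSub C H) 1)) →
    ∀ c₀ : C.V, (∀ g, C.ρ g c₀ = c₀) →
    (∀ k : ℕ, (∃ w : C.V, (∀ n ∈ NM, C.ρ n w = w) ∧ k • c₀ = relNorm C.ρ NM w) → p ^ M ∣ k) →
    (∃ x : C.V, p ^ (M - a) • c₀ = subNorm C.ρ NL x) →
    ∃ γ : groupCohomology (C.quotientToInvariants NL) 2,
      ∀ (P : Sylow p (Γ ⧸ NL)) (k : ℕ),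
        k • H20A.resCoh (C.quotientToInvariants NL) (P : Subgroup (Γ ⧸ NL)) 2 γ = 0 →
        Nat.card P ∣ k

/-- **(PCM-EMB)** transport of a `p`-class module along an isomorphism of groups `e : G ≃* G'` and
an injective `e`-equivariant map `j : B → C` whose image has finite index prime to `p`
(= PCM-SUB + PCM-ISO).  [`H^i(H, C/B) = 0` for `p`-groups `H`, `i ≥ 0` (Tate), so `H^i(H, B) ≅ H^i(H, C)`,
`i = 1, 2`; and `m γ` comes from `β ∈ H²(G, B)`, `m = [C : B]`.] -/
def PcmEmbStatement (G G' : Type) [Group G] [Finite G] [Group G'] [Finite G'] : Prop :=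
  ∀ (p : ℕ) [Fact p.Prime] (e : G ≃* G') (B : Rep ℤ G) (C : Rep ℤ G') (j : B.V →+ C.V),
    Function.Injective j → (∀ g b, j (B.ρ g b) = C.ρ (e g) (j b)) →
    j.range.index ≠ 0 → ¬ p ∣ j.range.index →
    (∃ γ : groupCohomology C 2, H20A.IsPClassModule p C γ) →
    ∃ β : groupCohomology B 2, H20A.IsPClassModule p B β

/-- **(SYL-EMB)** transport of the hypothesis of GEN along an isomorphism of pairs
`e : G ≃* G'`, `j : B ≃ C` (`e`-equivariant). -/
def SylIsoStatement (G G' : Type) [Group G] [Finite G] [Group G'] [Finite G'] : Prop :=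
  ∀ (p : ℕ) [Fact p.Prime] (e : G ≃* G') (B : Rep ℤ G) (C : Rep ℤ G') (j : B.V ≃+ C.V),
    (∀ g b, j (B.ρ g b) = C.ρ (e g) (j b)) →
    (∃ γ : groupCohomology B 2, ∀ (P : Sylow p G) (k : ℕ),
      k • H20A.resCoh B (P : Subgroup G) 2 γ = 0 → Nat.card P ∣ k) →
    ∃ γ : groupCohomology C 2, ∀ (P : Sylow p G') (k : ℕ),
      k • H20A.resCoh C (P : Subgroup G') 2 γ = 0 → Nat.card P ∣ k

end H17C
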