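/-
W2-C (S55) block C-finite, slice ABS-FC (helper20), part 1: `cycIdx`, `stdCocFun` and the cyclic
group theory.
-/
import Fermat.Agent.CFT2.C.Slices4_helper17

set_option autoImplicit false
set_option linter.style.haveILetI false

noncomputable section

namespace H20FC

open H17C

section idx

variable {G : Type} [Group G]

/-- `cycIdx σ (σ ^ e) = e` for `e < orderOf σ` -/
theorem h20fc_cycIdx_pow (σ : G) (e : ℕ) (he : e < orderOf σ) : cycIdx σ (σ ^ e) = e := by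
  classical
  have h : ∃ i : ℕ, σ ^ i = σ ^ e := ⟨e, rfl⟩
  have h1 : cycIdx σ (σ ^ e) = Nat.find h := by
    unfold cycIdx
    rw [dif_pos h]
  rw [h1]
  have h2 : Nat.find h ≤ e := Nat.find_min' h rfl
  have h3 : σ ^ Nat.find h = σ ^ e := Nat.find_spec h
  have h4 : Nat.find h < orderOf σ := lt_of_le_of_lt h2 he
  exact pow_injOn_Iio_orderOf (Set.mem_Iio.2 h4) (Set.mem_Iio.2 he) h3

variable [Finite G]

/-- for a generator `σ`: `σ ^ cycIdx σ g = g` and `cycIdx σ g < |G|` -/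
theorem h20fc_cycIdx_spec (σ : G) (hσ : ∀ x : G, x ∈ Subgroup.zpowers σ) (g : G) :
    σ ^ cycIdx σ g = g ∧ cycIdx σ g < Nat.card G := by
  classical
  have hord : orderOf σ = Nat.card G := orderOf_eq_card_of_forall_mem_zpowers hσ
  have hpos : 0 < orderOf σ := by rw [hord]; exact Nat.card_pos
  obtain ⟨k, hk⟩ := Subgroup.mem_zpowers_iff.1 (hσ g)
  have hk' : σ ^ (k % (orderOf σ : ℤ)).toNat = g := by
    rw [← hk, ← zpow_natCast, Int.toNat_of_nonneg (Int.emod_nonneg _ (by exact_mod_cast hpos.ne')),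
      zpow_mod_orderOf]
  have hlt : (k % (orderOf σ : ℤ)).toNat < orderOf σ := by
    have := Int.emod_lt_of_pos k (by exact_mod_cast hpos : (0 : ℤ) < orderOf σ)
    omega
  rw [← hk', h20fc_cycIdx_pow σ _ hlt, ← hord]
  exact ⟨rfl, hlt⟩

omit [Finite G] in
/-- scalar multiples of the standard cochain -/
theorem h20fc_std_smul (σ : G) {V : Type} [AddCommGroup V] (c : V) (j : ℕ) (gh : G × G) :
    stdCocFun σ (j • c) gh = j • stdCocFun σ c gh := by
  unfold stdCocFun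
  split_ifs
  · rfl
  · rw [smul_zero]

end idx

section cyclic

variable {Γ : Type} [Group Γ] [Finite Γ]

/-- in a cyclic group with generator `σ` of order `p ^ M`, an injective homomorphism from a group
of order `p ^ b` hits `σ ^ (p ^ (M - b))` -/
theorem h20fc_mem_range {Z N : Type} [Group Z] [Finite Z] [Group N] [Finite N] (p M b : ℕ)
    (hp : p.Prime) (hb : b ≤ M) (σ : Z) (hσ : ∀ x : Z, x ∈ Subgroup.zpowers σ)
    (hZ : Nat.card Z = p ^ M) (hN : Nat.card N = p ^ b) (φ : N →* Z)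
    (hφ : Function.Injective φ) : ∃ τ : N, φ τ = σ ^ (p ^ (M - b)) := by
  classical
  haveI : IsCyclic Z := ⟨σ, hσ⟩
  letI : Fintype Z := Fintype.ofFinite Z
  letI : Fintype N := Fintype.ofFinite N
  have hpos : 0 < p ^ b := pow_pos hp.pos b
  have hle := IsCyclic.card_pow_eq_one_le (α := Z) hpos
  have hsub : Finset.image φ Finset.univ ⊆ Finset.univ.filter (fun a : Z => a ^ (p ^ b) = 1) := by
    intro z hz
    obtain ⟨n, -, rfl⟩ := Finset.mem_image.1 hz
    rw [Finset.mem_filter]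
    refine ⟨Finset.mem_univ _, ?_⟩
    rw [← map_pow, ← hN, pow_card_eq_one', map_one]
  have hcard : (Finset.image φ Finset.univ).card = p ^ b := by
    rw [Finset.card_image_of_injective _ hφ, Finset.card_univ, ← Nat.card_eq_fintype_card, hN]
  have heq := Finset.eq_of_subset_of_card_le hsub (by rw [hcard]; exact hle)
  have hmem : σ ^ (p ^ (M - b)) ∈ Finset.univ.filter (fun a : Z => a ^ (p ^ b) = 1) := by
    rw [Finset.mem_filter]
    refine ⟨Finset.mem_univ _, ?_⟩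
    rw [← pow_mul, ← pow_add, Nat.sub_add_cancel hb, ← hZ, pow_card_eq_one']
  rw [← heq] at hmem
  obtain ⟨τ, -, hτ⟩ := Finset.mem_image.1 hmem
  exact ⟨τ, hτ⟩

/-- the generator `τ` of `N_L` adapted to the generator `σ` of `Γ/N_M` -/
theorem h20fc_exists_tau (p M : ℕ) (hp : p.Prime) (NL NM : Subgroup Γ) [NM.Normal]
    (hint : NL ⊓ NM = ⊥) (σ : Γ ⧸ NM) (hσ : ∀ x : Γ ⧸ NM, x ∈ Subgroup.zpowers σ)
    (hZ : Nat.card (Γ ⧸ NM) = p ^ M) :
    ∃ (b : ℕ) (τ : NL), b ≤ M ∧ Nat.card NL = p ^ b ∧ (∀ x : NL, x ∈ Subgroup.zpowers τ) ∧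
      ((τ : Γ) : Γ ⧸ NM) = σ ^ (p ^ (M - b)) := by
  classical
  set φ : NL →* Γ ⧸ NM := (QuotientGroup.mk' NM).comp NL.subtype with hφdef
  have hφ : Function.Injective φ := by
    rw [injective_iff_map_eq_one]
    intro n hn
    have h1 : (n : Γ) ∈ NM := (QuotientGroup.eq_one_iff _).1 hn
    have h2 : (n : Γ) ∈ NL ⊓ NM := ⟨n.2, h1⟩
    rw [hint] at h2
    exact Subtype.ext (Subgroup.mem_bot.1 h2)
  have hdvd : Nat.card NL ∣ p ^ M := by
    rw [← hZ]
    exact Subgroup.card_dvd_of_injective φ hφ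
  obtain ⟨b, hb, hNL⟩ := (Nat.dvd_prime_pow hp).1 hdvd
  obtain ⟨τ, hτ⟩ := h20fc_mem_range p M b hp hb σ hσ hZ hNL φ hφ
  refine ⟨b, τ, hb, hNL, ?_, hτ⟩
  -- `τ` has order `p ^ b`
  have hordσ : orderOf σ = p ^ M := by
    rw [← hZ]
    exact orderOf_eq_card_of_forall_mem_zpowers hσ
  have hordτ : orderOf τ = p ^ b := by
    rw [← orderOf_injective φ hφ τ, hτ, orderOf_pow_of_dvd (pow_ne_zero _ hp.ne_zero)
      (by rw [hordσ]; exact pow_dvd_pow p (Nat.sub_le M b)), hordσ]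
    exact Nat.div_eq_of_eq_mul_left (pow_pos hp.pos _) (by rw [← pow_add, Nat.add_sub_cancel' hb])
  have htop : Subgroup.zpowers τ = ⊤ := by
    apply Subgroup.eq_top_of_card_eq
    rw [Nat.card_zpowers, hordτ, hNL]
  intro x
  rw [htop]
  trivial

/-- the indices with respect to `σ` and `τ` -/
theorem h20fc_idx_rel (p M b : ℕ) (hp : p.Prime) (hb : b ≤ M) (NL NM : Subgroup Γ) [NM.Normal]
    (σ : Γ ⧸ NM) (hσ : ∀ x : Γ ⧸ NM, x ∈ Subgroup.zpowers σ)
    (hZ : Nat.card (Γ ⧸ NM) = p ^ M) (τ : NL) (hNL : Nat.card NL = p ^ b)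
    (hτ : ∀ x : NL, x ∈ Subgroup.zpowers τ)
    (hτσ : ((τ : Γ) : Γ ⧸ NM) = σ ^ (p ^ (M - b))) (n : NL) :
    cycIdx σ ((n : Γ) : Γ ⧸ NM) = p ^ (M - b) * cycIdx τ n := by
  obtain ⟨h1, h2⟩ := h20fc_cycIdx_spec τ hτ n
  have hordσ : orderOf σ = p ^ M := by
    rw [← hZ]
    exact orderOf_eq_card_of_forall_mem_zpowers hσ
  have h3 : ((n : Γ) : Γ ⧸ NM) = σ ^ (p ^ (M - b) * cycIdx τ n) := by
    conv_lhs => rw [← h1]
    rw [Subgroup.coe_pow, QuotientGroup.mk_pow, hτσ, ← pow_mul]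
  rw [h3]
  apply h20fc_cycIdx_pow
  rw [hordσ, hNL] at *
  calc p ^ (M - b) * cycIdx τ n < p ^ (M - b) * p ^ b :=
        Nat.mul_lt_mul_of_pos_left h2 (pow_pos hp.pos _)
    _ = p ^ M := by rw [← pow_add, Nat.sub_add_cancel hb]

end cyclic

end H20FC

end
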