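/-
W2-C (S55) block C-finite, slice ABS-FC (helper20), part 2: the abstract fundamental class.
-/
import Fermat.Agent.CFT2.C.AbsFC1_helper20
import Fermat.Agent.CFT2.A.InfP_helper20
import Fermat.Agent.CFT2.A.AF_helper5

set_option autoImplicit false
set_option linter.style.haveILetI false
set_option linter.unusedSectionVars false

noncomputable section

open CategoryTheory groupCohomology

namespace H20FC

open H17C

variable {Γ : Type} [Group Γ] [Finite Γ] {V : Type} [AddCommGroup V] (ρ : Representation ℤ Γ V)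

/-- the norm of the quotient group on the invariants is the relative norm -/
theorem h20fc_subNorm_quot (S : Subgroup Γ) [S.Normal]
    (d : ((Rep.of ρ).quotientToInvariants S).V) :
    ((subNorm ((Rep.of ρ).quotientToInvariants S).ρ ⊤ d :
      ((Rep.of ρ).quotientToInvariants S).V) : V) = relNorm ρ S (d : V) := by
  classical
  letI : Fintype (Γ ⧸ S) := Fintype.ofFinite _
  letI : Fintype (⊤ : Subgroup (Γ ⧸ S)) := Fintype.ofFinite _
  have h1 : subNorm ((Rep.of ρ).quotientToInvariants S).ρ ⊤ d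
      = ∑ n : (⊤ : Subgroup (Γ ⧸ S)), ((Rep.of ρ).quotientToInvariants S).ρ (n : Γ ⧸ S) d := rfl
  have h2 : relNorm ρ S (d : V) = ∑ q : Γ ⧸ S, ρ (Quotient.out q) (d : V) := rfl
  rw [h1, h2]
  rw [Fintype.sum_equiv (Subgroup.topEquiv (G := Γ ⧸ S)).toEquiv
    (fun n : (⊤ : Subgroup (Γ ⧸ S)) => ((Rep.of ρ).quotientToInvariants S).ρ (n : Γ ⧸ S) d)
    (fun q : Γ ⧸ S => ((Rep.of ρ).quotientToInvariants S).ρ q d) (fun n => rfl)]
  rw [AddSubmonoidClass.coe_finsetSum]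
  refine Finset.sum_congr rfl fun q _ => ?_
  conv_lhs => rw [← QuotientGroup.out_eq' q]
  rfl

/-- the class of the inflation of a 2-cocycle -/
theorem h20fc_inf_H2π (S : Subgroup Γ) [S.Normal]
    (y : cocycles₂ ((Rep.of ρ).quotientToInvariants S))
    (h : (fun gh : Γ × Γ => ((y.1 ((gh.1 : Γ ⧸ S), (gh.2 : Γ ⧸ S))) : V)) ∈ cocycles₂ (Rep.of ρ)) :
    H20A.infCoh (Rep.of ρ) S 2 ((H2π ((Rep.of ρ).quotientToInvariants S)) y)
      = (H2π (Rep.of ρ)) ⟨_, h⟩ := by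
  have h1 := H2π_comp_map_apply (QuotientGroup.mk' S)
    (Rep.ofHom <| (Rep.of ρ).ρ.quotientToInvariants_lift S) y
  exact h1

/-- the inflation of a 2-cocycle is a 2-cocycle -/
theorem h20fc_inf_mem (S : Subgroup Γ) [S.Normal]
    (y : cocycles₂ ((Rep.of ρ).quotientToInvariants S)) :
    (fun gh : Γ × Γ => ((y.1 ((gh.1 : Γ ⧸ S), (gh.2 : Γ ⧸ S))) : V)) ∈ cocycles₂ (Rep.of ρ) := by
  have := (mapCocycles₂ (QuotientGroup.mk' S)
    (Rep.ofHom <| (Rep.of ρ).ρ.quotientToInvariants_lift S) y).2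
  exact this

/-- the class of the restriction of a 2-cocycle -/
theorem h20fc_res_H2π (H : Subgroup Γ) (y : cocycles₂ (Rep.of ρ))
    (h : (fun gh : H × H => y.1 ((gh.1 : Γ), (gh.2 : Γ))) ∈ cocycles₂ (H20A.resSub (Rep.of ρ) H)) :
    H20A.resCoh (Rep.of ρ) H 2 ((H2π (Rep.of ρ)) y)
      = (H2π (H20A.resSub (Rep.of ρ) H)) ⟨_, h⟩ := by
  have h1 := H2π_comp_map_apply H.subtype (𝟙 (H20A.resSub (Rep.of ρ) H)) y
  exact h1

/-- the restriction of a 2-cocycle is a 2-cocycle -/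
theorem h20fc_res_mem (H : Subgroup Γ) (y : cocycles₂ (Rep.of ρ)) :
    (fun gh : H × H => y.1 ((gh.1 : Γ), (gh.2 : Γ))) ∈ cocycles₂ (H20A.resSub (Rep.of ρ) H) := by
  have := (mapCocycles₂ H.subtype (𝟙 (H20A.resSub (Rep.of ρ) H)) y).2
  exact this

section main

variable (hCC : ∀ (G : Type) [Group G] [Finite G], H17C.CycCocStatement G)

include hCC in
/-- the standard class of `Γ/N_M` inflated to `Γ`, multiplied by `j`, vanishes only if
`p ^ M ∣ j` -/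
theorem h20fc_order (p : ℕ) [Fact p.Prime] (NM : Subgroup Γ) [NM.Normal] (M : ℕ)
    (σ : Γ ⧸ NM) (hσ : ∀ x : Γ ⧸ NM, x ∈ Subgroup.zpowers σ)
    (h1 : ∀ H : Subgroup Γ, IsPGroup p H →
      Limits.IsZero (groupCohomology (H20A.resSub (Rep.of ρ) H) 1))
    (c₀ : ((Rep.of ρ).quotientToInvariants NM).V)
    (hc₀ : ∀ g, ((Rep.of ρ).quotientToInvariants NM).ρ g c₀ = c₀)
    (hord : ∀ k : ℕ, (∃ w : V, (∀ n ∈ NM, ρ n w = w) ∧ k • (c₀ : V) = relNorm ρ NM w) → p ^ M ∣ k)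
    (h0 : stdCocFun σ c₀ ∈ cocycles₂ ((Rep.of ρ).quotientToInvariants NM)) (j : ℕ)
    (hj : j • H20A.infCoh (Rep.of ρ) NM 2
      ((H2π ((Rep.of ρ).quotientToInvariants NM)) ⟨stdCocFun σ c₀, h0⟩) = 0) :
    p ^ M ∣ j := by
  have hp : p.Prime := Fact.out
  obtain ⟨m, hpm, hm⟩ := H20IP.h20ip_h1_killed p (Rep.of ρ) h1 NM
  have e1 : (m : ℤ) • ((j : ℤ) • (H2π ((Rep.of ρ).quotientToInvariants NM))
      ⟨stdCocFun σ c₀, h0⟩) = 0 := by
    apply H20IP.h20ip_ker_smul ρ NM (m : ℤ)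
    · intro y
      rw [natCast_zsmul]
      exact hm y
    · rw [natCast_zsmul, map_nsmul]
      exact hj
  -- the invariant element `(m j) c₀`
  have hinv : ∀ g, ((Rep.of ρ).quotientToInvariants NM).ρ g ((m * j) • c₀) = (m * j) • c₀ := by
    intro g
    rw [map_nsmul, hc₀]
  obtain ⟨h', hiff⟩ := hCC (Γ ⧸ NM) ((Rep.of ρ).quotientToInvariants NM) σ hσ ((m * j) • c₀) hinv
  have e2 : (H2π ((Rep.of ρ).quotientToInvariants NM)).hom ⟨stdCocFun σ ((m * j) • c₀), h'⟩ = 0 := by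
    have e3 : (⟨stdCocFun σ ((m * j) • c₀), h'⟩ : cocycles₂ ((Rep.of ρ).quotientToInvariants NM))
        = (m * j) • ⟨stdCocFun σ c₀, h0⟩ := by
      apply Subtype.ext
      funext gh
      exact h20fc_std_smul σ c₀ (m * j) gh
    rw [e3, map_nsmul, mul_smul]
    rw [natCast_zsmul, natCast_zsmul] at e1
    exact e1
  obtain ⟨d, hd⟩ := hiff.1 e2
  have e4 := h20fc_subNorm_quot ρ NM d
  rw [hd] at e4
  have e5 : p ^ M ∣ m * j := hord (m * j) ⟨(d : V), fun n hn => d.2 ⟨n, hn⟩, e4⟩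
  exact (Nat.Coprime.pow_left M ((Nat.Prime.coprime_iff_not_dvd hp).2 hpm)).dvd_of_dvd_mul_left e5

include hCC in
/-- existence: `p ^ (M - a)` times the inflated standard class comes from `Γ/N_L` -/
theorem h20fc_exists (p : ℕ) [Fact p.Prime] (NL NM : Subgroup Γ) [NL.Normal] [NM.Normal]
    (M a : ℕ) (hint : NL ⊓ NM = ⊥) (hZ : Nat.card (Γ ⧸ NM) = p ^ M)
    (σ : Γ ⧸ NM) (hσ : ∀ x : Γ ⧸ NM, x ∈ Subgroup.zpowers σ)
    (h1 : ∀ H : Subgroup Γ, IsPGroup p H →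
      Limits.IsZero (groupCohomology (H20A.resSub (Rep.of ρ) H) 1))
    (c₀ : ((Rep.of ρ).quotientToInvariants NM).V) (hc₀ : ∀ g, ρ g (c₀ : V) = (c₀ : V))
    (hx : ∃ x : V, p ^ (M - a) • (c₀ : V) = subNorm ρ NL x)
    (h0 : stdCocFun σ c₀ ∈ cocycles₂ ((Rep.of ρ).quotientToInvariants NM)) :
    ∃ γ : groupCohomology ((Rep.of ρ).quotientToInvariants NL) 2,
      H20A.infCoh (Rep.of ρ) NL 2 γ = p ^ (M - a) • H20A.infCoh (Rep.of ρ) NM 2
        ((H2π ((Rep.of ρ).quotientToInvariants NM)) ⟨stdCocFun σ c₀, h0⟩) := by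
  classical
  have hp : p.Prime := Fact.out
  obtain ⟨b, τ, hb, hNL, hτ, hτσ⟩ := h20fc_exists_tau p M hp NL NM hint σ hσ hZ
  have hpg : IsPGroup p NL := IsPGroup.of_card hNL
  have hAF := H5AF.h5af_infResStatement Γ 2 (by norm_num) (Rep.of ρ) NL (fun i hi hi2 => by
    obtain rfl : i = 1 := by omega
    exact h1 NL hpg)
  apply (hAF.2 _).1
  -- the restriction to `N_L`
  set y₀ : cocycles₂ ((Rep.of ρ).quotientToInvariants NM) := ⟨stdCocFun σ c₀, h0⟩ with hy₀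
  set y₁ : cocycles₂ (Rep.of ρ) := ⟨_, h20fc_inf_mem ρ NM y₀⟩ with hy₁
  set y₂ : cocycles₂ (H20A.resSub (Rep.of ρ) NL) := ⟨_, h20fc_res_mem ρ NL y₁⟩ with hy₂
  rw [map_nsmul, h20fc_inf_H2π ρ NM y₀ (h20fc_inf_mem ρ NM y₀),
    h20fc_res_H2π ρ NL y₁ (h20fc_res_mem ρ NL y₁), ← map_nsmul]
  -- CYC-COC for `N_L`
  have hinv : ∀ g, (H20A.resSub (Rep.of ρ) NL).ρ g (p ^ (M - a) • (c₀ : V))
      = p ^ (M - a) • (c₀ : V) := by
    intro g
    show ρ (g : Γ) (p ^ (M - a) • (c₀ : V)) = _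
    rw [map_nsmul, hc₀]
  obtain ⟨h', hiff⟩ := hCC NL (H20A.resSub (Rep.of ρ) NL) τ hτ (p ^ (M - a) • (c₀ : V)) hinv
  have e : p ^ (M - a) • y₂ = ⟨stdCocFun τ (p ^ (M - a) • (c₀ : V)), h'⟩ := by
    apply Subtype.ext
    funext ⟨n₁, n₂⟩
    show p ^ (M - a) • ((stdCocFun σ c₀ (((n₁ : Γ) : Γ ⧸ NM), ((n₂ : Γ) : Γ ⧸ NM)) :
      ((Rep.of ρ).quotientToInvariants NM).V) : V) = stdCocFun τ (p ^ (M - a) • (c₀ : V)) (n₁, n₂)
    unfold stdCocFun
    simp only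
    rw [h20fc_idx_rel p M b hp hb NL NM σ hσ hZ τ hNL hτ hτσ n₁,
      h20fc_idx_rel p M b hp hb NL NM σ hσ hZ τ hNL hτ hτσ n₂, hZ, hNL, ← mul_add]
    have hiff' : p ^ M ≤ p ^ (M - b) * (cycIdx τ n₁ + cycIdx τ n₂) ↔
        p ^ b ≤ cycIdx τ n₁ + cycIdx τ n₂ := by
      have hM : p ^ M = p ^ (M - b) * p ^ b := by rw [← pow_add, Nat.sub_add_cancel hb]
      rw [hM]
      exact Nat.mul_le_mul_left_iff (pow_pos hp.pos _)
    by_cases hc : p ^ b ≤ cycIdx τ n₁ + cycIdx τ n₂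
    · rw [if_pos (hiff'.2 hc), if_pos hc]
    · rw [if_neg (fun h => hc (hiff'.1 h)), if_neg hc]
      exact smul_zero _
  rw [e]
  apply hiff.2
  obtain ⟨x, hx⟩ := hx
  refine ⟨x, ?_⟩
  rw [hx]
  letI : Fintype NL := Fintype.ofFinite _
  letI : Fintype (⊤ : Subgroup NL) := Fintype.ofFinite _
  show ∑ n : (⊤ : Subgroup NL), ρ (((n : NL) : Γ)) x = ∑ n : NL, ρ (n : Γ) x
  exact Fintype.sum_equiv (Subgroup.topEquiv (G := NL)).toEquiv _ _ (fun n => rfl)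

include hCC in
/-- **ABS-FC** from CYC-COC -/
theorem h20fc_absFC_of (Γ : Type) [Group Γ] [Finite Γ] : H17C.AbsFCStatement Γ := by
  intro p _ C NL NM _ _ M a m' hint hcyc hZ haM hpm' hL h1 c₀ hc₀ hord hx
  have hp : p.Prime := Fact.out
  obtain ⟨V, _, ρ, rfl⟩ := H22W3H.h22w3h_can C
  obtain ⟨σ, hσ⟩ := hcyc.exists_generator
  let c₀' : ((Rep.of ρ).quotientToInvariants NM).V := ⟨c₀, fun n => hc₀ n⟩
  have hc₀' : ∀ g, ((Rep.of ρ).quotientToInvariants NM).ρ g c₀' = c₀' := by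
    intro g
    induction g using QuotientGroup.induction_on with | @H g =>
    exact Subtype.ext (hc₀ g)
  obtain ⟨h0, -⟩ := hCC (Γ ⧸ NM) ((Rep.of ρ).quotientToInvariants NM) σ hσ c₀' hc₀'
  obtain ⟨γ, hγ⟩ := h20fc_exists ρ hCC p NL NM M a hint hZ σ hσ h1 c₀' hc₀ hx h0
  refine ⟨γ, fun P k hk => ?_⟩
  have e1 : H20A.resCoh ((Rep.of ρ).quotientToInvariants NL) (P : Subgroup (Γ ⧸ NL)) 2 (k • γ)
      = 0 := by
    rw [map_nsmul, hk]
  have e2 := H26AR.h26ar_indexKillsCoh (Γ ⧸ NL) _ (P : Subgroup (Γ ⧸ NL)) 2 (k • γ) e1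
  have e3 : ((P : Subgroup (Γ ⧸ NL)).index * k * p ^ (M - a)) • H20A.infCoh (Rep.of ρ) NM 2
      ((H2π ((Rep.of ρ).quotientToInvariants NM)) ⟨stdCocFun σ c₀', h0⟩) = 0 := by
    have := congrArg (H20A.infCoh (Rep.of ρ) NL 2) e2
    rw [map_nsmul, map_nsmul, hγ, map_zero] at this
    rw [mul_smul, mul_smul]
    exact this
  have e4 := h20fc_order ρ hCC p NM M σ hσ h1 c₀' hc₀' hord h0 _ e3
  -- arithmetic
  have hidx : ¬ p ∣ (P : Subgroup (Γ ⧸ NL)).index := P.not_dvd_index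
  have hP : Nat.card P = p ^ a := by
    rw [P.card_eq_multiplicity, hL]
    congr 1
    have hm'0 : m' ≠ 0 := fun h => hpm' (h ▸ dvd_zero p)
    rw [Nat.factorization_mul (pow_ne_zero _ hp.ne_zero) hm'0, Finsupp.add_apply,
      hp.factorization_pow, Nat.factorization_eq_zero_of_not_dvd hpm', add_zero]
    simp
  rw [hP]
  have hM : p ^ M = p ^ a * p ^ (M - a) := by rw [← pow_add, Nat.add_sub_cancel' haM]
  rw [hM, mul_comm ((P : Subgroup (Γ ⧸ NL)).index * k)] at e4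
  have e5 : p ^ a ∣ (P : Subgroup (Γ ⧸ NL)).index * k := by
    rw [mul_comm (p ^ a)] at e4
    exact Nat.dvd_of_mul_dvd_mul_left (pow_pos hp.pos _) e4
  exact (Nat.Coprime.pow_left a ((Nat.Prime.coprime_iff_not_dvd hp).2 hidx)).dvd_of_dvd_mul_left e5

end main

end H20FC

end
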