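/-
W2-C (S55) block C-finite, slice CYC-COC (helper24): the standard 2-cocycle of a cyclic group.
For `G = ⟨σ⟩` of order `n` and a `G`-invariant `c`, `(σ^i, σ^j) ↦ ⌊(i+j)/n⌋ • c` (`0 ≤ i, j < n`)
is a 2-cocycle, and its class vanishes iff `c` is a norm.
-/
import Mathlib
import Fermat.Agent.CFT2.C.Slices4_helper17

set_option autoImplicit false
set_option linter.style.haveILetI false
set_option linter.unusedSectionVars false
set_option linter.unusedVariables false

noncomputable section

namespace H24C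

open groupCohomology H17C CategoryTheory

variable {G : Type} [Group G] [Finite G]

section idx

variable {σ : G} (hσ : ∀ x : G, x ∈ Subgroup.zpowers σ)

include hσ in
theorem h24c_exists_pow (g : G) : ∃ i : ℕ, σ ^ i = g := by
  have h1 := hσ g
  rw [← mem_powers_iff_mem_zpowers] at h1
  exact (Submonoid.mem_powers_iff _ _).1 h1

include hσ in
theorem h24c_pow_idx (g : G) : σ ^ cycIdx σ g = g := by
  classical
  unfold cycIdx
  rw [dif_pos (h24c_exists_pow hσ g)]
  exact Nat.find_spec (h24c_exists_pow hσ g)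

include hσ in
theorem h24c_orderOf : orderOf σ = Nat.card G :=
  orderOf_eq_card_of_forall_mem_zpowers hσ

include hσ in
theorem h24c_idx_pow (i : ℕ) : cycIdx σ (σ ^ i) = i % Nat.card G := by
  classical
  have hex : ∃ i' : ℕ, σ ^ i' = σ ^ i := ⟨i, rfl⟩
  have hn : 0 < Nat.card G := Nat.card_pos
  unfold cycIdx
  rw [dif_pos hex]
  have h1 : Nat.find hex ≤ i % Nat.card G := by
    apply Nat.find_min'
    rw [← h24c_orderOf hσ, pow_mod_orderOf]
  have h2 : σ ^ Nat.find hex = σ ^ i := Nat.find_spec hex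
  rw [pow_eq_pow_iff_modEq, h24c_orderOf hσ] at h2
  have h3 : Nat.find hex < Nat.card G := lt_of_le_of_lt h1 (Nat.mod_lt _ hn)
  have h4 : Nat.find hex % Nat.card G = i % Nat.card G := h2
  rw [Nat.mod_eq_of_lt h3] at h4
  exact h4

include hσ in
theorem h24c_idx_lt (g : G) : cycIdx σ g < Nat.card G := by
  have h1 := h24c_idx_pow hσ (cycIdx σ g)
  rw [h24c_pow_idx hσ g] at h1
  rw [h1]
  exact Nat.mod_lt _ Nat.card_pos

include hσ in
theorem h24c_idx_mul (g h : G) :
    cycIdx σ (g * h) = (cycIdx σ g + cycIdx σ h) % Nat.card G := by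
  have h1 := h24c_idx_pow hσ (cycIdx σ g + cycIdx σ h)
  rw [pow_add, h24c_pow_idx hσ g, h24c_pow_idx hσ h] at h1
  exact h1

include hσ in
theorem h24c_idx_of_lt {i : ℕ} (hi : i < Nat.card G) : cycIdx σ (σ ^ i) = i := by
  rw [h24c_idx_pow hσ, Nat.mod_eq_of_lt hi]

include hσ in
/-- the standard cochain as a multiple of `c` -/
theorem h24c_std_eq {V : Type} [AddCommGroup V] (c : V) (g h : G) :
    stdCocFun σ c (g, h) = ((cycIdx σ g + cycIdx σ h) / Nat.card G) • c := by
  have hg := h24c_idx_lt hσ g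
  have hh := h24c_idx_lt hσ h
  unfold stdCocFun
  by_cases hle : Nat.card G ≤ cycIdx σ g + cycIdx σ h
  · rw [if_pos hle]
    have : (cycIdx σ g + cycIdx σ h) / Nat.card G = 1 := by
      apply Nat.div_eq_of_lt_le
      · rw [one_mul]; exact hle
      · omega
    rw [this, one_smul]
  · rw [if_neg hle]
    have : (cycIdx σ g + cycIdx σ h) / Nat.card G = 0 := Nat.div_eq_of_lt (not_le.1 hle)
    rw [this, zero_smul]

/-- the arithmetic identity behind the cocycle relation -/
theorem h24c_div_identity (n i j k : ℕ) :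
    ((i + j) % n + k) / n + (i + j) / n = (j + k) / n + (i + (j + k) % n) / n := by
  rcases Nat.eq_zero_or_pos n with rfl | hn
  · simp
  have h1 : ((i + j) % n + k) / n + (i + j) / n = (i + j + k) / n := by
    conv_rhs => rw [← Nat.mod_add_div (i + j) n]
    rw [show (i + j) % n + n * ((i + j) / n) + k = (i + j) % n + k + n * ((i + j) / n) by ring,
      Nat.add_mul_div_left _ _ hn]
  have h2 : (j + k) / n + (i + (j + k) % n) / n = (i + j + k) / n := by
    conv_rhs => rw [show i + j + k = i + (j + k) by ring, ← Nat.mod_add_div (j + k) n]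
    rw [show i + ((j + k) % n + n * ((j + k) / n)) = i + (j + k) % n + n * ((j + k) / n) by ring,
      Nat.add_mul_div_left _ _ hn]
    ring
  rw [h1, h2]

end idx

section main

variable (C : Rep.{0} ℤ G) {σ : G} (hσ : ∀ x : G, x ∈ Subgroup.zpowers σ)

include hσ in
/-- the standard cochain is a 2-cocycle -/
theorem h24c_std_mem_cocycles₂ {c : C.V} (hc : ∀ g, C.ρ g c = c) :
    stdCocFun σ c ∈ cocycles₂ C := by
  rw [mem_cocycles₂_iff]
  intro g h j
  rw [h24c_std_eq hσ, h24c_std_eq hσ, h24c_std_eq hσ, h24c_std_eq hσ, map_nsmul, hc,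
    h24c_idx_mul hσ g h, h24c_idx_mul hσ h j, ← add_nsmul, ← add_nsmul,
    h24c_div_identity]

theorem h24c_ρ_mul (g h : G) (x : C.V) : C.ρ (g * h) x = C.ρ g (C.ρ h x) := by
  rw [map_mul]; rfl

theorem h24c_ρ_one (x : C.V) : C.ρ 1 x = x := by
  rw [map_one]; rfl

/-- the partial sums `T m = ∑_{l < m} σ^l d` -/
def h24c_T (σ : G) (d : C.V) (m : ℕ) : C.V := ∑ l ∈ Finset.range m, C.ρ (σ ^ l) d

theorem h24c_T_add (d : C.V) (m k : ℕ) :
    h24c_T C σ d (m + k) = h24c_T C σ d m + C.ρ (σ ^ m) (h24c_T C σ d k) := by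
  unfold h24c_T
  rw [Finset.sum_range_add, map_sum]
  congr 1
  apply Finset.sum_congr rfl
  intro l _
  rw [pow_add, map_mul]
  rfl

include hσ in
theorem h24c_pow_card : σ ^ Nat.card G = 1 := by
  rw [← h24c_orderOf hσ]
  exact pow_orderOf_eq_one σ

include hσ in
/-- the norm as a sum over the powers of `σ` -/
theorem h24c_subNorm_eq (d : C.V) : subNorm C.ρ ⊤ d = h24c_T C σ d (Nat.card G) := by
  classical
  unfold subNorm h24c_T
  letI : Fintype (⊤ : Subgroup G) := Fintype.ofFinite _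
  symm
  refine Finset.sum_bij (fun l _ => (⟨σ ^ l, Subgroup.mem_top _⟩ : (⊤ : Subgroup G))) ?_ ?_ ?_ ?_
  · intro l _
    exact Finset.mem_univ _
  · intro l hl l' hl' h
    have h1 : σ ^ l = σ ^ l' := congrArg Subtype.val h
    have hl1 : l < Nat.card G := Finset.mem_range.1 hl
    have hl2 : l' < Nat.card G := Finset.mem_range.1 hl'
    have := congrArg (cycIdx σ) h1
    rw [h24c_idx_of_lt hσ hl1, h24c_idx_of_lt hσ hl2] at this
    exact this
  · intro g _
    refine ⟨cycIdx σ g.1, Finset.mem_range.2 (h24c_idx_lt hσ g.1), ?_⟩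
    apply Subtype.ext
    exact h24c_pow_idx hσ g.1
  · intro l _
    rfl

include hσ in
/-- the invariance of the norm -/
theorem h24c_T_card_inv (d : C.V) (m : ℕ) :
    C.ρ (σ ^ m) (h24c_T C σ d (Nat.card G)) = h24c_T C σ d (Nat.card G) := by
  induction m with
  | zero => rw [pow_zero, h24c_ρ_one]
  | succ m ih =>
    rw [pow_succ', h24c_ρ_mul, ih]
    -- `σ • T n = T n`
    have h1 := h24c_T_add C (σ := σ) d 1 (Nat.card G)
    have h2 := h24c_T_add C (σ := σ) d (Nat.card G) 1
    rw [add_comm 1 (Nat.card G), h2] at h1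
    have h3 : h24c_T C σ d 1 = d := by
      unfold h24c_T
      rw [Finset.sum_range_one, pow_zero, h24c_ρ_one]
    rw [h3, h24c_pow_card hσ, h24c_ρ_one, pow_one] at h1
    have h5 : h24c_T C σ d (Nat.card G) + d = d + C.ρ σ (h24c_T C σ d (Nat.card G)) := h1
    have h6 : C.ρ σ (h24c_T C σ d (Nat.card G)) = h24c_T C σ d (Nat.card G) := by
      have := h5
      rw [add_comm d] at this
      exact (add_right_cancel this).symm
    exact h6

include hσ in
theorem h24c_T_mul_add (d : C.V) (q r : ℕ) :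
    h24c_T C σ d (q * Nat.card G + r) = q • h24c_T C σ d (Nat.card G) + h24c_T C σ d r := by
  induction q with
  | zero =>
    rw [zero_mul, zero_add, zero_smul, zero_add]
  | succ q ih =>
    rw [show (q + 1) * Nat.card G + r = Nat.card G + (q * Nat.card G + r) by ring,
      h24c_T_add, h24c_pow_card hσ, h24c_ρ_one, ih, succ_nsmul]
    abel

include hσ in
theorem h24c_T_div_mod (d : C.V) (m : ℕ) :
    h24c_T C σ d m = (m / Nat.card G) • h24c_T C σ d (Nat.card G)
      + h24c_T C σ d (m % Nat.card G) := by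
  conv_lhs => rw [← Nat.div_add_mod' m (Nat.card G)]
  exact h24c_T_mul_add C hσ d _ _

include hσ in
/-- if `c = N d` then the standard cocycle is the coboundary of `g ↦ T (idx g)` -/
theorem h24c_std_mem_coboundaries₂ {c : C.V} (d : C.V) (hd : subNorm C.ρ ⊤ d = c) :
    stdCocFun σ c ∈ coboundaries₂ C := by
  rw [h24c_subNorm_eq C hσ] at hd
  refine ⟨fun g => h24c_T C σ d (cycIdx σ g), ?_⟩
  funext ⟨g, h⟩
  rw [h24c_std_eq hσ]
  change C.ρ g (h24c_T C σ d (cycIdx σ h)) - h24c_T C σ d (cycIdx σ (g * h))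
    + h24c_T C σ d (cycIdx σ g) = _
  have h1 := h24c_T_add C (σ := σ) d (cycIdx σ g) (cycIdx σ h)
  rw [h24c_pow_idx hσ g] at h1
  have h2 := h24c_T_div_mod C hσ d (cycIdx σ g + cycIdx σ h)
  rw [h24c_idx_mul hσ g h, ← hd]
  rw [h1] at h2
  rw [← sub_eq_iff_eq_add] at h2
  rw [← h2]
  abel

include hσ in
/-- if the standard cocycle is a coboundary then `c` is a norm -/
theorem h24c_norm_of_mem_coboundaries₂ {c : C.V} (hc : ∀ g, C.ρ g c = c)
    (h : stdCocFun σ c ∈ coboundaries₂ C) : ∃ d : C.V, subNorm C.ρ ⊤ d = c := by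
  have hn : 0 < Nat.card G := Nat.card_pos
  rcases Nat.lt_or_ge (Nat.card G) 2 with h1 | h2
  · -- the trivial group
    have hn1 : Nat.card G = 1 := by omega
    refine ⟨c, ?_⟩
    rw [h24c_subNorm_eq C hσ, hn1]
    unfold h24c_T
    rw [Finset.sum_range_one, pow_zero, h24c_ρ_one]
  · obtain ⟨b, hb⟩ := h
    refine ⟨b σ, ?_⟩
    rw [h24c_subNorm_eq C hσ]
    have hrel : ∀ g : G, C.ρ g (b σ) - b (g * σ) + b g = stdCocFun σ c (g, σ) := fun g =>
      congrFun hb (g, σ)
    have hidxσ : cycIdx σ σ = 1 := by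
      have := h24c_idx_of_lt hσ (i := 1) (by omega)
      rw [pow_one] at this
      exact this
    have hsum : ∑ l ∈ Finset.range (Nat.card G),
        (C.ρ (σ ^ l) (b σ) - b (σ ^ l * σ) + b (σ ^ l))
        = ∑ l ∈ Finset.range (Nat.card G), stdCocFun σ c (σ ^ l, σ) :=
      Finset.sum_congr rfl (fun l _ => hrel (σ ^ l))
    have hL : ∑ l ∈ Finset.range (Nat.card G),
        (C.ρ (σ ^ l) (b σ) - b (σ ^ l * σ) + b (σ ^ l)) = h24c_T C σ (b σ) (Nat.card G) := by
      have e1 : ∀ l ∈ Finset.range (Nat.card G),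
          C.ρ (σ ^ l) (b σ) - b (σ ^ l * σ) + b (σ ^ l)
            = C.ρ (σ ^ l) (b σ) - (b (σ ^ (l + 1)) - b (σ ^ l)) := by
        intro l _
        rw [pow_succ]
        abel
      rw [Finset.sum_congr rfl e1, Finset.sum_sub_distrib,
        Finset.sum_range_sub (fun l => b (σ ^ l)), h24c_pow_card hσ, pow_zero, sub_self,
        sub_zero]
      rfl
    have hR : ∑ l ∈ Finset.range (Nat.card G), stdCocFun σ c (σ ^ l, σ) = c := by
      have e2 : ∀ l ∈ Finset.range (Nat.card G),
          stdCocFun σ c (σ ^ l, σ) = ((l + 1) / Nat.card G) • c := by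
        intro l hl
        rw [h24c_std_eq hσ, h24c_idx_of_lt hσ (Finset.mem_range.1 hl), hidxσ]
      rw [Finset.sum_congr rfl e2]
      rw [Finset.sum_eq_single (Nat.card G - 1)]
      · have : (Nat.card G - 1 + 1) / Nat.card G = 1 := by
          rw [Nat.sub_add_cancel hn]
          exact Nat.div_self hn
        rw [this, one_smul]
      · intro l hl hne
        have hl' : l < Nat.card G := Finset.mem_range.1 hl
        have : (l + 1) / Nat.card G = 0 := Nat.div_eq_of_lt (by omega)
        rw [this, zero_smul]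
      · intro hnot
        exact absurd (Finset.mem_range.2 (by omega)) hnot
    rw [← hL, hsum, hR]

/-- **(CYC-COC)** -/
theorem h24c_cycCoc (G : Type) [Group G] [Finite G] : CycCocStatement G := by
  intro C σ hσ c hc
  refine ⟨h24c_std_mem_cocycles₂ C hσ hc, ?_⟩
  constructor
  · intro h0
    have h1 : H2π C ⟨stdCocFun σ c, h24c_std_mem_cocycles₂ C hσ hc⟩ = 0 := h0
    rw [H2π_eq_zero_iff] at h1
    exact h24c_norm_of_mem_coboundaries₂ C hσ hc h1
  · rintro ⟨d, hd⟩
    have h1 : H2π C ⟨stdCocFun σ c, h24c_std_mem_cocycles₂ C hσ hc⟩ = 0 := by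
      rw [H2π_eq_zero_iff]
      exact h24c_std_mem_coboundaries₂ C hσ d hd
    exact h1

end main

end H24C

end
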