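/-
W2-C (S55) block C-finite, slice ABS-FC (helper20): the abstract fundamental class, unconditional.
-/
import Fermat.Agent.CFT2.C.AbsFC2_helper20
import Fermat.Agent.CFT2.C.CycCoc_helper24

set_option autoImplicit false

namespace H20FC

/-- **ABS-FC** -/
theorem h20fc_absFC (Γ : Type) [Group Γ] [Finite Γ] : H17C.AbsFCStatement Γ :=
  h20fc_absFC_of (fun G _ _ => H24C.h24c_cycCoc G) Γ

end H20FC
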