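/-
W2-C (S55) block C-finite (helper17, architect): INTERFACE, part 7 — the ARITHMETIC slices of the
fundamental class (FC):  CYCLO-FROB, CYCLO, TOWER, NL, TR, FIELD-ISO, FC-ASM.
Paper proofs: NOTES/W2C-C-FC.md.  Nothing here is proved by a placeholder.
-/
import Fermat.Agent.CFT2.C.Slices4_helper17

set_option autoImplicit false
set_option linter.unusedSectionVars false
set_option linter.unusedVariables false

noncomputable section

namespace H17C

open NumberField CategoryTheory groupCohomology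

section defs

variable (S : Finset Nat.Primes)

/-- `ℚ_Sˣ → I_K`, `y ↦ 1 ⊗ y` -/
def locUnit (K : Type) [Field K] [NumberField K] : (QS S)ˣ →* (KS S K)ˣ :=
  Units.map (locRing S K : QS S →* KS S K)

/-- the idele `(1 + p at the places q ∈ S with q = p, 1 elsewhere)` of `ℚ_S` -/
def idelP (p : ℕ) : (QS S)ˣ :=
  MulEquiv.piUnits.symm fun q =>
    open Classical in
    if ((q : Nat.Primes) : ℕ) = p then
      Units.mk0 (((1 + p : ℕ) : ℚ_[((q : Nat.Primes) : ℕ)])) (Nat.cast_ne_zero.mpr (by omega))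
    else 1

/-- the class `c₀ ∈ C_K` of the idele `idelP` -/
def clsP (p : ℕ) (K : Type) [Field K] [NumberField K] : ClS S K :=
  clsMk S K (Additive.ofMul (locUnit S K (idelP S p)), 0)

end defs

/-- **(CYCLO-FROB)** the decomposition law in the `p^M`-layer `F ⊂ ℚ(ζ_{p^{M+1}})`: for a prime
`𝔮` of `F` over `r ≠ p` with `N𝔮 = r^f`:  `r^{n(p-1)} ≡ 1 mod p^{M+1}` iff `f ∣ n`.
(`σ_r : ζ ↦ ζ^r` is the Frobenius; `F` is unramified at `r`; `Gal(ℚ(ζ)/F) = μ_{p-1}`.) -/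
def CycloFrobStatement : Prop :=
  ∀ (p : ℕ) (F : Type) [Field F] [NumberField F] [IsGalois ℚ F] (M : ℕ),
    p.Prime → p ≠ 2 → Module.finrank ℚ F = p ^ M →
    Nonempty (F →ₐ[ℚ] CyclotomicField (p ^ (M + 1)) ℚ) →
    ∀ (𝔮 : Ideal (𝓞 F)) (r f : ℕ), 𝔮.IsPrime → r.Prime → r ≠ p → Ideal.absNorm 𝔮 = r ^ f →
    ∀ n : ℕ, (r ^ (n * (p - 1)) ≡ 1 [MOD p ^ (M + 1)] ↔ f ∣ n)

/-- **(CYCLO)** in the `p^M`-layer `F` of the cyclotomic `ℤ_p`-extension the class `c₀` of the idele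
`1 + p` has order `≥ p^M` modulo norms:  `k c₀ ∈ N_{Gal(F/ℚ)} C_F ⇒ p^M ∣ k`. -/
def CycloStatement : Prop :=
  ∀ (p : ℕ) (S : Finset Nat.Primes) (F : Type) [Field F] [NumberField F] [IsGalois ℚ F] (M : ℕ),
    p.Prime → p ≠ 2 → (∃ q ∈ S, (q : ℕ) = p) → Module.finrank ℚ F = p ^ M →
    Nonempty (F →ₐ[ℚ] CyclotomicField (p ^ (M + 1)) ℚ) →
    ∀ k : ℕ, k • clsP S p F ∈ (clsN S F ⊤).range → p ^ M ∣ k

/-- **(TOWER)** for `L/ℚ` Galois unramified outside `S ∋ p` and `M`: the compositum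
`Ω = L · ℚ_M` with `N_L = Gal(Ω/L)`, `N_M = Gal(Ω/ℚ_M)`. -/
def TowerStatement : Prop :=
  ∀ (p : ℕ) (S : Finset Nat.Primes) (L : Type) [Field L] [NumberField L] [IsGalois ℚ L] (M : ℕ),
    p.Prime → p ≠ 2 → (∃ q ∈ S, (q : ℕ) = p) → UnramOutside S L ⊤ →
    ∃ (Ω : Type) (_ : Field Ω) (_ : NumberField Ω) (_ : IsGalois ℚ Ω)
      (NL NM : Subgroup (AutQ Ω)) (_ : NL.Normal) (_ : NM.Normal),
      UnramOutside S Ω ⊤ ∧ NL ⊓ NM = ⊥ ∧ IsCyclic (AutQ Ω ⧸ NM) ∧
      Nat.card (AutQ Ω ⧸ NM) = p ^ M ∧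
      Nonempty (L ≃ₐ[ℚ] IntermediateField.fixedField NL) ∧
      Nonempty (IntermediateField.fixedField NM →ₐ[ℚ] CyclotomicField (p ^ (M + 1)) ℚ)

/-- **(NL)** norm limitation, in the form needed: in a tower `(Ω, N_L, N_M)` with
`[Ω^{N_L} : ℚ] = p^a m'`, `a ≤ M`, the class `p^{M-a} c₀` is a norm from `N_L`. -/
def NormLimStatement : Prop :=
  ∀ (p : ℕ) (S : Finset Nat.Primes) (Ω : Type) [Field Ω] [NumberField Ω] [IsGalois ℚ Ω]
    (NL NM : Subgroup (AutQ Ω)) [NL.Normal] [NM.Normal] (M a m' : ℕ),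
    p.Prime → p ≠ 2 → (∃ q ∈ S, (q : ℕ) = p) → UnramOutside S Ω ⊤ →
    NL ⊓ NM = ⊥ → IsCyclic (AutQ Ω ⧸ NM) → Nat.card (AutQ Ω ⧸ NM) = p ^ M →
    Nonempty (IntermediateField.fixedField NM →ₐ[ℚ] CyclotomicField (p ^ (M + 1)) ℚ) →
    a ≤ M → ¬ p ∣ m' → Nat.card (AutQ Ω ⧸ NL) = p ^ a * m' →
    ∃ x : ClS S Ω, p ^ (M - a) • clsP S p Ω = subNorm (clsRep S ℚ Ω) NL x

/-- **(TR)** translation: for `N ◁ Γ = Gal(Ω/ℚ)`, `F = Ω^N`: the pair `(Γ/N, (C_Ω)^N)` is isomorphic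
to `(Gal(F/ℚ), C_F)` by restriction of automorphisms and base change of classes. -/
def TRStatement : Prop :=
  ∀ (S : Finset Nat.Primes) (Ω : Type) [Field Ω] [NumberField Ω] [IsGalois ℚ Ω]
    (N : Subgroup (AutQ Ω)) [N.Normal], S.Nonempty → UnramOutside S Ω N →
    ∃ (e : (AutQ Ω ⧸ N) ≃* AutQ (IntermediateField.fixedField N))
      (j : ((clsObj S ℚ Ω).quotientToInvariants N).V ≃+ ClS S (IntermediateField.fixedField N)),
      (∀ (g : AutQ Ω ⧸ N) (b : ((clsObj S ℚ Ω).quotientToInvariants N).V),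
        j (((clsObj S ℚ Ω).quotientToInvariants N).ρ g b) =
          clsRep S ℚ (IntermediateField.fixedField N) (e g) (j b)) ∧
      (∀ (g : AutQ Ω) (x : IntermediateField.fixedField N),
        ((e (QuotientGroup.mk g) x : IntermediateField.fixedField N) : Ω) = g (x : Ω)) ∧
      (∀ (w : AmbS S (IntermediateField.fixedField N))
        (b : ((clsObj S ℚ Ω).quotientToInvariants N).V),
        j b = clsMk S (IntermediateField.fixedField N) w →
          (b.val : ClS S Ω) = clsMk S Ω (ambBase S (IntermediateField.fixedField N) Ω w))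

/-- **(FIELD-ISO)** `C` is functorial for isomorphisms of fields. -/
def FieldIsoStatement : Prop :=
  ∀ (S : Finset Nat.Primes) (L L' : Type) [Field L] [NumberField L] [Field L'] [NumberField L']
    (φ : L ≃ₐ[ℚ] L'),
    ∃ j : ClS S L ≃+ ClS S L', ∀ (g : AutQ L) (b : ClS S L),
      j (clsRep S ℚ L g b) = clsRep S ℚ L' (AlgEquiv.autCongr φ g) (j b)

/-- the fundamental class, final form (= `FundamentalClass`, which has `p ∈ S`). -/
def FCAsmStatement : Prop :=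
  TowerStatement → CycloStatement → NormLimStatement → TRStatement → FieldIsoStatement →
  ClassModuleNE → (∀ (Γ : Type) [Group Γ] [Finite Γ], AbsFCStatement Γ) →
  (∀ (G G' : Type) [Group G] [Finite G] [Group G'] [Finite G'], SylIsoStatement G G') →
  (∀ (G : Type) [Group G] [Finite G], GenStatement G) → FundamentalClass

end H17C
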