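/-
W2-C (S55) block C-finite (helper17, architect): INTERFACE, part 8 — TRANSPORT from the tensor model
`C_F = ClS S F` to the module `B_L = (I/E)^{U_L}` of block E (`H14PT.BL`).
Plan and paper proofs: NOTES/W2C-C-transport.md.  Nothing here is proved by a placeholder.
-/
import Fermat.Agent.CFT2.C.Slices5_helper17
import Fermat.Agent.CFT2.E.Interface

set_option autoImplicit false
set_option linter.unusedSectionVars false
set_option linter.unusedVariables false

noncomputable section

namespace H17C

open NumberField CategoryTheory groupCohomology H14PT H15D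

local notation "Qb" => AlgebraicClosure ℚ
local notation "GQ" => (AlgebraicClosure ℚ ≃ₐ[ℚ] AlgebraicClosure ℚ)

/-- **(B-CLS)** for every `S`-level `L` (field `F = Qb^{U_L}`): `F/ℚ` is Galois, unramified outside `S`
(in the sense of the tensor model), `GQ ⧸ U_L ≅ Gal(F/ℚ)`, and `B_L` embeds equivariantly into `C_F`
with finite cokernel of order prime to `p`.
(`j`: `b = [x]`, `x ∈ I^{U'} = I_{F'}` for a level `F' ⊇ F` (TENSOR-COIND); the class of `(x, 0)` in
`C_{F'}` is `Gal(F'/F)`-invariant, so it is `base(c)` for a unique `c ∈ C_F` (DESC-C); `j b := c`.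
Image = classes whose divisor capitulates in an `S`-level; the cokernel is a quotient of `Cl_S(F)`,
without `p`-torsion by CAP: if `p d` becomes `div α` in `F'` then `d` becomes `div α^{1/p}` in
`F'(μ_p, α^{1/p})`, unramified outside `S ∋ p`.) -/
def BClsStatement (S : Finset Nat.Primes) (p : ℕ) : Prop :=
  ∀ L : (levelsS S).Lv, ∃ (F : Type) (_ : Field F) (_ : NumberField F) (_ : IsGalois ℚ F),
    UnramOutside S F ⊤ ∧ ∃ (e : (GQ ⧸ L.U) ≃* AutQ F) (j : (BL S L).V →+ ClS S F),
      Function.Injective j ∧ (∀ g b, j ((BL S L).ρ g b) = clsRep S ℚ F (e g) (j b)) ∧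
      j.range.index ≠ 0 ∧ ¬ p ∣ j.range.index

/-- **(CMB-ASM)** the deliverable CM of block C for block E. -/
def CmbAsmStatement : Prop :=
  ∀ (S : Finset Nat.Primes) (p : ℕ), p.Prime → p ≠ 2 → (∃ q ∈ S, (q : ℕ) = p) →
    BClsStatement S p → FundamentalClass →
    (∀ (G G' : Type) [Group G] [Finite G] [Group G'] [Finite G'], PcmEmbStatement G G') →
    CMB S p

end H17C
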