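/-
W2-C (S55) block C-finite, TRANSPORT (helper17), B-CLS step (a): LEVEL-FIELD + UNR-TR (helper9).

For an `S`-level `L` of `GQ` (`L.U = F₀.fixingSubgroup`, `F₀ ⊆ ℚ̄` finite, unramified outside `S`
in the sense of the prelude, `L.U` normal):
* `H9BL.numberField F₀`, `H9BL.isGalois_of_normal`: `F₀` is a number field, Galois over `ℚ`;
* `H9BL.resEquiv`: `GQ ⧸ U ≃* Gal(F₀/ℚ)` by restriction (`resEquiv_apply`);
* `H9BL.unramOutside`: `F₀` is unramified outside `S` in the sense of the tensor model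
  (`H17C.UnramOutside S F₀ ⊤`);
* `H9BL.level_field`: everything packaged for a level `L`.
-/
import Fermat.Agent.CFT2.C.Transport_helper17
import Fermat.Agent.TEll.BRLiftInertia
import Fermat.Agent.W3G.CHEB_helper29

set_option autoImplicit false
set_option linter.unusedSectionVars false
set_option linter.unusedVariables false
set_option linter.style.haveILetI false

noncomputable section

namespace H9BL

open NumberField H17C H15D

local notation "Qb" => AlgebraicClosure ℚ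
local notation "GQ" => (AlgebraicClosure ℚ ≃ₐ[ℚ] AlgebraicClosure ℚ)

/-- `ℚ̄/ℚ` is normal -/
theorem normal_Qb : Normal ℚ Qb :=
  haveI halg : Algebra.IsAlgebraic ℚ Qb := AlgebraicClosure.isAlgebraic ℚ
  normal_iff.2 fun x => ⟨(halg.isAlgebraic x).isIntegral, IsAlgClosed.splits _⟩

/-- `ℚ̄/ℚ` is Galois -/
theorem isGalois_Qb : IsGalois ℚ Qb :=
  haveI := normal_Qb
  ⟨⟩

/-- a finite subextension of `ℚ̄` is a number field -/
theorem numberField (F₀ : IntermediateField ℚ Qb) [FiniteDimensional ℚ F₀] : NumberField F₀ :=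
  { to_charZero := inferInstance
    to_finiteDimensional := inferInstance }

/-- a subextension of `ℚ̄` with normal fixing subgroup is Galois -/
theorem isGalois_of_normal (F₀ : IntermediateField ℚ Qb) (h : F₀.fixingSubgroup.Normal) :
    IsGalois ℚ F₀ :=
  haveI := isGalois_Qb
  (InfiniteGalois.normal_iff_isGalois F₀).1 h

/-- restriction `Gal(L/K) ⧸ U ≃* Gal(E/K)` for `U = Gal(L/E)`, general form -/
def resEquivGen {K L : Type} [Field K] [Field L] [Algebra K L] [Normal K L]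
    (E : IntermediateField K L) [Normal K E] (U : Subgroup (L ≃ₐ[K] L)) [U.Normal]
    (hU : U = E.fixingSubgroup) : (L ≃ₐ[K] L) ⧸ U ≃* (E ≃ₐ[K] E) :=
  (QuotientGroup.quotientMulEquivOfEq (hU.trans E.restrictNormalHom_ker.symm)).trans
    (QuotientGroup.quotientKerEquivOfSurjective (AlgEquiv.restrictNormalHom E)
      (AlgEquiv.restrictNormalHom_surjective L))

theorem resEquivGen_apply {K L : Type} [Field K] [Field L] [Algebra K L] [Normal K L]
    (E : IntermediateField K L) [Normal K E] (U : Subgroup (L ≃ₐ[K] L)) [U.Normal]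
    (hU : U = E.fixingSubgroup) (g : L ≃ₐ[K] L) (x : E) :
    ((resEquivGen E U hU (QuotientGroup.mk g) x : E) : L) = g (x : L) :=
  AlgEquiv.restrictNormal_commutes g E x

/-- `GQ ⧸ U ≃* Gal(F₀/ℚ)` by restriction, for `U = Gal(ℚ̄/F₀)` -/
def resEquiv (F₀ : IntermediateField ℚ Qb) [h : Normal ℚ F₀] (U : Subgroup GQ) [U.Normal]
    (hU : U = F₀.fixingSubgroup) : GQ ⧸ U ≃* (F₀ ≃ₐ[ℚ] F₀) :=
  @resEquivGen ℚ Qb _ _ _ normal_Qb F₀ h U _ hU

theorem resEquiv_apply (F₀ : IntermediateField ℚ Qb) [h : Normal ℚ F₀] (U : Subgroup GQ)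
    [U.Normal] (hU : U = F₀.fixingSubgroup) (g : GQ) (x : F₀) :
    ((resEquiv F₀ U hU (QuotientGroup.mk g) x : F₀) : Qb) = g (x : Qb) :=
  @resEquivGen_apply ℚ Qb _ _ _ normal_Qb F₀ h U _ hU g x

/-- a nonzero prime ideal of a ring of integers contains a rational prime -/
theorem exists_prime_mem {F : Type} [Field F] [NumberField F] (Q : Ideal (𝓞 F)) [Q.IsPrime]
    (hQ : Q ≠ ⊥) : ∃ q : ℕ, q.Prime ∧ ((q : ℕ) : 𝓞 F) ∈ Q := by
  have key : ∀ n : ℕ, 2 ≤ n → ((n : ℕ) : 𝓞 F) ∈ Q → ∃ q : ℕ, q.Prime ∧ ((q : ℕ) : 𝓞 F) ∈ Q := by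
    intro n
    induction n using Nat.strong_induction_on with
    | _ n ih =>
      intro hn hmem
      by_cases hp : n.Prime
      · exact ⟨n, hp, hmem⟩
      · obtain ⟨a, ha1, b, hb1, hab⟩ : ∃ a, 2 ≤ a ∧ ∃ b, 2 ≤ b ∧ n = a * b := by
          have h1 := Nat.minFac_dvd n
          have h2 : (n.minFac).Prime := Nat.minFac_prime (by omega)
          obtain ⟨c, hc⟩ := h1
          have h3 : n.minFac ≠ n := fun h => hp (h ▸ h2)
          refine ⟨n.minFac, h2.two_le, c, ?_, hc⟩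
          rcases Nat.lt_or_ge c 2 with h4 | h4
          · interval_cases c
            · omega
            · omega
          · exact h4
        have ha2 : a < n := by nlinarith
        have hb2 : b < n := by nlinarith
        rw [hab, Nat.cast_mul] at hmem
        rcases Ideal.IsPrime.mem_or_mem inferInstance hmem with h | h
        · exact ih a ha2 ha1 h
        · exact ih b hb2 hb1 h
  have h0 : Ideal.absNorm Q ≠ 0 := fun h => hQ (Ideal.absNorm_eq_zero_iff.1 h)
  have h1 : Ideal.absNorm Q ≠ 1 := fun h =>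
    (Ideal.IsPrime.ne_top inferInstance) (Ideal.absNorm_eq_one_iff.1 h)
  exact key (Ideal.absNorm Q) (by omega) (Ideal.absNorm_mem Q)

/-- **UNR-TR**: unramified outside `S` in the sense of the prelude (inertia subgroups of the
valuation subrings of `ℚ̄`) implies unramified outside `S` in the sense of the tensor model. -/
theorem unramOutside (S : Finset Nat.Primes) (F₀ : IntermediateField ℚ Qb)
    [FiniteDimensional ℚ F₀] [IsGalois ℚ F₀] [NumberField F₀]
    (hF : F₀.IsUnramifiedOutside S) : UnramOutside S F₀ ⊤ := by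
  intro Q σ _ hσ
  haveI hQprime : Q.1.IsPrime := Q.2.1
  obtain ⟨q, hq, hqQ⟩ := exists_prime_mem Q.1 Q.2.2.1
  -- `q ∉ S`
  have hqS : (⟨q, hq⟩ : Nat.Primes) ∉ S := by
    intro h
    apply Q.2.2.2 ⟨q, hq⟩ h
    have : ((((⟨q, hq⟩ : Nat.Primes) : ℕ) : ℤ) : 𝓞 F₀) = ((q : ℕ) : 𝓞 F₀) := by
      push_cast; rfl
    rw [this]
    exact hqQ
  -- a valuation subring of `ℚ̄` over `Q`
  obtain ⟨A, hA⟩ := H29CHEB.h29cheb_exists_valSubring F₀ Q.1 Q.2.2.1
  have hAq : A.LiesOverPrime q := by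
    have := (hA ((q : ℕ) : 𝓞 F₀)).2 hqQ
    simpa [ValuationSubring.LiesOverPrime] using this
  -- lift `σ` to the inertia group of `A`
  obtain ⟨σ', hσ', hres⟩ := Fermat.Agent.H22BR.h22_lift_inertia F₀ A hq hAq σ (by
    intro x hx
    obtain ⟨y, rfl⟩ : ∃ y : 𝓞 F₀, (y : F₀) = x := ⟨⟨x, hx⟩, rfl⟩
    have h1 := hσ y
    have h2 := (hA (σ • y - y)).2 h1
    exact h2)
  -- `σ'` fixes `F₀`
  have hfix := hF.2 ⟨q, hq⟩ hqS A hAq hσ'
  rw [IntermediateField.mem_fixingSubgroup_iff] at hfix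
  apply AlgEquiv.ext
  intro x
  apply Subtype.ext
  rw [← hres x, hfix x x.2]
  rfl

/-- **LEVEL-FIELD**: the field of an `S`-level. -/
theorem level_field (S : Finset Nat.Primes) (L : (levelsS S).Lv) :
    ∃ (F₀ : IntermediateField ℚ Qb) (_ : FiniteDimensional ℚ F₀) (_ : NumberField F₀)
      (_ : IsGalois ℚ F₀) (hU : L.U = F₀.fixingSubgroup),
      F₀.IsUnramifiedOutside S ∧ UnramOutside S F₀ ⊤ ∧
      ∀ (g : GQ) (x : F₀), ((resEquiv F₀ L.U hU (QuotientGroup.mk g) x : F₀) : Qb) = g (x : Qb) := by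
  obtain ⟨F₀, hF, hn, hU⟩ := L.mem
  haveI := hF.1
  haveI hnf : NumberField F₀ := numberField F₀
  haveI hgal : IsGalois ℚ F₀ := isGalois_of_normal F₀ hn
  exact ⟨F₀, hF.1, hnf, hgal, hU, hF, unramOutside S F₀ hF, fun g x => resEquiv_apply F₀ L.U hU g x⟩

end H9BL
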