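import Mathlib
import Fermat.Agent.CFT2.C.Slices_helper17

/-!
# W2-C (S55), block C-finite, slice DESC-D (helper22)

`H22C.h22c_descDiv : H17C.DescDiv`: if `H ≤ Aut(L)` is unramified outside `S` and `F = L^H`, then
an `H`-invariant divisor of `L` prime to `S` is the pull-back of a divisor of `F`, and
`ord_Q(x) = ord_{Q ∩ F}(x)` for `x ∈ Fˣ`.
-/

set_option autoImplicit false
set_option linter.unusedSectionVars false
set_option linter.unusedSimpArgs false
set_option linter.unusedVariables false
set_option linter.style.haveILetI false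

noncomputable section

namespace H22C

open NumberField IsDedekindDomain
open scoped Pointwise

variable (S : Finset Nat.Primes) (L : Type) [Field L] [NumberField L] (H : Subgroup (H17C.AutQ L))

/-- `L / L^H` is Galois -/
theorem h22c_isGalois : IsGalois (IntermediateField.fixedField H) L :=
  IsGalois.of_fixed_field L H

/-- an automorphism of `L` over `F = L^H` belongs to `H` -/
theorem h22c_restrict_mem (τ : L ≃ₐ[IntermediateField.fixedField H] L) :
    (τ.restrictScalars ℚ : L ≃ₐ[ℚ] L) ∈ H := by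
  have h := IntermediateField.fixingSubgroup_fixedField H
  have h1 : (τ.restrictScalars ℚ : L ≃ₐ[ℚ] L) ∈ (IntermediateField.fixedField H).fixingSubgroup := by
    rw [IntermediateField.mem_fixingSubgroup_iff]
    intro x hx
    exact τ.commutes ⟨x, hx⟩
  have key : ∀ K : Subgroup (L ≃ₐ[ℚ] L), (IntermediateField.fixedField H).fixingSubgroup = K →
      (τ.restrictScalars ℚ : L ≃ₐ[ℚ] L) ∈ K := by
    intro K hK
    rw [← hK]
    exact h1
  exact key H h

theorem h22c_smul_eq (τ : L ≃ₐ[IntermediateField.fixedField H] L) (x : 𝓞 L) :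
    (τ.restrictScalars ℚ : L ≃ₐ[ℚ] L) • x = τ • x := rfl

theorem h22c_smul_ideal_eq (τ : L ≃ₐ[IntermediateField.fixedField H] L) (I : Ideal (𝓞 L)) :
    (τ.restrictScalars ℚ : L ≃ₐ[ℚ] L) • I = τ • I := by
  ext x
  rw [Ideal.mem_pointwise_smul_iff_inv_smul_mem, Ideal.mem_pointwise_smul_iff_inv_smul_mem]
  rfl

/-! ## transitivity -/

section trans

variable {S L H}

/-- `H` acts transitively on the primes of `L` (outside `S`) above a prime of `F = L^H` -/
theorem h22c_transitive (Q Q' : H17C.PrimesS S L)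
    (h : H17C.PrimesS.under S (IntermediateField.fixedField H) L Q =
      H17C.PrimesS.under S (IntermediateField.fixedField H) L Q') :
    ∃ σ ∈ H, σ • Q = Q' := by
  haveI := h22c_isGalois L H
  haveI : Q.1.IsPrime := Q.2.1
  haveI : Q'.1.IsPrime := Q'.2.1
  let p : Ideal (𝓞 (IntermediateField.fixedField H)) :=
    Q.1.comap (algebraMap (𝓞 (IntermediateField.fixedField H)) (𝓞 L))
  haveI : Q.1.LiesOver p := ⟨rfl⟩
  haveI : Q'.1.LiesOver p := ⟨congrArg Subtype.val h⟩
  obtain ⟨τ, hτ⟩ := Ideal.exists_smul_eq_of_isGaloisGroup p Q.1 Q'.1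
    (L ≃ₐ[IntermediateField.fixedField H] L)
  refine ⟨τ.restrictScalars ℚ, h22c_restrict_mem L H τ, Subtype.ext ?_⟩
  show (τ.restrictScalars ℚ : L ≃ₐ[ℚ] L) • Q.1 = Q'.1
  rw [h22c_smul_ideal_eq, hτ]

/-- an `H`-invariant divisor is constant on the primes above a prime of `F` -/
theorem h22c_const (d : H17C.DivS S L) (hd : ∀ σ ∈ H, H17C.divRep S ℚ L σ d = d)
    (Q Q' : H17C.PrimesS S L)
    (h : H17C.PrimesS.under S (IntermediateField.fixedField H) L Q =
      H17C.PrimesS.under S (IntermediateField.fixedField H) L Q') : d Q = d Q' := by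
  obtain ⟨σ, hσ, rfl⟩ := h22c_transitive Q Q' h
  have h1 := H17C.divRep_apply_smul S ℚ L σ d Q
  rw [hd σ hσ] at h1
  exact h1.symm

theorem h22c_descDiv1 (d : H17C.DivS S L) (hd : ∀ σ ∈ H, H17C.divRep S ℚ L σ d = d) :
    ∃ c : H17C.DivS S (IntermediateField.fixedField H), ∀ Q : H17C.PrimesS S L,
      d Q = H17C.divBaseFun S (IntermediateField.fixedField H) L c Q := by
  classical
  let f : H17C.PrimesS S (IntermediateField.fixedField H) → ℤ := fun P =>
    if h : ∃ Q, H17C.PrimesS.under S (IntermediateField.fixedField H) L Q = P then d h.choose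
    else 0
  have hf : ∀ Q, f (H17C.PrimesS.under S (IntermediateField.fixedField H) L Q) = d Q := by
    intro Q
    have h : ∃ Q', H17C.PrimesS.under S (IntermediateField.fixedField H) L Q' =
        H17C.PrimesS.under S (IntermediateField.fixedField H) L Q := ⟨Q, rfl⟩
    simp only [f, dif_pos h]
    exact h22c_const d hd _ _ h.choose_spec
  refine ⟨Finsupp.onFinset
    (d.support.image (H17C.PrimesS.under S (IntermediateField.fixedField H) L)) f ?_,
    fun Q => ?_⟩
  · intro P hP
    by_cases h : ∃ Q, H17C.PrimesS.under S (IntermediateField.fixedField H) L Q = P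
    · obtain ⟨Q, rfl⟩ := h
      rw [hf] at hP
      exact Finset.mem_image.2 ⟨Q, Finsupp.mem_support_iff.2 hP, rfl⟩
    · simp only [f, dif_neg h, ne_eq, not_true_eq_false] at hP
  · show d Q = Finsupp.onFinset _ f _ (H17C.PrimesS.under S (IntermediateField.fixedField H) L Q)
    rw [Finsupp.onFinset_apply, hf]

end trans

/-! ## `e = 1` outside `S` -/

section unram

variable {S L H}

theorem h22c_inertia_eq_bot (hunr : H17C.UnramOutside S L H) (Q : H17C.PrimesS S L) :
    Q.1.inertia (L ≃ₐ[IntermediateField.fixedField H] L) = ⊥ := by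
  rw [eq_bot_iff]
  intro τ hτ
  rw [Subgroup.mem_bot]
  have h1 := hunr Q (τ.restrictScalars ℚ) (h22c_restrict_mem L H τ) (fun x => hτ x)
  ext x
  have h2 := congrArg (fun σ : L ≃ₐ[ℚ] L => σ x) h1
  exact h2

theorem h22c_ramificationIdx_eq_one (hunr : H17C.UnramOutside S L H) (Q : H17C.PrimesS S L) :
    Q.1.ramificationIdx (𝓞 (IntermediateField.fixedField H)) = 1 := by
  haveI := h22c_isGalois L H
  haveI : Q.1.IsPrime := Q.2.1
  have hQ : Q.1 ≠ ⊥ := Q.2.2.1
  have hP0 : Q.1.under (𝓞 (IntermediateField.fixedField H)) ≠ ⊥ := Ideal.under_ne_bot _ hQ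
  have hPmax : (Q.1.under (𝓞 (IntermediateField.fixedField H))).IsMaximal :=
    Ideal.IsPrime.isMaximal inferInstance hP0
  have hfk : Finite (𝓞 (IntermediateField.fixedField H) ⧸
      Q.1.under (𝓞 (IntermediateField.fixedField H))) :=
    Ideal.finiteQuotientOfFreeOfNeBot _ hP0
  have h1 := Ideal.card_inertia_eq_ramificationIdxIn
    (G := L ≃ₐ[IntermediateField.fixedField H] L)
    (Q.1.under (𝓞 (IntermediateField.fixedField H))) Q.1
  rw [h22c_inertia_eq_bot hunr Q, Subgroup.card_bot] at h1
  rw [← Ideal.ramificationIdxIn_eq_ramificationIdx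
    (Q.1.under (𝓞 (IntermediateField.fixedField H))) Q.1
    (L ≃ₐ[IntermediateField.fixedField H] L), ← h1]

theorem h22c_descDiv2 (hunr : H17C.UnramOutside S L H)
    (x : IntermediateField.fixedField H) (Q : H17C.PrimesS S L) :
    H17C.ordP Q ((x : IntermediateField.fixedField H) : L) =
      H17C.ordP (H17C.PrimesS.under S (IntermediateField.fixedField H) L Q) x := by
  haveI : Q.1.IsPrime := Q.2.1
  have hQ : Q.1 ≠ ⊥ := Q.2.2.1
  have hP0 : Q.1.under (𝓞 (IntermediateField.fixedField H)) ≠ ⊥ := Ideal.under_ne_bot _ hQ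
  haveI : Q.toHOS.asIdeal.LiesOver
      (H17C.PrimesS.under S (IntermediateField.fixedField H) L Q).toHOS.asIdeal := ⟨rfl⟩
  have h1 := IsDedekindDomain.HeightOneSpectrum.valuation_liesOver L
    (H17C.PrimesS.under S (IntermediateField.fixedField H) L Q).toHOS Q.toHOS x
  have he : (H17C.PrimesS.under S (IntermediateField.fixedField H) L Q).toHOS.asIdeal.ramificationIdx'
      Q.toHOS.asIdeal = 1 := by
    have h2 := Ideal.ramificationIdx'_eq_ramificationIdx
      (H17C.PrimesS.under S (IntermediateField.fixedField H) L Q).toHOS.asIdeal Q.toHOS.asIdeal hP0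
    rw [h2]
    exact h22c_ramificationIdx_eq_one hunr Q
  rw [he, pow_one] at h1
  unfold H17C.ordP
  rw [h1]
  rfl

end unram

/-- **(DESC-D)** descent for divisors. -/
theorem h22c_descDiv : H17C.DescDiv := by
  intro S L _ _ H hunr
  exact ⟨fun d hd => h22c_descDiv1 d hd, fun x Q => h22c_descDiv2 hunr (x : _) Q⟩

end H22C
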