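import Mathlib
import Fermat.Agent.CFT2.C.Slices_helper17

/-!
# W2-C (S55), block C-finite, slice DESC-I (helper22)

`H22C.h22c_descIdele : H17C.DescIdele`: Galois descent for `L_S = L ⊗_ℚ ℚ_S`:
`F_S → L_S` is injective and `(L_S)^H = F_S` for `F = L^H`.
Proof: coordinates with respect to a `ℚ`-basis of `ℚ_S`, and a `ℚ`-linear retraction `L → F`.
-/

set_option autoImplicit false
set_option linter.unusedSectionVars false
set_option linter.unusedSimpArgs false
set_option linter.unusedVariables false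

noncomputable section

namespace H22C

open TensorProduct NumberField

section generic

variable {M M' W : Type} [AddCommGroup M] [Module ℚ M] [AddCommGroup M'] [Module ℚ M']
  [AddCommGroup W] [Module ℚ W] {ι : Type} (ℬ : Module.Basis ι ℚ W)

/-- the `i`-th coordinate `M ⊗ W → M` with respect to a basis of `W` -/
def h22c_coord (i : ι) : M ⊗[ℚ] W →ₗ[ℚ] M :=
  (TensorProduct.rid ℚ M).toLinearMap ∘ₗ (ℬ.coord i).lTensor M

theorem h22c_coord_tmul (i : ι) (m : M) (w : W) :
    h22c_coord ℬ i (m ⊗ₜ[ℚ] w) = ℬ.coord i w • m := by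
  simp [h22c_coord]

theorem h22c_coord_map (i : ι) (f : M →ₗ[ℚ] M') (z : M ⊗[ℚ] W) :
    h22c_coord ℬ i (TensorProduct.map f LinearMap.id z) = f (h22c_coord ℬ i z) := by
  induction z using TensorProduct.induction_on with
  | zero => simp
  | tmul m w =>
    rw [TensorProduct.map_tmul, h22c_coord_tmul, h22c_coord_tmul, LinearMap.id_apply, map_smul]
  | add a b ha hb => rw [map_add, map_add, ha, hb, map_add, map_add]

theorem h22c_coord_ext (z z' : M ⊗[ℚ] W) (h : ∀ i, h22c_coord ℬ i z = h22c_coord ℬ i z') :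
    z = z' := by
  classical
  apply (TensorProduct.equivFinsuppOfBasisRight ℬ).injective
  ext i
  rw [TensorProduct.equivFinsuppOfBasisRight_apply, TensorProduct.equivFinsuppOfBasisRight_apply]
  exact h i

end generic

section main

variable (S : Finset Nat.Primes) (L : Type) [Field L] [NumberField L]

theorem h22c_ksAut_eq (σ : L ≃ₐ[ℚ] L) (z : L ⊗[ℚ] H17C.QS S) :
    (H17C.ksAut S ℚ L σ z : L ⊗[ℚ] H17C.QS S) =
      TensorProduct.map (σ.toLinearMap : L →ₗ[ℚ] L) (LinearMap.id : H17C.QS S →ₗ[ℚ] H17C.QS S) z := by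
  induction z using TensorProduct.induction_on with
  | zero => exact (map_zero (H17C.ksAut S ℚ L σ)).trans (map_zero _).symm
  | tmul x y => rfl
  | add a b ha hb =>
    refine (map_add (H17C.ksAut S ℚ L σ) a b).trans ?_
    rw [map_add]
    exact congrArg₂ (· + ·) ha hb

theorem h22c_ksBase_eq (F : IntermediateField ℚ L) (w : F ⊗[ℚ] H17C.QS S) :
    (H17C.ksBase S F L w : L ⊗[ℚ] H17C.QS S) =
      TensorProduct.map (F.val.toLinearMap : F →ₗ[ℚ] L)
        (LinearMap.id : H17C.QS S →ₗ[ℚ] H17C.QS S) w := by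
  induction w using TensorProduct.induction_on with
  | zero => exact (map_zero (H17C.ksBase S F L)).trans (map_zero _).symm
  | tmul x y => rfl
  | add a b ha hb =>
    refine (map_add (H17C.ksBase S F L) a b).trans ?_
    rw [map_add]
    exact congrArg₂ (· + ·) ha hb

/-- **(DESC-I)** Galois descent for `L_S`. -/
theorem h22c_descIdele : H17C.DescIdele := by
  intro S L _ _ H
  let ℬ := Module.Basis.ofVectorSpace ℚ (H17C.QS S)
  set F : IntermediateField ℚ L := IntermediateField.fixedField H with hF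
  have hincl : Function.Injective (F.val.toLinearMap : F →ₗ[ℚ] L) := Subtype.val_injective
  constructor
  · intro (w : F ⊗[ℚ] H17C.QS S) (w' : F ⊗[ℚ] H17C.QS S) h
    apply h22c_coord_ext ℬ
    intro i
    apply hincl
    have h1 : h22c_coord ℬ i (H17C.ksBase S F L w : L ⊗[ℚ] H17C.QS S) =
        h22c_coord ℬ i (H17C.ksBase S F L w' : L ⊗[ℚ] H17C.QS S) := congrArg (h22c_coord ℬ i) h
    rw [h22c_ksBase_eq, h22c_ksBase_eq, h22c_coord_map, h22c_coord_map] at h1
    exact h1
  · intro (z : L ⊗[ℚ] H17C.QS S) hz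
    obtain ⟨π, hπ⟩ := LinearMap.exists_leftInverse_of_injective (F.val.toLinearMap : F →ₗ[ℚ] L)
      (LinearMap.ker_eq_bot.2 hincl)
    have hπ' : ∀ x : F, π (x : L) = x := fun x => congrArg (fun f => f x) hπ
    -- the coordinates of `z` are in `F`
    have hc : ∀ i, h22c_coord ℬ i z ∈ F := by
      intro i
      rw [hF, IntermediateField.mem_fixedField_iff]
      intro σ hσ
      have h1 : h22c_coord ℬ i (H17C.ksAut S ℚ L σ z : L ⊗[ℚ] H17C.QS S) = h22c_coord ℬ i z :=
        congrArg (h22c_coord ℬ i) (hz σ hσ)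
      rw [h22c_ksAut_eq, h22c_coord_map] at h1
      exact h1
    refine ⟨(TensorProduct.map π LinearMap.id z : F ⊗[ℚ] H17C.QS S), ?_⟩
    show (H17C.ksBase S F L (TensorProduct.map π LinearMap.id z : F ⊗[ℚ] H17C.QS S) :
      L ⊗[ℚ] H17C.QS S) = z
    apply h22c_coord_ext ℬ
    intro i
    rw [h22c_ksBase_eq, h22c_coord_map, h22c_coord_map]
    show ((π (h22c_coord ℬ i z) : F) : L) = _
    have := hπ' ⟨_, hc i⟩
    rw [this]

end main

end H22C
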