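import Mathlib
import Fermat.Agent.CFT2.C.Slices2_helper17
import Fermat.Agent.CFT2.C.DescIdele_helper22
import Fermat.Agent.CFT2.C.DescDiv_helper22

/-!
# W2-C (S55), block C-finite, slice DESC-C (helper22)

`H22C.h22c_descClsNE : H22C.DescClsNE`: descent for the class group `C_F → (C_L)^N`, `F = L^N`,
`N ≤ Aut(L)` unramified outside `S`, for `S ≠ ∅`.
(For `S = ∅` the statement `H17C.DescCls` is false: `ℚ_S` is the zero ring and `C_F = Cl(F) → Cl(L)`
is not injective in general (capitulation).)
-/

set_option autoImplicit false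
set_option linter.unusedSectionVars false
set_option linter.unusedSimpArgs false
set_option linter.unusedVariables false
set_option linter.style.haveILetI false

noncomputable section

namespace H22C

open NumberField IsDedekindDomain TensorProduct
open scoped Pointwise

/-- **(DESC-C)**, corrected form (`S ≠ ∅`): for `N ≤ Aut(L)` unramified outside `S`,
`F = L^N`:  `C_F → C_L` is well defined, injective, and its image is `(C_L)^N`. -/
def DescClsNE : Prop :=
  ∀ (S : Finset Nat.Primes) (L : Type) [Field L] [NumberField L] (N : Subgroup (H17C.AutQ L)),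
    S.Nonempty → H17C.UnramOutside S L N →
    (∀ z ∈ H17C.princS S (IntermediateField.fixedField N),
      H17C.ambBase S (IntermediateField.fixedField N) L z ∈ H17C.princS S L) ∧
    (∀ z : H17C.AmbS S (IntermediateField.fixedField N),
      H17C.ambBase S (IntermediateField.fixedField N) L z ∈ H17C.princS S L →
        z ∈ H17C.princS S (IntermediateField.fixedField N)) ∧
    (∀ z : H17C.AmbS S L,
      (∀ h ∈ N, H17C.clsRep S ℚ L h (H17C.clsMk S L z) = H17C.clsMk S L z) →
      ∃ w : H17C.AmbS S (IntermediateField.fixedField N),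
        H17C.clsMk S L (H17C.ambBase S (IntermediateField.fixedField N) L w) = H17C.clsMk S L z)

/-! ## injectivity of the diagonal embedding for `S ≠ ∅` -/

section diag

variable {S : Finset Nat.Primes} (hS : S.Nonempty) (K : Type) [Field K] [NumberField K]

include hS in
theorem h22c_nontrivial_QS : Nontrivial (H17C.QS S) := by
  haveI : Nonempty S := hS.to_subtype
  infer_instance

include hS in
theorem h22c_diagRing_injective : Function.Injective (H17C.diagRing S K) := by
  haveI := h22c_nontrivial_QS hS
  exact Algebra.TensorProduct.includeLeft_injective (R := ℚ) (S := ℚ) (A := K) (B := H17C.QS S)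
    (algebraMap ℚ (H17C.QS S)).injective

include hS in
theorem h22c_diagS_injective : Function.Injective (H17C.diagS S K) := by
  intro x y h
  apply Units.ext
  apply h22c_diagRing_injective hS K
  exact congrArg Units.val h

include hS in
theorem h22c_princHom_injective : Function.Injective (H17C.princHom S K) := by
  intro x y h
  have h1 := congrArg Prod.fst h
  have h2 : H17C.diagS S K (Additive.toMul x) = H17C.diagS S K (Additive.toMul y) :=
    congrArg Additive.toMul h1
  exact congrArg Additive.ofMul (h22c_diagS_injective hS K h2)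

end diag

/-! ## pull-back of divisors is injective -/

section pull

variable (S : Finset Nat.Primes)
  (K L : Type) [Field K] [NumberField K] [Field L] [NumberField L] [Algebra K L]

theorem h22c_under_surjective (P : H17C.PrimesS S K) :
    ∃ Q : H17C.PrimesS S L, H17C.PrimesS.under S K L Q = P := by
  haveI : P.1.IsPrime := P.2.1
  obtain ⟨Q, -, hQp, hQc⟩ := Ideal.exists_ideal_over_prime_of_isIntegral P.1 (⊥ : Ideal (𝓞 L))
    (by
      rw [Ideal.comap_bot_of_injective _ (FaithfulSMul.algebraMap_injective (𝓞 K) (𝓞 L))]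
      exact bot_le)
  refine ⟨⟨Q, hQp, ?_, ?_⟩, Subtype.ext hQc⟩
  · intro h
    apply P.2.2.1
    rw [← hQc, h, Ideal.comap_bot_of_injective _
      (FaithfulSMul.algebraMap_injective (𝓞 K) (𝓞 L))]
  · intro q hq hmem
    apply P.2.2.2 q hq
    rw [← hQc, Ideal.mem_comap, map_intCast]
    exact hmem

theorem h22c_pullDiv_injective : Function.Injective (H17SI.pullDiv S K L) := by
  intro c c' h
  ext P
  obtain ⟨Q, rfl⟩ := h22c_under_surjective S K L P
  have := congrArg (fun d : H17C.DivS S L => d Q) h
  exact this

end pull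

/-! ## parts 1 and 2 -/

section main

variable {S : Finset Nat.Primes} {L : Type} [Field L] [NumberField L]
  {N : Subgroup (H17C.AutQ L)}

/-- the image of `F_S` in `L_S` is `N`-invariant -/
theorem h22c_ksAut_ksBase (σ : H17C.AutQ L) (hσ : σ ∈ N)
    (w : H17C.KS S (IntermediateField.fixedField N)) :
    H17C.ksAut S ℚ L σ (H17C.ksBase S (IntermediateField.fixedField N) L w) =
      H17C.ksBase S (IntermediateField.fixedField N) L w := by
  induction w using H17C.ks_induction with
  | zero => simp only [map_zero]
  | tmul x y =>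
    rw [H17C.ksBase_tmul, H17C.ksAut_tmul]
    have hx : σ (x : L) = x := (IntermediateField.mem_fixedField_iff N (x : L)).1 x.2 σ hσ
    show H17C.tmulS S L (σ (x : L)) y = H17C.tmulS S L (x : L) y
    rw [hx]
  | add a b ha hb => simp only [map_add, ha, hb]

/-- base change of a principal element -/
theorem h22c_ambBase_princ (hunr : H17C.UnramOutside S L N)
    (x : (IntermediateField.fixedField N)ˣ) :
    H17C.ambBase S (IntermediateField.fixedField N) L
        (H17C.princHom S (IntermediateField.fixedField N) (Additive.ofMul x)) =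
      H17C.princHom S L (Additive.ofMul
        (Units.map (algebraMap (IntermediateField.fixedField N) L : _ →* L) x)) := by
  refine Prod.ext ?_ ?_
  · apply congrArg Additive.ofMul
    apply Units.ext
    rfl
  · ext Q
    show (H17C.divS S (IntermediateField.fixedField N) (Additive.ofMul x))
      (H17C.PrimesS.under S (IntermediateField.fixedField N) L Q) = H17C.divS S L _ Q
    rw [H17C.divS_apply, H17C.divS_apply]
    exact (h22c_descDiv2 hunr (x : IntermediateField.fixedField N) Q).symm

theorem h22c_descCls1 (hunr : H17C.UnramOutside S L N)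
    (z : H17C.AmbS S (IntermediateField.fixedField N))
    (hz : z ∈ H17C.princS S (IntermediateField.fixedField N)) :
    H17C.ambBase S (IntermediateField.fixedField N) L z ∈ H17C.princS S L := by
  obtain ⟨x, rfl⟩ := (H17C.mem_princS_iff S _ z).1 hz
  exact (H17C.mem_princS_iff S L _).2 ⟨_, (h22c_ambBase_princ hunr (Additive.toMul x)).symm⟩

theorem h22c_ideleBase_injective :
    Function.Injective (H17C.ideleBase S (IntermediateField.fixedField N) L) := by
  intro u v h
  apply Units.ext
  apply (h22c_descIdele S L N).1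
  exact congrArg Units.val h

theorem h22c_descCls2 (hS : S.Nonempty) (hunr : H17C.UnramOutside S L N)
    (z : H17C.AmbS S (IntermediateField.fixedField N))
    (hz : H17C.ambBase S (IntermediateField.fixedField N) L z ∈ H17C.princS S L) :
    z ∈ H17C.princS S (IntermediateField.fixedField N) := by
  obtain ⟨y, hy⟩ := (H17C.mem_princS_iff S L _).1 hz
  have h1 : H17C.diagS S L (Additive.toMul y) =
      H17C.ideleBase S (IntermediateField.fixedField N) L (Additive.toMul z.1) :=
    congrArg Additive.toMul (congrArg Prod.fst hy)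
  have hyF : ((Additive.toMul y : Lˣ) : L) ∈ IntermediateField.fixedField N := by
    rw [IntermediateField.mem_fixedField_iff]
    intro σ hσ
    apply h22c_diagRing_injective hS L
    have e1 : H17C.diagRing S L ((Additive.toMul y : Lˣ) : L) =
        H17C.ksBase S (IntermediateField.fixedField N) L
          ((Additive.toMul z.1 : (H17C.KS S (IntermediateField.fixedField N))ˣ) :
            H17C.KS S (IntermediateField.fixedField N)) := congrArg Units.val h1
    have e2 : H17C.ksAut S ℚ L σ (H17C.diagRing S L ((Additive.toMul y : Lˣ) : L)) =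
        H17C.diagRing S L (σ ((Additive.toMul y : Lˣ) : L)) := rfl
    rw [← e2, e1]
    exact h22c_ksAut_ksBase σ hσ _
  let x : (IntermediateField.fixedField N)ˣ :=
    Units.mk0 ⟨((Additive.toMul y : Lˣ) : L), hyF⟩
      (fun h => (Additive.toMul y : Lˣ).ne_zero (congrArg Subtype.val h))
  have hxy : Units.map (algebraMap (IntermediateField.fixedField N) L : _ →* L) x =
      Additive.toMul y := Units.ext rfl
  have h3 := h22c_ambBase_princ (S := S) hunr x
  rw [hxy] at h3
  have h4 : H17C.ambBase S (IntermediateField.fixedField N) L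
      (H17C.princHom S (IntermediateField.fixedField N) (Additive.ofMul x)) =
      H17C.ambBase S (IntermediateField.fixedField N) L z := h3.trans hy
  refine (H17C.mem_princS_iff S _ z).2 ⟨Additive.ofMul x, ?_⟩
  refine Prod.ext ?_ ?_
  · have h5 := congrArg Additive.toMul (congrArg Prod.fst h4)
    exact congrArg Additive.ofMul (h22c_ideleBase_injective h5)
  · exact h22c_pullDiv_injective S _ L (congrArg Prod.snd h4)

end main

/-! ## part 3: invariant classes descend (Hilbert 90) -/

section part3

open groupCohomology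

variable {S : Finset Nat.Primes} {L : Type} [Field L] [NumberField L]
  {N : Subgroup (H17C.AutQ L)}

/-- lift of `h ∈ N` to `Gal(L/F)` -/
def h22c_lift (h : H17C.AutQ L) (hh : h ∈ N) : L ≃ₐ[IntermediateField.fixedField N] L :=
  { h.toRingEquiv with
    commutes' := fun x => (IntermediateField.mem_fixedField_iff N (x : L)).1 x.2 h hh }

theorem h22c_lift_restrict (h : H17C.AutQ L) (hh : h ∈ N) :
    ((h22c_lift h hh).restrictScalars ℚ : L ≃ₐ[ℚ] L) = h := by
  ext x
  rfl

theorem h22c_ambRep_mul (σ τ : H17C.AutQ L) (z : H17C.AmbS S L) :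
    H17C.ambRep S ℚ L (σ * τ) z = H17C.ambRep S ℚ L σ (H17C.ambRep S ℚ L τ z) := by
  rw [map_mul]
  rfl

theorem h22c_princ_div (a b : Lˣ) :
    H17C.princHom S L (Additive.ofMul (a / b)) =
      H17C.princHom S L (Additive.ofMul a) - H17C.princHom S L (Additive.ofMul b) := by
  rw [ofMul_div, map_sub]

theorem h22c_princ_mul (a b : Lˣ) :
    H17C.princHom S L (Additive.ofMul (a * b)) =
      H17C.princHom S L (Additive.ofMul a) + H17C.princHom S L (Additive.ofMul b) := by
  rw [ofMul_mul, map_add]

/-- an element of `A_L` whose class is `N`-invariant is, modulo `Lˣ`, `N`-invariant -/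
theorem h22c_exists_invariant (hS : S.Nonempty) (z : H17C.AmbS S L)
    (hz : ∀ h ∈ N, H17C.clsRep S ℚ L h (H17C.clsMk S L z) = H17C.clsMk S L z) :
    ∃ β : Lˣ, ∀ h ∈ N,
      H17C.ambRep S ℚ L h (z - H17C.princHom S L (Additive.ofMul β)) =
        z - H17C.princHom S L (Additive.ofMul β) := by
  have hex : ∀ τ : L ≃ₐ[IntermediateField.fixedField N] L, ∃ y : Lˣ,
      H17C.princHom S L (Additive.ofMul y) =
        H17C.ambRep S ℚ L (τ.restrictScalars ℚ) z - z := by
    intro τ
    have h1 := hz _ (h22c_restrict_mem L N τ)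
    rw [H17C.clsRep_mk, ← sub_eq_zero, ← map_sub, H17C.clsMk_eq_zero_iff] at h1
    obtain ⟨y, hy⟩ := (H17C.mem_princS_iff S L _).1 h1
    exact ⟨Additive.toMul y, hy⟩
  choose f hf using hex
  have hact : ∀ (g : L ≃ₐ[IntermediateField.fixedField N] L) (x : Lˣ),
      H17C.ambRep S ℚ L (g.restrictScalars ℚ) (H17C.princHom S L (Additive.ofMul x)) =
        H17C.princHom S L (Additive.ofMul (g • x)) := by
    intro g x
    rw [H17C.ambRep_princHom]
    rfl
  have hcoc : IsMulCocycle₁ f := by
    intro g h
    have key : H17C.princHom S L (Additive.ofMul (f (g * h))) =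
        H17C.princHom S L (Additive.ofMul (g • f h * f g)) := by
      rw [h22c_princ_mul, ← hact, hf, hf, hf, map_sub]
      have e : ((g * h).restrictScalars ℚ : L ≃ₐ[ℚ] L) =
          (g.restrictScalars ℚ : L ≃ₐ[ℚ] L) * (h.restrictScalars ℚ : L ≃ₐ[ℚ] L) := rfl
      rw [e, h22c_ambRep_mul]
      abel
    exact congrArg Additive.toMul (h22c_princHom_injective hS L key)
  obtain ⟨β, hβ⟩ := isMulCoboundary₁_of_isMulCocycle₁_of_aut_to_units f hcoc
  refine ⟨β, fun h hh => ?_⟩
  have h1 := hf (h22c_lift h hh)
  rw [h22c_lift_restrict, ← hβ, h22c_princ_div] at h1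
  have h2 := hact (h22c_lift h hh) β
  rw [h22c_lift_restrict] at h2
  rw [map_sub, h2]
  rw [sub_eq_iff_eq_add] at h1
  rw [h1]
  abel

theorem h22c_descCls3 (hS : S.Nonempty) (hunr : H17C.UnramOutside S L N) (z : H17C.AmbS S L)
    (hz : ∀ h ∈ N, H17C.clsRep S ℚ L h (H17C.clsMk S L z) = H17C.clsMk S L z) :
    ∃ w : H17C.AmbS S (IntermediateField.fixedField N),
      H17C.clsMk S L (H17C.ambBase S (IntermediateField.fixedField N) L w) =
        H17C.clsMk S L z := by
  obtain ⟨β, hβ⟩ := h22c_exists_invariant hS z hz
  set z' : H17C.AmbS S L := z - H17C.princHom S L (Additive.ofMul β) with hz'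
  -- the idele component
  have hu : ∀ h ∈ N, h • (Additive.toMul z'.1 : (H17C.KS S L)ˣ) = Additive.toMul z'.1 := by
    intro h hh
    have := congrArg Prod.fst (hβ h hh)
    exact congrArg Additive.toMul this
  have hu' : ∀ h ∈ N, h • (Additive.toMul z'.1 : (H17C.KS S L)ˣ)⁻¹ = (Additive.toMul z'.1)⁻¹ := by
    intro h hh
    rw [smul_inv', hu h hh]
  obtain ⟨w, hw⟩ := (h22c_descIdele S L N).2 ((Additive.toMul z'.1 : (H17C.KS S L)ˣ) : H17C.KS S L)
    (fun h hh => congrArg Units.val (hu h hh))
  obtain ⟨w', hw'⟩ := (h22c_descIdele S L N).2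
    (((Additive.toMul z'.1 : (H17C.KS S L)ˣ)⁻¹ : (H17C.KS S L)ˣ) : H17C.KS S L)
    (fun h hh => congrArg Units.val (hu' h hh))
  have hww' : w * w' = 1 := by
    apply (h22c_descIdele S L N).1
    rw [map_mul, hw, hw', map_one, Units.mul_inv]
  let W : (H17C.KS S (IntermediateField.fixedField N))ˣ :=
    ⟨w, w', hww', by rw [mul_comm]; exact hww'⟩
  have hW : H17C.ideleBase S (IntermediateField.fixedField N) L W = Additive.toMul z'.1 :=
    Units.ext hw
  -- the divisor component
  have hd : ∀ h ∈ N, H17C.divRep S ℚ L h z'.2 = z'.2 := by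
    intro h hh
    exact congrArg Prod.snd (hβ h hh)
  obtain ⟨c, hc⟩ := h22c_descDiv1 z'.2 hd
  have hc' : H17SI.pullDiv S (IntermediateField.fixedField N) L c = z'.2 := by
    ext Q
    exact (hc Q).symm
  refine ⟨(Additive.ofMul W, c), ?_⟩
  have e : H17C.ambBase S (IntermediateField.fixedField N) L (Additive.ofMul W, c) = z' := by
    refine Prod.ext ?_ hc'
    exact congrArg Additive.ofMul hW
  rw [e, hz', map_sub]
  have : H17C.clsMk S L (H17C.princHom S L (Additive.ofMul β)) = 0 :=
    (H17C.clsMk_eq_zero_iff S L _).2 ((H17C.mem_princS_iff S L _).2 ⟨_, rfl⟩)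
  rw [this, sub_zero]

end part3

/-- **(DESC-C)**, for `S ≠ ∅`. -/
theorem h22c_descClsNE : DescClsNE := by
  intro S L _ _ N hS hunr
  exact ⟨fun z hz => h22c_descCls1 hunr z hz, fun z hz => h22c_descCls2 hS hunr z hz,
    fun z hz => h22c_descCls3 hS hunr z hz⟩

end H22C
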