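import Mathlib
import Fermat.Agent.CFT2.C.Slices5_helper17

/-!
# W2-C (S55), block C-finite, FC slice FIELD-ISO (helper22), part 1
Functoriality of `K_S`, `I_K`, `PrimesS`, `DivS`, `A_K` for isomorphisms of number fields.
-/

set_option autoImplicit false
set_option linter.unusedSectionVars false
set_option linter.unusedSimpArgs false
set_option linter.unusedVariables false
set_option linter.style.haveILetI false

noncomputable section

namespace H22C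

open NumberField IsDedekindDomain TensorProduct
open scoped Pointwise WithZero

variable (S : Finset Nat.Primes)
  {L L' L'' : Type} [Field L] [NumberField L] [Field L'] [NumberField L']
  [Field L''] [NumberField L'']

/-- the isomorphism of rings of integers -/
def fiO (φ : L ≃ₐ[ℚ] L') : 𝓞 L ≃+* 𝓞 L' := RingOfIntegers.mapRingEquiv (φ : L ≃+* L')

theorem fiO_coe (φ : L ≃ₐ[ℚ] L') (x : 𝓞 L) : ((fiO φ x : 𝓞 L') : L') = φ (x : L) := rfl

theorem fiO_symm_coe (φ : L ≃ₐ[ℚ] L') (y : 𝓞 L') :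
    (((fiO φ).symm y : 𝓞 L) : L) = φ.symm (y : L') := rfl

theorem fiO_symm_apply (φ : L ≃ₐ[ℚ] L') (x : 𝓞 L) : (fiO φ).symm (fiO φ x) = x :=
  (fiO φ).symm_apply_apply x

/-- transport of primes outside `S` -/
def fiPrime (φ : L ≃ₐ[ℚ] L') (P : H17C.PrimesS S L) : H17C.PrimesS S L' :=
  ⟨P.1.comap ((fiO φ).symm : 𝓞 L' →+* 𝓞 L), by
    obtain ⟨h1, h2, h3⟩ := P.2
    haveI := h1
    refine ⟨Ideal.comap_isPrime _ _, ?_, ?_⟩
    · intro h
      apply h2
      rw [eq_bot_iff]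
      intro x hx
      have : fiO φ x ∈ P.1.comap ((fiO φ).symm : 𝓞 L' →+* 𝓞 L) := by
        rw [Ideal.mem_comap]
        show (fiO φ).symm (fiO φ x) ∈ P.1
        rw [fiO_symm_apply]
        exact hx
      rw [h, Ideal.mem_bot] at this
      rw [Ideal.mem_bot]
      exact (fiO φ).injective (this.trans (map_zero _).symm)
    · intro q hq hmem
      apply h3 q hq
      rw [Ideal.mem_comap, map_intCast] at hmem
      exact hmem⟩

theorem mem_fiPrime (φ : L ≃ₐ[ℚ] L') (P : H17C.PrimesS S L) (y : 𝓞 L') :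
    y ∈ (fiPrime S φ P).1 ↔ (fiO φ).symm y ∈ P.1 := Iff.rfl

theorem fiPrime_trans (φ : L ≃ₐ[ℚ] L') (ψ : L' ≃ₐ[ℚ] L'') (P : H17C.PrimesS S L) :
    fiPrime S ψ (fiPrime S φ P) = fiPrime S (φ.trans ψ) P := by
  apply Subtype.ext
  ext y
  rfl

theorem fiPrime_refl (P : H17C.PrimesS S L) : fiPrime S (AlgEquiv.refl : L ≃ₐ[ℚ] L) P = P := by
  apply Subtype.ext
  ext y
  rfl

theorem fiPrime_symm (φ : L ≃ₐ[ℚ] L') (P : H17C.PrimesS S L) :
    fiPrime S φ.symm (fiPrime S φ P) = P := by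
  rw [fiPrime_trans]
  apply Subtype.ext
  ext y
  show (fiO (φ.trans φ.symm)).symm y ∈ P.1 ↔ y ∈ P.1
  have : (fiO (φ.trans φ.symm)).symm y = y := by
    apply RingOfIntegers.ext
    show (φ.trans φ.symm).symm (y : L) = y
    simp
  rw [this]

theorem fiPrime_symm' (φ : L ≃ₐ[ℚ] L') (Q : H17C.PrimesS S L') :
    fiPrime S φ (fiPrime S φ.symm Q) = Q := by
  have := fiPrime_symm S φ.symm Q
  rwa [AlgEquiv.symm_symm] at this

theorem fiPrime_injective (φ : L ≃ₐ[ℚ] L') : Function.Injective (fiPrime S φ) := by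
  intro P P' h
  have := congrArg (fiPrime S φ.symm) h
  rwa [fiPrime_symm, fiPrime_symm] at this

/-- the isomorphism `L_S ≃ L'_S` -/
def fiKS (φ : L ≃ₐ[ℚ] L') : H17C.KS S L ≃ₐ[ℚ] H17C.KS S L' :=
  Algebra.TensorProduct.congr φ AlgEquiv.refl

theorem fiKS_tmul (φ : L ≃ₐ[ℚ] L') (x : L) (y : H17C.QS S) :
    fiKS S φ (H17C.tmulS S L x y) = H17C.tmulS S L' (φ x) y := rfl

theorem fiKS_trans (φ : L ≃ₐ[ℚ] L') (ψ : L' ≃ₐ[ℚ] L'') (z : H17C.KS S L) :
    fiKS S ψ (fiKS S φ z) = fiKS S (φ.trans ψ) z := by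
  induction z using H17C.ks_induction with
  | zero => simp only [map_zero]
  | tmul x y => rfl
  | add a b ha hb => simp only [map_add, ha, hb]

theorem fiKS_refl (z : H17C.KS S L) : fiKS S (AlgEquiv.refl : L ≃ₐ[ℚ] L) z = z := by
  induction z using H17C.ks_induction with
  | zero => simp only [map_zero]
  | tmul x y => rfl
  | add a b ha hb => simp only [map_add, ha, hb]

/-- `I_L → I_{L'}` -/
def fiIdele (φ : L ≃ₐ[ℚ] L') : (H17C.KS S L)ˣ →* (H17C.KS S L')ˣ :=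
  Units.map ((fiKS S φ : H17C.KS S L →ₐ[ℚ] H17C.KS S L') : H17C.KS S L →* H17C.KS S L')

theorem fiIdele_coe (φ : L ≃ₐ[ℚ] L') (u : (H17C.KS S L)ˣ) :
    ((fiIdele S φ u : (H17C.KS S L')ˣ) : H17C.KS S L') = fiKS S φ (u : H17C.KS S L) := rfl

/-- `Div_S(L) → Div_S(L')` -/
def fiDiv (φ : L ≃ₐ[ℚ] L') : H17C.DivS S L →+ H17C.DivS S L' :=
  Finsupp.mapDomain.addMonoidHom (fiPrime S φ)

theorem fiDiv_apply (φ : L ≃ₐ[ℚ] L') (d : H17C.DivS S L) (P : H17C.PrimesS S L) :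
    fiDiv S φ d (fiPrime S φ P) = d P :=
  Finsupp.mapDomain_apply (fiPrime_injective S φ) d P

theorem fiDiv_trans (φ : L ≃ₐ[ℚ] L') (ψ : L' ≃ₐ[ℚ] L'') (d : H17C.DivS S L) :
    fiDiv S ψ (fiDiv S φ d) = fiDiv S (φ.trans ψ) d := by
  show Finsupp.mapDomain _ (Finsupp.mapDomain _ d) = Finsupp.mapDomain _ d
  rw [← Finsupp.mapDomain_comp]
  congr 1

theorem fiDiv_refl (d : H17C.DivS S L) : fiDiv S (AlgEquiv.refl : L ≃ₐ[ℚ] L) d = d := by
  show Finsupp.mapDomain _ d = d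
  have : fiPrime S (AlgEquiv.refl : L ≃ₐ[ℚ] L) = id := funext (fiPrime_refl S)
  rw [this, Finsupp.mapDomain_id]

/-- `A_L → A_{L'}` -/
def fiAmb (φ : L ≃ₐ[ℚ] L') : H17C.AmbS S L →+ H17C.AmbS S L' :=
  AddMonoidHom.prodMap (MonoidHom.toAdditive (fiIdele S φ)) (fiDiv S φ)

theorem fiAmb_apply (φ : L ≃ₐ[ℚ] L') (z : H17C.AmbS S L) :
    fiAmb S φ z = (Additive.ofMul (fiIdele S φ (Additive.toMul z.1)), fiDiv S φ z.2) := rfl

theorem fiAmb_trans (φ : L ≃ₐ[ℚ] L') (ψ : L' ≃ₐ[ℚ] L'') (z : H17C.AmbS S L) :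
    fiAmb S ψ (fiAmb S φ z) = fiAmb S (φ.trans ψ) z := by
  refine Prod.ext ?_ (fiDiv_trans S φ ψ z.2)
  apply congrArg Additive.ofMul
  apply Units.ext
  exact fiKS_trans S φ ψ _

theorem fiAmb_refl (z : H17C.AmbS S L) : fiAmb S (AlgEquiv.refl : L ≃ₐ[ℚ] L) z = z := by
  refine Prod.ext ?_ (fiDiv_refl S z.2)
  apply congrArg Additive.ofMul
  apply Units.ext
  exact fiKS_refl S _

end H22C
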