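import Mathlib
import Fermat.Agent.CFT2.C.FieldIso1_helper22

/-!
# W2-C (S55), block C-finite, FC slice FIELD-ISO (helper22)

`H22C.h22c_fieldIso : H17C.FieldIsoStatement`: `C` is functorial for isomorphisms of fields.
-/

set_option autoImplicit false
set_option linter.unusedSectionVars false
set_option linter.unusedSimpArgs false
set_option linter.unusedVariables false
set_option linter.style.haveILetI false

noncomputable section

namespace H22C

open NumberField IsDedekindDomain TensorProduct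
open scoped Pointwise WithZero

variable (S : Finset Nat.Primes)
  {L L' L'' : Type} [Field L] [NumberField L] [Field L'] [NumberField L']
  [Field L''] [NumberField L'']

/-! ## valuations -/

theorem fi_mem_pow (φ : L ≃ₐ[ℚ] L') (P : H17C.PrimesS S L) (n : ℕ) (r : 𝓞 L) :
    fiO φ r ∈ (fiPrime S φ P).1 ^ n ↔ r ∈ P.1 ^ n := by
  have e : (fiPrime S φ P).1 = P.1.map (fiO φ) := Ideal.comap_symm (fiO φ)
  rw [e, ← Ideal.map_pow, Ideal.mem_map_of_equiv]
  constructor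
  · rintro ⟨x, hx, hxr⟩
    rwa [← (fiO φ).injective hxr]
  · intro h
    exact ⟨r, h, rfl⟩

theorem fi_intVal (φ : L ≃ₐ[ℚ] L') (P : H17C.PrimesS S L) (r : 𝓞 L) :
    (fiPrime S φ P).toHOS.intValuation (fiO φ r) = P.toHOS.intValuation r := by
  by_cases hr : r = 0
  · subst hr
    simp
  have hφr : fiO φ r ≠ 0 := fun h => hr ((fiO φ).injective (h.trans (map_zero _).symm))
  have key : ∀ n : ℕ, (fiPrime S φ P).toHOS.intValuation (fiO φ r) ≤ WithZero.exp (-(n : ℤ)) ↔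
      P.toHOS.intValuation r ≤ WithZero.exp (-(n : ℤ)) := by
    intro n
    rw [HeightOneSpectrum.intValuation_le_pow_iff_mem,
      HeightOneSpectrum.intValuation_le_pow_iff_mem]
    exact fi_mem_pow S φ P n r
  apply le_antisymm
  · exact H17C.h17c_val_le_of (HeightOneSpectrum.intValuation_ne_zero _ _ hr)
      (HeightOneSpectrum.intValuation_le_one _ _) (fun n hn => (key n).mpr hn)
  · exact H17C.h17c_val_le_of (HeightOneSpectrum.intValuation_ne_zero _ _ hφr)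
      (HeightOneSpectrum.intValuation_le_one _ _) (fun n hn => (key n).mp hn)

theorem fi_val (φ : L ≃ₐ[ℚ] L') (P : H17C.PrimesS S L) (x : L) :
    (fiPrime S φ P).toHOS.valuation L' (φ x) = P.toHOS.valuation L x := by
  obtain ⟨a, b, hb, rfl⟩ := IsFractionRing.div_surjective (A := 𝓞 L) x
  have e1 : φ (algebraMap (𝓞 L) L a / algebraMap (𝓞 L) L b) =
      algebraMap (𝓞 L') L' (fiO φ a) / algebraMap (𝓞 L') L' (fiO φ b) := by
    rw [map_div₀]
    rfl
  rw [e1, map_div₀, map_div₀, HeightOneSpectrum.valuation_of_algebraMap,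
    HeightOneSpectrum.valuation_of_algebraMap, HeightOneSpectrum.valuation_of_algebraMap,
    HeightOneSpectrum.valuation_of_algebraMap, fi_intVal, fi_intVal]

theorem fi_ordP (φ : L ≃ₐ[ℚ] L') (P : H17C.PrimesS S L) (x : L) :
    H17C.ordP (fiPrime S φ P) (φ x) = H17C.ordP P x := by
  unfold H17C.ordP
  rw [fi_val]

/-! ## principal elements and the class group -/

theorem fiAmb_princ (φ : L ≃ₐ[ℚ] L') (x : Lˣ) :
    fiAmb S φ (H17C.princHom S L (Additive.ofMul x)) =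
      H17C.princHom S L' (Additive.ofMul (Units.map (φ : L →* L') x)) := by
  refine Prod.ext ?_ ?_
  · apply congrArg Additive.ofMul
    apply Units.ext
    rfl
  · ext Q
    obtain ⟨P, rfl⟩ : ∃ P, fiPrime S φ P = Q := ⟨fiPrime S φ.symm Q, fiPrime_symm' S φ Q⟩
    show fiDiv S φ (H17C.divS S L (Additive.ofMul x)) (fiPrime S φ P) =
      H17C.divS S L' (Additive.ofMul (Units.map (φ : L →* L') x)) (fiPrime S φ P)
    rw [fiDiv_apply, H17C.divS_apply, H17C.divS_apply]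
    exact (fi_ordP S φ P (x : L)).symm

theorem fiAmb_mem_princ (φ : L ≃ₐ[ℚ] L') :
    H17C.princS S L ≤ (H17C.princS S L').comap (fiAmb S φ).toIntLinearMap := by
  rintro _ ⟨x, rfl⟩
  exact ⟨_, (fiAmb_princ S φ (Additive.toMul x)).symm⟩

/-- `C_L → C_{L'}` -/
def fiCls (φ : L ≃ₐ[ℚ] L') : H17C.ClS S L →ₗ[ℤ] H17C.ClS S L' :=
  Submodule.mapQ (H17C.princS S L) (H17C.princS S L') (fiAmb S φ).toIntLinearMap
    (fiAmb_mem_princ S φ)

theorem fiCls_mk (φ : L ≃ₐ[ℚ] L') (z : H17C.AmbS S L) :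
    fiCls S φ (H17C.clsMk S L z) = H17C.clsMk S L' (fiAmb S φ z) := rfl

theorem fiCls_trans (φ : L ≃ₐ[ℚ] L') (ψ : L' ≃ₐ[ℚ] L'') (c : H17C.ClS S L) :
    fiCls S ψ (fiCls S φ c) = fiCls S (φ.trans ψ) c := by
  obtain ⟨z, rfl⟩ := H17C.clsMk_surjective S L c
  rw [fiCls_mk, fiCls_mk, fiCls_mk, fiAmb_trans]

theorem fiCls_refl (c : H17C.ClS S L) : fiCls S (AlgEquiv.refl : L ≃ₐ[ℚ] L) c = c := by
  obtain ⟨z, rfl⟩ := H17C.clsMk_surjective S L c
  rw [fiCls_mk, fiAmb_refl]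

theorem fiCls_symm (φ : L ≃ₐ[ℚ] L') (c : H17C.ClS S L) :
    fiCls S φ.symm (fiCls S φ c) = c := by
  rw [fiCls_trans]
  have : φ.trans φ.symm = AlgEquiv.refl := by
    ext x
    simp
  rw [this, fiCls_refl]

/-- `C_L ≃ C_{L'}` -/
def fiClsEquiv (φ : L ≃ₐ[ℚ] L') : H17C.ClS S L ≃+ H17C.ClS S L' where
  toFun := fiCls S φ
  invFun := fiCls S φ.symm
  left_inv := fiCls_symm S φ
  right_inv c := by
    have := fiCls_symm S φ.symm c
    rwa [AlgEquiv.symm_symm] at this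
  map_add' := map_add _

/-! ## equivariance -/

theorem fiO_smul (φ : L ≃ₐ[ℚ] L') (g : H17C.AutQ L) (x : 𝓞 L) :
    fiO φ (g • x) = (AlgEquiv.autCongr φ g) • fiO φ x := by
  apply RingOfIntegers.ext
  show φ (g (x : L)) = φ (g (φ.symm (φ (x : L))))
  rw [AlgEquiv.symm_apply_apply]

theorem fiPrime_smul (φ : L ≃ₐ[ℚ] L') (g : H17C.AutQ L) (P : H17C.PrimesS S L) :
    fiPrime S φ (g • P) = (AlgEquiv.autCongr φ g) • fiPrime S φ P := by
  apply Subtype.ext
  ext y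
  obtain ⟨x, rfl⟩ := (fiO φ).surjective y
  show fiO φ x ∈ (fiPrime S φ (g • P)).1 ↔ fiO φ x ∈ (AlgEquiv.autCongr φ g) • (fiPrime S φ P).1
  rw [mem_fiPrime, fiO_symm_apply, Ideal.mem_pointwise_smul_iff_inv_smul_mem, mem_fiPrime]
  show x ∈ g • P.1 ↔ _
  rw [Ideal.mem_pointwise_smul_iff_inv_smul_mem]
  have e : (fiO φ).symm ((AlgEquiv.autCongr φ g)⁻¹ • fiO φ x) = g⁻¹ • x := by
    have h1 := fiO_smul φ g⁻¹ x
    rw [map_inv] at h1
    rw [← h1, fiO_symm_apply]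
  rw [e]

theorem fiKS_ksAut (φ : L ≃ₐ[ℚ] L') (g : H17C.AutQ L) (z : H17C.KS S L) :
    fiKS S φ (H17C.ksAut S ℚ L g z) =
      H17C.ksAut S ℚ L' (AlgEquiv.autCongr φ g) (fiKS S φ z) := by
  induction z using H17C.ks_induction with
  | zero => simp only [map_zero]
  | tmul x y =>
    rw [H17C.ksAut_tmul, fiKS_tmul, fiKS_tmul, H17C.ksAut_tmul]
    congr 1
    show φ (g x) = φ (g (φ.symm (φ x)))
    rw [AlgEquiv.symm_apply_apply]
  | add a b ha hb => simp only [map_add, ha, hb]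

theorem fiDiv_divRep (φ : L ≃ₐ[ℚ] L') (g : H17C.AutQ L) (d : H17C.DivS S L) :
    fiDiv S φ (H17C.divRep S ℚ L g d) =
      H17C.divRep S ℚ L' (AlgEquiv.autCongr φ g) (fiDiv S φ d) := by
  ext Q
  obtain ⟨P, rfl⟩ : ∃ P, fiPrime S φ (g • P) = Q :=
    ⟨g⁻¹ • fiPrime S φ.symm Q, by rw [smul_inv_smul]; exact fiPrime_symm' S φ Q⟩
  rw [fiDiv_apply, H17C.divRep_apply_smul, fiPrime_smul, H17C.divRep_apply_smul, fiDiv_apply]

theorem fiAmb_ambRep (φ : L ≃ₐ[ℚ] L') (g : H17C.AutQ L) (z : H17C.AmbS S L) :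
    fiAmb S φ (H17C.ambRep S ℚ L g z) =
      H17C.ambRep S ℚ L' (AlgEquiv.autCongr φ g) (fiAmb S φ z) := by
  refine Prod.ext ?_ (fiDiv_divRep S φ g z.2)
  apply congrArg Additive.ofMul
  apply Units.ext
  exact fiKS_ksAut S φ g _

theorem fiCls_clsRep (φ : L ≃ₐ[ℚ] L') (g : H17C.AutQ L) (c : H17C.ClS S L) :
    fiCls S φ (H17C.clsRep S ℚ L g c) =
      H17C.clsRep S ℚ L' (AlgEquiv.autCongr φ g) (fiCls S φ c) := by
  obtain ⟨z, rfl⟩ := H17C.clsMk_surjective S L c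
  rw [H17C.clsRep_mk, fiCls_mk, fiCls_mk, H17C.clsRep_mk, fiAmb_ambRep]

/-- **(FIELD-ISO)** -/
theorem h22c_fieldIso : H17C.FieldIsoStatement := by
  intro S L L' _ _ _ _ φ
  exact ⟨fiClsEquiv S φ, fun g b => fiCls_clsRep S φ g b⟩

end H22C
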