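/-
W2-C (S55) block C-finite, slice FI-FIN (helper12), part 1: elements of `L` in the lattice `Λ_L`.
The image of the unit ideles `U_L` in `C_L` has finite index (the quotient is a quotient of the
class group of `𝓞_L`) and its kernel is the group of global units.
-/
import Fermat.Agent.CFT2.C.Slices_helper17

set_option autoImplicit false
set_option linter.unusedSectionVars false
set_option linter.unusedVariables false
set_option linter.style.haveILetI false

noncomputable section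

namespace H12FIN

open H17C NumberField IsDedekindDomain TensorProduct
open scoped nonZeroDivisors

variable (S : Finset Nat.Primes) (L : Type) [Field L] [NumberField L]

/-- `v` lies above `S` -/
def aboveS (v : HeightOneSpectrum (𝓞 L)) : Prop :=
  ∃ q ∈ S, (((q : ℕ) : ℤ) : 𝓞 L) ∈ v.asIdeal

/-- `m` is prime to `S` -/
def primeTo (m : ℕ) : Prop := ∀ q ∈ S, ¬ ((q : Nat.Primes) : ℕ) ∣ m

/-- the index set of an integral basis -/
abbrev IB : Type := Module.Free.ChooseBasisIndex ℤ (𝓞 L)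

/-- the `i`-th coordinate `L_S → ℚ_S` with respect to an integral basis -/
def coordS (i : IB L) : KS S L →ₗ[ℚ] QS S :=
  (TensorProduct.lid ℚ (QS S)).toLinearMap ∘ₗ
    (LinearMap.rTensor (QS S) ((integralBasis L).coord i))

theorem coordS_tmul (i : IB L) (x : L) (y : QS S) :
    coordS S L i (tmulS S L x y) = (integralBasis L).repr x i • y := by
  show (TensorProduct.lid ℚ (QS S))
    ((LinearMap.rTensor (QS S) ((integralBasis L).coord i)) (x ⊗ₜ[ℚ] y)) = _
  rw [LinearMap.rTensor_tmul, TensorProduct.lid_tmul, Module.Basis.coord_apply]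

variable {S L}

theorem mem_range_iff (x : L) : x ∈ (algebraMap (𝓞 L) L).range ↔ IsIntegral ℤ x := by
  constructor
  · rintro ⟨y, rfl⟩
    exact y.isIntegral_coe
  · intro h
    exact ⟨⟨x, h⟩, rfl⟩

theorem exists_int_multiple (a : L) :
    ∃ m : ℕ, 0 < m ∧ ((m : L) * a) ∈ (algebraMap (𝓞 L) L).range := by
  have halg : IsAlgebraic ℤ a := by
    have h : IsAlgebraic ℚ a := Algebra.IsAlgebraic.isAlgebraic a
    exact (IsFractionRing.isAlgebraic_iff ℤ ℚ L).mpr h
  obtain ⟨y, hy0, hy⟩ := halg.exists_integral_multiple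
  obtain ⟨n, rfl | rfl⟩ := Int.eq_nat_or_neg y
  · refine ⟨n, by omega, ?_⟩
    rw [mem_range_iff]
    have e : ((n : ℕ) : L) * a = ((n : ℤ)) • a := by
      rw [zsmul_eq_mul]; push_cast; rfl
    rw [e]; exact hy
  · refine ⟨n, by omega, ?_⟩
    rw [mem_range_iff]
    have e : ((n : ℕ) : L) * a = -((-(n : ℤ)) • a) := by
      rw [zsmul_eq_mul]; push_cast; ring
    rw [e]; exact hy.neg

theorem val_natCast_eq_one (v : HeightOneSpectrum (𝓞 L)) (m : ℕ)
    (hm : (((m : ℕ) : ℤ) : 𝓞 L) ∉ v.asIdeal) : v.valuation L (m : L) = 1 := by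
  have h := (HeightOneSpectrum.valuation_eq_one_iff_notMem (K := L) (v := v)).mpr hm
  rw [← h]
  congr 1
  simp

theorem val_natCast_le_one (v : HeightOneSpectrum (𝓞 L)) (m : ℕ) : v.valuation L (m : L) ≤ 1 := by
  have h := HeightOneSpectrum.valuation_le_one (K := L) v (((m : ℕ) : ℤ) : 𝓞 L)
  refine le_of_eq_of_le ?_ h
  congr 1
  simp

/-- an element which is integral at all primes above `S` has a denominator prime to `S` -/
theorem exists_denominator (a : L)
    (ha : ∀ v : HeightOneSpectrum (𝓞 L), aboveS S L v → v.valuation L a ≤ 1) :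
    ∃ m : ℕ, m ≠ 0 ∧ primeTo S m ∧ ((m : L) * a) ∈ (algebraMap (𝓞 L) L).range := by
  classical
  have hex := exists_int_multiple a
  obtain ⟨m, hm⟩ : ∃ m, m = Nat.find hex := ⟨_, rfl⟩
  have hmin : ∀ k, k < m → ¬ (0 < k ∧ ((k : L) * a) ∈ (algebraMap (𝓞 L) L).range) := by
    intro k hk
    rw [hm] at hk
    exact Nat.find_min hex hk
  obtain ⟨hm0, hmem⟩ : 0 < m ∧ ((m : L) * a) ∈ (algebraMap (𝓞 L) L).range := by
    rw [hm]; exact Nat.find_spec hex
  clear hm
  refine ⟨m, hm0.ne', ?_, hmem⟩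
  intro q hq hdvd
  obtain ⟨m', hm'⟩ := hdvd
  have hq0 : 0 < (q : ℕ) := q.2.pos
  have hm'0 : 0 < m' := by
    rcases Nat.eq_zero_or_pos m' with h | h
    · rw [h, mul_zero] at hm'; omega
    · exact h
  have hlt : m' < m := by
    have := q.2.two_le
    nlinarith
  apply hmin m' hlt
  refine ⟨hm'0, ?_⟩
  apply HeightOneSpectrum.mem_integers_of_valuation_le_one
  intro v
  by_cases hv : aboveS S L v
  · rw [map_mul]
    calc v.valuation L (m' : L) * v.valuation L a ≤ 1 * 1 :=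
          mul_le_mul' (val_natCast_le_one v m') (ha v hv)
      _ = 1 := one_mul 1
  · have hqv : (((q : ℕ) : ℤ) : 𝓞 L) ∉ v.asIdeal := fun h => hv ⟨q, hq, h⟩
    have h1 := val_natCast_eq_one v q hqv
    have h2 : v.valuation L ((q : ℕ) * ((m' : L) * a)) ≤ 1 := by
      obtain ⟨y, hy⟩ := hmem
      have : ((q : ℕ) : L) * ((m' : L) * a) = algebraMap (𝓞 L) L y := by
        rw [hy, hm']
        push_cast
        ring
      rw [this]
      exact HeightOneSpectrum.valuation_le_one v y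
    rw [map_mul, h1, one_mul] at h2
    exact h2

theorem zsToQs_apply (z : ZS S) (q : S) : zsToQs S z q = ((z q : ℤ_[((q : Nat.Primes) : ℕ)]) : ℚ_[((q : Nat.Primes) : ℕ)]) := rfl

/-- the inverse of `m` in `ℚ_S` lies in `ℤ_S` when `m` is prime to `S` -/
theorem exists_inv_zs (m : ℕ) (hm : primeTo S m) : ∃ z : ZS S, (m : QS S) * zsToQs S z = 1 := by
  have hnorm : ∀ q : S, ‖(m : ℚ_[((q : Nat.Primes) : ℕ)])‖ = 1 := by
    intro q
    rw [Padic.norm_natCast_eq_one_iff]
    exact (Nat.Prime.coprime_iff_not_dvd q.1.2).mpr (hm q.1 q.2)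
  have hne : ∀ q : S, (m : ℚ_[((q : Nat.Primes) : ℕ)]) ≠ 0 := by
    intro q h
    have := hnorm q
    rw [h, norm_zero] at this
    exact zero_ne_one this
  refine ⟨fun q => ⟨(m : ℚ_[((q : Nat.Primes) : ℕ)])⁻¹, ?_⟩, ?_⟩
  · rw [norm_inv, hnorm q, inv_one]
  · funext q
    show (m : ℚ_[((q : Nat.Primes) : ℕ)]) * (m : ℚ_[((q : Nat.Primes) : ℕ)])⁻¹ = 1
    exact mul_inv_cancel₀ (hne q)

theorem diag_natCast (m : ℕ) : diagRing S L (m : L) = (m : KS S L) := map_natCast _ m

theorem loc_natCast (m : ℕ) : locRing S L (m : QS S) = (m : KS S L) := map_natCast _ m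

/-- an element with a denominator prime to `S` lies in `Λ` -/
theorem diag_mem_lat (a : L) (m : ℕ) (hm : primeTo S m)
    (hma : ((m : L) * a) ∈ (algebraMap (𝓞 L) L).range) : diagRing S L a ∈ latS S L := by
  obtain ⟨y, hy⟩ := hma
  obtain ⟨z, hz⟩ := exists_inv_zs m hm
  have h1 : diagRing S L (y : L) ∈ latS S L := Subring.subset_closure (Or.inl ⟨y, rfl⟩)
  have h2 : locRing S L (zsToQs S z) ∈ latS S L := Subring.subset_closure (Or.inr ⟨z, rfl⟩)
  have h3 := (latS S L).mul_mem h1 h2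
  have e : diagRing S L (y : L) * locRing S L (zsToQs S z) = diagRing S L a := by
    have hy' : ((y : 𝓞 L) : L) = (m : L) * a := hy
    rw [hy', map_mul, diag_natCast, ← loc_natCast, mul_comm (locRing S L (m : QS S)), mul_assoc,
      ← map_mul, hz, map_one, mul_one]
  rw [e] at h3
  exact h3

theorem repr_int (y : 𝓞 L) (i : IB L) :
    ∃ n : ℤ, (integralBasis L).repr (y : L) i = (n : ℚ) := by
  refine ⟨(RingOfIntegers.basis L).repr y i, ?_⟩
  rw [integralBasis_repr_apply]
  rfl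

/-- the coordinates of the elements of `Λ` lie in `ℤ_S` -/
theorem coordS_mem (z : KS S L) (hz : z ∈ latS S L) (i : IB L) :
    coordS S L i z ∈ (zsToQs S).range := by
  have hmon : ∀ w ∈ Submonoid.closure ({x | ∃ a : 𝓞 L, x = diagRing S L (a : L)} ∪
      {x | ∃ z : ZS S, x = locRing S L (zsToQs S z)}),
      ∃ (a : 𝓞 L) (t : ZS S), w = tmulS S L (a : L) (zsToQs S t) := by
    intro w hw
    induction hw using Submonoid.closure_induction with
    | mem w hw =>
      rcases hw with ⟨a, rfl⟩ | ⟨t, rfl⟩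
      · exact ⟨a, 1, by rw [map_one]; rfl⟩
      · refine ⟨1, t, ?_⟩
        show _ = tmulS S L (algebraMap (𝓞 L) L 1) _
        rw [map_one]; rfl
    | one =>
      refine ⟨1, 1, ?_⟩
      show _ = tmulS S L (algebraMap (𝓞 L) L 1) _
      rw [map_one, map_one]; rfl
    | mul w w' _ _ hw hw' =>
      obtain ⟨a, t, rfl⟩ := hw
      obtain ⟨a', t', rfl⟩ := hw'
      refine ⟨a * a', t * t', ?_⟩
      show _ = tmulS S L (algebraMap (𝓞 L) L (a * a')) _
      rw [map_mul, map_mul]
      exact Algebra.TensorProduct.tmul_mul_tmul _ _ _ _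
  have key : ∀ w, w ∈ AddSubgroup.closure ((Submonoid.closure
      ({x | ∃ a : 𝓞 L, x = diagRing S L (a : L)} ∪
      {x | ∃ z : ZS S, x = locRing S L (zsToQs S z)}) : Submonoid (KS S L)) : Set (KS S L)) →
      coordS S L i w ∈ (zsToQs S).range := by
    intro w hw
    induction hw using AddSubgroup.closure_induction with
    | mem w hw =>
      obtain ⟨a, t, rfl⟩ := hmon w hw
      rw [coordS_tmul]
      obtain ⟨n, hn⟩ := repr_int a i
      rw [hn, Int.cast_smul_eq_zsmul]
      exact ⟨n • t, map_zsmul _ _ _⟩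
    | zero => rw [map_zero]; exact Subring.zero_mem _
    | add w w' _ _ hw hw' => rw [map_add]; exact Subring.add_mem _ hw hw'
    | neg w _ hw => rw [map_neg]; exact Subring.neg_mem _ hw
  exact key z (Subring.mem_closure_iff.mp hz)

theorem padic_not_dvd_den (p : ℕ) [Fact p.Prime] (r : ℚ) (h : ‖(r : ℚ_[p])‖ ≤ 1) : ¬ p ∣ r.den := by
  intro hdvd
  have h1 : (r : ℚ_[p]) * (r.den : ℚ_[p]) = (r.num : ℚ_[p]) := by
    have : (r : ℚ) * (r.den : ℚ) = (r.num : ℚ) := Rat.mul_den_eq_num r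
    exact_mod_cast congrArg (fun x : ℚ => (x : ℚ_[p])) this
  have h2 : ‖(r.den : ℚ_[p])‖ < 1 := Padic.norm_natCast_lt_one_iff.mpr hdvd
  have h3 : ‖(r.num : ℚ_[p])‖ < 1 := by
    rw [← h1, norm_mul]
    calc ‖(r : ℚ_[p])‖ * ‖(r.den : ℚ_[p])‖ ≤ 1 * ‖(r.den : ℚ_[p])‖ :=
          mul_le_mul_of_nonneg_right h (norm_nonneg _)
      _ < 1 := by rw [one_mul]; exact h2
  have h4 : (p : ℤ) ∣ r.num := Padic.norm_intCast_lt_one_iff.mp h3
  have h5 : p ∣ r.num.natAbs := Int.natCast_dvd.mp h4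
  have h6 := Nat.dvd_gcd h5 hdvd
  rw [r.reduced] at h6
  exact (Fact.out : p.Prime).one_lt.ne' (Nat.dvd_one.mp h6)

theorem not_dvd_den (r : ℚ) (h : r • (1 : QS S) ∈ (zsToQs S).range) (q : S) :
    ¬ ((q : Nat.Primes) : ℕ) ∣ r.den := by
  obtain ⟨z, hz⟩ := h
  have h1 := congrFun hz q
  have h2 : ((z q : ℤ_[((q : Nat.Primes) : ℕ)]) : ℚ_[((q : Nat.Primes) : ℕ)]) =
      (r : ℚ_[((q : Nat.Primes) : ℕ)]) := by
    have h3 : zsToQs S z q = ((z q : ℤ_[((q : Nat.Primes) : ℕ)]) : ℚ_[((q : Nat.Primes) : ℕ)]) :=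
      rfl
    rw [← h3, h1, Pi.smul_apply, Pi.one_apply, Rat.smul_def, mul_one]
  apply padic_not_dvd_den ((q : Nat.Primes) : ℕ) r
  rw [← h2]
  exact (z q).2

/-- an element of `L` lying in `Λ` has a denominator prime to `S` -/
theorem exists_denominator_of_mem_lat (a : L) (h : diagRing S L a ∈ latS S L) :
    ∃ m : ℕ, m ≠ 0 ∧ primeTo S m ∧ ((m : L) * a) ∈ (algebraMap (𝓞 L) L).range := by
  classical
  set r : IB L → ℚ := fun i => (integralBasis L).repr a i with hr
  have hri : ∀ i, r i • (1 : QS S) ∈ (zsToQs S).range := by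
    intro i
    have := coordS_mem (diagRing S L a) h i
    rw [diagRing_apply, coordS_tmul] at this
    exact this
  refine ⟨∏ i, (r i).den, ?_, ?_, ?_⟩
  · exact Finset.prod_ne_zero_iff.mpr (fun i _ => (r i).den_nz)
  · intro q hq hdvd
    obtain ⟨i, _, hi⟩ := (Prime.dvd_finsetProd_iff (Nat.Prime.prime q.2) _).mp hdvd
    exact not_dvd_den (r i) (hri i) ⟨q, hq⟩ hi
  · rw [← mem_span_integralBasis, Module.Basis.mem_span_iff_repr_mem]
    intro i
    have e : ((∏ i, (r i).den : ℕ) : L) * a = ((∏ i, (r i).den : ℕ) : ℚ) • a := by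
      rw [Algebra.smul_def]
      congr 1
      simp
    rw [e, map_smul, Finsupp.smul_apply, smul_eq_mul]
    obtain ⟨k, hk⟩ := Finset.dvd_prod_of_mem (fun i => (r i).den) (Finset.mem_univ i)
    refine ⟨(k : ℤ) * (r i).num, ?_⟩
    rw [hk]
    have h1 : ((r i).den : ℚ) * r i = (r i).num := by
      rw [mul_comm]; exact Rat.mul_den_eq_num (r i)
    push_cast
    have : (((r i).den : ℚ) * (k : ℚ)) * ((integralBasis L).repr a i) = (k : ℚ) * (((r i).den : ℚ) * r i) := by
      rw [hr]; ring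
    rw [this, h1]
    simp

end H12FIN
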