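/-
W2-C (S55) block C-finite, slice WA (helper3), part 1: the lattice `Λ = 𝓞_K ⊗ ℤ_S` is the additive
group generated by the pure tensors (`h3c_mem_latS_iff`); bounded denominators (`h3c_bounded`);
the Chinese remainder theorem in `ℤ_S` (`h3c_crt`).
-/
import Mathlib
import Fermat.Agent.CFT2.C.Slices_helper17

set_option autoImplicit false
set_option linter.style.haveILetI false
set_option linter.unusedSectionVars false
set_option linter.unusedVariables false

noncomputable section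

namespace H3C

open NumberField TensorProduct H17C

variable (S : Finset Nat.Primes) (K : Type) [Field K] [NumberField K]

/-! ### the lattice `Λ` -/

/-- the pure tensors `a ⊗ z`, `a ∈ 𝓞_K`, `z ∈ ℤ_S` -/
def h3c_pure (a : 𝓞 K) (z : ZS S) : KS S K := tmulS S K (a : K) (zsToQs S z)

theorem h3c_pure_mem (a : 𝓞 K) (z : ZS S) : h3c_pure S K a z ∈ latS S K := by
  have h1 : h3c_pure S K a z = diagRing S K (a : K) * locRing S K (zsToQs S z) := by
    rw [diagRing_apply, locRing_apply, tmulS_mul, mul_one, one_mul]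
    rfl
  rw [h1]
  apply (latS S K).mul_mem
  · exact Subring.subset_closure (Or.inl ⟨a, rfl⟩)
  · exact Subring.subset_closure (Or.inr ⟨z, rfl⟩)

theorem h3c_pure_mul (a b : 𝓞 K) (z w : ZS S) :
    h3c_pure S K a z * h3c_pure S K b w = h3c_pure S K (a * b) (z * w) := by
  unfold h3c_pure
  rw [tmulS_mul, map_mul]
  rfl

/-- `Λ` is the additive group generated by the pure tensors -/
theorem h3c_mem_latS_iff (x : KS S K) :
    x ∈ latS S K ↔ x ∈ AddSubgroup.closure {y | ∃ a z, y = h3c_pure S K a z} := by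
  constructor
  · intro hx
    -- the additive closure is a subring
    let T : Subring (KS S K) :=
      { carrier := AddSubgroup.closure {y | ∃ a z, y = h3c_pure S K a z}
        zero_mem' := AddSubgroup.zero_mem _
        add_mem' := AddSubgroup.add_mem _
        neg_mem' := AddSubgroup.neg_mem _
        one_mem' := AddSubgroup.subset_closure ⟨1, 1, by
          unfold h3c_pure
          rw [map_one]
          rfl⟩
        mul_mem' := by
          intro x y hx hy
          induction hx using AddSubgroup.closure_induction with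
          | mem x hx =>
            obtain ⟨a, z, rfl⟩ := hx
            induction hy using AddSubgroup.closure_induction with
            | mem y hy =>
              obtain ⟨b, w, rfl⟩ := hy
              rw [h3c_pure_mul]
              exact AddSubgroup.subset_closure ⟨_, _, rfl⟩
            | zero => rw [mul_zero]; exact AddSubgroup.zero_mem _
            | add y y' _ _ hy hy' => rw [mul_add]; exact AddSubgroup.add_mem _ hy hy'
            | neg y _ hy => rw [mul_neg]; exact AddSubgroup.neg_mem _ hy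
          | zero => rw [zero_mul]; exact AddSubgroup.zero_mem _
          | add x x' _ _ hx hx' => rw [add_mul]; exact AddSubgroup.add_mem _ hx hx'
          | neg x _ hx => rw [neg_mul]; exact AddSubgroup.neg_mem _ hx }
    have hle : latS S K ≤ T := by
      apply Subring.closure_le.mpr
      rintro y (⟨a, rfl⟩ | ⟨z, rfl⟩)
      · exact AddSubgroup.subset_closure ⟨a, 1, by
          unfold h3c_pure
          rw [map_one]
          rfl⟩
      · exact AddSubgroup.subset_closure ⟨1, z, by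
          unfold h3c_pure
          rfl⟩
    exact hle hx
  · intro hx
    induction hx using AddSubgroup.closure_induction with
    | mem x hx =>
      obtain ⟨a, z, rfl⟩ := hx
      exact h3c_pure_mem S K a z
    | zero => exact (latS S K).zero_mem
    | add x y _ _ hx hy => exact (latS S K).add_mem hx hy
    | neg x _ hx => exact (latS S K).neg_mem hx

/-! ### casts -/

theorem h3c_natCast_eq (n : ℕ) : (n : KS S K) = tmulS S K 1 (n : QS S) := by
  rw [← locRing_apply, map_natCast]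

theorem h3c_natCast_mul_tmul (n : ℕ) (x : K) (y : QS S) :
    (n : KS S K) * tmulS S K x y = tmulS S K x ((n : QS S) * y) := by
  rw [h3c_natCast_eq, tmulS_mul, one_mul]

theorem h3c_natCast_mem (n : ℕ) : (n : KS S K) ∈ latS S K := natCast_mem (latS S K) n

/-! ### bounded denominators -/

/-- every element of `K` has an integer multiple in `𝓞_K` -/
theorem h3c_exists_denominator (x : K) : ∃ d : ℕ, d ≠ 0 ∧ ∃ a : 𝓞 K, (d : K) * x = (a : K) := by
  have halg : IsAlgebraic ℤ x :=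
    (IsFractionRing.isAlgebraic_iff ℤ ℚ K).mpr (Algebra.IsAlgebraic.isAlgebraic x)
  obtain ⟨y, hy, h⟩ := halg.exists_integral_multiple
  have hmem : ∀ c : K, IsIntegral ℤ c → ∃ a : 𝓞 K, (a : K) = c := fun c hc => ⟨⟨c, hc⟩, rfl⟩
  refine ⟨y.natAbs, by simpa using hy, ?_⟩
  rcases Int.natAbs_eq y with h1 | h1
  · obtain ⟨a, ha⟩ := hmem _ h
    refine ⟨a, ?_⟩
    rw [ha, zsmul_eq_mul]
    congr 1
    conv_rhs => rw [h1]
    simp
  · obtain ⟨a, ha⟩ := hmem _ h
    refine ⟨-a, ?_⟩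
    have e : ((-a : 𝓞 K) : K) = -(a : K) := rfl
    rw [e, ha, zsmul_eq_mul, ← neg_mul]
    congr 1
    conv_rhs => rw [h1]
    simp

/-- every pure tensor is `a ⊗ y` with `a ∈ 𝓞_K` -/
theorem h3c_tmul_eq (x : K) (y : QS S) : ∃ (a : 𝓞 K) (y' : QS S),
    tmulS S K x y = tmulS S K (a : K) y' := by
  obtain ⟨d, hd, a, ha⟩ := h3c_exists_denominator K x
  refine ⟨a, ((d : ℚ)⁻¹ : ℚ) • y, ?_⟩
  rw [← tmulS_smul, ← ha]
  congr 1
  have hd' : (d : ℚ) ≠ 0 := by exact_mod_cast hd
  rw [Algebra.smul_def, ← mul_assoc]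
  have : (algebraMap ℚ K) ((d : ℚ)⁻¹) * (d : K) = 1 := by
    rw [map_inv₀, map_natCast]
    exact inv_mul_cancel₀ (by exact_mod_cast hd)
  rw [this, one_mul]

theorem h3c_dvd_mS (q : S) : ((q : Nat.Primes) : ℕ) ∣ mS S :=
  Finset.dvd_prod_of_mem (fun q : Nat.Primes => (q : ℕ)) q.2

theorem h3c_norm_mS_le (q : S) :
    ‖((mS S : ℕ) : ℚ_[((q : Nat.Primes) : ℕ)])‖ ≤ (((q : Nat.Primes) : ℕ) : ℝ)⁻¹ := by
  have h1 : ((((q : Nat.Primes) : ℕ) ^ 1 : ℕ) : ℤ) ∣ ((mS S : ℕ) : ℤ) := by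
    rw [pow_one]
    exact_mod_cast h3c_dvd_mS S q
  have h2 := (Padic.norm_int_le_pow_iff_dvd (p := ((q : Nat.Primes) : ℕ))
    ((mS S : ℕ) : ℤ) 1).mpr (by simpa using h1)
  simpa using h2

/-- denominators in `ℚ_S` are powers of `m_S` -/
theorem h3c_exists_pow_mul (y : QS S) : ∃ (k : ℕ) (z : ZS S),
    ((mS S ^ k : ℕ) : QS S) * y = zsToQs S z := by
  classical
  have h1 : ∀ q : S, ∃ n : ℕ, ‖y q‖ ≤ (((q : Nat.Primes) : ℕ) : ℝ) ^ n := by
    intro q
    have hq : (1 : ℝ) < (((q : Nat.Primes) : ℕ) : ℝ) := by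
      exact_mod_cast (q : Nat.Primes).2.one_lt
    obtain ⟨n, hn⟩ := pow_unbounded_of_one_lt ‖y q‖ hq
    exact ⟨n, hn.le⟩
  choose n hn using h1
  let k : ℕ := Finset.univ.sup n
  have hk : ∀ q : S, n q ≤ k := fun q => Finset.le_sup (Finset.mem_univ q)
  have h2 : ∀ q : S, ‖((mS S ^ k : ℕ) : ℚ_[((q : Nat.Primes) : ℕ)]) * y q‖ ≤ 1 := by
    intro q
    have hq : (1 : ℝ) < (((q : Nat.Primes) : ℕ) : ℝ) := by
      exact_mod_cast (q : Nat.Primes).2.one_lt
    have hq0 : (0 : ℝ) < (((q : Nat.Primes) : ℕ) : ℝ) := by linarith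
    rw [norm_mul]
    push_cast
    rw [norm_pow]
    calc ‖((mS S : ℕ) : ℚ_[((q : Nat.Primes) : ℕ)])‖ ^ k * ‖y q‖
        ≤ ((((q : Nat.Primes) : ℕ) : ℝ)⁻¹) ^ k * (((q : Nat.Primes) : ℕ) : ℝ) ^ k := by
          apply mul_le_mul
          · exact pow_le_pow_left₀ (norm_nonneg _) (h3c_norm_mS_le S q) k
          · exact (hn q).trans (pow_le_pow_right₀ hq.le (hk q))
          · exact norm_nonneg _
          · exact pow_nonneg (inv_nonneg.mpr hq0.le) k
      _ = 1 := by
          rw [← mul_pow, inv_mul_cancel₀ hq0.ne', one_pow]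
  refine ⟨k, fun q => ⟨((mS S ^ k : ℕ) : ℚ_[((q : Nat.Primes) : ℕ)]) * y q, h2 q⟩, ?_⟩
  funext q
  simp only [zsToQs, Pi.mul_apply]
  rfl

/-- **bounded denominators**: `m_S^k z ∈ Λ` for `k` large -/
theorem h3c_bounded (z : KS S K) : ∃ k : ℕ, ((mS S ^ k : ℕ) : KS S K) * z ∈ latS S K := by
  induction z using ks_induction with
  | zero => exact ⟨0, by rw [mul_zero]; exact (latS S K).zero_mem⟩
  | tmul x y =>
    obtain ⟨a, y', h⟩ := h3c_tmul_eq S K x y
    obtain ⟨k, w, hw⟩ := h3c_exists_pow_mul S y'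
    refine ⟨k, ?_⟩
    rw [h, h3c_natCast_mul_tmul, hw]
    exact h3c_pure_mem S K a w
  | add a b ha hb =>
    obtain ⟨k₁, h₁⟩ := ha
    obtain ⟨k₂, h₂⟩ := hb
    refine ⟨k₁ + k₂, ?_⟩
    have e : ((mS S ^ (k₁ + k₂) : ℕ) : KS S K) * (a + b) =
        ((mS S ^ k₂ : ℕ) : KS S K) * (((mS S ^ k₁ : ℕ) : KS S K) * a) +
        ((mS S ^ k₁ : ℕ) : KS S K) * (((mS S ^ k₂ : ℕ) : KS S K) * b) := by
      push_cast
      ring
    rw [e]
    exact (latS S K).add_mem ((latS S K).mul_mem (h3c_natCast_mem S K _) h₁)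
      ((latS S K).mul_mem (h3c_natCast_mem S K _) h₂)

/-! ### the Chinese remainder theorem in `ℤ_S` -/

/-- `M` divides `q ^ v_q(M)` in `ℤ_q` -/
theorem h3c_dvd_pow (q : ℕ) [hq : Fact q.Prime] (M : ℕ) (hM : M ≠ 0) :
    ∃ u : ℤ_[q], ((q : ℤ_[q]) ^ (M.factorization q)) = (M : ℤ_[q]) * u := by
  have h1 : q ^ (M.factorization q) * (M / q ^ (M.factorization q)) = M :=
    Nat.ordProj_mul_ordCompl_eq_self M q
  have h2 : ¬ q ∣ M / q ^ (M.factorization q) := Nat.not_dvd_ordCompl hq.out hM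
  have h3 : IsUnit (((M / q ^ (M.factorization q) : ℕ) : ℤ_[q])) := by
    rw [PadicInt.isUnit_iff]
    have h4 : ¬ ‖(((M / q ^ (M.factorization q) : ℕ) : ℤ) : ℤ_[q])‖ < 1 := by
      rw [PadicInt.norm_int_lt_one_iff_dvd]
      exact_mod_cast h2
    have h5 := PadicInt.norm_le_one (((M / q ^ (M.factorization q) : ℕ) : ℤ) : ℤ_[q])
    have h6 : ‖(((M / q ^ (M.factorization q) : ℕ) : ℤ) : ℤ_[q])‖ = 1 :=
      le_antisymm h5 (not_lt.mp h4)
    rw [Int.cast_natCast] at h6
    exact h6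
  obtain ⟨u, hu⟩ := h3
  refine ⟨((u⁻¹ : ℤ_[q]ˣ) : ℤ_[q]), ?_⟩
  have h7 : (M : ℤ_[q]) = (q : ℤ_[q]) ^ (M.factorization q) * (u : ℤ_[q]) := by
    rw [hu]
    exact_mod_cast congrArg (fun n : ℕ => (n : ℤ_[q])) h1.symm
  rw [h7, mul_assoc, Units.mul_inv, mul_one]

/-- **CRT**: an element of `ℤ_S` is congruent to a natural number modulo `M` -/
theorem h3c_crt (z : ZS S) (M : ℕ) (hM : M ≠ 0) :
    ∃ (c : ℕ) (t : ZS S), z = (c : ZS S) + (M : ZS S) * t := by
  classical
  let e : S → ℕ := fun q => M.factorization ((q : Nat.Primes) : ℕ)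
  let s : S → ℕ := fun q => ((q : Nat.Primes) : ℕ) ^ e q
  let a : S → ℕ := fun q => PadicInt.appr (z q) (e q)
  have hs : ∀ i ∈ (Finset.univ : Finset S), s i ≠ 0 := fun q _ =>
    pow_ne_zero _ (q : Nat.Primes).2.ne_zero
  have pp : Set.Pairwise (↑(Finset.univ : Finset S)) (Function.onFun Nat.Coprime s) := by
    intro q _ q' _ hne
    apply Nat.Coprime.pow
    rw [Nat.coprime_primes (q : Nat.Primes).2 (q' : Nat.Primes).2]
    intro h
    exact hne (Subtype.ext (Subtype.ext h))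
  obtain ⟨c, hc⟩ := Nat.chineseRemainderOfFinset a s Finset.univ hs pp
  have key : ∀ q : S, ∃ t : ℤ_[((q : Nat.Primes) : ℕ)],
      z q = (c : ℤ_[((q : Nat.Primes) : ℕ)]) + (M : ℤ_[((q : Nat.Primes) : ℕ)]) * t := by
    intro q
    obtain ⟨u, hu⟩ := h3c_dvd_pow ((q : Nat.Primes) : ℕ) M hM
    -- `z q - a q ∈ (q^e)`
    have h1 := PadicInt.appr_spec (e q) (z q)
    rw [Ideal.mem_span_singleton'] at h1
    obtain ⟨w, hw⟩ := h1
    -- `a q - c ∈ (q^e)`
    have h2 : (s q : ℤ) ∣ ((a q : ℤ) - (c : ℤ)) := (Nat.modEq_iff_dvd.mp (hc q (Finset.mem_univ q)))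
    obtain ⟨w', hw'⟩ := h2
    have h3 : ((a q : ℕ) : ℤ_[((q : Nat.Primes) : ℕ)]) - (c : ℤ_[((q : Nat.Primes) : ℕ)]) =
        ((q : Nat.Primes) : ℤ_[((q : Nat.Primes) : ℕ)]) ^ (e q) * (w' : ℤ_[((q : Nat.Primes) : ℕ)]) := by
      have := congrArg (fun n : ℤ => (n : ℤ_[((q : Nat.Primes) : ℕ)])) hw'
      simp only [s] at this
      push_cast at this
      exact this
    refine ⟨u * (w + w'), ?_⟩
    have h4 : z q = (c : ℤ_[((q : Nat.Primes) : ℕ)]) +
        ((q : Nat.Primes) : ℤ_[((q : Nat.Primes) : ℕ)]) ^ (e q) * (w + w') := by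
      have h5 : z q = ((a q : ℕ) : ℤ_[((q : Nat.Primes) : ℕ)]) +
          w * ((q : Nat.Primes) : ℤ_[((q : Nat.Primes) : ℕ)]) ^ (e q) := by
        rw [hw]
        ring
      rw [h5]
      linear_combination h3
    rw [h4]
    have hu' : ((q : Nat.Primes) : ℤ_[((q : Nat.Primes) : ℕ)]) ^ (e q) =
        (M : ℤ_[((q : Nat.Primes) : ℕ)]) * u := hu
    rw [hu']
    ring
  choose t ht using key
  refine ⟨c, t, ?_⟩
  funext q
  exact ht q

end H3C
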