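/-
W2-C (S55) block C-finite, slice WA (helper3), part 2: `1 + m_S Λ ⊆ Λˣ` (`h3c_congUnit`, by
Nakayama), density of `K` in `K_S` modulo `M Λ` (`h3c_dense`), and weak approximation
`h3c_weakApprox : H17C.WeakApprox`.
-/
import Mathlib
import Fermat.Agent.CFT2.C.WeakApproxBase_helper3

set_option autoImplicit false
set_option linter.style.haveILetI false
set_option linter.unusedSectionVars false
set_option linter.unusedVariables false

noncomputable section

namespace H3C

open NumberField TensorProduct H17C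

/-- abstract form of `1 + mΛ ⊆ Λˣ`: `Λ` a subring of `A` which is the additive span of the products
`φ r * g b` (`B` a finitely generated abelian group), and `m` in the Jacobson radical of `R`. -/
theorem h3c_nakayama {R A B : Type} [CommRing R] [CommRing A] [AddCommGroup B]
    [Module.Finite ℤ B] (φ : R →+* A) (g : B →+ A) (m : R)
    (hm : ∀ r : R, IsUnit (m * r + 1)) (Λ : Subring A) (hφ : ∀ r, φ r ∈ Λ)
    (hΛ : ∀ x, x ∈ Λ ↔ x ∈ AddSubgroup.closure {y | ∃ (b : B) (r : R), y = φ r * g b})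
    (y : A) (hy : y ∈ Λ) : ∃ t ∈ Λ, (1 + φ m * y) * t = 1 := by
  classical
  letI : Algebra R A := φ.toAlgebra
  have hsmul : ∀ (r : R) (x : A), r • x = φ r * x := fun r x => Algebra.smul_def r x
  obtain ⟨s₀, hs₀⟩ := (Module.Finite.fg_top : (⊤ : Submodule ℤ B).FG)
  let s : Finset A := s₀.image (fun b => g b)
  let N' : Submodule R A := Submodule.span R (s : Set A)
  have hg : ∀ b : B, g b ∈ N' := by
    intro b
    have hb : b ∈ Submodule.span ℤ (s₀ : Set B) := by rw [hs₀]; trivial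
    induction hb using Submodule.span_induction with
    | mem x hx =>
      apply Submodule.subset_span
      rw [Finset.coe_image]
      exact ⟨x, hx, rfl⟩
    | zero => rw [map_zero]; exact Submodule.zero_mem _
    | add x y _ _ hx hy => rw [map_add]; exact Submodule.add_mem _ hx hy
    | smul n x _ hx => rw [map_zsmul]; exact zsmul_mem hx n
  have hgΛ : ∀ b : B, g b ∈ Λ := by
    intro b
    rw [hΛ]
    exact AddSubgroup.subset_closure ⟨b, 1, by rw [map_one, one_mul]⟩
  have hN'Λ : ∀ x, x ∈ N' ↔ x ∈ Λ := by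
    intro x
    constructor
    · intro hx
      induction hx using Submodule.span_induction with
      | mem x hx =>
        rw [Finset.coe_image] at hx
        obtain ⟨b, _, rfl⟩ := hx
        exact hgΛ b
      | zero => exact Λ.zero_mem
      | add x y _ _ hx hy => exact Λ.add_mem hx hy
      | smul r x _ hx =>
        rw [hsmul]
        exact Λ.mul_mem (hφ r) hx
    · intro hx
      rw [hΛ] at hx
      induction hx using AddSubgroup.closure_induction with
      | mem x hx =>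
        obtain ⟨b, r, rfl⟩ := hx
        rw [← hsmul]
        exact Submodule.smul_mem _ _ (hg b)
      | zero => exact Submodule.zero_mem _
      | add x y _ _ hx hy => exact Submodule.add_mem _ hx hy
      | neg x _ hx => exact Submodule.neg_mem _ hx
  have hfg : N'.FG := ⟨s, rfl⟩
  have hjac : Ideal.span {m} ≤ Ideal.jacobson (⊥ : Ideal R) := by
    rw [Ideal.span_le, Set.singleton_subset_iff, SetLike.mem_coe, Ideal.mem_jacobson_bot]
    exact hm
  set v : A := 1 + φ m * y with hv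
  have hnak : N' ≤ N'.map (LinearMap.mulLeft R v) := by
    apply Submodule.le_of_le_smul_of_le_jacobson_bot hfg hjac
    intro x hx
    have hx' : x ∈ Λ := (hN'Λ x).mp hx
    have e : v * x + (-(m • (y * x))) = x := by
      rw [hsmul, hv]
      ring
    have hmem : v * x + (-(m • (y * x))) ∈
        N'.map (LinearMap.mulLeft R v) ⊔ Ideal.span {m} • N' := by
      apply Submodule.add_mem_sup
      · exact ⟨x, hx, rfl⟩
      · apply Submodule.neg_mem
        exact Submodule.smul_mem_smul (Ideal.mem_span_singleton_self m)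
          ((hN'Λ _).mpr (Λ.mul_mem hy hx'))
    rw [e] at hmem
    exact hmem
  have h1 : (1 : A) ∈ N' := (hN'Λ 1).mpr Λ.one_mem
  obtain ⟨t, ht, ht'⟩ := hnak h1
  exact ⟨t, (hN'Λ t).mp ht, ht'⟩

variable (S : Finset Nat.Primes) (K : Type) [Field K] [NumberField K]

/-- `m_S` is in the Jacobson radical of `ℤ_S` -/
theorem h3c_zs_isUnit (y : ZS S) : IsUnit (((mS S : ℕ) : ZS S) * y + 1) := by
  rw [Pi.isUnit_iff]
  intro q
  rw [PadicInt.isUnit_iff]
  have h1 : ‖((mS S : ℕ) : ℤ_[((q : Nat.Primes) : ℕ)]) * y q‖ < 1 := by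
    rw [norm_mul]
    have h2 : ‖((mS S : ℕ) : ℤ_[((q : Nat.Primes) : ℕ)])‖ < 1 := by
      have := (PadicInt.norm_int_lt_one_iff_dvd (p := ((q : Nat.Primes) : ℕ))
        ((mS S : ℕ) : ℤ)).mpr (by exact_mod_cast h3c_dvd_mS S q)
      rw [Int.cast_natCast] at this
      exact this
    calc ‖((mS S : ℕ) : ℤ_[((q : Nat.Primes) : ℕ)])‖ * ‖y q‖
        ≤ ‖((mS S : ℕ) : ℤ_[((q : Nat.Primes) : ℕ)])‖ * 1 :=
          mul_le_mul_of_nonneg_left (PadicInt.norm_le_one _) (norm_nonneg _)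
      _ < 1 := by rw [mul_one]; exact h2
  have h3 : (((mS S : ℕ) : ZS S) * y + 1) q =
      ((mS S : ℕ) : ℤ_[((q : Nat.Primes) : ℕ)]) * y q + 1 := rfl
  rw [h3]
  have h4 := PadicInt.norm_add_eq_max_of_ne (p := ((q : Nat.Primes) : ℕ))
    (q := ((mS S : ℕ) : ℤ_[((q : Nat.Primes) : ℕ)]) * y q) (r := 1)
    (by rw [norm_one]; exact h1.ne)
  rw [h4, norm_one]
  exact max_eq_right h1.le

/-- `ℤ_S → K_S` -/
def h3c_φ : ZS S →+* KS S K := ((locRing S K : QS S →ₐ[ℚ] KS S K) : QS S →+* KS S K).comp (zsToQs S)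

theorem h3c_φ_apply (z : ZS S) : h3c_φ S K z = locRing S K (zsToQs S z) := rfl

theorem h3c_φ_mem (z : ZS S) : h3c_φ S K z ∈ latS S K :=
  Subring.subset_closure (Or.inr ⟨z, rfl⟩)

/-- `𝓞_K → K_S` -/
def h3c_g : 𝓞 K →+ KS S K :=
  ((diagRing S K : K →ₐ[ℚ] KS S K) : K →+* KS S K).toAddMonoidHom.comp
    (algebraMap (𝓞 K) K).toAddMonoidHom

theorem h3c_g_apply (a : 𝓞 K) : h3c_g S K a = diagRing S K (a : K) := rfl

theorem h3c_pure_eq (a : 𝓞 K) (z : ZS S) : h3c_pure S K a z = h3c_φ S K z * h3c_g S K a := by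
  rw [h3c_φ_apply, h3c_g_apply, diagRing_apply, locRing_apply, tmulS_mul, one_mul, mul_one]
  rfl

/-- **(CongUnit)** `1 + m_S Λ ⊆ Λˣ` -/
theorem h3c_congUnit (y : KS S K) (hy : y ∈ latS S K) :
    ∃ t ∈ latS S K, (1 + ((mS S : ℕ) : KS S K) * y) * t = 1 := by
  have h := h3c_nakayama (h3c_φ S K) (h3c_g S K) ((mS S : ℕ) : ZS S) (h3c_zs_isUnit S)
    (latS S K) (h3c_φ_mem S K) (by
      intro x
      rw [h3c_mem_latS_iff]
      have e : {y | ∃ a z, y = h3c_pure S K a z} =
          {y | ∃ (b : 𝓞 K) (r : ZS S), y = h3c_φ S K r * h3c_g S K b} := by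
        ext y
        constructor
        · rintro ⟨a, z, rfl⟩
          exact ⟨a, z, h3c_pure_eq S K a z⟩
        · rintro ⟨a, z, rfl⟩
          exact ⟨a, z, (h3c_pure_eq S K a z).symm⟩
      rw [e]) y hy
  rw [map_natCast] at h
  exact h

theorem h3c_mS_ne_zero : mS S ≠ 0 := by
  unfold mS
  exact Finset.prod_ne_zero_iff.mpr fun q _ => q.2.ne_zero

/-- **density**: `K_S = K + M Λ` for every `M ≠ 0` -/
theorem h3c_dense (M : ℕ) (hM : M ≠ 0) (z : KS S K) :
    ∃ a : K, ∃ t ∈ latS S K, z = diagRing S K a + (M : KS S K) * t := by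
  induction z using ks_induction with
  | zero => exact ⟨0, 0, (latS S K).zero_mem, by rw [map_zero, mul_zero, add_zero]⟩
  | tmul x y =>
    obtain ⟨a', y', h⟩ := h3c_tmul_eq S K x y
    obtain ⟨k, w, hw⟩ := h3c_exists_pow_mul S y'
    have hmk : mS S ^ k ≠ 0 := pow_ne_zero _ (h3c_mS_ne_zero S)
    obtain ⟨c, t, hct⟩ := h3c_crt S w (M * mS S ^ k) (mul_ne_zero hM hmk)
    have hmkQ : ((mS S ^ k : ℕ) : ℚ) ≠ 0 := by exact_mod_cast hmk
    -- `y' = (c / m^k) • 1 + M * t`
    have h1 : ((mS S ^ k : ℕ) : QS S) * y' =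
        (c : QS S) + ((M * mS S ^ k : ℕ) : QS S) * zsToQs S t := by
      rw [hw, hct, map_add, map_mul, map_natCast, map_natCast]
    have h2 : y' = (((mS S ^ k : ℕ) : ℚ)⁻¹ * (c : ℚ)) • (1 : QS S) + (M : QS S) * zsToQs S t := by
      have e1 : y' = (((mS S ^ k : ℕ) : ℚ)⁻¹) • (((mS S ^ k : ℕ) : QS S) * y') := by
        rw [← smul_mul_assoc]
        have : (((mS S ^ k : ℕ) : ℚ)⁻¹) • ((mS S ^ k : ℕ) : QS S) = 1 := by
          rw [Algebra.smul_def, ← map_natCast (algebraMap ℚ (QS S)), ← map_mul,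
            inv_mul_cancel₀ hmkQ, map_one]
        rw [this, one_mul]
      rw [e1, h1, smul_add]
      congr 1
      · rw [mul_smul]
        congr 1
        rw [Algebra.smul_def, mul_one, map_natCast]
      · rw [Nat.cast_mul, mul_comm (M : QS S), mul_assoc, ← smul_mul_assoc]
        have : (((mS S ^ k : ℕ) : ℚ)⁻¹) • ((mS S ^ k : ℕ) : QS S) = 1 := by
          rw [Algebra.smul_def, ← map_natCast (algebraMap ℚ (QS S)), ← map_mul,
            inv_mul_cancel₀ hmkQ, map_one]
        rw [this, one_mul]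
    refine ⟨(((mS S ^ k : ℕ) : ℚ)⁻¹ * (c : ℚ)) • (a' : K), h3c_pure S K a' t,
      h3c_pure_mem S K a' t, ?_⟩
    rw [h, h2, tmulS_add_right, diagRing_apply, ← tmulS_smul]
    congr 1
    exact (h3c_natCast_mul_tmul S K M (a' : K) (zsToQs S t)).symm
  | add a b ha hb =>
    obtain ⟨a₁, t₁, ht₁, h₁⟩ := ha
    obtain ⟨a₂, t₂, ht₂, h₂⟩ := hb
    refine ⟨a₁ + a₂, t₁ + t₂, (latS S K).add_mem ht₁ ht₂, ?_⟩
    rw [h₁, h₂, map_add]
    ring

/-- **(WA)** weak approximation at `S` -/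
theorem h3c_weakApprox : H17C.WeakApprox := by
  intro S K _ _ n hn u
  obtain ⟨k, hk⟩ := h3c_bounded S K ((u⁻¹ : (KS S K)ˣ) : KS S K)
  have hm : mS S ≠ 0 := h3c_mS_ne_zero S
  obtain ⟨a₀, t, ht, hu⟩ := h3c_dense S K (n * mS S ^ (k + 1))
    (mul_ne_zero hn (pow_ne_zero _ hm)) (u : KS S K)
  set ui : KS S K := ((u⁻¹ : (KS S K)ˣ) : KS S K) with hui
  have huui : (u : KS S K) * ui = 1 := by rw [hui]; simp
  set b : KS S K := ((mS S ^ k : ℕ) : KS S K) * ui with hb
  -- `v = diag a₀ * u⁻¹`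
  have hv1 : diagRing S K a₀ * ui = 1 + ((mS S : ℕ) : KS S K) * (-((n : KS S K) * t * b)) := by
    have e : diagRing S K a₀ = (u : KS S K) - ((n * mS S ^ (k + 1) : ℕ) : KS S K) * t := by
      rw [hu]; ring
    rw [e, hb]
    push_cast
    linear_combination huui
  have hv2 : diagRing S K a₀ * ui = 1 + (n : KS S K) * (-(((mS S : ℕ) : KS S K) * t * b)) := by
    rw [hv1]; ring
  have hy₀ : -((n : KS S K) * t * b) ∈ latS S K :=
    (latS S K).neg_mem ((latS S K).mul_mem ((latS S K).mul_mem (h3c_natCast_mem S K n) ht) hk)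
  have hy₁ : -(((mS S : ℕ) : KS S K) * t * b) ∈ latS S K :=
    (latS S K).neg_mem ((latS S K).mul_mem ((latS S K).mul_mem (h3c_natCast_mem S K _) ht) hk)
  obtain ⟨t', ht', hvt⟩ := h3c_congUnit S K _ hy₀
  rw [← hv1] at hvt
  by_cases ha₀ : a₀ = 0
  · -- the ring is trivial
    have h01 : (0 : KS S K) = 1 := by
      rw [ha₀, map_zero, zero_mul, zero_mul] at hvt
      exact hvt
    haveI : Subsingleton (KS S K) := subsingleton_of_zero_eq_one h01
    refine ⟨1, ?_⟩
    have : u * (diagS S K 1)⁻¹ = 1 := Subsingleton.elim _ _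
    rw [this]
    exact (congIdele S K n).one_mem
  · refine ⟨Units.mk0 a₀ ha₀, ?_⟩
    set w' : (KS S K)ˣ := diagS S K (Units.mk0 a₀ ha₀) * u⁻¹ with hw'
    have hw'v : (w' : KS S K) = diagRing S K a₀ * ui := by
      rw [hw', Units.val_mul]
      rfl
    have hw'i : ((w'⁻¹ : (KS S K)ˣ) : KS S K) = t' :=
      Units.inv_eq_of_mul_eq_one_right (by rw [hw'v]; exact hvt)
    have e : u * (diagS S K (Units.mk0 a₀ ha₀))⁻¹ = w'⁻¹ := by
      rw [hw', mul_inv_rev, inv_inv]
    rw [e]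
    apply (congIdele S K n).inv_mem
    refine ⟨⟨?_, ?_⟩, _, hy₁, ?_⟩
    · rw [hw'v, hv2]
      exact (latS S K).add_mem (latS S K).one_mem
        ((latS S K).mul_mem (h3c_natCast_mem S K n) hy₁)
    · rw [hw'i]
      exact ht'
    · rw [hw'v, hv2]

end H3C
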