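/-
W2-C (S55) block C-finite, slice FI-FIN (helper12): `H12FIN.h12c_unitIndexFinite : H17C.UnitIndexFinite`.
The image of the unit ideles `U_L` in `C_L` has finite index (the quotient is a quotient of the
class group of `𝓞_L`; uses weak approximation, helper3) and its kernel is the group of global units.
-/
import Fermat.Agent.CFT2.C.UnitIndexLat_helper12
import Fermat.Agent.CFT2.C.WeakApprox_helper3

set_option autoImplicit false
set_option linter.unusedSectionVars false
set_option linter.unusedVariables false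
set_option linter.style.haveILetI false

noncomputable section

namespace H12FIN

open H17C NumberField IsDedekindDomain TensorProduct
open scoped nonZeroDivisors

variable {S : Finset Nat.Primes} {L : Type} [Field L] [NumberField L]

/-- the prime outside `S` attached to a height one prime not above `S` -/
def toPrimesS (v : HeightOneSpectrum (𝓞 L)) (hv : ¬ aboveS S L v) : PrimesS S L :=
  ⟨v.asIdeal, v.isPrime, v.ne_bot, fun q hq h => hv ⟨q, hq, h⟩⟩

theorem toPrimesS_toHOS (v : HeightOneSpectrum (𝓞 L)) (hv : ¬ aboveS S L v) :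
    (toPrimesS v hv).toHOS = v := rfl

theorem not_aboveS_toHOS (P : PrimesS S L) : ¬ aboveS S L P.toHOS :=
  fun ⟨q, hq, h⟩ => P.2.2.2 q hq h

theorem val_eq_one_of_ordP (P : PrimesS S L) (x : L) (hx : x ≠ 0) (h : ordP P x = 0) :
    P.toHOS.valuation L x = 1 := by
  unfold ordP at h
  have h0 : P.toHOS.valuation L x ≠ 0 := (Valuation.ne_zero_iff _).mpr hx
  have h1 : WithZero.log (P.toHOS.valuation L x) = 0 := neg_eq_zero.mp h
  rw [← WithZero.exp_log h0, h1, WithZero.exp_zero]

theorem val_natCast_primeTo (v : HeightOneSpectrum (𝓞 L)) (hv : aboveS S L v) (m : ℕ)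
    (hm : primeTo S m) : v.valuation L (m : L) = 1 := by
  apply val_natCast_eq_one
  intro hmem
  obtain ⟨q, hq, hqv⟩ := hv
  have hcop : Nat.Coprime (q : ℕ) m := (Nat.Prime.coprime_iff_not_dvd q.2).mpr (hm q hq)
  obtain ⟨s, t, hst⟩ := Nat.isCoprime_iff_coprime.mpr hcop
  have h1 : ((s : ℤ) : 𝓞 L) * (((q : ℕ) : ℤ) : 𝓞 L) + ((t : ℤ) : 𝓞 L) * (((m : ℕ) : ℤ) : 𝓞 L) = 1 := by
    have := congrArg (fun z : ℤ => (z : 𝓞 L)) hst
    simpa using this
  have h2 : (1 : 𝓞 L) ∈ v.asIdeal := by
    rw [← h1]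
    exact v.asIdeal.add_mem (v.asIdeal.mul_mem_left _ hqv) (v.asIdeal.mul_mem_left _ hmem)
  exact v.isPrime.ne_top ((Ideal.eq_top_iff_one _).mpr h2)

/-- an element of `Lˣ` with trivial divisor outside `S` which lies in `Λ` is integral -/
theorem mem_integers_of (x : L) (hx : x ≠ 0) (hdiv : ∀ P : PrimesS S L, ordP P x = 0)
    (hlat : diagRing S L x ∈ latS S L) : x ∈ (algebraMap (𝓞 L) L).range := by
  obtain ⟨m, hm0, hm, y, hy⟩ := exists_denominator_of_mem_lat x hlat
  apply HeightOneSpectrum.mem_integers_of_valuation_le_one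
  intro v
  by_cases hv : aboveS S L v
  · have h1 := val_natCast_primeTo v hv m hm
    have h2 : v.valuation L ((m : L) * x) ≤ 1 := by
      rw [← hy]; exact HeightOneSpectrum.valuation_le_one v y
    rw [map_mul, h1, one_mul] at h2
    exact h2
  · have := val_eq_one_of_ordP (toPrimesS v hv) x hx (hdiv _)
    rw [toPrimesS_toHOS] at this
    exact this.le

/-- part (2) of FI-FIN: the kernel of `U_L → C_L` consists of the global units -/
theorem unit_of_cls_zero (u : Additive (KS S L)ˣ) (hu : u ∈ unitIdeleAdd S L)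
    (h : clsMk S L (u, 0) = 0) :
    ∃ ε : (𝓞 L)ˣ, diagS S L (Units.map (algebraMap (𝓞 L) L : 𝓞 L →* L) ε) = Additive.toMul u := by
  rw [clsMk_eq_zero_iff, mem_princS_iff] at h
  obtain ⟨x, hx⟩ := h
  have h1 : diagS S L (Additive.toMul x) = Additive.toMul u := by
    have := congrArg Prod.fst hx
    exact this
  have h2 : divS S L x = 0 := congrArg Prod.snd hx
  have hu' : ((Additive.toMul u : (KS S L)ˣ) : KS S L) ∈ latS S L ∧
      (((Additive.toMul u)⁻¹ : (KS S L)ˣ) : KS S L) ∈ latS S L := hu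
  have hd : ∀ P : PrimesS S L, ordP P ((Additive.toMul x : Lˣ) : L) = 0 := by
    intro P
    have := DFunLike.congr_fun h2 P
    rw [divS_apply] at this
    exact this
  have hd' : ∀ P : PrimesS S L, ordP P (((Additive.toMul x)⁻¹ : Lˣ) : L) = 0 := by
    intro P
    have e := ordP_mul P (Additive.toMul x).ne_zero ((Additive.toMul x)⁻¹).ne_zero
    rw [← Units.val_mul, mul_inv_cancel, Units.val_one, ordP_one, hd P, zero_add] at e
    exact e.symm
  have hl : diagRing S L ((Additive.toMul x : Lˣ) : L) ∈ latS S L := by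
    have : ((diagS S L (Additive.toMul x) : (KS S L)ˣ) : KS S L) ∈ latS S L := by
      rw [h1]; exact hu'.1
    exact this
  have hl' : diagRing S L (((Additive.toMul x)⁻¹ : Lˣ) : L) ∈ latS S L := by
    have : (((diagS S L (Additive.toMul x))⁻¹ : (KS S L)ˣ) : KS S L) ∈ latS S L := by
      rw [h1]; exact hu'.2
    rw [← map_inv] at this
    exact this
  obtain ⟨y, hy⟩ := mem_integers_of _ (Additive.toMul x).ne_zero hd hl
  obtain ⟨y', hy'⟩ := mem_integers_of _ ((Additive.toMul x)⁻¹).ne_zero hd' hl'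
  have hyy : y * y' = 1 := by
    apply RingOfIntegers.ext
    show algebraMap (𝓞 L) L (y * y') = algebraMap (𝓞 L) L 1
    rw [map_mul, hy, hy', map_one, ← Units.val_mul, mul_inv_cancel, Units.val_one]
  refine ⟨⟨y, y', hyy, by rw [mul_comm]; exact hyy⟩, ?_⟩
  rw [← h1]
  congr 1
  apply Units.ext
  exact hy

theorem count_span_int (v : HeightOneSpectrum (𝓞 L)) (a : 𝓞 L) (ha : a ≠ 0) :
    FractionalIdeal.count L v ((Ideal.span {a} : Ideal (𝓞 L)) : FractionalIdeal (𝓞 L)⁰ L) =
      - WithZero.log (v.valuation L (algebraMap (𝓞 L) L a)) := by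
  classical
  have hsp : (Ideal.span {a} : Ideal (𝓞 L)) ≠ 0 := by
    simpa using ha
  rw [FractionalIdeal.count_coe L v hsp, HeightOneSpectrum.valuation_of_algebraMap,
    HeightOneSpectrum.intValuation_if_neg _ ha, WithZero.log_exp]
  simp

theorem count_span (v : HeightOneSpectrum (𝓞 L)) (x : L) (hx : x ≠ 0) :
    FractionalIdeal.count L v (FractionalIdeal.spanSingleton (𝓞 L)⁰ x) =
      - WithZero.log (v.valuation L x) := by
  obtain ⟨a, b, hb, hab⟩ := IsFractionRing.div_surjective (A := 𝓞 L) x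
  have hb0 : b ≠ 0 := nonZeroDivisors.ne_zero hb
  have hb0' : algebraMap (𝓞 L) L b ≠ 0 := by
    intro h
    exact hb0 ((FaithfulSMul.algebraMap_injective (𝓞 L) L) (by rw [h, map_zero]))
  have hxb : x * algebraMap (𝓞 L) L b = algebraMap (𝓞 L) L a := by
    rw [← hab]; field_simp
  have ha0 : a ≠ 0 := by
    rintro rfl
    rw [map_zero] at hxb
    rcases mul_eq_zero.mp hxb with h | h
    · exact hx h
    · exact hb0' h
  have e : FractionalIdeal.spanSingleton (𝓞 L)⁰ x *
      ((Ideal.span {b} : Ideal (𝓞 L)) : FractionalIdeal (𝓞 L)⁰ L) =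
      ((Ideal.span {a} : Ideal (𝓞 L)) : FractionalIdeal (𝓞 L)⁰ L) := by
    rw [FractionalIdeal.coeIdeal_span_singleton, FractionalIdeal.coeIdeal_span_singleton,
      FractionalIdeal.spanSingleton_mul_spanSingleton, hxb]
  have h1 := FractionalIdeal.count_mul L v
    (I := FractionalIdeal.spanSingleton (𝓞 L)⁰ x)
    (I' := ((Ideal.span {b} : Ideal (𝓞 L)) : FractionalIdeal (𝓞 L)⁰ L))
    (by rw [Ne, FractionalIdeal.spanSingleton_eq_zero_iff]; exact hx)
    (by rw [FractionalIdeal.coeIdeal_span_singleton, Ne,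
      FractionalIdeal.spanSingleton_eq_zero_iff]; exact hb0')
  rw [e, count_span_int v a ha0, count_span_int v b hb0, ← hxb, map_mul,
    WithZero.log_mul ((Valuation.ne_zero_iff _).mpr hx) ((Valuation.ne_zero_iff _).mpr hb0')] at h1
  linarith

variable (L) in
/-- the class group, as a quotient of the fractional ideals in `L` -/
abbrev CG : Type := (FractionalIdeal (𝓞 L)⁰ L)ˣ ⧸ (toPrincipalIdeal (𝓞 L) L).range

instance instFiniteCG : Finite (CG L) := Finite.of_equiv _ (ClassGroup.equiv L).toEquiv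

/-- the extension by zero of a divisor prime to `S` -/
def extDiv (d : DivS S L) : HeightOneSpectrum (𝓞 L) →₀ ℤ := Finsupp.mapDomain PrimesS.toHOS d

theorem extDiv_toHOS (d : DivS S L) (P : PrimesS S L) : extDiv d P.toHOS = d P :=
  Finsupp.mapDomain_apply PrimesS.toHOS_injective d P

theorem extDiv_above (d : DivS S L) (v : HeightOneSpectrum (𝓞 L)) (hv : aboveS S L v) :
    extDiv d v = 0 := by
  apply Finsupp.mapDomain_of_notMem_range
  rintro ⟨P, rfl⟩
  exact not_aboveS_toHOS P hv

/-- the fractional ideal of a divisor -/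
def idl (d : DivS S L) : FractionalIdeal (𝓞 L)⁰ L :=
  (extDiv d).prod (fun v n => (v.asIdeal : FractionalIdeal (𝓞 L)⁰ L) ^ n)

theorem idl_ne_zero (d : DivS S L) : idl d ≠ 0 := by
  unfold idl Finsupp.prod
  rw [Finset.prod_ne_zero_iff]
  intro v _
  exact zpow_ne_zero _ (FractionalIdeal.coeIdeal_ne_zero.mpr v.ne_bot)

theorem count_idl (d : DivS S L) (v : HeightOneSpectrum (𝓞 L)) :
    FractionalIdeal.count L v (idl d) = extDiv d v :=
  FractionalIdeal.count_finsuppProd L v (extDiv d)

/-- the class of a divisor in the class group -/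
def idlCls (d : DivS S L) : CG L := QuotientGroup.mk (Units.mk0 (idl d) (idl_ne_zero d))

/-- two divisors with the same ideal class differ by the divisor of an element which is a unit
at the primes above `S` -/
theorem exists_of_idlCls_eq (d d' : DivS S L) (h : idlCls d = idlCls d') :
    ∃ x : Lˣ, divS S L (Additive.ofMul x) = d' - d ∧
      ∀ v : HeightOneSpectrum (𝓞 L), aboveS S L v → v.valuation L (x : L) = 1 := by
  unfold idlCls at h
  rw [QuotientGroup.eq] at h
  obtain ⟨x, hx⟩ := h
  have h1 : idl d * FractionalIdeal.spanSingleton (𝓞 L)⁰ (x : L) = idl d' := by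
    have := congrArg (fun I : (FractionalIdeal (𝓞 L)⁰ L)ˣ => (I : FractionalIdeal (𝓞 L)⁰ L)) hx
    simp only [coe_toPrincipalIdeal, Units.val_mul, Units.val_inv_eq_inv_val, Units.val_mk0] at this
    rw [this, ← mul_assoc, mul_inv_cancel₀ (idl_ne_zero d), one_mul]
  have hc : ∀ v : HeightOneSpectrum (𝓞 L),
      - WithZero.log (v.valuation L (x : L)) = extDiv d' v - extDiv d v := by
    intro v
    have h2 := FractionalIdeal.count_mul L v (idl_ne_zero d)
      (I' := FractionalIdeal.spanSingleton (𝓞 L)⁰ (x : L))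
      (by rw [Ne, FractionalIdeal.spanSingleton_eq_zero_iff]; exact x.ne_zero)
    rw [h1, count_idl, count_idl, count_span v _ x.ne_zero] at h2
    linarith
  refine ⟨x, ?_, ?_⟩
  · ext P
    rw [divS_apply, Finsupp.sub_apply, ← extDiv_toHOS d' P, ← extDiv_toHOS d P, ← hc]
    rfl
  · intro v hv
    have h3 := hc v
    rw [extDiv_above d v hv, extDiv_above d' v hv, sub_zero, neg_eq_zero] at h3
    have h0 : v.valuation L (x : L) ≠ 0 := (Valuation.ne_zero_iff _).mpr x.ne_zero
    rw [← WithZero.exp_log h0, h3, WithZero.exp_zero]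

/-- elements which are units at the primes above `S` give unit ideles -/
theorem diagS_mem_unitIdele (x : Lˣ)
    (hx : ∀ v : HeightOneSpectrum (𝓞 L), aboveS S L v → v.valuation L (x : L) = 1) :
    diagS S L x ∈ unitIdele S L := by
  constructor
  · obtain ⟨m, hm0, hm, hmem⟩ := exists_denominator (S := S) (x : L) (fun v hv => (hx v hv).le)
    exact diag_mem_lat (x : L) m hm hmem
  · have hx' : ∀ v : HeightOneSpectrum (𝓞 L), aboveS S L v →
        v.valuation L ((x⁻¹ : Lˣ) : L) ≤ 1 := by
      intro v hv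
      rw [Units.val_inv_eq_inv_val, map_inv₀, hx v hv, inv_one]
    obtain ⟨m, hm0, hm, hmem⟩ := exists_denominator (S := S) ((x⁻¹ : Lˣ) : L) hx'
    have := diag_mem_lat ((x⁻¹ : Lˣ) : L) m hm hmem
    rw [← map_inv]
    exact this

variable (S L) in
/-- the image of `U_L` in `C_L` -/
abbrev unitImage : AddSubgroup (ClS S L) :=
  (unitIdeleAdd S L).map ((clsMk S L).toAddMonoidHom.comp
    (AddMonoidHom.inl (Additive (KS S L)ˣ) (DivS S L)))

theorem mem_unitImage (u : (KS S L)ˣ) (hu : u ∈ unitIdele S L) :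
    clsMk S L (Additive.ofMul u, 0) ∈ unitImage S L :=
  ⟨Additive.ofMul u, hu, rfl⟩

/-- `d ↦` the class of `(1, d)` in `C_L / im U_L` -/
def kap (d : DivS S L) : ClS S L ⧸ unitImage S L :=
  QuotientAddGroup.mk (clsMk S L (0, d))

theorem kap_eq_of_idlCls_eq (d d' : DivS S L) (h : idlCls d = idlCls d') : kap d = kap d' := by
  obtain ⟨x, hx1, hx2⟩ := exists_of_idlCls_eq d d' h
  have hU := (unitIdele S L).inv_mem (diagS_mem_unitIdele x hx2)
  have hB := mem_unitImage _ hU
  unfold kap
  rw [QuotientAddGroup.eq]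
  have e : -(clsMk S L (0, d)) + clsMk S L (0, d') =
      clsMk S L (Additive.ofMul (diagS S L x)⁻¹, 0) := by
    rw [← map_neg, ← map_add, ← sub_eq_zero, ← map_sub, clsMk_eq_zero_iff, mem_princS_iff]
    refine ⟨Additive.ofMul x, ?_⟩
    apply Prod.ext
    · show Additive.ofMul (diagS S L x) = -(0 : Additive (KS S L)ˣ) + 0 - Additive.ofMul (diagS S L x)⁻¹
      rw [neg_zero, zero_add, zero_sub]
      rfl
    · show divS S L (Additive.ofMul x) = -d + d' - 0
      rw [hx1]; abel
  rw [e]
  exact hB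

theorem kap_surjective
    (hWA : ∀ u : (KS S L)ˣ, ∃ a : Lˣ, u * (diagS S L a)⁻¹ ∈ unitIdele S L) :
    Function.Surjective (kap : DivS S L → ClS S L ⧸ unitImage S L) := by
  intro t
  obtain ⟨c, rfl⟩ := QuotientAddGroup.mk_surjective t
  obtain ⟨⟨u, d0⟩, rfl⟩ := clsMk_surjective S L c
  obtain ⟨a, ha⟩ := hWA (Additive.toMul u)
  refine ⟨d0 - divS S L (Additive.ofMul a), ?_⟩
  unfold kap
  rw [QuotientAddGroup.eq]
  have e : -(clsMk S L (0, d0 - divS S L (Additive.ofMul a))) + clsMk S L (u, d0) =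
      clsMk S L (Additive.ofMul (Additive.toMul u * (diagS S L a)⁻¹), 0) := by
    rw [← map_neg, ← map_add, ← sub_eq_zero, ← map_sub, clsMk_eq_zero_iff, mem_princS_iff]
    refine ⟨Additive.ofMul a, ?_⟩
    apply Prod.ext
    · show Additive.ofMul (diagS S L a) = -(0 : Additive (KS S L)ˣ) + u -
        Additive.ofMul (Additive.toMul u * (diagS S L a)⁻¹)
      rw [neg_zero, zero_add]
      apply Additive.toMul.injective
      show diagS S L a = Additive.toMul u / (Additive.toMul u * (diagS S L a)⁻¹)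
      rw [div_mul_eq_div_div, div_self', one_div, inv_inv]
    · show divS S L (Additive.ofMul a) = -(d0 - divS S L (Additive.ofMul a)) + d0 - 0
      abel
  rw [e]
  exact mem_unitImage _ ha

/-- part (1) of FI-FIN, from weak approximation -/
theorem index_ne_zero
    (hWA : ∀ u : (KS S L)ˣ, ∃ a : Lˣ, u * (diagS S L a)⁻¹ ∈ unitIdele S L) :
    (unitImage S L).index ≠ 0 := by
  classical
  let g : CG L → ClS S L ⧸ unitImage S L := fun c =>
    if h : ∃ d : DivS S L, idlCls d = c then kap h.choose else 0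
  have hg : Function.Surjective g := by
    intro t
    obtain ⟨d, rfl⟩ := kap_surjective hWA t
    refine ⟨idlCls d, ?_⟩
    have h : ∃ d' : DivS S L, idlCls d' = idlCls d := ⟨d, rfl⟩
    show (if h : ∃ d' : DivS S L, idlCls d' = idlCls d then kap h.choose else 0) = kap d
    rw [dif_pos h]
    exact kap_eq_of_idlCls_eq _ _ h.choose_spec
  haveI : Finite (ClS S L ⧸ unitImage S L) := Finite.of_surjective g hg
  exact AddSubgroup.index_ne_zero_of_finite

/-- **(FI-FIN)** -/
theorem h12c_unitIndexFinite : H17C.UnitIndexFinite := by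
  intro S L _ _
  refine ⟨?_, ?_⟩
  · exact index_ne_zero (fun u => by
      obtain ⟨a, ha⟩ := H3C.h3c_weakApprox S L 1 one_ne_zero u
      exact ⟨a, ha.1⟩)
  · intro u hu h
    exact unit_of_cls_zero u hu h

end H12FIN
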