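import Mathlib
import Fermat.Agent.CFT2.C.Slices3_helper17
import Fermat.Agent.CFT2.C.DescCls_helper22

/-!
# W2-C (S55), block C-finite, wave 2, slice CM (helper22), part 1: restriction to `F' = L^N`

For `N ≤ H ≤ Aut(L)` with `N` normalized by `H`: the restriction homomorphism
`r : H → Aut(F')`, `F' = L^N`, its kernel is `N`.
-/

set_option autoImplicit false
set_option linter.unusedSectionVars false
set_option linter.unusedSimpArgs false
set_option linter.unusedVariables false
set_option linter.style.haveILetI false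

noncomputable section

namespace H22C

open NumberField IsDedekindDomain TensorProduct
open scoped Pointwise

variable {L : Type} [Field L] [NumberField L]

/-- the data `N ≤ H ≤ Aut(L)`, `N` normalized by `H` -/
structure NormalPair (L : Type) [Field L] [NumberField L] where
  H : Subgroup (H17C.AutQ L)
  N : Subgroup (H17C.AutQ L)
  le : N ≤ H
  conj : ∀ h ∈ H, ∀ n ∈ N, h * n * h⁻¹ ∈ N

namespace NormalPair

variable (D : NormalPair L)

/-- `F' = L^N` -/
abbrev F' : IntermediateField ℚ L := IntermediateField.fixedField D.N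

theorem map_mem {h : H17C.AutQ L} (hh : h ∈ D.H) {x : L} (hx : x ∈ D.F') : h x ∈ D.F' := by
  rw [IntermediateField.mem_fixedField_iff] at hx ⊢
  intro n hn
  have h1 : h⁻¹ * n * h ∈ D.N := by
    have := D.conj h⁻¹ (D.H.inv_mem hh) n hn
    rwa [inv_inv] at this
  have h2 := hx _ h1
  have h3 : n (h x) = h ((h⁻¹ * n * h) x) := by
    show n (h x) = h (h⁻¹ (n (h x)))
    exact (AlgEquiv.apply_symm_apply h _).symm
  rw [h3, h2]

/-- the restriction of `h ∈ H` to `F'` as an algebra homomorphism -/
def resHom (h : D.H) : D.F' →ₐ[ℚ] D.F' :=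
  ((h : H17C.AutQ L).toAlgHom.comp D.F'.val).codRestrict D.F'.toSubalgebra
    (fun x => D.map_mem h.2 x.2)

theorem resHom_coe (h : D.H) (x : D.F') : ((D.resHom h x : D.F') : L) = (h : H17C.AutQ L) x := rfl

/-- the restriction of `h ∈ H` to `F'` -/
def resAut (h : D.H) : H17C.AutQ D.F' :=
  AlgEquiv.ofAlgHom (D.resHom h) (D.resHom h⁻¹)
    (by
      ext x
      show (h : H17C.AutQ L) (((h⁻¹ : D.H) : H17C.AutQ L) (x : L)) = x
      rw [Subgroup.coe_inv]
      exact AlgEquiv.apply_symm_apply _ _)
    (by
      ext x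
      show ((h⁻¹ : D.H) : H17C.AutQ L) ((h : H17C.AutQ L) (x : L)) = x
      rw [Subgroup.coe_inv]
      exact AlgEquiv.symm_apply_apply _ _)

theorem resAut_coe (h : D.H) (x : D.F') : ((D.resAut h x : D.F') : L) = (h : H17C.AutQ L) x := rfl

/-- the restriction homomorphism `H → Aut(F')` -/
def res : D.H →* H17C.AutQ D.F' where
  toFun := D.resAut
  map_one' := by
    ext x
    rfl
  map_mul' g h := by
    ext x
    rfl

theorem res_coe (h : D.H) (x : D.F') : ((D.res h x : D.F') : L) = (h : H17C.AutQ L) x := rfl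

/-- `N` as a subgroup of `H` -/
abbrev N₀ : Subgroup D.H := D.N.subgroupOf D.H

instance : D.N₀.Normal where
  conj_mem n hn h := by
    rw [Subgroup.mem_subgroupOf] at hn ⊢
    exact D.conj h h.2 n hn

theorem ker_res : D.res.ker = D.N₀ := by
  ext h
  rw [MonoidHom.mem_ker, Subgroup.mem_subgroupOf]
  constructor
  · intro hh
    have h1 : (h : H17C.AutQ L) ∈ (IntermediateField.fixedField D.N).fixingSubgroup := by
      rw [IntermediateField.mem_fixingSubgroup_iff]
      intro x hx
      have := congrArg (fun σ : H17C.AutQ D.F' => ((σ ⟨x, hx⟩ : D.F') : L)) hh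
      exact this
    rwa [IntermediateField.fixingSubgroup_fixedField] at h1
  · intro hh
    ext x
    show (h : H17C.AutQ L) (x : L) = x
    exact (IntermediateField.mem_fixedField_iff D.N (x : L)).1 x.2 _ hh

/-- `H' = ` the image of `H` in `Aut(F')` -/
abbrev H' : Subgroup (H17C.AutQ D.F') := D.res.range

/-- `H / N ≅ H'` -/
def quotEquiv : D.H ⧸ D.N₀ ≃* D.H' :=
  (QuotientGroup.quotientMulEquivOfEq D.ker_res.symm).trans
    (QuotientGroup.quotientKerEquivRange D.res)

theorem quotEquiv_mk (h : D.H) : (D.quotEquiv (QuotientGroup.mk h) : H17C.AutQ D.F') = D.res h :=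
  rfl

theorem card_H' : Nat.card D.H' = D.N₀.index := by
  rw [← Nat.card_congr D.quotEquiv.toEquiv]
  rfl

end NormalPair

end H22C
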