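import Mathlib
import Fermat.Agent.CFT2.C.CM1_helper22

/-!
# W2-C (S55), block C-finite, wave 2, slice CM (helper22), part 2:
if `H ≤ Aut(L)` is unramified outside `S` then so is its image `H'` in `Aut(F')`, `F' = L^N`.
-/

set_option autoImplicit false
set_option linter.unusedSectionVars false
set_option linter.unusedSimpArgs false
set_option linter.unusedVariables false
set_option linter.style.haveILetI false

noncomputable section

namespace H22C

open NumberField IsDedekindDomain TensorProduct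
open scoped Pointwise

variable {S : Finset Nat.Primes} {L : Type} [Field L] [NumberField L]

namespace NormalPair

variable (D : NormalPair L)

theorem res_smul_coe (h : D.H) (a : 𝓞 D.F') :
    algebraMap (𝓞 D.F') (𝓞 L) (D.res h • a) = (h : H17C.AutQ L) • algebraMap (𝓞 D.F') (𝓞 L) a :=
  rfl

theorem smul_coe_of_mem_N {n : H17C.AutQ L} (hn : n ∈ D.N) (a : 𝓞 D.F') :
    n • algebraMap (𝓞 D.F') (𝓞 L) a = algebraMap (𝓞 D.F') (𝓞 L) a := by
  apply RingOfIntegers.ext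
  show n ((a : D.F') : L) = ((a : D.F') : L)
  exact (IntermediateField.mem_fixedField_iff D.N _).1 (a : D.F').2 n hn

end NormalPair

/-- the image of an unramified group is unramified -/
theorem h22c_unram_quot (D : NormalPair L) (hunr : H17C.UnramOutside S L D.H) :
    H17C.UnramOutside S D.F' D.H' := by
  intro P' τ hτ hin
  obtain ⟨h, rfl⟩ := hτ
  obtain ⟨Q, hQ⟩ := h22c_under_surjective S D.F' L P'
  haveI hQprime : Q.1.IsPrime := Q.2.1
  have hPQ : ∀ a : 𝓞 D.F', a ∈ P'.1 ↔ algebraMap (𝓞 D.F') (𝓞 L) a ∈ Q.1 := by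
    intro a
    rw [← hQ]
    rfl
  -- `τ` and `τ⁻¹` preserve `P'`
  have hτP : ∀ a : 𝓞 D.F', D.res h • a ∈ P'.1 ↔ a ∈ P'.1 := by
    intro a
    have h1 := hin a
    constructor
    · intro h2
      have := P'.1.sub_mem h2 h1
      simpa using this
    · intro h2
      have := P'.1.add_mem h1 h2
      simpa using this
  -- `h • Q` lies over `P'`
  have ha : H17C.PrimesS.under S D.F' L ((h : H17C.AutQ L) • Q) = P' := by
    apply Subtype.ext
    ext a
    show algebraMap (𝓞 D.F') (𝓞 L) a ∈ ((h : H17C.AutQ L) • Q.1) ↔ a ∈ P'.1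
    rw [Ideal.mem_pointwise_smul_iff_inv_smul_mem]
    have e : (h : H17C.AutQ L)⁻¹ • algebraMap (𝓞 D.F') (𝓞 L) a =
        algebraMap (𝓞 D.F') (𝓞 L) (D.res h⁻¹ • a) := by
      rw [D.res_smul_coe, Subgroup.coe_inv]
    rw [e, ← hPQ]
    have h3 := hτP (D.res h⁻¹ • a)
    rw [← mul_smul, ← map_mul, mul_inv_cancel, map_one, one_smul] at h3
    exact h3.symm
  obtain ⟨n, hn, hnQ⟩ := h22c_transitive (H := D.N) ((h : H17C.AutQ L) • Q) Q (by rw [ha, hQ])
  -- `h₁ = n h` stabilizes `Q` and acts trivially on `𝓞_{F'} / P'`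
  set h₁ : H17C.AutQ L := n * (h : H17C.AutQ L) with hh₁
  have hh₁H : h₁ ∈ D.H := D.H.mul_mem (D.le hn) h.2
  have hh₁Q : h₁ • Q.1 = Q.1 := by
    have := congrArg Subtype.val hnQ
    rw [hh₁, mul_smul]
    exact this
  have hh₁a : ∀ a : 𝓞 D.F', h₁ • algebraMap (𝓞 D.F') (𝓞 L) a - algebraMap (𝓞 D.F') (𝓞 L) a ∈ Q.1 := by
    intro a
    rw [hh₁, mul_smul, ← D.res_smul_coe, D.smul_coe_of_mem_N hn, ← map_sub, ← hPQ]
    exact hin a
  -- the automorphism of `𝓞_L / Q` induced by `h₁`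
  haveI := h22c_isGalois L D.N
  haveI : Q.1.LiesOver (Q.1.under (𝓞 D.F')) := ⟨rfl⟩
  let e₁ : 𝓞 L ≃+* 𝓞 L := MulSemiringAction.toRingEquiv (H17C.AutQ L) (𝓞 L) h₁
  have he₁ : Q.1 = Q.1.map e₁ := by
    have : Q.1.map e₁ = h₁ • Q.1 := rfl
    rw [this, hh₁Q]
  let ψ : (𝓞 L ⧸ Q.1) ≃ₐ[𝓞 D.F' ⧸ Q.1.under (𝓞 D.F')] (𝓞 L ⧸ Q.1) :=
    { Ideal.quotientEquiv Q.1 Q.1 e₁ he₁ with
      commutes' := by
        rintro ⟨a⟩
        show Ideal.Quotient.mk Q.1 (h₁ • algebraMap (𝓞 D.F') (𝓞 L) a) =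
          Ideal.Quotient.mk Q.1 (algebraMap (𝓞 D.F') (𝓞 L) a)
        rw [Ideal.Quotient.eq]
        exact hh₁a a }
  obtain ⟨g, hg⟩ := Ideal.Quotient.stabilizerHom_surjective
    (L ≃ₐ[D.F'] L) (Q.1.under (𝓞 D.F')) Q.1 ψ
  -- `h₂ = g⁻¹ h₁` is in the inertia group of `Q`
  set σg : H17C.AutQ L := ((g : L ≃ₐ[D.F'] L).restrictScalars ℚ : L ≃ₐ[ℚ] L) with hσg
  have hσgN : σg ∈ D.N := h22c_restrict_mem L D.N g
  have hgQ : σg • Q.1 = Q.1 := by
    rw [hσg, h22c_smul_ideal_eq]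
    exact g.2
  have hkey : ∀ b : 𝓞 L, h₁ • b - σg • b ∈ Q.1 := by
    intro b
    have h1 := congrArg (fun φ : (𝓞 L ⧸ Q.1) ≃ₐ[𝓞 D.F' ⧸ Q.1.under (𝓞 D.F')] (𝓞 L ⧸ Q.1) =>
      φ (Ideal.Quotient.mk Q.1 b)) hg
    have h2 : Ideal.Quotient.mk Q.1 (σg • b) = Ideal.Quotient.mk Q.1 (h₁ • b) := h1
    rw [← Ideal.Quotient.eq]
    exact h2.symm
  have h₂one : σg⁻¹ * h₁ = 1 := by
    apply hunr Q (σg⁻¹ * h₁) (D.H.mul_mem (D.H.inv_mem (D.le hσgN)) hh₁H)
    intro b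
    have h1 := hkey b
    have hgQ' : σg⁻¹ • Q.1 = Q.1 := by
      have := inv_smul_smul σg Q.1
      rwa [hgQ] at this
    have h2 : σg⁻¹ • (h₁ • b - σg • b) ∈ Q.1 := by
      rw [← hgQ']
      exact Ideal.smul_mem_pointwise_smul _ _ _ h1
    rw [smul_sub, smul_smul, smul_smul, inv_mul_cancel, one_smul] at h2
    exact h2
  -- hence `h ∈ N`
  have hhN : (h : H17C.AutQ L) ∈ D.N := by
    have e1 : h₁ = σg := by
      have := congrArg (fun x => σg * x) h₂one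
      simpa [mul_assoc] using this
    have e2 : (h : H17C.AutQ L) = n⁻¹ * σg := by
      rw [← e1, hh₁, inv_mul_cancel_left]
    rw [e2]
    exact D.N.mul_mem (D.N.inv_mem hn) hσgN
  have : h ∈ D.res.ker := by
    rw [D.ker_res, Subgroup.mem_subgroupOf]
    exact hhN
  exact this

end H22C
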