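import Mathlib
import Fermat.Agent.CFT2.C.CM2_helper22

/-!
# W2-C (S55), block C-finite, wave 2, slice CM (helper22), part 3: transport
`Hⁱ(H/N, (C_L)^N) ≅ Hⁱ(H', C_{F'})`, `F' = L^N`, `H'` the image of `H` in `Aut(F')`.
-/

set_option autoImplicit false
set_option linter.unusedSectionVars false
set_option linter.unusedSimpArgs false
set_option linter.unusedVariables false
set_option linter.style.haveILetI false

noncomputable section

namespace H22C

open NumberField IsDedekindDomain TensorProduct CategoryTheory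
open scoped Pointwise

variable {S : Finset Nat.Primes} {L : Type} [Field L] [NumberField L]

namespace NormalPair

variable (D : NormalPair L)

/-! ## equivariance of the base change -/

theorem ksBase_ksAut (h : D.H) (w : H17C.KS S D.F') :
    H17C.ksBase S D.F' L (H17C.ksAut S ℚ D.F' (D.res h) w) =
      H17C.ksAut S ℚ L (h : H17C.AutQ L) (H17C.ksBase S D.F' L w) := by
  induction w using H17C.ks_induction with
  | zero => simp only [map_zero]
  | tmul x y => rfl
  | add a b ha hb => simp only [map_add, ha, hb]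

theorem under_smul (h : D.H) (Q : H17C.PrimesS S L) :
    H17C.PrimesS.under S D.F' L ((h : H17C.AutQ L) • Q) =
      D.res h • H17C.PrimesS.under S D.F' L Q := by
  apply Subtype.ext
  ext a
  show algebraMap (𝓞 D.F') (𝓞 L) a ∈ ((h : H17C.AutQ L) • Q.1) ↔
    a ∈ D.res h • (Q.1.comap (algebraMap (𝓞 D.F') (𝓞 L)))
  rw [Ideal.mem_pointwise_smul_iff_inv_smul_mem, Ideal.mem_pointwise_smul_iff_inv_smul_mem,
    Ideal.mem_comap]
  have e : (h : H17C.AutQ L)⁻¹ • algebraMap (𝓞 D.F') (𝓞 L) a =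
      algebraMap (𝓞 D.F') (𝓞 L) ((D.res h)⁻¹ • a) := by
    rw [← map_inv, D.res_smul_coe, Subgroup.coe_inv]
  rw [e]

theorem pullDiv_divRep (h : D.H) (c : H17C.DivS S D.F') :
    H17SI.pullDiv S D.F' L (H17C.divRep S ℚ D.F' (D.res h) c) =
      H17C.divRep S ℚ L (h : H17C.AutQ L) (H17SI.pullDiv S D.F' L c) := by
  ext Q
  obtain ⟨Q₀, rfl⟩ : ∃ Q₀ : H17C.PrimesS S L, (h : H17C.AutQ L) • Q₀ = Q :=
    ⟨(h : H17C.AutQ L)⁻¹ • Q, by simp⟩
  rw [H17C.divRep_apply_smul, H17SI.h17si_pullDiv_apply, H17SI.h17si_pullDiv_apply, D.under_smul,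
    H17C.divRep_apply_smul]

theorem ambBase_ambRep (h : D.H) (z : H17C.AmbS S D.F') :
    H17C.ambBase S D.F' L (H17C.ambRep S ℚ D.F' (D.res h) z) =
      H17C.ambRep S ℚ L (h : H17C.AutQ L) (H17C.ambBase S D.F' L z) := by
  refine Prod.ext ?_ ?_
  · apply congrArg Additive.ofMul
    apply Units.ext
    exact D.ksBase_ksAut h _
  · exact D.pullDiv_divRep h z.2

/-! ## the map `C_{F'} → C_L` -/

variable (S)

/-- `C_{F'} → C_L` -/
def clsBase (hunr : H17C.UnramOutside S L D.N) : H17C.ClS S D.F' →ₗ[ℤ] H17C.ClS S L :=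
  Submodule.mapQ (H17C.princS S D.F') (H17C.princS S L)
    (H17C.ambBase S D.F' L).toIntLinearMap (fun z hz => h22c_descCls1 hunr z hz)

theorem clsBase_mk (hunr : H17C.UnramOutside S L D.N) (z : H17C.AmbS S D.F') :
    D.clsBase S hunr (H17C.clsMk S D.F' z) = H17C.clsMk S L (H17C.ambBase S D.F' L z) := rfl

theorem clsBase_equivariant (hunr : H17C.UnramOutside S L D.N) (h : D.H)
    (c : H17C.ClS S D.F') :
    D.clsBase S hunr (H17C.clsRep S ℚ D.F' (D.res h) c) =
      H17C.clsRep S ℚ L (h : H17C.AutQ L) (D.clsBase S hunr c) := by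
  obtain ⟨z, rfl⟩ := H17C.clsMk_surjective S D.F' c
  rw [H17C.clsRep_mk, clsBase_mk, clsBase_mk, H17C.clsRep_mk, D.ambBase_ambRep]

theorem clsBase_injective (hS : S.Nonempty) (hunr : H17C.UnramOutside S L D.N) :
    Function.Injective (D.clsBase S hunr) := by
  rw [injective_iff_map_eq_zero]
  intro c hc
  obtain ⟨z, rfl⟩ := H17C.clsMk_surjective S D.F' c
  rw [clsBase_mk, H17C.clsMk_eq_zero_iff] at hc
  exact (H17C.clsMk_eq_zero_iff S D.F' z).2 (h22c_descCls2 hS hunr z hc)

theorem clsBase_invariant (hunr : H17C.UnramOutside S L D.N) (c : H17C.ClS S D.F')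
    (n : H17C.AutQ L) (hn : n ∈ D.N) :
    H17C.clsRep S ℚ L n (D.clsBase S hunr c) = D.clsBase S hunr c := by
  have h1 := D.clsBase_equivariant S hunr ⟨n, D.le hn⟩ c
  have h2 : D.res ⟨n, D.le hn⟩ = 1 := by
    have : (⟨n, D.le hn⟩ : D.H) ∈ D.res.ker := by
      rw [D.ker_res, Subgroup.mem_subgroupOf]
      exact hn
    exact this
  rw [h2, map_one, Module.End.one_apply] at h1
  exact h1.symm

theorem clsBase_surjective (hS : S.Nonempty) (hunr : H17C.UnramOutside S L D.N)
    (x : H17C.ClS S L) (hx : ∀ n ∈ D.N, H17C.clsRep S ℚ L n x = x) :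
    ∃ c, D.clsBase S hunr c = x := by
  obtain ⟨z, rfl⟩ := H17C.clsMk_surjective S L x
  obtain ⟨w, hw⟩ := h22c_descCls3 hS hunr z hx
  exact ⟨H17C.clsMk S D.F' w, hw⟩

end NormalPair

end H22C
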