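import Mathlib
import Fermat.Agent.CFT2.C.CM3_helper22

/-!
# W2-C (S55), block C-finite, wave 2, slice CM (helper22), part 4: transport of cohomology
`Hⁱ(H/N, (C_L)^N) ≅ Hⁱ(H', C_{F'})`.
-/

set_option autoImplicit false
set_option linter.unusedSectionVars false
set_option linter.unusedSimpArgs false
set_option linter.unusedVariables false
set_option linter.style.haveILetI false

noncomputable section

namespace H22C

open NumberField IsDedekindDomain TensorProduct CategoryTheory
open scoped Pointwise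

variable (S : Finset Nat.Primes) {L : Type} [Field L] [NumberField L]

namespace NormalPair

variable (D : NormalPair L)

/-- `C_L` as an `H`-module -/
abbrev repA : Rep ℤ D.H := H20A.resSub (H17C.clsObj S ℚ L) D.H

/-- `(C_L)^N` as an `H/N`-module -/
abbrev repB : Rep ℤ (D.H ⧸ D.N₀) := (D.repA S).quotientToInvariants D.N₀

/-- `C_{F'}` as an `H'`-module -/
abbrev repA' : Rep ℤ D.H' := H20A.resSub (H17C.clsObj S ℚ D.F') D.H'

/-- the invariants `(C_L)^N` as a submodule -/
abbrev invSub : Submodule ℤ (H17C.ClS S L) :=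
  Representation.invariants (((H17C.clsRep S ℚ L).comp D.H.subtype).comp D.N₀.subtype)

theorem mem_inv_iff (x : H17C.ClS S L) :
    x ∈ D.invSub S ↔
      ∀ n ∈ D.N, H17C.clsRep S ℚ L n x = x := by
  constructor
  · intro hx n hn
    exact hx ⟨⟨n, D.le hn⟩, hn⟩
  · intro hx n
    exact hx _ n.2

/-- `C_{F'} → (C_L)^N` -/
def toInv (hunr : H17C.UnramOutside S L D.N) :
    H17C.ClS S D.F' →+ D.invSub S where
  toFun c := ⟨D.clsBase S hunr c, (D.mem_inv_iff S _).2 (fun n hn => D.clsBase_invariant S hunr c n hn)⟩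
  map_zero' := Subtype.ext (map_zero _)
  map_add' a b := Subtype.ext (map_add _ a b)

theorem toInv_coe (hunr : H17C.UnramOutside S L D.N) (c : H17C.ClS S D.F') :
    ((D.toInv S hunr c : D.invSub S) : H17C.ClS S L) = D.clsBase S hunr c := rfl

theorem toInv_bijective (hS : S.Nonempty) (hunr : H17C.UnramOutside S L D.N) :
    Function.Bijective (D.toInv S hunr) := by
  constructor
  · intro a b h
    exact D.clsBase_injective S hS hunr (congrArg Subtype.val h)
  · rintro ⟨x, hx⟩
    obtain ⟨c, hc⟩ := D.clsBase_surjective S hS hunr x ((D.mem_inv_iff S x).1 hx)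
    exact ⟨c, Subtype.ext hc⟩

/-- `(C_L)^N ≃ C_{F'}` -/
def invEquiv (hS : S.Nonempty) (hunr : H17C.UnramOutside S L D.N) :
    D.invSub S ≃ₗ[ℤ] H17C.ClS S D.F' :=
  (AddEquiv.ofBijective (D.toInv S hunr) (D.toInv_bijective S hS hunr)).symm.toIntLinearEquiv

theorem invEquiv_toInv (hS : S.Nonempty) (hunr : H17C.UnramOutside S L D.N)
    (c : H17C.ClS S D.F') : D.invEquiv S hS hunr (D.toInv S hunr c) = c :=
  (AddEquiv.ofBijective (D.toInv S hunr) (D.toInv_bijective S hS hunr)).symm_apply_apply c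

theorem invEquiv_compat (hS : S.Nonempty) (hunr : H17C.UnramOutside S L D.N)
    (g : D.H ⧸ D.N₀) :
    ((D.invEquiv S hS hunr : (D.repB S).V ≃ₗ[ℤ] (D.repA' S).V)).toLinearMap ∘ₗ (D.repB S).ρ g =
      (D.repA' S).ρ (D.quotEquiv g) ∘ₗ
        ((D.invEquiv S hS hunr : (D.repB S).V ≃ₗ[ℤ] (D.repA' S).V)).toLinearMap := by
  obtain ⟨h, rfl⟩ := QuotientGroup.mk_surjective g
  apply LinearMap.ext
  intro x
  obtain ⟨c, rfl⟩ := (D.toInv_bijective S hS hunr).2 (x : D.invSub S)
  have e1 : ((D.repB S).ρ (QuotientGroup.mk h) (D.toInv S hunr c) : D.invSub S) =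
      D.toInv S hunr (H17C.clsRep S ℚ D.F' (D.res h) c) := by
    apply Subtype.ext
    rw [toInv_coe, D.clsBase_equivariant S hunr h c]
    rfl
  show D.invEquiv S hS hunr ((D.repB S).ρ (QuotientGroup.mk h) (D.toInv S hunr c) : D.invSub S) =
    H17C.clsRep S ℚ D.F' (D.res h) (D.invEquiv S hS hunr (D.toInv S hunr c))
  rw [e1, invEquiv_toInv, invEquiv_toInv]

/-- **transport**: `Hⁱ(H/N, (C_L)^N) ≅ Hⁱ(H', C_{F'})` -/
def cohTransport (hS : S.Nonempty) (hunr : H17C.UnramOutside S L D.N) (n : ℕ) :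
    groupCohomology (D.repB S) n ≅ groupCohomology (D.repA' S) n :=
  groupCohomology.mapIso (A := D.repA' S) (B := D.repB S) D.quotEquiv (D.invEquiv S hS hunr)
    (fun g => D.invEquiv_compat S hS hunr g) n

end NormalPair

end H22C
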