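import Mathlib
import Fermat.Agent.CFT2.C.CM4_helper22
import Fermat.Agent.CFT2.A.AF_helper5
import Fermat.Agent.CFT2.A.AV1_helper25

/-!
# W2-C (S55), block C-finite, wave 2, slice CM (helper22)

`H22C.h22c_classModuleNE : H17C.CyclicClassNE → H17C.ClassModuleNE`:
for a `p`-subgroup `H ≤ Aut(L)` unramified outside `S ≠ ∅`: `H¹(H, C_L) = 0` and
`|H²(H, C_L)| ≤ |H|`, by induction on `|H|` (normal subgroup of index `p`, inflation-restriction,
descent `(C_L)^N = C_{L^N}`, the cyclic case).
-/

set_option autoImplicit false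
set_option linter.unusedSectionVars false
set_option linter.unusedSimpArgs false
set_option linter.unusedVariables false
set_option linter.style.haveILetI false

noncomputable section

namespace H22C

open NumberField IsDedekindDomain TensorProduct CategoryTheory
open scoped Pointwise

/-! ## abstract lemmas -/

/-- a nontrivial finite `p`-group has a normal subgroup of index `p` -/
theorem h22c_exists_normal_index (p : ℕ) [hp : Fact p.Prime] (H : Type) [Group H] [Finite H]
    (hH : IsPGroup p H) (hnt : Nat.card H ≠ 1) :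
    ∃ (N : Subgroup H) (_ : N.Normal), N.index = p := by
  obtain ⟨k, hk⟩ := hH.exists_card_eq
  have hk0 : k ≠ 0 := by
    rintro rfl
    exact hnt (by simpa using hk)
  obtain ⟨j, rfl⟩ : ∃ j, k = j + 1 := ⟨k - 1, by omega⟩
  obtain ⟨N, hN⟩ := Sylow.exists_subgroup_card_pow_prime (G := H) p (n := j)
    (by rw [hk]; exact pow_dvd_pow p (Nat.le_succ j))
  have hidx : N.index = p := by
    have h1 := N.card_mul_index
    rw [hN, hk, pow_succ] at h1
    exact Nat.eq_of_mul_eq_mul_left (pow_pos hp.out.pos j) h1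
  have hmin : (Nat.card H).minFac = p := by
    rw [hk]
    exact hp.out.pow_minFac (Nat.succ_ne_zero j)
  exact ⟨N, Subgroup.normal_of_index_eq_minFac_card (by rw [hidx, hmin]), hidx⟩

theorem h22c_conj_aux {G : Type*} [Group G] (H : Subgroup G) (N₀ : Subgroup H)
    (hN : N₀.Normal) : ∀ h ∈ H, ∀ n ∈ N₀.map H.subtype, h * n * h⁻¹ ∈ N₀.map H.subtype := by
  rintro h hh _ ⟨n, hn, rfl⟩
  refine ⟨⟨h, hh⟩ * n * ⟨h, hh⟩⁻¹, hN.conj_mem n hn ⟨h, hh⟩, ?_⟩
  simp

/-- counting in an exact sequence `X → Y → Z` -/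
theorem h22c_card_le {X Y Z : Type*} [AddCommGroup X] [AddCommGroup Y] [AddCommGroup Z]
    (g : X →+ Y) (f : Y →+ Z) (hex : ∀ y, f y = 0 ↔ ∃ x, g x = y) [Finite X] [Finite Z] :
    Finite Y ∧ Nat.card Y ≤ Nat.card X * Nat.card Z := by
  classical
  have hs : ∀ y : Y, ∃ s : Y, f s = f y := fun y => ⟨y, rfl⟩
  -- a section of `f` on its range
  let s : Z → Y := fun z => if h : ∃ y, f y = z then h.choose else 0
  have hs : ∀ y, f (s (f y)) = f y := by
    intro y
    have h : ∃ y', f y' = f y := ⟨y, rfl⟩
    simp only [s, dif_pos h]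
    exact h.choose_spec
  have hx : ∀ y, ∃ x, g x = y - s (f y) := by
    intro y
    apply (hex _).1
    rw [map_sub, hs, sub_self]
  choose t ht using hx
  have hinj : Function.Injective (fun y : Y => (t y, f y)) := by
    intro y y' h
    have h1 : t y = t y' := congrArg Prod.fst h
    have h2 : f y = f y' := congrArg Prod.snd h
    have e1 := ht y
    have e2 := ht y'
    rw [h1, h2] at e1
    have : y - s (f y') = y' - s (f y') := e1.symm.trans e2
    exact sub_left_injective this
  haveI : Finite Y := Finite.of_injective _ hinj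
  refine ⟨inferInstance, ?_⟩
  have := Nat.card_le_card_of_injective _ hinj
  rwa [Nat.card_prod] at this

/-! ## the induction step -/

section main

variable {p : ℕ} {S : Finset Nat.Primes} {L : Type} [Field L] [NumberField L]

/-- the conclusion of (CM) -/
def CMConcl (S : Finset Nat.Primes) (L : Type) [Field L] [NumberField L]
    (H : Subgroup (H17C.AutQ L)) : Prop :=
  Limits.IsZero (groupCohomology (H20A.resSub (H17C.clsObj S ℚ L) H) 1) ∧
  Finite (groupCohomology (H20A.resSub (H17C.clsObj S ℚ L) H) 2) ∧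
  Nat.card (groupCohomology (H20A.resSub (H17C.clsObj S ℚ L) H) 2) ≤ Nat.card H

theorem h22c_eq_zero_of_isZero {M : ModuleCat.{0} ℤ} (h : Limits.IsZero M) (x : M) : x = 0 := by
  haveI := ModuleCat.isZero_iff_subsingleton.1 h
  exact Subsingleton.elim _ _

theorem h22c_cm_step (hcyc : H17C.CyclicClassNE) (hS : S.Nonempty) (hp : p.Prime) (hp2 : p ≠ 2)
    (D : NormalPair L) (hidx : D.N₀.index = p) (hunr : H17C.UnramOutside S L D.H)
    (ih : CMConcl S L (D.N₀.map D.H.subtype)) : CMConcl S L D.H := by
  have hunrN : H17C.UnramOutside S L D.N := fun Q σ hσ h => hunr Q σ (D.le hσ) h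
  -- CYC for `(F', H')`
  have hcard' : Nat.card D.H' = p := by rw [D.card_H', hidx]
  obtain ⟨c1, c2⟩ := hcyc p S D.F' D.H' hS hp hp2 hcard' (h22c_unram_quot D hunr)
  -- transport to `(C_L)^N`
  have b1 : Limits.IsZero (groupCohomology (D.repB S) 1) :=
    c1.of_iso (D.cohTransport S hS hunrN 1)
  have b2 : Nat.card (groupCohomology (D.repB S) 2) = p := by
    rw [← c2]
    exact Nat.card_congr (D.cohTransport S hS hunrN 2).toLinearEquiv.toEquiv
  haveI : Finite (groupCohomology (D.repB S) 2) :=
    Nat.finite_of_card_ne_zero (by rw [b2]; exact hp.ne_zero)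
  -- the induction hypothesis for `N`
  obtain ⟨i1, i2, i3⟩ := ih
  have r1 : Limits.IsZero (groupCohomology (H20A.resSub (D.repA S) D.N₀) 1) :=
    i1.of_iso (H25AV.cohResRes (H17C.clsObj S ℚ L) D.H D.N₀ 1)
  have e2 := (H25AV.cohResRes (H17C.clsObj S ℚ L) D.H D.N₀ 2).toLinearEquiv.toEquiv
  haveI : Finite (groupCohomology (H20A.resSub (D.repA S) D.N₀) 2) := Finite.of_equiv _ e2.symm
  have r2 : Nat.card (groupCohomology (H20A.resSub (D.repA S) D.N₀) 2) ≤ Nat.card D.N₀ := by
    rw [Nat.card_congr e2]
    refine i3.trans (le_of_eq ?_)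
    exact Subgroup.card_map_of_injective D.H.subtype_injective
  -- inflation-restriction
  have af1 := H5AF.h5af_infResStatement D.H 1 one_pos (D.repA S) D.N₀
    (fun i h0 h1 => absurd h1 (by omega))
  have af2 := H5AF.h5af_infResStatement D.H 2 two_pos (D.repA S) D.N₀
    (fun i h0 h1 => by
      obtain rfl : i = 1 := by omega
      exact r1)
  refine ⟨?_, ?_⟩
  · rw [ModuleCat.isZero_iff_subsingleton]
    have key : ∀ x : groupCohomology (D.repA S) 1, x = 0 := by
      intro x
      have hx : H20A.resCoh (D.repA S) D.N₀ 1 x = 0 := h22c_eq_zero_of_isZero r1 _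
      obtain ⟨y, rfl⟩ := (af1.2 x).1 hx
      rw [h22c_eq_zero_of_isZero b1 y, map_zero]
    exact ⟨fun a b => by rw [key a, key b]⟩
  · obtain ⟨f1, f2⟩ := h22c_card_le (H20A.infCoh (D.repA S) D.N₀ 2)
      (H20A.resCoh (D.repA S) D.N₀ 2) af2.2
    refine ⟨f1, f2.trans ?_⟩
    rw [b2, ← hidx, ← D.N₀.card_mul_index, mul_comm]
    exact Nat.mul_le_mul_right _ r2

theorem h22c_cm_aux (hcyc : H17C.CyclicClassNE) (hS : S.Nonempty) (hp : p.Prime) (hp2 : p ≠ 2) :
    ∀ (k : ℕ) (H : Subgroup (H17C.AutQ L)), Nat.card H = k → IsPGroup p H →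
      H17C.UnramOutside S L H → CMConcl S L H := by
  haveI : Fact p.Prime := ⟨hp⟩
  intro k
  induction k using Nat.strong_induction_on with
  | _ k ih =>
    intro H hk hpg hunr
    by_cases h1 : Nat.card H = 1
    · haveI : Subsingleton H := (Nat.card_eq_one_iff_unique.1 h1).1
      have z2 := isZero_groupCohomology_succ_of_subsingleton
        (H20A.resSub (H17C.clsObj S ℚ L) H) 1
      haveI := ModuleCat.isZero_iff_subsingleton.1 z2
      refine ⟨isZero_groupCohomology_succ_of_subsingleton _ 0, inferInstance, ?_⟩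
      rw [h1]
      exact le_of_eq (Nat.card_eq_one_iff_unique.2 ⟨inferInstance, ⟨0⟩⟩)
    · obtain ⟨N₀, hN₀, hidx⟩ := h22c_exists_normal_index p H hpg h1
      let D : NormalPair L :=
        { H := H
          N := N₀.map H.subtype
          le := Subgroup.map_subtype_le N₀
          conj := h22c_conj_aux H N₀ hN₀ }
      have hD : D.N₀ = N₀ := Subgroup.comap_map_eq_self_of_injective H.subtype_injective N₀
      have hidx' : D.N₀.index = p := by rw [hD]; exact hidx
      have hlt : Nat.card (D.N₀.map D.H.subtype) < k := by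
        rw [Subgroup.card_map_of_injective D.H.subtype_injective, ← hk]
        have h2 := D.N₀.card_mul_index
        rw [hidx'] at h2
        have h3 : 0 < Nat.card D.N₀ := Nat.card_pos
        have h4 : Nat.card D.H = Nat.card H := rfl
        rw [← h4, ← h2]
        have := hp.one_lt
        nlinarith
      have hle : D.N₀.map D.H.subtype ≤ H := Subgroup.map_subtype_le _
      exact h22c_cm_step hcyc hS hp hp2 D hidx' hunr
        (ih _ hlt (D.N₀.map D.H.subtype) rfl (hpg.to_le hle)
          (fun Q σ hσ h => hunr Q σ (hle hσ) h))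

/-- **(CM)** the class module (upper bounds) from the cyclic case. -/
theorem h22c_classModuleNE (hcyc : H17C.CyclicClassNE) : H17C.ClassModuleNE := by
  intro p S L _ _ H hS hp hp2 hpg hunr
  exact h22c_cm_aux hcyc hS hp hp2 _ H rfl hpg hunr

end main

end H22C
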