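/-
W2-C (S55) block C-finite, slice **CYC** (helper25): the cyclic case.
From the first inequality `h0 = p · h1` and the second inequality `h0 ≤ p` for `C_L` and `|H| = p`:
`H¹(H, C_L) = 0` and `|H²(H, C_L)| = p`  (via `H25Herb.card_groupCohomology_even/odd`).

* `H25C.h25c_cyc_pointwise` : the statement for fixed `(p, S, L, H, σ)`;
* `H25C.h25c_cyclicClass_of : FirstIneqNE → SecondIneqNE → CyclicClassNE`.
-/
import Fermat.Agent.CFT2.C.Slices3_helper17
import Fermat.Agent.CFT2.A.H25HerbrandCyclic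

set_option autoImplicit false
set_option linter.unusedSectionVars false
set_option linter.style.haveILetI false

noncomputable section

namespace H25C

open NumberField CategoryTheory H17C

section generic
variable {G : Type} [Group G] [Finite G]

/-- a module of cardinality one is zero -/
theorem isZero_of_card_eq_one (M : ModuleCat.{0} ℤ) (h : Nat.card M = 1) : Limits.IsZero M := by
  haveI : Subsingleton M := (Nat.card_eq_one_iff_unique.1 h).1
  exact ModuleCat.isZero_of_subsingleton M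

/-- `|H²| = [ker (σ - 1) : im N]`, `|H¹| = [ker N : im (σ - 1)]` for a cyclic group generated by
`σ` and an arbitrary `A : Rep ℤ G`, in terms of additive maps `D`, `N` with the expected values -/
theorem card_coh_cyclic (A : Rep.{0} ℤ G) (σ : G) (hσ : ∀ x : G, x ∈ Subgroup.zpowers σ)
    (D N : A.V →+ A.V) (hD : ∀ x, D x = A.ρ σ x - x)
    (hN : ∀ x, N x = ∑ᶠ g : G, A.ρ g x) :
    Nat.card (groupCohomology A 2) = H25Herb.h0 D N ∧
    Nat.card (groupCohomology A 1) = H25Herb.h1 D N := by
  letI : Fintype G := Fintype.ofFinite G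
  letI hc : CommGroup G :=
    { (inferInstance : Group G) with
      mul_comm := fun a b => by
        obtain ⟨m, rfl⟩ := Subgroup.mem_zpowers_iff.1 (hσ a)
        obtain ⟨n, rfl⟩ := Subgroup.mem_zpowers_iff.1 (hσ b)
        rw [← zpow_add, ← zpow_add, add_comm] }
  have hD' : D = H25Herb.cycD A σ := by
    ext x
    rw [hD, H25Herb.cycD_apply]
  have hN' : N = H25Herb.cycN A := by
    ext x
    rw [hN, H25Herb.cycN_apply, finsum_eq_sum_of_fintype]
    simp [Representation.norm]
  rw [hD', hN']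
  exact ⟨H25Herb.card_groupCohomology_even A σ hσ 2 (by decide),
    H25Herb.card_groupCohomology_odd A σ hσ 1 (by decide)⟩

end generic

section cyc
variable (S : Finset Nat.Primes) (L : Type) [Field L] [NumberField L]

/-- **CYC**, pointwise: the two inequalities for `(H, σ)` give `H¹(H, C_L) = 0`, `|H²(H, C_L)| = p` -/
theorem h25c_cyc_pointwise (p : ℕ) (H : Subgroup (AutQ L)) (hp : p.Prime)
    (hcard : Nat.card H = p) (σ : AutQ L) (hσ : σ ∈ H) (hσ1 : σ ≠ 1)
    (hFI : H25Herb.h1 (clsD S L σ) (clsN S L H) ≠ 0 ∧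
      H25Herb.h0 (clsD S L σ) (clsN S L H) = p * H25Herb.h1 (clsD S L σ) (clsN S L H))
    (hSI : H25Herb.h0 (clsD S L σ) (clsN S L H) ≠ 0 ∧
      H25Herb.h0 (clsD S L σ) (clsN S L H) ≤ p) :
    Limits.IsZero (groupCohomology (H20A.resSub (clsObj S ℚ L) H) 1) ∧
    Nat.card (groupCohomology (H20A.resSub (clsObj S ℚ L) H) 2) = p := by
  haveI : Fact p.Prime := ⟨hp⟩
  -- `σ` generates `H`
  have hgen : ∀ x : H, x ∈ Subgroup.zpowers (⟨σ, hσ⟩ : H) := by
    intro x
    have hne : (⟨σ, hσ⟩ : H) ≠ 1 := fun h => hσ1 (congrArg Subtype.val h)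
    have h1 := zpowers_eq_top_of_prime_card (G := H) hcard hne
    rw [h1]
    trivial
  have hNx : ∀ x : ClS S L, clsN S L H x = ∑ᶠ g : H, clsRep S ℚ L (g : AutQ L) x := by
    intro x
    letI : Fintype H := Fintype.ofFinite H
    rw [finsum_eq_sum_of_fintype]
    change (∑ h : H, clsRep S ℚ L (h : AutQ L)) x = _
    rw [LinearMap.sum_apply]
  have key := card_coh_cyclic (H20A.resSub (clsObj S ℚ L) H) (⟨σ, hσ⟩ : H) hgen
    (clsD S L σ) (clsN S L H) (fun x => rfl) (fun x => hNx x)
  obtain ⟨hh1, hh0⟩ := hFI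
  obtain ⟨_, hle⟩ := hSI
  -- arithmetic: `h1 = 1`, `h0 = p`
  have hone : H25Herb.h1 (clsD S L σ) (clsN S L H) = 1 := by
    rw [hh0] at hle
    have hpos : 0 < H25Herb.h1 (clsD S L σ) (clsN S L H) := Nat.pos_of_ne_zero hh1
    by_contra hne
    have h2 : 2 ≤ H25Herb.h1 (clsD S L σ) (clsN S L H) := by omega
    have h3 : p * 2 ≤ p * H25Herb.h1 (clsD S L σ) (clsN S L H) := Nat.mul_le_mul_left p h2
    have h4 := hp.pos
    omega
  have hp0 : H25Herb.h0 (clsD S L σ) (clsN S L H) = p := by
    rw [hh0, hone, mul_one]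
  exact ⟨isZero_of_card_eq_one _ (key.2.trans hone), key.1.trans hp0⟩

/-- **CYC**: `CyclicClassNE` from the first and the second inequality. -/
theorem h25c_cyclicClass_of (hFI : FirstIneqNE) (hSI : SecondIneqNE) : CyclicClassNE := by
  intro p S L _ _ H hS hp hp2 hcard hunr
  haveI : Fact p.Prime := ⟨hp⟩
  -- an element `σ ≠ 1` of `H`
  haveI : Finite H := Nat.finite_of_card_ne_zero (by rw [hcard]; exact hp.ne_zero)
  have hnt : Nontrivial H := by
    rw [← Finite.one_lt_card_iff_nontrivial, hcard]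
    exact hp.one_lt
  obtain ⟨x, hx⟩ := exists_ne (1 : H)
  have hx1 : (x : AutQ L) ≠ 1 := fun h => hx (Subtype.ext h)
  exact h25c_cyc_pointwise S L p H hp hcard x x.2 hx1 (hFI p S L H hS hp hp2 hcard x x.2 hx1)
    (hSI p S L H hS hp hcard hunr x x.2 hx1)

end cyc

end H25C
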