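/-
W2-C (S55) block C-finite, wave 2, slice **FI assembly** (helper21), part 1: the abstract chain.

`B` an abelian group with a pair of endomorphisms `(f, g)`, `f g = 0 = g f` ("ideles"), stable
subgroups `V ≤ U ≤ B` with `[U : V]` finite and trivial Herbrand indices on `V`, a compatible map
`φ : B → C` whose image of `U` has finite index, and a compatible injection `j : E → B` with image
`U ∩ ker φ`.  Then `h(C) = h(E)⁻¹`, in the form: `h1 E = p · h0 E ⇒ h0 C = p · h1 C`.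
-/
import Mathlib
import Fermat.Agent.CFT2.A.H25Herbrand

set_option autoImplicit false
set_option linter.unusedSectionVars false
set_option linter.unusedVariables false

noncomputable section

namespace H21FI

open H25Herb

section abs

variable {B C E : Type*} [AddCommGroup B] [AddCommGroup C] [AddCommGroup E]

/-- restriction of an endomorphism to a stable subgroup -/
def resHom (f : B →+ B) (A : AddSubgroup B) (h : ∀ v ∈ A, f v ∈ A) : A →+ A :=
  (f.comp A.subtype).codRestrict A (fun v => h v v.2)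

theorem resHom_coe (f : B →+ B) (A : AddSubgroup B) (h : ∀ v ∈ A, f v ∈ A) (v : A) :
    ((resHom f A h v : A) : B) = f v := rfl

/-- a stable subgroup on which `ker f = im g` and `ker g = im f` has `h0 = h1 = 1` -/
theorem h0_res_eq_one (f g : B →+ B) (V : AddSubgroup B)
    (hVf : ∀ v ∈ V, f v ∈ V) (hVg : ∀ v ∈ V, g v ∈ V)
    (hV0 : ∀ v ∈ V, f v = 0 → ∃ w ∈ V, g w = v) :
    h0 (resHom f V hVf) (resHom g V hVg) = 1 := by
  unfold h0
  rw [AddSubgroup.relIndex_eq_one]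
  intro v hv
  have hv' : f v = 0 := congrArg Subtype.val (AddMonoidHom.mem_ker.mp hv)
  obtain ⟨w, hw, hwv⟩ := hV0 v v.2 hv'
  exact ⟨⟨w, hw⟩, Subtype.ext hwv⟩

/-- **the chain of Herbrand quotients** `V ⊆ U`, `E → U → φ(U)`, `φ(U) ⊆ C`. -/
theorem chain (p : ℕ) (hp : p ≠ 0) (fB gB : B →+ B) (fC gC : C →+ C) (fE gE : E →+ E)
    (hfgB : ∀ x, fB (gB x) = 0) (hgfB : ∀ x, gB (fB x) = 0)
    (hfgC : ∀ x, fC (gC x) = 0) (hgfC : ∀ x, gC (fC x) = 0)
    (U V : AddSubgroup B) (hVU : V ≤ U) (hfin : V.relIndex U ≠ 0)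
    (hUf : ∀ v ∈ U, fB v ∈ U) (hUg : ∀ v ∈ U, gB v ∈ U)
    (hVf : ∀ v ∈ V, fB v ∈ V) (hVg : ∀ v ∈ V, gB v ∈ V)
    (hV0 : ∀ v ∈ V, fB v = 0 → ∃ w ∈ V, gB w = v)
    (hV1 : ∀ v ∈ V, gB v = 0 → ∃ w ∈ V, fB w = v)
    (φ : B →+ C) (hφf : ∀ b, φ (fB b) = fC (φ b)) (hφg : ∀ b, φ (gB b) = gC (φ b))
    (hW : (U.map φ).index ≠ 0)
    (j : E →+ B) (hj : Function.Injective j) (hjU : ∀ e, j e ∈ U)
    (hjφ : ∀ e, φ (j e) = 0)
    (hker : ∀ u ∈ U, φ u = 0 → ∃ e, j e = u)
    (hjf : ∀ e, j (fE e) = fB (j e)) (hjg : ∀ e, j (gE e) = gB (j e))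
    (hE0 : h0 fE gE ≠ 0) (hE1 : h1 fE gE = p * h0 fE gE) :
    h1 fC gC ≠ 0 ∧ h0 fC gC = p * h1 fC gC := by
  -- step A: `V ⊆ U`
  have hfgU : ∀ x, resHom fB U hUf (resHom gB U hUg x) = 0 := fun x => Subtype.ext (hfgB x)
  have hgfU : ∀ x, resHom gB U hUg (resHom fB U hUf x) = 0 := fun x => Subtype.ext (hgfB x)
  have hV0' : h0 (resHom fB V hVf) (resHom gB V hVg) = 1 :=
    h0_res_eq_one fB gB V hVf hVg hV0
  have hV1' : h1 (resHom fB V hVf) (resHom gB V hVg) = 1 := by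
    rw [h1_eq_h0_swap]
    exact h0_res_eq_one gB fB V hVg hVf hV1
  have hidx : (AddSubgroup.inclusion hVU).range.index ≠ 0 := by
    rw [AddSubgroup.inclusion_range]
    exact hfin
  obtain ⟨hA1, hA2⟩ := h25herb_finiteIndex (resHom fB V hVf) (resHom gB V hVg)
    (resHom fB U hUf) (resHom gB U hUg) (AddSubgroup.inclusion hVU) hfgU hgfU
    (AddSubgroup.inclusion_injective hVU) (fun a => rfl) (fun a => rfl) hidx
  rw [hV0', hV1', mul_one, mul_one] at hA1
  have hUdef : Defined (resHom fB U hUf) (resHom gB U hUg) :=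
    hA2.mp ⟨by rw [hV0']; exact one_ne_zero, by rw [hV1']; exact one_ne_zero⟩
  -- step B: `E → U → W`
  have hWf : ∀ c ∈ U.map φ, fC c ∈ U.map φ := by
    rintro _ ⟨u, hu, rfl⟩
    exact ⟨fB u, hUf u hu, hφf u⟩
  have hWg : ∀ c ∈ U.map φ, gC c ∈ U.map φ := by
    rintro _ ⟨u, hu, rfl⟩
    exact ⟨gB u, hUg u hu, hφg u⟩
  have hEdef : Defined fE gE := ⟨hE0, by rw [hE1]; exact mul_ne_zero hp hE0⟩
  let iE : E →+ U := j.codRestrict U hjU
  let π : U →+ (U.map φ) := (φ.comp U.subtype).codRestrict (U.map φ) (fun u => ⟨u, u.2, rfl⟩)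
  have hiE : Function.Injective iE := by
    intro a b hab
    exact hj (congrArg Subtype.val hab)
  have hπ : Function.Surjective π := by
    rintro ⟨_, u, hu, rfl⟩
    exact ⟨⟨u, hu⟩, rfl⟩
  have hex : π.ker = iE.range := by
    ext u
    constructor
    · intro hu
      have hu' : φ u = 0 := congrArg Subtype.val (AddMonoidHom.mem_ker.mp hu)
      obtain ⟨e, he⟩ := hker u u.2 hu'
      exact ⟨e, Subtype.ext he⟩
    · rintro ⟨e, rfl⟩
      rw [AddMonoidHom.mem_ker]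
      exact Subtype.ext (hjφ e)
  have hBmul := h25herb_mul fE gE (resHom fB U hUf) (resHom gB U hUg)
    (resHom fC (U.map φ) hWf) (resHom gC (U.map φ) hWg) iE π hfgU hgfU hiE hπ hex
    (fun a => Subtype.ext (hjf a)) (fun a => Subtype.ext (hjg a))
    (fun b => Subtype.ext (hφf b)) (fun b => Subtype.ext (hφg b))
  have hWdef := h25herb_defined_right fE gE (resHom fB U hUf) (resHom gB U hUg)
    (resHom fC (U.map φ) hWf) (resHom gC (U.map φ) hWg) iE π hfgU hgfU hiE hπ hex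
    (fun a => Subtype.ext (hjf a)) (fun a => Subtype.ext (hjg a))
    (fun b => Subtype.ext (hφf b)) (fun b => Subtype.ext (hφg b)) hEdef hUdef
  -- step C: `W ⊆ C`
  have hidxW : (U.map φ).subtype.range.index ≠ 0 := by
    rw [AddSubgroup.range_subtype]
    exact hW
  obtain ⟨hC1, hC2⟩ := h25herb_finiteIndex (resHom fC (U.map φ) hWf) (resHom gC (U.map φ) hWg)
    fC gC (U.map φ).subtype hfgC hgfC Subtype.val_injective (fun a => rfl) (fun a => rfl) hidxW
  have hCdef := hC2.mp hWdef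
  refine ⟨hCdef.2, ?_⟩
  -- arithmetic
  obtain ⟨hU0, hU1⟩ := hUdef
  obtain ⟨hW0, hW1⟩ := hWdef
  rw [hE1, ← hA1] at hBmul
  -- hBmul : h0U * (p * h0E) * h1W = h0U * h0E * h0W
  have e1 : p * h1 (resHom fC (U.map φ) hWf) (resHom gC (U.map φ) hWg) =
      h0 (resHom fC (U.map φ) hWf) (resHom gC (U.map φ) hWg) := by
    have hpos : 0 < h0 (resHom fB U hUf) (resHom gB U hUg) * h0 fE gE :=
      Nat.pos_of_ne_zero (mul_ne_zero hU0 hE0)
    apply Nat.eq_of_mul_eq_mul_left hpos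
    rw [← hBmul]
    ring
  rw [← e1] at hC1
  -- hC1 : h0 C * h1 W = h1 C * (p * h1 W)
  apply Nat.eq_of_mul_eq_mul_right (Nat.pos_of_ne_zero hW1)
  rw [hC1]
  ring

end abs

end H21FI
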