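/-
W2-C (S55) block C-finite, wave 2, slice **FI assembly** (helper21), part 2.

`H21FI.h21_firstIneqNE : UnitHerbrand → SemilocalUnits → UnitIndexFinite → FirstIneqNE`:
the first inequality `h(H, C_L) = p` for `|H| = p` odd, `S ≠ ∅`, from
* FI-E  (`h(H, 𝓞_Lˣ) = 1/p`),
* FI-U  (a stable subgroup `V ≤ U_L` of finite index with trivial Tate cohomology),
* FI-FIN (`[C_L : image of U_L] < ∞`, and `U_L ∩ Lˣ = 𝓞_Lˣ`),
by multiplicativity of the Herbrand quotient (`H21FI.chain`) on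
`V ⊆ U_L`,  `1 → 𝓞_Lˣ → U_L → W → 1`,  `W ⊆ C_L`.
-/
import Mathlib
import Fermat.Agent.CFT2.C.Slices3_helper17
import Fermat.Agent.CFT2.C.FIAbs_helper21

set_option autoImplicit false
set_option linter.unusedSectionVars false
set_option linter.unusedVariables false
set_option linter.style.haveILetI false

noncomputable section

namespace H21FI

open NumberField TensorProduct IsDedekindDomain H17C

section gen

variable {G : Type} [Group G] {V : Type} [AddCommGroup V] (ρ : Representation ℤ G V)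

/-- `ρ σ - 1` -/
def gD (σ : G) : V →+ V := ((ρ σ - 1 : V →ₗ[ℤ] V)).toAddMonoidHom

/-- the norm `∑_{h ∈ H} ρ h` -/
def gN (H : Subgroup G) [Finite H] : V →+ V :=
  letI : Fintype H := Fintype.ofFinite H
  ((∑ h : H, ρ (h : G) : V →ₗ[ℤ] V)).toAddMonoidHom

theorem gD_apply (σ : G) (x : V) : gD ρ σ x = ρ σ x - x := rfl

theorem gN_apply (H : Subgroup G) [Finite H] (x : V) :
    gN ρ H x = (letI : Fintype H := Fintype.ofFinite H; ∑ h : H, ρ (h : G) x) := by
  letI : Fintype H := Fintype.ofFinite H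
  change (∑ h : H, ρ (h : G) : V →ₗ[ℤ] V) x = _
  rw [LinearMap.sum_apply]

theorem rho_gN (H : Subgroup G) [Finite H] (τ : G) (hτ : τ ∈ H) (x : V) :
    ρ τ (gN ρ H x) = gN ρ H x := by
  letI : Fintype H := Fintype.ofFinite H
  rw [gN_apply, map_sum]
  refine Fintype.sum_equiv (Equiv.mulLeft (⟨τ, hτ⟩ : H)) _ _ ?_
  intro h
  rw [← Module.End.mul_apply, ← map_mul]
  rfl

theorem gN_rho (H : Subgroup G) [Finite H] (τ : G) (hτ : τ ∈ H) (x : V) :
    gN ρ H (ρ τ x) = gN ρ H x := by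
  letI : Fintype H := Fintype.ofFinite H
  rw [gN_apply, gN_apply]
  refine Fintype.sum_equiv (Equiv.mulRight (⟨τ, hτ⟩ : H)) _ _ ?_
  intro h
  rw [← Module.End.mul_apply, ← map_mul]
  rfl

theorem gD_gN (H : Subgroup G) [Finite H] (σ : G) (hσ : σ ∈ H) (x : V) :
    gD ρ σ (gN ρ H x) = 0 := by
  rw [gD_apply, rho_gN ρ H σ hσ, sub_self]

theorem gN_gD (H : Subgroup G) [Finite H] (σ : G) (hσ : σ ∈ H) (x : V) :
    gN ρ H (gD ρ σ x) = 0 := by
  rw [gD_apply, map_sub, gN_rho ρ H σ hσ, sub_self]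

/-- a subgroup stable under `H` is stable under `σ - 1` -/
theorem gD_mem (H : Subgroup G) (A : AddSubgroup V) (hA : ∀ τ ∈ H, ∀ v ∈ A, ρ τ v ∈ A)
    (σ : G) (hσ : σ ∈ H) (v : V) (hv : v ∈ A) : gD ρ σ v ∈ A := by
  rw [gD_apply]
  exact A.sub_mem (hA σ hσ v hv) hv

/-- a subgroup stable under `H` is stable under the norm -/
theorem gN_mem (H : Subgroup G) [Finite H] (A : AddSubgroup V)
    (hA : ∀ τ ∈ H, ∀ v ∈ A, ρ τ v ∈ A) (v : V) (hv : v ∈ A) : gN ρ H v ∈ A := by
  letI : Fintype H := Fintype.ofFinite H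
  rw [gN_apply]
  exact A.sum_mem (fun h _ => hA h.1 h.2 v hv)

variable {V' : Type} [AddCommGroup V'] (ρ' : Representation ℤ G V')

/-- an equivariant map commutes with `σ - 1` -/
theorem map_gD (j : V →+ V') (H : Subgroup G) (hj : ∀ τ ∈ H, ∀ x, j (ρ τ x) = ρ' τ (j x))
    (σ : G) (hσ : σ ∈ H) (x : V) : j (gD ρ σ x) = gD ρ' σ (j x) := by
  rw [gD_apply, gD_apply, map_sub, hj σ hσ]

/-- an equivariant map commutes with the norm -/
theorem map_gN (j : V →+ V') (H : Subgroup G) [Finite H]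
    (hj : ∀ τ ∈ H, ∀ x, j (ρ τ x) = ρ' τ (j x)) (x : V) :
    j (gN ρ H x) = gN ρ' H (j x) := by
  letI : Fintype H := Fintype.ofFinite H
  rw [gN_apply, gN_apply, map_sum]
  exact Finset.sum_congr rfl (fun h _ => hj h.1 h.2 x)

end gen

section conc

variable (S : Finset Nat.Primes) (L : Type) [Field L] [NumberField L]

theorem clsD_eq (σ : AutQ L) : clsD S L σ = gD (clsRep S ℚ L) σ := rfl
theorem clsN_eq (H : Subgroup (AutQ L)) : clsN S L H = gN (clsRep S ℚ L) H := rfl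
theorem ideleD_eq (σ : AutQ L) : ideleD S L σ = gD (ideleRep S ℚ L) σ := rfl
theorem ideleN_eq (H : Subgroup (AutQ L)) : ideleN S L H = gN (ideleRep S ℚ L) H := rfl
theorem unitDL_eq (σ : AutQ L) : unitDL L σ = gD (unitRep L) σ := rfl
theorem unitNL_eq (H : Subgroup (AutQ L)) : unitNL L H = gN (unitRep L) H := rfl


/-! ### the units of `𝓞_L` inside the unit ideles -/

/-- `Aut(L)` preserves the lattice `Λ_L` -/
theorem ksAut_latS (τ : AutQ L) (x : KS S L) (hx : x ∈ latS S L) :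
    ksAut S ℚ L τ x ∈ latS S L := by
  unfold latS at hx ⊢
  induction hx using Subring.closure_induction with
  | mem x hx =>
    rcases hx with ⟨a, rfl⟩ | ⟨z, rfl⟩
    · apply Subring.subset_closure
      left
      exact ⟨τ • a, rfl⟩
    · apply Subring.subset_closure
      right
      refine ⟨z, ?_⟩
      rw [locRing_apply, ksAut_tmul, map_one]
  | zero => rw [map_zero]; exact Subring.zero_mem _
  | one => rw [map_one]; exact Subring.one_mem _
  | add x y _ _ hx hy => rw [map_add]; exact Subring.add_mem _ hx hy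
  | neg x _ hx => rw [map_neg]; exact Subring.neg_mem _ hx
  | mul x y _ _ hx hy => rw [map_mul]; exact Subring.mul_mem _ hx hy

theorem ideleRep_apply (τ : AutQ L) (u : Additive (KS S L)ˣ) :
    ideleRep S ℚ L τ u = Additive.ofMul (τ • Additive.toMul u) := rfl

theorem unitRep_apply (τ : AutQ L) (u : Additive (𝓞 L)ˣ) :
    unitRep L τ u = Additive.ofMul (τ • Additive.toMul u) := rfl

/-- the unit ideles are stable under `Aut(L)` -/
theorem unitIdele_stable (τ : AutQ L) (u : Additive (KS S L)ˣ) (hu : u ∈ unitIdeleAdd S L) :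
    ideleRep S ℚ L τ u ∈ unitIdeleAdd S L := by
  obtain ⟨h1, h2⟩ := hu
  exact ⟨ksAut_latS S L τ _ h1, ksAut_latS S L τ _ h2⟩

/-- `𝓞_Lˣ → I_L`, `ε ↦ ε ⊗ 1` -/
def unitToIdele : Additive (𝓞 L)ˣ →+ Additive (KS S L)ˣ :=
  MonoidHom.toAdditive ((diagS S L).comp (Units.map (algebraMap (𝓞 L) L : 𝓞 L →* L)))

theorem unitToIdele_apply (e : Additive (𝓞 L)ˣ) :
    unitToIdele S L e =
      Additive.ofMul (diagS S L (Units.map (algebraMap (𝓞 L) L : 𝓞 L →* L) (Additive.toMul e))) :=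
  rfl

theorem unitToIdele_mem (e : Additive (𝓞 L)ˣ) : unitToIdele S L e ∈ unitIdeleAdd S L := by
  constructor
  · apply Subring.subset_closure
    left
    exact ⟨((Additive.toMul e : (𝓞 L)ˣ) : 𝓞 L), rfl⟩
  · apply Subring.subset_closure
    left
    refine ⟨(((Additive.toMul e)⁻¹ : (𝓞 L)ˣ) : 𝓞 L), ?_⟩
    have : (unitToIdele S L e) = Additive.ofMul (diagS S L (Units.map (algebraMap (𝓞 L) L : 𝓞 L →* L) (Additive.toMul e))) := rfl
    show (((diagS S L (Units.map (algebraMap (𝓞 L) L : 𝓞 L →* L) (Additive.toMul e)))⁻¹ :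
      (KS S L)ˣ) : KS S L) = _
    rw [← map_inv, ← map_inv]
    rfl

theorem unitToIdele_injective (hS : S.Nonempty) : Function.Injective (unitToIdele S L) := by
  haveI : Nonempty S := hS.to_subtype
  haveI : Nontrivial (QS S) := inferInstance
  have hd : Function.Injective (diagRing S L) :=
    Algebra.TensorProduct.includeLeft_injective (R := ℚ) (S := ℚ) (A := L) (B := QS S)
      (algebraMap ℚ (QS S)).injective
  intro a b hab
  have h1 : (diagS S L (Units.map (algebraMap (𝓞 L) L : 𝓞 L →* L) (Additive.toMul a))) =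
      (diagS S L (Units.map (algebraMap (𝓞 L) L : 𝓞 L →* L) (Additive.toMul b))) :=
    congrArg Additive.toMul hab
  have h2 : diagRing S L ((Additive.toMul a : (𝓞 L)ˣ) : 𝓞 L) =
      diagRing S L ((Additive.toMul b : (𝓞 L)ˣ) : 𝓞 L) := congrArg Units.val h1
  have h3 := hd h2
  have h4 : ((Additive.toMul a : (𝓞 L)ˣ) : 𝓞 L) = ((Additive.toMul b : (𝓞 L)ˣ) : 𝓞 L) :=
    RingOfIntegers.coe_injective h3
  exact congrArg Additive.ofMul (Units.ext h4)

theorem unitToIdele_equiv (τ : AutQ L) (e : Additive (𝓞 L)ˣ) :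
    unitToIdele S L (unitRep L τ e) = ideleRep S ℚ L τ (unitToIdele S L e) := by
  rw [ideleRep_apply, unitRep_apply, unitToIdele_apply, unitToIdele_apply]
  apply congrArg Additive.ofMul
  rw [toMul_ofMul, toMul_ofMul, ideleAct_diagS]
  apply congrArg
  apply Units.ext
  rfl


/-! ### the map to the class group -/

/-- a unit of `𝓞_L` has valuation `1` at every prime -/
theorem ordP_unit (P : PrimesS S L) (ε : (𝓞 L)ˣ) : ordP P (((ε : 𝓞 L) : L)) = 0 := by
  unfold ordP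
  have h1 : P.toHOS.valuation L (algebraMap (𝓞 L) L (ε : 𝓞 L)) ≤ 1 :=
    HeightOneSpectrum.valuation_le_one _ _
  have h2 : P.toHOS.valuation L (algebraMap (𝓞 L) L ((ε⁻¹ : (𝓞 L)ˣ) : 𝓞 L)) ≤ 1 :=
    HeightOneSpectrum.valuation_le_one _ _
  have h3 : P.toHOS.valuation L (algebraMap (𝓞 L) L (ε : 𝓞 L)) *
      P.toHOS.valuation L (algebraMap (𝓞 L) L ((ε⁻¹ : (𝓞 L)ˣ) : 𝓞 L)) = 1 := by
    rw [← map_mul, ← map_mul, Units.mul_inv, map_one, map_one]
  have h4 : P.toHOS.valuation L (algebraMap (𝓞 L) L (ε : 𝓞 L)) = 1 := by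
    apply le_antisymm h1
    calc (1 : WithZero (Multiplicative ℤ)) = P.toHOS.valuation L (algebraMap (𝓞 L) L (ε : 𝓞 L)) *
          P.toHOS.valuation L (algebraMap (𝓞 L) L ((ε⁻¹ : (𝓞 L)ˣ) : 𝓞 L)) := h3.symm
      _ ≤ P.toHOS.valuation L (algebraMap (𝓞 L) L (ε : 𝓞 L)) * 1 := by gcongr
      _ = _ := mul_one _
  have h5 : P.toHOS.valuation L ((ε : 𝓞 L) : L) = 1 := h4
  rw [h5]
  simp

/-- `I_L → C_L`, `u ↦ [(u, 0)]` -/
def ideleToCls : Additive (KS S L)ˣ →+ ClS S L :=
  (clsMk S L).toAddMonoidHom.comp (AddMonoidHom.inl (Additive (KS S L)ˣ) (DivS S L))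

theorem ideleToCls_apply (u : Additive (KS S L)ˣ) : ideleToCls S L u = clsMk S L (u, 0) := rfl

theorem ideleToCls_equiv (τ : AutQ L) (u : Additive (KS S L)ˣ) :
    ideleToCls S L (ideleRep S ℚ L τ u) = clsRep S ℚ L τ (ideleToCls S L u) := by
  rw [ideleToCls_apply, ideleToCls_apply, clsRep_mk, ambRep_apply]
  simp only [map_zero]

theorem ideleToCls_unit (e : Additive (𝓞 L)ˣ) : ideleToCls S L (unitToIdele S L e) = 0 := by
  rw [ideleToCls_apply, clsMk_eq_zero_iff, mem_princS_iff]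
  refine ⟨Additive.ofMul (Units.map (algebraMap (𝓞 L) L : 𝓞 L →* L) (Additive.toMul e)), ?_⟩
  refine Prod.ext rfl ?_
  ext P
  show divS S L _ P = 0
  rw [divS_apply]
  exact ordP_unit S L P (Additive.toMul e)

/-! ### the first inequality -/

/-- **FI assembly**: the first inequality `h(H, C_L) = p` from the Herbrand quotient of the global
units (FI-E), the semilocal units (FI-U) and the finiteness of the class group (FI-FIN). -/
theorem h21_firstIneqNE (hE : UnitHerbrand) (hU : SemilocalUnits) (hF : UnitIndexFinite) :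
    FirstIneqNE := by
  intro p S L _ _ H hS hp hp2 hcard σ hσ hσ1
  haveI : Finite H := Nat.finite_of_card_ne_zero (by rw [hcard]; exact hp.ne_zero)
  obtain ⟨hE0, hE1⟩ := hE p L H hp hp2 hcard σ hσ hσ1
  obtain ⟨V, hVU, hVfin, hVst, hV0, hV1⟩ := hU p S L H hp hcard σ hσ hσ1
  obtain ⟨hWfin, hker⟩ := hF S L
  refine chain p hp.ne_zero (ideleD S L σ) (ideleN S L H) (clsD S L σ) (clsN S L H)
    (unitDL L σ) (unitNL L H)
    (gD_gN (ideleRep S ℚ L) H σ hσ) (gN_gD (ideleRep S ℚ L) H σ hσ)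
    (gD_gN (clsRep S ℚ L) H σ hσ) (gN_gD (clsRep S ℚ L) H σ hσ)
    (unitIdeleAdd S L) V hVU hVfin
    (gD_mem (ideleRep S ℚ L) H _ (fun τ _ v hv => unitIdele_stable S L τ v hv) σ hσ)
    (gN_mem (ideleRep S ℚ L) H _ (fun τ _ v hv => unitIdele_stable S L τ v hv))
    (gD_mem (ideleRep S ℚ L) H V hVst σ hσ)
    (gN_mem (ideleRep S ℚ L) H V hVst)
    hV0 hV1
    (ideleToCls S L)
    (map_gD (ideleRep S ℚ L) (clsRep S ℚ L) (ideleToCls S L) H
      (fun τ _ x => ideleToCls_equiv S L τ x) σ hσ)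
    (map_gN (ideleRep S ℚ L) (clsRep S ℚ L) (ideleToCls S L) H
      (fun τ _ x => ideleToCls_equiv S L τ x))
    hWfin
    (unitToIdele S L) (unitToIdele_injective S L hS) (unitToIdele_mem S L)
    (ideleToCls_unit S L)
    ?_
    (map_gD (unitRep L) (ideleRep S ℚ L) (unitToIdele S L) H
      (fun τ _ x => unitToIdele_equiv S L τ x) σ hσ)
    (map_gN (unitRep L) (ideleRep S ℚ L) (unitToIdele S L) H
      (fun τ _ x => unitToIdele_equiv S L τ x))
    hE0 hE1
  intro u hu hφ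
  obtain ⟨ε, hε⟩ := hker u hu hφ
  exact ⟨Additive.ofMul ε, congrArg Additive.ofMul hε⟩

end conc

end H21FI
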