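import Mathlib

/-!
# W2-C (S55) block C-finite, slices POW' + CU (helper21): abstract part

`A` a commutative ring, `m ∈ A` such that `A` is `m`-adically complete and separated (in
elementary form, `MComplete`).  Then
* contractions have fixed points (`MComplete.fixedPoint`);
* `1 + m y` is a unit (`MComplete.cu`);
* `1 + n² m x` is the `n`-th power of `1 + n m w` for some `w` (`MComplete.root`).
-/

set_option autoImplicit false

open Polynomial

namespace H21C

/-- `A` is `m`-adically complete and separated (elementary form). -/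
structure MComplete (A : Type) [CommRing A] (m : A) : Prop where
  pre : ∀ f : ℕ → A, (∀ j, ∃ c, f (j + 1) - f j = m ^ j * c) →
    ∃ L, ∀ j, ∃ c, L - f j = m ^ j * c
  haus : ∀ x : A, (∀ j, ∃ c, x = m ^ j * c) → x = 0

variable {A : Type} [CommRing A] {m : A}

/-- a contraction for the `m`-adic topology has a fixed point -/
theorem MComplete.fixedPoint (h : MComplete A m) (T : A → A)
    (hT : ∀ a b j c, a - b = m ^ j * c → ∃ c', T a - T b = m ^ (j + 1) * c') :
    ∃ w, T w = w := by
  -- the orbit of `0`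
  have hstep : ∀ j, ∃ c, T^[j + 1] 0 - T^[j] 0 = m ^ j * c := by
    intro j
    induction j with
    | zero => exact ⟨T^[1] 0 - T^[0] 0, by rw [pow_zero, one_mul]⟩
    | succ j ih =>
      obtain ⟨c, hc⟩ := ih
      obtain ⟨c', hc'⟩ := hT _ _ j c hc
      refine ⟨c', ?_⟩
      have e1 : T^[j + 1] 0 = T (T^[j] 0) := Function.iterate_succ_apply' T j 0
      have e2 : T^[j + 1 + 1] 0 = T (T^[j + 1] 0) := Function.iterate_succ_apply' T (j + 1) 0
      calc T^[j + 1 + 1] 0 - T^[j + 1] 0 = T (T^[j + 1] 0) - T (T^[j] 0) := by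
            rw [e2]
            congr 1
        _ = m ^ (j + 1) * c' := hc'
  obtain ⟨w, hw⟩ := h.pre (fun j => T^[j] 0) hstep
  refine ⟨w, ?_⟩
  have h0 : T w - w = 0 := by
    apply h.haus
    intro j
    obtain ⟨c, hc⟩ := hw j
    obtain ⟨c', hc'⟩ := hT _ _ j c hc
    obtain ⟨c'', hc''⟩ := hw (j + 1)
    refine ⟨m * c' - m * c'', ?_⟩
    have e1 : T^[j + 1] 0 = T (T^[j] 0) := Function.iterate_succ_apply' T j 0
    rw [e1] at hc''
    have e2 : T w - w = (T w - T (T^[j] 0)) - (w - T (T^[j] 0)) := by ring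
    rw [e2, hc', hc'', pow_succ]
    ring
  exact sub_eq_zero.mp h0

/-- **CU, abstract**: `1 + m y` is a unit. -/
theorem MComplete.cu (h : MComplete A m) (y : A) : ∃ y', (1 + m * y) * y' = 1 := by
  obtain ⟨w, hw⟩ := h.fixedPoint (fun w => 1 - m * y * w) (by
    intro a b j c hc
    refine ⟨-(y * c), ?_⟩
    have e : (1 - m * y * a) - (1 - m * y * b) = -(m * y) * (a - b) := by ring
    rw [e, hc, pow_succ]
    ring)
  refine ⟨w, ?_⟩
  linear_combination -hw

/-- second order binomial expansion with polynomial remainder -/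
theorem binom_poly (A : Type) [CommRing A] (n : ℕ) :
    ∃ G : A[X], ∀ t : A, (1 + t) ^ n = 1 + (n : A) * t + t ^ 2 * G.eval t := by
  induction n with
  | zero => exact ⟨0, fun t => by simp⟩
  | succ n ih =>
    obtain ⟨G, hG⟩ := ih
    refine ⟨C (n : A) + (1 + X) * G, fun t => ?_⟩
    rw [pow_succ, hG t]
    simp only [eval_add, eval_C, eval_mul, eval_one, eval_X, Nat.cast_add, Nat.cast_one]
    ring

/-- **POW, abstract**: `1 + n² m x` is an `n`-th power of an element `1 + n m w`. -/
theorem MComplete.root (h : MComplete A m) (n : ℕ) (x : A) :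
    ∃ w : A, (1 + (n : A) * m * w) ^ n = 1 + (n : A) ^ 2 * m * x := by
  obtain ⟨G, hG⟩ := binom_poly A n
  set Q : A[X] := X ^ 2 * G.comp (C ((n : A) * m) * X) with hQ
  have hQe : ∀ w : A, Q.eval w = w ^ 2 * G.eval ((n : A) * m * w) := by
    intro w
    simp [hQ, eval_comp]
  obtain ⟨w, hw⟩ := h.fixedPoint (fun w => x - m * Q.eval w) (by
    intro a b j c hc
    obtain ⟨d, hd⟩ := Polynomial.sub_dvd_eval_sub a b Q
    refine ⟨-(c * d), ?_⟩
    have e : (x - m * Q.eval a) - (x - m * Q.eval b) = -m * (Q.eval a - Q.eval b) := by ring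
    rw [e, hd, hc, pow_succ]
    ring)
  refine ⟨w, ?_⟩
  rw [hQe] at hw
  rw [hG ((n : A) * m * w)]
  linear_combination (-(n : A) ^ 2 * m) * hw

end H21C
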