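import Mathlib
import Fermat.Agent.CFT2.C.Defs_helper17
import Fermat.Agent.CFT2.C.PowAbs_helper21

/-!
# W2-C (S55) block C-finite, slices POW' + CU (helper21): the ring `ℤ_S = ∏_{q ∈ S} ℤ_q`

* `mcomplete_zs` : `ℤ_S` is `m_S`-adically complete and separated;
* `zs_jacobson`  : `m_S` lies in the Jacobson radical of `ℤ_S`;
* `zs_dvd_pow`   : `n ∣ m_S ^ n` in `ℤ_S` for `n ≠ 0`.
-/

set_option autoImplicit false

open Polynomial

namespace H21C

open H17C

section general

/-- an adically complete ring for a principal ideal is `MComplete` -/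
theorem mcomplete_of_isAdicComplete (A : Type) [CommRing A] (m : A)
    [hA : IsAdicComplete (Ideal.span {m}) A] : MComplete A m := by
  have key : ∀ (j : ℕ) (x : A),
      x ∈ ((Ideal.span {m}) ^ j • (⊤ : Submodule A A)) ↔ ∃ c, x = m ^ j * c := by
    intro j x
    rw [smul_eq_mul, Ideal.mul_top, Ideal.span_singleton_pow, Ideal.mem_span_singleton']
    constructor
    · rintro ⟨a, ha⟩
      exact ⟨a, by rw [← ha, mul_comm]⟩
    · rintro ⟨c, hc⟩
      exact ⟨c, by rw [hc, mul_comm]⟩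
  constructor
  · intro f hf
    have hmono : ∀ {a b : ℕ}, a ≤ b →
        f a ≡ f b [SMOD ((Ideal.span {m}) ^ a • (⊤ : Submodule A A))] := by
      intro a b hab
      induction b, hab using Nat.le_induction with
      | base => exact SModEq.refl _
      | succ b hab ih =>
        refine ih.trans ?_
        rw [SModEq.sub_mem]
        obtain ⟨c, hc⟩ := hf b
        rw [key]
        obtain ⟨d, rfl⟩ := Nat.exists_eq_add_of_le hab
        refine ⟨-(m ^ d * c), ?_⟩
        have e : f (a + d) - f (a + d + 1) = -(f (a + d + 1) - f (a + d)) := by ring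
        rw [e, hc, pow_add]
        ring
    obtain ⟨L, hL⟩ := hA.toIsPrecomplete.prec' f hmono
    refine ⟨L, fun j => ?_⟩
    have h1 := (hL j).symm
    rw [SModEq.sub_mem, key] at h1
    exact h1
  · intro x hx
    apply hA.toIsHausdorff.haus' x
    intro n
    rw [SModEq.sub_mem, sub_zero, key]
    exact hx n

/-- products of `MComplete` rings -/
theorem MComplete.pi {ι : Type} (A : ι → Type) [∀ i, CommRing (A i)] (m : ∀ i, A i)
    (h : ∀ i, MComplete (A i) (m i)) : MComplete (∀ i, A i) m := by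
  constructor
  · intro f hf
    have h1 : ∀ i, ∃ L : A i, ∀ j, ∃ c, L - f j i = (m i) ^ j * c := by
      intro i
      apply (h i).pre (fun j => f j i)
      intro j
      obtain ⟨c, hc⟩ := hf j
      exact ⟨c i, by
        have := congrFun hc i
        simpa using this⟩
    choose L hL using h1
    refine ⟨L, fun j => ?_⟩
    choose c hc using fun i => hL i j
    refine ⟨c, ?_⟩
    funext i
    simpa using hc i
  · intro x hx
    funext i
    apply (h i).haus
    intro j
    obtain ⟨c, hc⟩ := hx j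
    exact ⟨c i, by
      have := congrFun hc i
      simpa using this⟩

end general

section padic

variable (p : ℕ) [hp : Fact p.Prime]

theorem padic_isUnit_natCast {n : ℕ} (hn : ¬ p ∣ n) : IsUnit (n : ℤ_[p]) := by
  rw [PadicInt.isUnit_iff, PadicInt.norm_natCast_eq_one_iff]
  exact (Nat.Prime.coprime_iff_not_dvd hp.out).mpr hn

/-- `ℤ_p` is `m`-adically complete for `m = p u`, `u` prime to `p` -/
theorem mcomplete_padic (u : ℕ) (hu : ¬ p ∣ u) : MComplete ℤ_[p] ((p * u : ℕ) : ℤ_[p]) := by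
  have hI : Ideal.span {((p * u : ℕ) : ℤ_[p])} = IsLocalRing.maximalIdeal ℤ_[p] := by
    rw [PadicInt.maximalIdeal_eq_span_p, Ideal.span_singleton_eq_span_singleton]
    rw [Nat.cast_mul]
    exact (associated_mul_unit_right (p : ℤ_[p]) _ (padic_isUnit_natCast p hu)).symm
  have : IsAdicComplete (Ideal.span {((p * u : ℕ) : ℤ_[p])}) ℤ_[p] := by
    rw [hI]
    infer_instance
  exact mcomplete_of_isAdicComplete _ _

/-- `n ∣ M ^ n` in `ℤ_p` when `p ∣ M`, `n ≠ 0` -/
theorem padic_dvd_pow (M n : ℕ) (hM : p ∣ M) (hn : n ≠ 0) :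
    (n : ℤ_[p]) ∣ (M : ℤ_[p]) ^ n := by
  obtain ⟨e, n', hn', rfl⟩ := Nat.exists_eq_pow_mul_and_not_dvd hn p hp.out.ne_one
  have hn'0 : n' ≠ 0 := by
    rintro rfl
    exact hn' (dvd_zero p)
  have he : e ≤ p ^ e * n' := by
    calc e ≤ p ^ e := (Nat.lt_pow_self hp.out.one_lt).le
      _ ≤ p ^ e * n' := Nat.le_mul_of_pos_right _ (Nat.pos_of_ne_zero hn'0)
  rw [Nat.cast_mul, Nat.cast_pow, (padic_isUnit_natCast p hn').mul_right_dvd]
  obtain ⟨M', rfl⟩ := hM
  rw [Nat.cast_mul, mul_pow]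
  exact Dvd.dvd.mul_right (pow_dvd_pow _ he) _

end padic

section zs

variable (S : Finset Nat.Primes)

theorem mS_eq (q : S) : ∃ u : ℕ, ¬ ((q : Nat.Primes) : ℕ) ∣ u ∧ mS S = ((q : Nat.Primes) : ℕ) * u := by
  classical
  refine ⟨∏ r ∈ S.erase (q : Nat.Primes), (r : ℕ), ?_, ?_⟩
  · intro hdvd
    have hq : Prime ((q : Nat.Primes) : ℕ) := (q : Nat.Primes).2.prime
    obtain ⟨r, hr, hqr⟩ := (Prime.dvd_finsetProd_iff hq _).mp hdvd
    have h1 : ((q : Nat.Primes) : ℕ) = (r : ℕ) :=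
      (Nat.prime_dvd_prime_iff_eq (q : Nat.Primes).2 r.2).mp hqr
    have h2 : (q : Nat.Primes) = r := Subtype.ext h1
    exact (Finset.mem_erase.mp hr).1 h2.symm
  · unfold mS
    rw [Finset.mul_prod_erase S (fun r => (r : ℕ)) q.2]

/-- `ℤ_S` is `m_S`-adically complete and separated -/
theorem mcomplete_zs : MComplete (ZS S) ((mS S : ℕ) : ZS S) := by
  have h := MComplete.pi (fun q : S => ℤ_[((q : Nat.Primes) : ℕ)])
    (fun q => ((mS S : ℕ) : ℤ_[((q : Nat.Primes) : ℕ)])) (fun q => by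
      obtain ⟨u, hu, hm⟩ := mS_eq S q
      rw [hm]
      exact mcomplete_padic _ u hu)
  exact h

theorem zs_jacobson : Ideal.span {((mS S : ℕ) : ZS S)} ≤ (⊥ : Ideal (ZS S)).jacobson := by
  rw [Ideal.span_le, Set.singleton_subset_iff, SetLike.mem_coe, Ideal.mem_jacobson_bot]
  intro y
  obtain ⟨y', hy'⟩ := (mcomplete_zs S).cu y
  exact IsUnit.of_mul_eq_one y' (by rw [add_comm]; exact hy')

/-- `n ∣ m_S ^ n` in `ℤ_S` -/
theorem zs_dvd_pow (n : ℕ) (hn : n ≠ 0) : ∃ c : ZS S, ((mS S : ℕ) : ZS S) ^ n = (n : ZS S) * c := by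
  have h1 : ∀ q : S, ∃ c : ℤ_[((q : Nat.Primes) : ℕ)],
      ((mS S : ℕ) : ℤ_[((q : Nat.Primes) : ℕ)]) ^ n = (n : ℤ_[((q : Nat.Primes) : ℕ)]) * c := by
    intro q
    obtain ⟨u, -, hm⟩ := mS_eq S q
    exact padic_dvd_pow _ (mS S) n ⟨u, hm⟩ hn
  choose c hc using h1
  refine ⟨c, ?_⟩
  funext q
  simpa using hc q

end zs

end H21C
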