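import Mathlib
import Fermat.Agent.CFT2.C.PowZS_helper21

/-!
# W2-C (S55) block C-finite, slices POW' + CU (helper21): the lattice `Λ_K = 𝓞_K ⊗ ℤ_S`

* `latS_iff`      : `Λ_K` is the `ℤ_S`-span of an integral basis of `𝓞_K` (inside `K_S`);
* `mcomplete_lat` : the ring `Λ_K` is `m_S`-adically complete and separated.
-/

set_option autoImplicit false
set_option linter.style.haveILetI false
set_option linter.unusedSectionVars false

open Polynomial NumberField

noncomputable section

namespace H21C

open H17C

section lattice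

variable (S : Finset Nat.Primes) (K : Type) [Field K] [NumberField K]

/-- `ℤ_S → K_S` -/
def zsHom : ZS S →+* KS S K := (locRing S K : QS S →+* KS S K).comp (zsToQs S)

theorem zsHom_mem (z : ZS S) : zsHom S K z ∈ latS S K :=
  Subring.subset_closure (Or.inr ⟨z, rfl⟩)

theorem diag_mem (a : 𝓞 K) : diagRing S K (a : K) ∈ latS S K :=
  Subring.subset_closure (Or.inl ⟨a, rfl⟩)

/-- index set of an integral basis -/
abbrev JB : Type := Module.Free.ChooseBasisIndex ℤ (𝓞 K)

/-- the vectors of an integral basis, in `K_S` -/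
def eB (i : JB K) : KS S K := diagRing S K ((RingOfIntegers.basis K i : 𝓞 K) : K)

theorem eB_mem (i : JB K) : eB S K i ∈ latS S K := diag_mem S K _

/-- the `ℤ_S`-combinations of the integral basis -/
def comb (z : JB K → ZS S) : KS S K := ∑ i, zsHom S K (z i) * eB S K i

theorem comb_mem (z : JB K → ZS S) : comb S K z ∈ latS S K :=
  Subring.sum_mem _ (fun i _ => Subring.mul_mem _ (zsHom_mem S K _) (eB_mem S K i))

theorem comb_add (z w : JB K → ZS S) : comb S K (z + w) = comb S K z + comb S K w := by
  unfold comb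
  rw [← Finset.sum_add_distrib]
  exact Finset.sum_congr rfl (fun i _ => by rw [Pi.add_apply, map_add, add_mul])

theorem comb_sub (z w : JB K → ZS S) : comb S K (z - w) = comb S K z - comb S K w := by
  unfold comb
  rw [← Finset.sum_sub_distrib]
  exact Finset.sum_congr rfl (fun i _ => by rw [Pi.sub_apply, map_sub, sub_mul])

theorem comb_smul (r : ZS S) (z : JB K → ZS S) :
    comb S K (fun i => r * z i) = zsHom S K r * comb S K z := by
  unfold comb
  rw [Finset.mul_sum]
  exact Finset.sum_congr rfl (fun i _ => by rw [map_mul, mul_assoc])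

/-- the `ℤ_S`-span of the integral basis, as a subring of `K_S` -/
theorem diag_comb (a : 𝓞 K) : ∃ z : JB K → ZS S, diagRing S K (a : K) = comb S K z := by
  refine ⟨fun i => ((RingOfIntegers.basis K).repr a i : ZS S), ?_⟩
  have h1 : a = ∑ i, (RingOfIntegers.basis K).repr a i • RingOfIntegers.basis K i :=
    ((RingOfIntegers.basis K).sum_repr a).symm
  have h2 : (a : K) = ∑ i, ((RingOfIntegers.basis K).repr a i : K) *
      ((RingOfIntegers.basis K i : 𝓞 K) : K) := by
    conv_lhs => rw [h1]
    change algebraMap (𝓞 K) K _ = _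
    rw [map_sum]
    refine Finset.sum_congr rfl (fun i _ => ?_)
    rw [zsmul_eq_mul, map_mul, map_intCast]
  rw [h2, map_sum]
  unfold comb
  refine Finset.sum_congr rfl (fun i _ => ?_)
  rw [map_mul, map_intCast, map_intCast]
  rfl

theorem mul_comb_mem_aux (i j : JB K) :
    ∃ z : JB K → ZS S, eB S K i * eB S K j = comb S K z := by
  have h : eB S K i * eB S K j =
      diagRing S K (((RingOfIntegers.basis K i * RingOfIntegers.basis K j : 𝓞 K)) : K) := by
    unfold eB
    rw [← map_mul]
    rfl
  rw [h]
  exact diag_comb S K _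

theorem comb_mul (z w : JB K → ZS S) : ∃ v : JB K → ZS S, comb S K z * comb S K w = comb S K v := by
  classical
  choose c hc using fun i j => mul_comb_mem_aux S K i j
  refine ⟨∑ i, ∑ j, fun k => z i * w j * c i j k, ?_⟩
  have hsum : ∀ (ι : Type) (s : Finset ι) (g : ι → (JB K → ZS S)),
      comb S K (∑ a ∈ s, g a) = ∑ a ∈ s, comb S K (g a) := by
    intro ι s g
    induction s using Finset.induction_on with
    | empty =>
      simp [comb]
    | insert a s ha ih =>
      rw [Finset.sum_insert ha, Finset.sum_insert ha, comb_add, ih]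
  rw [hsum]
  have h1 : comb S K z * comb S K w =
      ∑ i, ∑ j, zsHom S K (z i * w j) * (eB S K i * eB S K j) := by
    unfold comb
    rw [Finset.sum_mul_sum]
    refine Finset.sum_congr rfl (fun i _ => Finset.sum_congr rfl (fun j _ => ?_))
    rw [map_mul]
    ring
  rw [h1]
  refine Finset.sum_congr rfl (fun i _ => ?_)
  rw [hsum]
  refine Finset.sum_congr rfl (fun j _ => ?_)
  rw [hc i j, ← comb_smul]

/-- `Λ_K` is the set of `ℤ_S`-combinations of the integral basis -/
theorem latS_iff (x : KS S K) : x ∈ latS S K ↔ ∃ z : JB K → ZS S, x = comb S K z := by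
  constructor
  · intro hx
    have h1 : ∃ z : JB K → ZS S, (1 : KS S K) = comb S K z := by
      obtain ⟨z, hz⟩ := diag_comb S K (1 : 𝓞 K)
      refine ⟨z, ?_⟩
      rw [← hz]
      simp
    unfold latS at hx
    induction hx using Subring.closure_induction with
    | mem x hx =>
      rcases hx with ⟨a, rfl⟩ | ⟨z, rfl⟩
      · exact diag_comb S K a
      · obtain ⟨z1, hz1⟩ := h1
        refine ⟨fun i => z * z1 i, ?_⟩
        rw [comb_smul, ← hz1, mul_one]
        rfl
    | zero => exact ⟨0, by simp [comb]⟩
    | one => exact h1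
    | add x y _ _ hx hy =>
      obtain ⟨z, rfl⟩ := hx
      obtain ⟨w, rfl⟩ := hy
      exact ⟨z + w, (comb_add S K z w).symm⟩
    | neg x _ hx =>
      obtain ⟨z, rfl⟩ := hx
      refine ⟨0 - z, ?_⟩
      rw [comb_sub]
      simp [comb]
    | mul x y _ _ hx hy =>
      obtain ⟨z, rfl⟩ := hx
      obtain ⟨w, rfl⟩ := hy
      exact comb_mul S K z w
  · rintro ⟨z, rfl⟩
    exact comb_mem S K z

end lattice

end H21C
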