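import Mathlib
import Fermat.Agent.CFT2.C.PowLat_helper21
import Fermat.Agent.CFT2.C.Slices2_helper17

/-!
# W2-C (S55) block C-finite, slices POW' + CU (helper21)

* `H21C.congUnit`  : `H17C.CongUnit`   (`1 + m_S Λ_K ⊆ Λ_Kˣ`);
* `H21C.powOpenS'` : `H17C.PowOpenS'`  (`1 + m_S ^ (2 n + 1) Λ_K ⊆ (U_K)ⁿ`).

`Λ_K` is `m_S`-adically complete (coordinates in an integral basis + completeness of `ℤ_S`) and
separated (Krull's intersection theorem, `m_S` lies in the Jacobson radical of `ℤ_S`); then
contraction arguments (`PowAbs_helper21.lean`).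
-/

set_option autoImplicit false
set_option linter.style.haveILetI false
set_option linter.unusedSectionVars false

open Polynomial NumberField

noncomputable section

namespace H21C

open H17C

section complete

variable (S : Finset Nat.Primes) (K : Type) [Field K] [NumberField K]

theorem zsHom_natCast (n : ℕ) : zsHom S K (n : ZS S) = (n : KS S K) := map_natCast _ n

theorem comb_zero : comb S K (0 : JB K → ZS S) = 0 := by
  simp [comb]

/-- completeness of `Λ_K` (elementary form, inside `K_S`) -/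
theorem lat_pre (f : ℕ → KS S K)
    (hf : ∀ j, ∃ c ∈ latS S K, f (j + 1) - f j = (mS S : KS S K) ^ j * c) :
    ∃ L, L - f 0 ∈ latS S K ∧ ∀ j, ∃ c ∈ latS S K, L - f j = (mS S : KS S K) ^ j * c := by
  choose c hc hfc using hf
  choose z hz using fun j => (latS_iff S K (c j)).mp (hc j)
  -- the partial sums of the coordinates
  set g : JB K → ℕ → ZS S := fun i j => ∑ l ∈ Finset.range j, ((mS S : ℕ) : ZS S) ^ l * z l i
    with hg
  have hZ : ∀ i, ∃ Z : ZS S, ∀ j, ∃ r, Z - g i j = ((mS S : ℕ) : ZS S) ^ j * r := by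
    intro i
    apply (mcomplete_zs S).pre (g i)
    intro j
    exact ⟨z j i, by simp only [hg]; rw [Finset.sum_range_succ]; ring⟩
  choose Z hZ using hZ
  choose r hr using hZ
  have hfj : ∀ j, f j = f 0 + comb S K (fun i => g i j) := by
    intro j
    induction j with
    | zero =>
      have : (fun i => g i 0) = (0 : JB K → ZS S) := by
        funext i
        simp [hg]
      rw [this, comb_zero, add_zero]
    | succ j ih =>
      have h1 : f (j + 1) = f j + (mS S : KS S K) ^ j * c j := by
        rw [← hfc j]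
        ring
      have h2 : (fun i => g i (j + 1)) =
          (fun i => g i j) + (fun i => ((mS S : ℕ) : ZS S) ^ j * z j i) := by
        funext i
        simp only [hg, Pi.add_apply]
        rw [Finset.sum_range_succ]
      rw [h1, ih, h2, comb_add, comb_smul, map_pow, zsHom_natCast, ← hz j]
      ring
  refine ⟨f 0 + comb S K Z, ?_, fun j => ?_⟩
  · rw [add_sub_cancel_left]
    exact comb_mem S K Z
  · refine ⟨comb S K (fun i => r i j), comb_mem S K _, ?_⟩
    have h3 : Z - (fun i => g i j) = fun i => ((mS S : ℕ) : ZS S) ^ j * r i j := by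
      funext i
      simp only [Pi.sub_apply]
      exact hr i j
    rw [hfj j, add_sub_add_left_eq_sub, ← comb_sub, h3, comb_smul, map_pow, zsHom_natCast]

/-- separatedness of `Λ_K` (elementary form, inside `K_S`) -/
theorem lat_haus (x : KS S K)
    (hx : ∀ j, ∃ c ∈ latS S K, x = (mS S : KS S K) ^ j * c) : x = 0 := by
  letI : Algebra (ZS S) (KS S K) := (zsHom S K).toAlgebra
  have hsmul : ∀ (a : ZS S) (y : KS S K), a • y = zsHom S K a * y := fun a y => by
    rw [Algebra.smul_def]
    rfl
  set M : Submodule (ZS S) (KS S K) := Submodule.span (ZS S) (Set.range (eB S K)) with hM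
  haveI : Module.Finite (ZS S) M := Module.Finite.span_of_finite _ (Set.finite_range _)
  haveI : IsHausdorff (Ideal.span {((mS S : ℕ) : ZS S)}) M :=
    IsHausdorff.of_le_jacobson _ _ (zs_jacobson S)
  have hmem : ∀ y ∈ latS S K, y ∈ M := by
    intro y hy
    obtain ⟨z, rfl⟩ := (latS_iff S K y).mp hy
    unfold comb
    refine Submodule.sum_mem _ (fun i _ => ?_)
    rw [← hsmul]
    exact Submodule.smul_mem _ _ (Submodule.subset_span ⟨i, rfl⟩)
  have hxmem : x ∈ M := by
    obtain ⟨c, hc, h⟩ := hx 0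
    rw [pow_zero, one_mul] at h
    rw [h]
    exact hmem c hc
  have h0 : (⟨x, hxmem⟩ : M) = 0 := by
    apply IsHausdorff.haus' (I := Ideal.span {((mS S : ℕ) : ZS S)})
    intro n
    rw [SModEq.sub_mem, sub_zero]
    obtain ⟨c, hc, h⟩ := hx n
    have e : (⟨x, hxmem⟩ : M) = (((mS S : ℕ) : ZS S) ^ n) • (⟨c, hmem c hc⟩ : M) := by
      apply Subtype.ext
      rw [Submodule.coe_smul, hsmul, map_pow, zsHom_natCast]
      exact h
    rw [e]
    exact Submodule.smul_mem_smul (Ideal.pow_mem_pow (Ideal.mem_span_singleton_self _) n)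
      Submodule.mem_top
  exact congrArg Subtype.val h0

/-- the ring `Λ_K` is `m_S`-adically complete and separated -/
theorem mcomplete_lat : MComplete ↥(latS S K) ((mS S : ℕ) : ↥(latS S K)) := by
  constructor
  · intro f hf
    obtain ⟨L, hL0, hL⟩ := lat_pre S K (fun j => (f j : KS S K)) (fun j => by
      obtain ⟨c, hc⟩ := hf j
      refine ⟨c, c.2, ?_⟩
      have := congrArg Subtype.val hc
      simpa using this)
    have hLmem : L ∈ latS S K := by
      have := Subring.add_mem _ hL0 (f 0).2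
      simpa using this
    refine ⟨⟨L, hLmem⟩, fun j => ?_⟩
    obtain ⟨c, hc, h⟩ := hL j
    refine ⟨⟨c, hc⟩, ?_⟩
    apply Subtype.ext
    simpa using h
  · intro x hx
    apply Subtype.ext
    apply lat_haus S K (x : KS S K)
    intro j
    obtain ⟨c, hc⟩ := hx j
    refine ⟨c, c.2, ?_⟩
    have := congrArg Subtype.val hc
    simpa using this

end complete

/-- **CU** -/
theorem congUnit : H17C.CongUnit := by
  intro S K _ _ y hy
  obtain ⟨y', hy'⟩ := (mcomplete_lat S K).cu ⟨y, hy⟩
  refine ⟨y', y'.2, ?_⟩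
  have := congrArg Subtype.val hy'
  simpa using this

/-- **POW'** with `k = 2 n + 1` -/
theorem powOpenS' : H17C.PowOpenS' := by
  intro S K _ _ n hn
  refine ⟨2 * n + 1, ?_⟩
  rintro u ⟨-, y, hy, hu⟩
  -- `m ^ n = n c` in `Λ`
  obtain ⟨c, hc⟩ := zs_dvd_pow S n hn
  have hc' : (mS S : KS S K) ^ n = (n : KS S K) * zsHom S K c := by
    have := congrArg (zsHom S K) hc
    rwa [map_pow, map_mul, zsHom_natCast, zsHom_natCast] at this
  set cA : ↥(latS S K) := ⟨zsHom S K c, zsHom_mem S K c⟩ with hcA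
  set yA : ↥(latS S K) := ⟨y, hy⟩ with hyA
  obtain ⟨w, hw⟩ := (mcomplete_lat S K).root n (cA ^ 2 * yA)
  obtain ⟨v₁, hv₁⟩ := (mcomplete_lat S K).cu ((n : ↥(latS S K)) * w)
  have hw' : (1 + (n : KS S K) * (mS S : KS S K) * (w : KS S K)) ^ n = (u : KS S K) := by
    have h1 := congrArg Subtype.val hw
    have h2 : ((1 + (n : ↥(latS S K)) * ((mS S : ℕ) : ↥(latS S K)) * w) ^ n : ↥(latS S K)).val
        = (1 + (n : KS S K) * (mS S : KS S K) * (w : KS S K)) ^ n := by
      simp
    have h3 : ((1 + (n : ↥(latS S K)) ^ 2 * ((mS S : ℕ) : ↥(latS S K)) * (cA ^ 2 * yA) :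
        ↥(latS S K))).val
        = 1 + (n : KS S K) ^ 2 * (mS S : KS S K) * ((zsHom S K c) ^ 2 * y) := by
      simp [hcA, hyA]
    rw [h2, h3] at h1
    have e : (mS S : KS S K) ^ (2 * n + 1) =
        (n : KS S K) ^ 2 * (mS S : KS S K) * (zsHom S K c) ^ 2 := by
      rw [pow_succ, pow_mul', hc']
      ring
    rw [h1, hu, Nat.cast_pow, e]
    ring
  have hv₁' : (1 + (n : KS S K) * (mS S : KS S K) * (w : KS S K)) * (v₁ : KS S K) = 1 := by
    have h1 : (1 + (mS S : KS S K) * ((n : KS S K) * (w : KS S K))) * (v₁ : KS S K) = 1 := by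
      have := congrArg Subtype.val hv₁
      simpa using this
    linear_combination h1
  refine ⟨⟨1 + (n : KS S K) * (mS S : KS S K) * (w : KS S K), (v₁ : KS S K), hv₁',
    by rw [mul_comm]; exact hv₁'⟩, ⟨?_, v₁.2⟩, ?_⟩
  · exact Subring.add_mem _ (Subring.one_mem _)
      (Subring.mul_mem _ (Subring.mul_mem _ (natCast_mem (latS S K) n)
        (natCast_mem (latS S K) (mS S))) w.2)
  · apply Units.ext
    rw [Units.val_pow_eq_pow_val]
    exact hw'

/-- **POW** (original form), with `N = m_S ^ (2 n + 1)` -/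
theorem powOpenS : H17C.PowOpenS := by
  intro S K _ _ n hn
  obtain ⟨k, hk⟩ := powOpenS' S K n hn
  refine ⟨mS S ^ k, pow_ne_zero _ ?_, hk⟩
  unfold mS
  exact Finset.prod_ne_zero_iff.mpr (fun q _ => q.2.ne_zero)

end H21C
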