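/-
W2-C (S55) block C-finite, slice SI-A (helper17), part 3: the fixed field `F = L^H`, invariance
under a generator, norms of invariant elements, descent of invariant ideles and divisors.
-/
import Fermat.Agent.CFT2.C.SIPrep2_helper17
import Fermat.Agent.CFT2.C.Slices2_helper17

set_option autoImplicit false
set_option linter.unusedSectionVars false
set_option linter.unusedVariables false
set_option linter.style.haveILetI false

noncomputable section

namespace H17SI

open H17C NumberField IsDedekindDomain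
open scoped Pointwise WithZero nonZeroDivisors

variable (S : Finset Nat.Primes) (L : Type) [Field L] [NumberField L] (H : Subgroup (AutQ L))

/-- the fixed field -/
abbrev FF : IntermediateField ℚ L := IntermediateField.fixedField H

instance h17si_isGalois : IsGalois (FF L H) L := IsGalois.of_fixed_field L H

/-- elements of `H` fix `F` -/
theorem h17si_fix (h : AutQ L) (hh : h ∈ H) (x : FF L H) : h (x : L) = (x : L) :=
  x.2 ⟨h, hh⟩

theorem h17si_smul_algebraMap (h : AutQ L) (hh : h ∈ H) (x : 𝓞 (FF L H)) :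
    h • (algebraMap (𝓞 (FF L H)) (𝓞 L) x) = algebraMap (𝓞 (FF L H)) (𝓞 L) x := by
  apply RingOfIntegers.ext
  exact h17si_fix L H h hh (x : FF L H)

theorem h17si_under_smul (h : AutQ L) (hh : h ∈ H) (Q : PrimesS S L) :
    PrimesS.under S (FF L H) L (h • Q) = PrimesS.under S (FF L H) L Q := by
  apply Subtype.ext
  ext x
  change algebraMap _ _ x ∈ (h • Q.1) ↔ algebraMap _ _ x ∈ Q.1
  rw [Ideal.mem_pointwise_smul_iff_inv_smul_mem,
    h17si_smul_algebraMap L H h⁻¹ (H.inv_mem hh)]

theorem h17si_divRep_apply (h : AutQ L) (d : DivS S L) (Q : PrimesS S L) :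
    divRep S ℚ L h d Q = d (h⁻¹ • Q) := by
  have := divRep_apply_smul S ℚ L h d (h⁻¹ • Q)
  rwa [smul_inv_smul] at this

theorem h17si_pullDiv_inv (h : AutQ L) (hh : h ∈ H) (c : DivS S (FF L H)) :
    divRep S ℚ L h (pullDiv S (FF L H) L c) = pullDiv S (FF L H) L c := by
  ext Q
  rw [h17si_divRep_apply, h17si_pullDiv_apply, h17si_pullDiv_apply,
    h17si_under_smul S L H h⁻¹ (H.inv_mem hh)]

theorem h17si_ksBase_inv (h : AutQ L) (hh : h ∈ H) (w : KS S (FF L H)) :
    ksAut S ℚ L h (ksBase S (FF L H) L w) = ksBase S (FF L H) L w := by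
  induction w using ks_induction with
  | zero => simp only [map_zero]
  | tmul x y =>
    rw [ksBase_tmul, ksAut_tmul]
    congr 1
    exact h17si_fix L H h hh x
  | add a b ha hb => rw [map_add, map_add, ha, hb]

theorem h17si_diag_base (a : (FF L H)ˣ) :
    diagS S L (Units.map (algebraMap (FF L H) L : FF L H →* L) a) =
      ideleBase S (FF L H) L (diagS S (FF L H) a) := by
  apply Units.ext
  rfl

/-- descent of invariant ideles -/
theorem h17si_desc_idele (hDI : DescIdele) (u : (KS S L)ˣ)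
    (hu : ∀ h ∈ H, ksAut S ℚ L h (u : KS S L) = u) :
    ∃ v : (KS S (FF L H))ˣ, ideleBase S (FF L H) L v = u := by
  obtain ⟨hinj, hsurj⟩ := hDI S L H
  have hu' : ∀ h ∈ H, ksAut S ℚ L h ((u⁻¹ : (KS S L)ˣ) : KS S L) = ((u⁻¹ : (KS S L)ˣ) : KS S L) := by
    intro h hh
    have h1 : ksAut S ℚ L h ((u⁻¹ : (KS S L)ˣ) : KS S L) * ksAut S ℚ L h (u : KS S L) = 1 := by
      rw [← map_mul]
      simp
    rw [hu h hh] at h1
    calc ksAut S ℚ L h ((u⁻¹ : (KS S L)ˣ) : KS S L)
        = ksAut S ℚ L h ((u⁻¹ : (KS S L)ˣ) : KS S L) * ((u : KS S L) * ((u⁻¹ : (KS S L)ˣ) : KS S L)) := by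
          simp
      _ = ((u⁻¹ : (KS S L)ˣ) : KS S L) := by
          rw [← mul_assoc, h1, one_mul]
  obtain ⟨w, hw⟩ := hsurj (u : KS S L) hu
  obtain ⟨w', hw'⟩ := hsurj ((u⁻¹ : (KS S L)ˣ) : KS S L) hu'
  have h1 : w * w' = 1 := by
    apply hinj
    rw [map_mul, hw, hw', map_one]
    simp
  refine ⟨⟨w, w', h1, by rw [mul_comm]; exact h1⟩, ?_⟩
  apply Units.ext
  exact hw

/-- `div_L(a) = pull (div_F a)` -/
theorem h17si_div_base (hDD : DescDiv) (hur : UnramOutside S L H) (a : (FF L H)ˣ) :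
    divS S L (Additive.ofMul (Units.map (algebraMap (FF L H) L : FF L H →* L) a)) =
      pullDiv S (FF L H) L (divS S (FF L H) (Additive.ofMul a)) := by
  ext Q
  rw [divS_apply, h17si_pullDiv_apply, divS_apply]
  exact (hDD S L H hur).2 a Q

theorem h17si_stab (σ : AutQ L) (hσ : σ ∈ H) (hσ1 : σ ≠ 1) {p : ℕ} (hp : p.Prime)
    (hH : Nat.card H = p) {V : Type} [AddCommGroup V] (ρ : Representation ℤ (AutQ L) V) (z : V)
    (hz : ρ σ z = z) : ∀ h ∈ H, ρ h z = z := by
  haveI : Fact p.Prime := ⟨hp⟩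
  have htop : Subgroup.zpowers (⟨σ, hσ⟩ : H) = ⊤ :=
    zpowers_eq_top_of_prime_card hH (fun h => hσ1 (congrArg Subtype.val h))
  let St : Subgroup (AutQ L) :=
    { carrier := {g | ρ g z = z}
      one_mem' := by simp
      mul_mem' := by
        intro a b ha hb
        simp only [Set.mem_ofPred_eq] at ha hb ⊢
        rw [map_mul, Module.End.mul_apply, hb, ha]
      inv_mem' := by
        intro a ha
        simp only [Set.mem_ofPred_eq] at ha ⊢
        have : ρ a⁻¹ (ρ a z) = z := by
          rw [← Module.End.mul_apply, ← map_mul, inv_mul_cancel, map_one]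
          rfl
        rw [ha] at this
        exact this }
  intro h hh
  have hmem : (⟨h, hh⟩ : H) ∈ Subgroup.zpowers (⟨σ, hσ⟩ : H) := by rw [htop]; trivial
  obtain ⟨k, hk⟩ := Subgroup.mem_zpowers_iff.mp hmem
  have hk' : σ ^ k = h := by
    have := congrArg Subtype.val hk
    simpa using this
  have : σ ^ k ∈ St := St.zpow_mem (show σ ∈ St from hz) k
  rw [hk'] at this
  exact this

theorem h17si_norm_inv {p : ℕ} (hH : Nat.card H = p) {V : Type} [AddCommGroup V]
    (ρ : Representation ℤ (AutQ L) V) (z : V) (hz : ∀ h ∈ H, ρ h z = z) :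
    (letI : Fintype H := Fintype.ofFinite H
     (∑ h : H, ρ (h : AutQ L) : V →ₗ[ℤ] V) z) = p • z := by
  letI : Fintype H := Fintype.ofFinite H
  rw [LinearMap.sum_apply]
  rw [Finset.sum_congr rfl (fun h _ => hz h.1 h.2)]
  rw [Finset.sum_const, Finset.card_univ, ← Nat.card_eq_fintype_card, hH]

end H17SI
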