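/-
W2-C (S55) block C-finite, slice SI-A (helper17), part 4: the second inequality on `A_L`
(`H17C.SecondIneqAmb`) from WA, POW', CU, DESC-I, DESC-D and the analytic ray class inequality
`H17RAY.h17ray_secondInequality`.
-/
import Fermat.Agent.CFT2.C.SIAmb1_helper17
import Fermat.Agent.CFT2.C.ANRayMain_helper17

set_option autoImplicit false
set_option linter.unusedSectionVars false
set_option linter.unusedVariables false
set_option linter.style.haveILetI false

noncomputable section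

namespace H17SI

open H17C NumberField IsDedekindDomain
open scoped Pointwise WithZero nonZeroDivisors

variable (S : Finset Nat.Primes) (L : Type) [Field L] [NumberField L] (H : Subgroup (AutQ L))

theorem h17si_mem_invA (σ : AutQ L) (z : AmbS S L) :
    z ∈ (ambD S L σ).ker ↔ ambRep S ℚ L σ z = z := by
  rw [AddMonoidHom.mem_ker]
  change ambRep S ℚ L σ z - z = 0 ↔ _
  exact sub_eq_zero

theorem h17si_ambBase_inv (h : AutQ L) (hh : h ∈ H) (w : AmbS S (FF L H)) :
    ambRep S ℚ L h (ambBase S (FF L H) L w) = ambBase S (FF L H) L w := by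
  rw [ambRep_apply, ambBase_apply]
  refine Prod.ext ?_ ?_
  · change Additive.ofMul (h • ideleBase S (FF L H) L (Additive.toMul w.1)) = _
    congr 1
    apply Units.ext
    rw [ideleAct_coe]
    exact h17si_ksBase_inv S L H h hh _
  · exact h17si_pullDiv_inv S L H h hh w.2

/-- the norm of an `H`-invariant element is `p` times it -/
theorem h17si_ambN_inv {p : ℕ} (hH : Nat.card H = p) (z : AmbS S L)
    (hz : ∀ h ∈ H, ambRep S ℚ L h z = z) : ambN S L H z = p • z :=
  h17si_norm_inv L H hH (ambRep S ℚ L) z hz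

/-- the group of norms and principal elements -/
abbrev nrmA : AddSubgroup (AmbS S L) := (ambN S L H).range ⊔ (princS S L).toAddSubgroup

theorem h17si_norm_mem (z : AmbS S L) : ambN S L H z ∈ nrmA S L H :=
  AddSubgroup.mem_sup_left ⟨z, rfl⟩

theorem h17si_princ_mem (x : Additive Lˣ) : princHom S L x ∈ nrmA S L H :=
  AddSubgroup.mem_sup_right ⟨x, rfl⟩


/-- `ambBase (princ_F a) = princ_L a` -/
theorem h17si_ambBase_princ (hDD : DescDiv) (hur : UnramOutside S L H) (a : (FF L H)ˣ) :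
    ambBase S (FF L H) L (princHom S (FF L H) (Additive.ofMul a)) =
      princHom S L (Additive.ofMul (Units.map (algebraMap (FF L H) L : FF L H →* L) a)) := by
  rw [ambBase_apply]
  refine Prod.ext ?_ ?_
  · change Additive.ofMul (ideleBase S (FF L H) L (diagS S (FF L H) a)) =
      Additive.ofMul (diagS S L (Units.map (algebraMap (FF L H) L : FF L H →* L) a))
    rw [h17si_diag_base]
  · exact (h17si_div_base S L H hDD hur a).symm

/-- every invariant element of `A_L` comes from `A_F` -/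
theorem h17si_desc_amb (hDI : DescIdele) (hDD : DescDiv) (hur : UnramOutside S L H)
    (z : AmbS S L) (hz : ∀ h ∈ H, ambRep S ℚ L h z = z) :
    ∃ w : AmbS S (FF L H), ambBase S (FF L H) L w = z := by
  have h1 : ∀ h ∈ H, ksAut S ℚ L h ((Additive.toMul z.1 : (KS S L)ˣ) : KS S L) =
      ((Additive.toMul z.1 : (KS S L)ˣ) : KS S L) := by
    intro h hh
    have := congrArg Prod.fst (hz h hh)
    rw [ambRep_apply] at this
    have h2 : h • (Additive.toMul z.1) = Additive.toMul z.1 := congrArg Additive.toMul this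
    rw [← ideleAct_coe, h2]
  have h2 : ∀ h ∈ H, divRep S ℚ L h z.2 = z.2 := by
    intro h hh
    have := congrArg Prod.snd (hz h hh)
    rw [ambRep_apply] at this
    exact this
  obtain ⟨v, hv⟩ := h17si_desc_idele S L H hDI (Additive.toMul z.1) h1
  obtain ⟨c, hc⟩ := (hDD S L H hur).1 z.2 h2
  refine ⟨(Additive.ofMul v, c), ?_⟩
  rw [ambBase_apply]
  refine Prod.ext ?_ ?_
  · change Additive.ofMul (ideleBase S (FF L H) L v) = z.1
    rw [hv]
    rfl
  · ext Q
    rw [h17si_pullDiv_apply]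
    exact (hc Q).symm


section beta

variable (σ : AutQ L)

/-- the quotient `A_L^H / (N_H A_L + Lˣ) ∩ A_L^H` -/
abbrev XQ : Type := (ambD S L σ).ker ⧸ (nrmA S L H).addSubgroupOf (ambD S L σ).ker

/-- `A_F → A_L^H` -/
def base0 (hσ : σ ∈ H) : AmbS S (FF L H) →+ (ambD S L σ).ker :=
  (ambBase S (FF L H) L).codRestrict _
    (fun w => (h17si_mem_invA S L σ _).mpr (h17si_ambBase_inv S L H σ hσ w))

theorem h17si_base0_coe (hσ : σ ∈ H) (w : AmbS S (FF L H)) :
    ((base0 S L H σ hσ w : (ambD S L σ).ker) : AmbS S L) = ambBase S (FF L H) L w := rfl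

/-- `β : A_F → X` -/
def beta (hσ : σ ∈ H) : AmbS S (FF L H) →+ XQ S L H σ :=
  (QuotientAddGroup.mk' _).comp (base0 S L H σ hσ)

theorem h17si_beta_eq_zero_iff (hσ : σ ∈ H) (w : AmbS S (FF L H)) :
    beta S L H σ hσ w = 0 ↔ ambBase S (FF L H) L w ∈ nrmA S L H := by
  unfold beta
  rw [AddMonoidHom.comp_apply, QuotientAddGroup.mk'_apply, QuotientAddGroup.eq_zero_iff,
    AddSubgroup.mem_addSubgroupOf, h17si_base0_coe]

theorem h17si_beta_surjective {p : ℕ} (hp : p.Prime) (hH : Nat.card H = p)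
    (hDI : DescIdele) (hDD : DescDiv) (hur : UnramOutside S L H)
    (hσ : σ ∈ H) (hσ1 : σ ≠ 1) : Function.Surjective (beta S L H σ hσ) := by
  intro y
  obtain ⟨⟨z, hz⟩, rfl⟩ := QuotientAddGroup.mk'_surjective _ y
  have hz' : ambRep S ℚ L σ z = z := (h17si_mem_invA S L σ z).mp hz
  have hall := h17si_stab L H σ hσ hσ1 hp hH (ambRep S ℚ L) z hz'
  obtain ⟨w, hw⟩ := h17si_desc_amb S L H hDI hDD hur z hall
  refine ⟨w, ?_⟩
  unfold beta
  rw [AddMonoidHom.comp_apply]
  congr 1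
  apply Subtype.ext
  rw [h17si_base0_coe]
  exact hw

/-- `β` kills the principal elements -/
theorem h17si_beta_princ (hDD : DescDiv) (hur : UnramOutside S L H) (hσ : σ ∈ H)
    (a : (FF L H)ˣ) : beta S L H σ hσ (princHom S (FF L H) (Additive.ofMul a)) = 0 := by
  rw [h17si_beta_eq_zero_iff, h17si_ambBase_princ S L H hDD hur]
  exact h17si_princ_mem S L H _

/-- `β` kills `p A_F` -/
theorem h17si_beta_nsmul {p : ℕ} (hH : Nat.card H = p) (hσ : σ ∈ H) (w : AmbS S (FF L H)) :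
    beta S L H σ hσ (p • w) = 0 := by
  rw [h17si_beta_eq_zero_iff, map_nsmul,
    ← h17si_ambN_inv S L H hH _ (fun h hh => h17si_ambBase_inv S L H h hh w)]
  exact h17si_norm_mem S L H _

theorem h17si_nsmul_beta {p : ℕ} (hH : Nat.card H = p) (hσ : σ ∈ H) (w : AmbS S (FF L H)) :
    p • beta S L H σ hσ w = 0 := by
  rw [← map_nsmul]
  exact h17si_beta_nsmul S L H σ hH hσ w

end beta


section cong

variable (K : Type) [Field K] [NumberField K]

theorem h17si_mS_ne_zero : mS S ≠ 0 := by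
  unfold mS
  rw [Finset.prod_ne_zero_iff]
  intro q _
  exact q.2.ne_zero

theorem h17si_mS_supported (j : ℕ) (r : ℕ) (hr : r.Prime) (hd : r ∣ mS S ^ j) :
    ∃ q ∈ S, (q : ℕ) = r := by
  have h1 : r ∣ mS S := hr.dvd_of_dvd_pow hd
  unfold mS at h1
  obtain ⟨q, hq, hrq⟩ := (Prime.dvd_finsetProd_iff (Nat.Prime.prime hr) _).mp h1
  exact ⟨q, hq, ((Nat.prime_dvd_prime_iff_eq hr q.2).mp hrq).symm⟩

theorem h17si_diagRing_mem_latS (a : 𝓞 K) : diagRing S K (a : K) ∈ latS S K :=
  Subring.subset_closure (Or.inl ⟨a, rfl⟩)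

theorem h17si_natCast_mem_latS (n : ℕ) : ((n : ℕ) : KS S K) ∈ latS S K :=
  natCast_mem (latS S K) n

theorem h17si_congIdele_mono (k : ℕ) :
    congIdele S K (mS S ^ (k + 1)) ≤ congIdele S K (mS S ^ k) := by
  rintro u ⟨hu, y, hy, hy'⟩
  refine ⟨hu, (mS S : KS S K) * y, (latS S K).mul_mem (h17si_natCast_mem_latS S K _) hy, ?_⟩
  rw [hy']
  push_cast
  ring

/-- `a ≡ 1 mod m_S^{k+1}` ⇒ `a ⊗ 1 ∈ 1 + m_S^k Λ` -/
theorem h17si_diag_mem_cong (hCU : CongUnit) (k : ℕ) (a : 𝓞 K) (x : Kˣ)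
    (hx : (x : K) = (a : K))
    (ha : a - 1 ∈ Ideal.span {(((mS S ^ (k + 1) : ℕ) : ℤ) : 𝓞 K)}) :
    diagS S K x ∈ congIdele S K (mS S ^ k) := by
  obtain ⟨b, hb⟩ := Ideal.mem_span_singleton'.mp ha
  have hval : ((diagS S K x : (KS S K)ˣ) : KS S K) = diagRing S K (a : K) := by
    change diagRing S K (x : K) = _
    rw [hx]
  have ha' : (a : K) = 1 + ((mS S ^ (k + 1) : ℕ) : K) * (b : K) := by
    have h1 : a = 1 + b * (((mS S ^ (k + 1) : ℕ) : ℤ) : 𝓞 K) := by
      rw [hb]; ring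
    have h2 : (a : K) = ((1 + b * (((mS S ^ (k + 1) : ℕ) : ℤ) : 𝓞 K) : 𝓞 K) : K) := by
      rw [← h1]
    rw [h2]
    push_cast
    ring
  have hdiag : diagRing S K (a : K) =
      1 + ((mS S ^ (k + 1) : ℕ) : KS S K) * diagRing S K (b : K) := by
    rw [ha', map_add, map_mul, map_one, map_natCast]
  have hy : ((mS S ^ k : ℕ) : KS S K) * diagRing S K (b : K) ∈ latS S K :=
    (latS S K).mul_mem (h17si_natCast_mem_latS S K _) (h17si_diagRing_mem_latS S K b)
  obtain ⟨y', hy', hyy⟩ := hCU S K _ hy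
  have hone : ((diagS S K x : (KS S K)ˣ) : KS S K) * y' = 1 := by
    rw [hval, hdiag]
    have e : (1 + ((mS S ^ (k + 1) : ℕ) : KS S K) * diagRing S K (b : K)) =
        (1 + (mS S : KS S K) * (((mS S ^ k : ℕ) : KS S K) * diagRing S K (b : K))) := by
      push_cast
      ring
    rw [e]
    exact hyy
  have hinv : (((diagS S K x)⁻¹ : (KS S K)ˣ) : KS S K) = y' := by
    rw [Units.inv_eq_of_mul_eq_one_right hone]
  refine ⟨⟨?_, ?_⟩, (mS S : KS S K) * diagRing S K (b : K),
    (latS S K).mul_mem (h17si_natCast_mem_latS S K _) (h17si_diagRing_mem_latS S K b), ?_⟩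
  · rw [hval]; exact h17si_diagRing_mem_latS S K a
  · rw [hinv]; exact hy'
  · rw [hval, hdiag]
    push_cast
    ring

end cong


section main

variable (σ : AutQ L)

theorem h17si_pair_split (u : Additive (KS S (FF L H))ˣ) (c : DivS S (FF L H)) :
    ((u, c) : AmbS S (FF L H)) = (u, 0) + (0, c) := by
  rw [Prod.mk_add_mk, add_zero, zero_add]

theorem h17si_pair_add (c c' : DivS S (FF L H)) :
    (((0 : Additive (KS S (FF L H))ˣ), c + c') : AmbS S (FF L H)) = (0, c) + (0, c') := by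
  rw [Prod.mk_add_mk, add_zero]

/-- the homomorphism `φ` from the ideals of `F` to `X` -/
def phiSI (hσ : σ ∈ H) : (Ideal (𝓞 (FF L H)))⁰ →* Multiplicative (XQ S L H σ) where
  toFun I := Multiplicative.ofAdd
    (beta S L H σ hσ (0, idlDivFun S (FF L H) (I : Ideal (𝓞 (FF L H)))))
  map_one' := by
    change Multiplicative.ofAdd
      (beta S L H σ hσ (0, idlDivFun S (FF L H) (1 : Ideal (𝓞 (FF L H))))) = 1
    rw [h17si_idlDivFun_one]
    have : ((0 : Additive (KS S (FF L H))ˣ), (0 : DivS S (FF L H))) = (0 : AmbS S (FF L H)) := rfl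
    rw [this, map_zero]
    rfl
  map_mul' I J := by
    change Multiplicative.ofAdd (beta S L H σ hσ (0, idlDivFun S (FF L H)
      ((I : Ideal (𝓞 (FF L H))) * (J : Ideal (𝓞 (FF L H)))))) =
      Multiplicative.ofAdd _ * Multiplicative.ofAdd _
    rw [h17si_idlDivFun_mul S (FF L H) (nonZeroDivisors.coe_ne_zero I)
      (nonZeroDivisors.coe_ne_zero J), h17si_pair_add, map_add]
    rfl

theorem h17si_phiSI_apply (hσ : σ ∈ H) (I : (Ideal (𝓞 (FF L H)))⁰) :
    phiSI S L H σ hσ I = Multiplicative.ofAdd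
      (beta S L H σ hσ (0, idlDivFun S (FF L H) (I : Ideal (𝓞 (FF L H))))) := rfl

/-- `β` kills the congruence ideles -/
theorem h17si_beta_cong {p : ℕ} (hH : Nat.card H = p) (hσ : σ ∈ H) (k : ℕ)
    (hk : ∀ u ∈ congIdele S (FF L H) (mS S ^ k), ∃ v ∈ unitIdele S (FF L H), v ^ p = u)
    (u : (KS S (FF L H))ˣ) (hu : u ∈ congIdele S (FF L H) (mS S ^ k)) :
    beta S L H σ hσ (Additive.ofMul u, 0) = 0 := by
  obtain ⟨v, _, hv⟩ := hk u hu
  have : ((Additive.ofMul u, 0) : AmbS S (FF L H)) = p • ((Additive.ofMul v, 0) : AmbS S (FF L H)) := by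
    refine Prod.ext ?_ ?_
    · change Additive.ofMul u = p • Additive.ofMul v
      rw [← hv]
      rfl
    · change (0 : DivS S (FF L H)) = p • (0 : DivS S (FF L H))
      rw [smul_zero]
  rw [this]
  exact h17si_beta_nsmul S L H σ hH hσ _

/-- (hφ) -/
theorem h17si_phi_princ {p : ℕ} (hH : Nat.card H = p) (hCU : CongUnit) (hDD : DescDiv)
    (hur : UnramOutside S L H) (hσ : σ ∈ H) (k : ℕ)
    (hk : ∀ u ∈ congIdele S (FF L H) (mS S ^ k), ∃ v ∈ unitIdele S (FF L H), v ^ p = u)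
    (A : (Ideal (𝓞 (FF L H)))⁰) (a : 𝓞 (FF L H))
    (hA : (A : Ideal (𝓞 (FF L H))) = Ideal.span {a})
    (ha : a - 1 ∈ Ideal.span {(((mS S ^ (k + 1) : ℕ) : ℤ) : 𝓞 (FF L H))}) :
    phiSI S L H σ hσ A = 1 := by
  have ha0 : a ≠ 0 := by
    rintro rfl
    apply nonZeroDivisors.coe_ne_zero A
    rw [hA]
    simp
  have ha0' : ((a : FF L H)) ≠ 0 := by
    intro h
    apply ha0
    exact RingOfIntegers.ext (by rw [h]; rfl)
  set x : (FF L H)ˣ := Units.mk0 (a : FF L H) ha0' with hx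
  have hxa : (x : FF L H) = (a : FF L H) := rfl
  rw [h17si_phiSI_apply, hA, h17si_idlDivFun_span S (FF L H) a ha0 x hxa]
  have hsplit : (((0 : Additive (KS S (FF L H))ˣ), divS S (FF L H) (Additive.ofMul x)) :
      AmbS S (FF L H)) = princHom S (FF L H) (Additive.ofMul x) -
        (Additive.ofMul (diagS S (FF L H) x), 0) := by
    refine Prod.ext ?_ ?_
    · change (0 : Additive (KS S (FF L H))ˣ) =
        Additive.ofMul (diagS S (FF L H) x) - Additive.ofMul (diagS S (FF L H) x)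
      rw [sub_self]
    · change divS S (FF L H) (Additive.ofMul x) = divS S (FF L H) (Additive.ofMul x) - 0
      rw [sub_zero]
  rw [hsplit, map_sub, h17si_beta_princ S L H σ hDD hur hσ,
    h17si_beta_cong S L H σ hH hσ k hk _
      (h17si_diag_mem_cong S (FF L H) hCU k a x hxa ha), sub_zero]
  rfl

end main


section gen

variable (K : Type) [Field K] [NumberField K]

theorem h17si_toIntDiv_add (c c' : PrimesS S K →₀ ℕ) :
    toIntDiv S K (c + c') = toIntDiv S K c + toIntDiv S K c' := by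
  ext P
  simp [h17si_toIntDiv_apply]

theorem h17si_toIntDiv_nsmul (n : ℕ) (c : PrimesS S K →₀ ℕ) :
    toIntDiv S K (n • c) = n • toIntDiv S K c := by
  ext P
  simp [h17si_toIntDiv_apply]

theorem h17si_posneg (c : DivS S K) :
    c = toIntDiv S K (c.mapRange Int.toNat rfl) - toIntDiv S K ((-c).mapRange Int.toNat rfl) := by
  ext P
  simp only [Finsupp.coe_sub, Pi.sub_apply, h17si_toIntDiv_apply, Finsupp.mapRange_apply,
    Finsupp.coe_neg, Pi.neg_apply]
  omega

end gen

section main2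

variable (σ : AutQ L)

/-- (hgen) -/
theorem h17si_gen {p : ℕ} (hp : p.Prime) (hH : Nat.card H = p) (hWA : WeakApprox)
    (hDI : DescIdele) (hDD : DescDiv) (hur : UnramOutside S L H) (hσ : σ ∈ H) (hσ1 : σ ≠ 1)
    (k : ℕ)
    (hk : ∀ u ∈ congIdele S (FF L H) (mS S ^ k), ∃ v ∈ unitIdele S (FF L H), v ^ p = u)
    (y : Multiplicative (XQ S L H σ)) :
    ∃ I : (Ideal (𝓞 (FF L H)))⁰,
      IsCoprime (I : Ideal (𝓞 (FF L H)))
        (Ideal.span {(((mS S ^ (k + 1) : ℕ) : ℤ) : 𝓞 (FF L H))}) ∧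
      phiSI S L H σ hσ I = y := by
  obtain ⟨⟨u, c⟩, hw⟩ := h17si_beta_surjective S L H σ hp hH hDI hDD hur hσ hσ1
    (Multiplicative.toAdd y)
  obtain ⟨a, ha⟩ := hWA S (FF L H) (mS S ^ k) (pow_ne_zero _ (h17si_mS_ne_zero S))
    (Additive.toMul u)
  set u' : (KS S (FF L H))ˣ := Additive.toMul u * (diagS S (FF L H) a)⁻¹ with hu'
  set c' : DivS S (FF L H) := c - divS S (FF L H) (Additive.ofMul a) with hc'
  have e1 : ((u, c) : AmbS S (FF L H)) =
      princHom S (FF L H) (Additive.ofMul a) + (Additive.ofMul u', 0) + (0, c') := by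
    refine Prod.ext ?_ ?_
    · change u = Additive.ofMul (diagS S (FF L H) a) + Additive.ofMul u' + 0
      rw [add_zero, hu']
      change u = Additive.ofMul (diagS S (FF L H) a * (Additive.toMul u * (diagS S (FF L H) a)⁻¹))
      rw [mul_comm (Additive.toMul u), mul_inv_cancel_left]
      rfl
    · change c = divS S (FF L H) (Additive.ofMul a) + 0 + c'
      rw [hc']
      abel
  have hb1 : beta S L H σ hσ (u, c) = beta S L H σ hσ (0, c') := by
    rw [e1, map_add, map_add, h17si_beta_princ S L H σ hDD hur hσ,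
      h17si_beta_cong S L H σ hH hσ k hk u' ha]
    abel
  set cp : PrimesS S (FF L H) →₀ ℕ := c'.mapRange Int.toNat rfl with hcp
  set cn : PrimesS S (FF L H) →₀ ℕ := (-c').mapRange Int.toNat rfl with hcn
  set e : PrimesS S (FF L H) →₀ ℕ := cp + (p - 1) • cn with he
  have hpn : toIntDiv S (FF L H) e = c' + p • toIntDiv S (FF L H) cn := by
    have h1 := h17si_posneg S (FF L H) c'
    rw [he, h17si_toIntDiv_add, h17si_toIntDiv_nsmul]
    have hp1 : p = (p - 1) + 1 := by have := hp.one_lt; omega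
    conv_rhs => rw [h1, hp1, add_smul, one_smul]
    abel
  have hb2 : beta S L H σ hσ (0, toIntDiv S (FF L H) e) = beta S L H σ hσ (0, c') := by
    rw [hpn, h17si_pair_add, map_add]
    have : ((0 : Additive (KS S (FF L H))ˣ), p • toIntDiv S (FF L H) cn) =
        p • (((0 : Additive (KS S (FF L H))ˣ), toIntDiv S (FF L H) cn) : AmbS S (FF L H)) := by
      refine Prod.ext ?_ ?_
      · change (0 : Additive (KS S (FF L H))ˣ) = p • 0
        rw [smul_zero]
      · rfl
    rw [this, h17si_beta_nsmul S L H σ hH hσ]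
    abel
  refine ⟨⟨effIdeal S (FF L H) e,
    mem_nonZeroDivisors_of_ne_zero (h17si_effIdeal_ne_bot S (FF L H) e)⟩, ?_, ?_⟩
  · exact h17si_effIdeal_coprime S (FF L H) e (mS S ^ (k + 1))
      (pow_ne_zero _ (h17si_mS_ne_zero S)) (h17si_mS_supported S (k + 1))
  · rw [h17si_phiSI_apply]
    change Multiplicative.ofAdd (beta S L H σ hσ
      (0, idlDivFun S (FF L H) (effIdeal S (FF L H) e))) = y
    rw [h17si_idlDivFun_effIdeal, hb2, ← hb1, hw]
    rfl

end main2


section split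

/-- the norm of a prime divisor -/
def nrmDiv (Q₀ : PrimesS S L) : DivS S L :=
  letI : Fintype H := Fintype.ofFinite H
  ∑ h : H, divRep S ℚ L (h : AutQ L) (Finsupp.single Q₀ 1)

theorem h17si_nrmDiv_apply (Q₀ Q : PrimesS S L) :
    nrmDiv S L H Q₀ Q =
      (letI : Fintype H := Fintype.ofFinite H
       open Classical in ∑ h : H, if (h : AutQ L) • Q₀ = Q then (1 : ℤ) else 0) := by
  classical
  letI : Fintype H := Fintype.ofFinite H
  unfold nrmDiv
  rw [Finsupp.finsetSum_apply]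
  refine Finset.sum_congr rfl (fun h _ => ?_)
  rw [divRep_single, Finsupp.single_apply]

theorem h17si_ambN_single (Q₀ : PrimesS S L) :
    ambN S L H ((0 : Additive (KS S L)ˣ), Finsupp.single Q₀ (1 : ℤ)) = (0, nrmDiv S L H Q₀) := by
  letI : Fintype H := Fintype.ofFinite H
  change (∑ h : H, ambRep S ℚ L (h : AutQ L) : AmbS S L →ₗ[ℤ] AmbS S L)
    ((0 : Additive (KS S L)ˣ), Finsupp.single Q₀ (1 : ℤ)) = _
  rw [LinearMap.sum_apply]
  refine Prod.ext ?_ ?_
  · rw [Prod.fst_sum]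
    apply Finset.sum_eq_zero
    intro h _
    rw [ambRep_apply]
    exact map_zero _
  · rw [Prod.snd_sum]
    rfl

theorem h17si_nrmDiv_inv (Q₀ : PrimesS S L) (τ : AutQ L) (hτ : τ ∈ H) :
    divRep S ℚ L τ (nrmDiv S L H Q₀) = nrmDiv S L H Q₀ := by
  letI : Fintype H := Fintype.ofFinite H
  unfold nrmDiv
  rw [map_sum]
  have : ∀ h : H, divRep S ℚ L τ (divRep S ℚ L (h : AutQ L) (Finsupp.single Q₀ 1)) =
      divRep S ℚ L (((⟨τ, hτ⟩ : H) * h : H) : AutQ L) (Finsupp.single Q₀ 1) := by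
    intro h
    rw [Subgroup.coe_mul, map_mul]
    rfl
  rw [Finset.sum_congr rfl (fun h _ => this h)]
  exact Fintype.sum_equiv (Equiv.mulLeft (⟨τ, hτ⟩ : H)) _ _ (fun h => rfl)

end split


section split2

theorem h17si_nrmDiv_eq_pull {p : ℕ} (hp : p.Prime) (hH : Nat.card H = p) (hDD : DescDiv)
    (hur : UnramOutside S L H) (P' : PrimesS S (FF L H)) (Q₀ : PrimesS S L)
    (hQ₀ : PrimesS.under S (FF L H) L Q₀ = P')
    (hcard : Set.ncard {Q : PrimesS S L | PrimesS.under S (FF L H) L Q = P'} = p) :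
    nrmDiv S L H Q₀ = pullDiv S (FF L H) L (Finsupp.single P' 1) := by
  classical
  letI : Fintype H := Fintype.ofFinite H
  obtain ⟨c, hc⟩ := (hDD S L H hur).1 (nrmDiv S L H Q₀)
    (fun τ hτ => h17si_nrmDiv_inv S L H Q₀ τ hτ)
  have hfin := h17si_under_fiber_finite S (FF L H) L P'
  have hmem : ∀ Q : PrimesS S L, Q ∈ hfin.toFinset ↔ PrimesS.under S (FF L H) L Q = P' := by
    intro Q
    rw [Set.Finite.mem_toFinset]
    rfl
  have hunder : ∀ h : H, PrimesS.under S (FF L H) L ((h : AutQ L) • Q₀) = P' := by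
    intro h
    rw [h17si_under_smul S L H h.1 h.2, hQ₀]
  have sum1 : ∑ Q ∈ hfin.toFinset, nrmDiv S L H Q₀ Q = (p : ℤ) := by
    have : ∀ Q ∈ hfin.toFinset, nrmDiv S L H Q₀ Q =
        ∑ h : H, if (h : AutQ L) • Q₀ = Q then (1 : ℤ) else 0 := by
      intro Q _
      rw [h17si_nrmDiv_apply]
    rw [Finset.sum_congr rfl this, Finset.sum_comm]
    have h2 : ∀ h : H, (∑ Q ∈ hfin.toFinset, if (h : AutQ L) • Q₀ = Q then (1 : ℤ) else 0) = 1 := by
      intro h
      rw [Finset.sum_ite_eq, if_pos ((hmem _).mpr (hunder h))]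
    rw [Finset.sum_congr rfl (fun h _ => h2 h), Finset.sum_const, Finset.card_univ,
      ← Nat.card_eq_fintype_card, hH]
    simp
  have sum2 : ∑ Q ∈ hfin.toFinset, nrmDiv S L H Q₀ Q = (p : ℤ) * c P' := by
    have : ∀ Q ∈ hfin.toFinset, nrmDiv S L H Q₀ Q = c P' := by
      intro Q hQ
      rw [hc Q]
      change c (PrimesS.under S (FF L H) L Q) = c P'
      rw [(hmem Q).mp hQ]
    rw [Finset.sum_congr rfl this, Finset.sum_const, ← Set.ncard_eq_toFinset_card _ hfin, hcard]
    simp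
  have hcP : c P' = 1 := by
    have h3 : (p : ℤ) * c P' = (p : ℤ) * 1 := by rw [← sum2, sum1, mul_one]
    exact mul_left_cancel₀ (by exact_mod_cast hp.ne_zero) h3
  ext Q
  rw [h17si_pullDiv_apply]
  by_cases hQ : PrimesS.under S (FF L H) L Q = P'
  · rw [hc Q]
    change c (PrimesS.under S (FF L H) L Q) = _
    rw [hQ, hcP, Finsupp.single_eq_same]
  · rw [Finsupp.single_eq_of_ne (by exact hQ), h17si_nrmDiv_apply]
    apply Finset.sum_eq_zero
    intro h _
    rw [if_neg]
    intro hh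
    apply hQ
    rw [← hh]
    exact hunder h

end split2


section split3

variable (σ : AutQ L)

theorem h17si_fiber_ncard (P' : PrimesS S (FF L H)) :
    Set.ncard {Q : PrimesS S L | PrimesS.under S (FF L H) L Q = P'} =
      (P'.1.primesOver (𝓞 L)).ncard := by
  have hinj : Function.Injective (fun Q : PrimesS S L => Q.1) := fun _ _ h => Subtype.ext h
  rw [← Set.ncard_image_of_injective _ hinj]
  congr 1
  ext Q
  constructor
  · rintro ⟨Q', hQ', rfl⟩
    refine ⟨Q'.2.1, ⟨?_⟩⟩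
    have := congrArg Subtype.val hQ'
    exact this.symm
  · rintro ⟨hQ1, ⟨hQ2⟩⟩
    have hne : Q ≠ ⊥ := by
      rintro rfl
      apply P'.2.2.1
      rw [hQ2]
      change Ideal.comap (algebraMap (𝓞 (FF L H)) (𝓞 L)) ⊥ = ⊥
      rw [← RingHom.ker_eq_comap_bot]
      exact (RingHom.injective_iff_ker_eq_bot _).mp
        (FaithfulSMul.algebraMap_injective (𝓞 (FF L H)) (𝓞 L))
    have hS : ∀ q ∈ S, (((q : ℕ) : ℤ) : 𝓞 L) ∉ Q := by
      intro q hq hmem
      apply P'.2.2.2 q hq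
      rw [hQ2]
      change algebraMap (𝓞 (FF L H)) (𝓞 L) _ ∈ Q
      rw [map_intCast]
      exact hmem
    refine ⟨⟨Q, hQ1, hne, hS⟩, ?_, rfl⟩
    apply Subtype.ext
    exact hQ2.symm

/-- (hsp) -/
theorem h17si_phi_split {p : ℕ} (hp : p.Prime) (hH : Nat.card H = p) (hDD : DescDiv)
    (hur : UnramOutside S L H) (hσ : σ ∈ H) (P : (Ideal (𝓞 (FF L H)))⁰)
    (hP : (P : Ideal (𝓞 (FF L H))).IsPrime)
    (hsp : H14CFT.SplitsCompletely (FF L H) L (P : Ideal (𝓞 (FF L H)))) :
    phiSI S L H σ hσ P = 1 := by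
  classical
  rw [h17si_phiSI_apply]
  have hPne : (P : Ideal (𝓞 (FF L H))) ≠ ⊥ := nonZeroDivisors.coe_ne_zero P
  by_cases hS : ∀ q ∈ S, (((q : ℕ) : ℤ) : 𝓞 (FF L H)) ∉ (P : Ideal (𝓞 (FF L H)))
  · set P' : PrimesS S (FF L H) := ⟨P, hP, hPne, hS⟩ with hP'
    have hcard : Set.ncard {Q : PrimesS S L | PrimesS.under S (FF L H) L Q = P'} = p := by
      rw [h17si_fiber_ncard]
      have h1 : (P'.1.primesOver (𝓞 L)).ncard = Module.finrank (FF L H) L := hsp
      rw [h1, IntermediateField.finrank_fixedField_eq_card, hH]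
    have hne : {Q : PrimesS S L | PrimesS.under S (FF L H) L Q = P'}.Nonempty := by
      apply Set.nonempty_of_ncard_ne_zero
      rw [hcard]
      exact hp.ne_zero
    obtain ⟨Q₀, hQ₀⟩ := hne
    have hidl : idlDivFun S (FF L H) (P : Ideal (𝓞 (FF L H))) = Finsupp.single P' 1 :=
      h17si_idlDivFun_prime S (FF L H) P'
    rw [hidl]
    have hz : beta S L H σ hσ ((0 : Additive (KS S (FF L H))ˣ), Finsupp.single P' (1 : ℤ)) = 0 := by
      rw [h17si_beta_eq_zero_iff]
      have e : ambBase S (FF L H) L ((0 : Additive (KS S (FF L H))ˣ), Finsupp.single P' (1 : ℤ)) =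
          ambN S L H ((0 : Additive (KS S L)ˣ), Finsupp.single Q₀ (1 : ℤ)) := by
        rw [h17si_ambN_single, h17si_nrmDiv_eq_pull S L H hp hH hDD hur P' Q₀ hQ₀ hcard,
          ambBase_apply]
        refine Prod.ext ?_ rfl
        change Additive.ofMul (ideleBase S (FF L H) L 1) = 0
        rw [map_one]
        rfl
      rw [e]
      exact h17si_norm_mem S L H _
    rw [hz]
    rfl
  · simp only [not_forall, not_not] at hS
    obtain ⟨q, hq, hqP⟩ := hS
    have hidl : idlDivFun S (FF L H) (P : Ideal (𝓞 (FF L H))) = 0 := by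
      ext Q
      rw [h17si_idlDivFun_apply]
      unfold idlCount
      have hv : (⟨P, hP, hPne⟩ : HeightOneSpectrum (𝓞 (FF L H))) ≠ Q.toHOS := by
        intro e
        have e' : (P : Ideal (𝓞 (FF L H))) = Q.1 := congrArg HeightOneSpectrum.asIdeal e
        apply Q.2.2.2 q hq
        rw [← e']
        exact hqP
      exact FractionalIdeal.count_maximal_coprime (FF L H) Q.toHOS hv
    rw [hidl]
    have : ((0 : Additive (KS S (FF L H))ˣ), (0 : DivS S (FF L H))) = (0 : AmbS S (FF L H)) := rfl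
    rw [this, map_zero]
    rfl

end split3

/-- **(SI-A)** the second inequality on `A_L`. -/
theorem h17si_secondIneqAmb (hWA : WeakApprox) (hPOW : PowOpenS') (hCU : CongUnit)
    (hDI : DescIdele) (hDD : DescDiv) : SecondIneqAmb := by
  intro p S L _ _ H hp hH hur σ hσ hσ1
  obtain ⟨k, hk⟩ := hPOW S (FF L H) p hp.ne_zero
  have h𝔪 : (Ideal.span {(((mS S ^ (k + 1) : ℕ) : ℤ) : 𝓞 (FF L H))} : Ideal (𝓞 (FF L H))) ≠ ⊥ := by
    rw [Ne, Ideal.span_singleton_eq_bot]
    have : mS S ^ (k + 1) ≠ 0 := pow_ne_zero _ (h17si_mS_ne_zero S)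
    exact_mod_cast this
  have key := H17RAY.h17ray_secondInequality (FF L H) L (X := Multiplicative (XQ S L H σ))
    (Ideal.span {(((mS S ^ (k + 1) : ℕ) : ℤ) : 𝓞 (FF L H))}) 1 (phiSI S L H σ hσ) h𝔪 one_ne_zero
    (fun y => h17si_gen S L H σ hp hH hWA hDI hDD hur hσ hσ1 k hk y)
    (fun A a hA ha => h17si_phi_princ S L H σ hH hCU hDD hur hσ k hk A a hA ha)
    (fun P hP _ hsp => h17si_phi_split S L H σ hp hH hDD hur hσ P hP hsp)
  obtain ⟨hfin, hle⟩ := key
  have hfr : Module.finrank (FF L H) L = p := by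
    rw [IntermediateField.finrank_fixedField_eq_card, hH]
  rw [hfr] at hle
  have hcard : ((ambN S L H).range ⊔ (princS S L).toAddSubgroup).relIndex (ambD S L σ).ker =
      Nat.card (Multiplicative (XQ S L H σ)) := rfl
  rw [hcard]
  refine ⟨?_, hle⟩
  haveI := hfin
  exact Nat.card_pos.ne'

end H17SI

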