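import Mathlib
import Fermat.Agent.CFT2.C.Slices3_helper17
import Fermat.Agent.CFT2.C.DescCls_helper22

/-!
# W2-C (S55), block C-finite, wave 2, slice SI (helper22)

The second inequality for `C_L` from the second inequality on `A_L` (SI-A) and Hilbert 90:
`H22C.h22c_h0_eq`: `[C_L^H : N_H C_L] = [A_L^H : (N_H A_L + Lˣ) ∩ A_L^H]` for `|H| = p`, `S ≠ ∅`;
`H22C.h22c_secondIneqNE : H17C.SecondIneqAmb → H17C.SecondIneqNE`.
-/

set_option autoImplicit false
set_option linter.unusedSectionVars false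
set_option linter.unusedSimpArgs false
set_option linter.unusedVariables false
set_option linter.style.haveILetI false

noncomputable section

namespace H22C

open NumberField IsDedekindDomain TensorProduct
open scoped Pointwise

variable {S : Finset Nat.Primes} {L : Type} [Field L] [NumberField L]
  {H : Subgroup (H17C.AutQ L)}

/-- in a group of prime order every element is a power of a nontrivial element -/
theorem h22c_pow_of_prime {p : ℕ} (hp : p.Prime) (hcard : Nat.card H = p) {σ : H17C.AutQ L}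
    (hσ : σ ∈ H) (hσ1 : σ ≠ 1) (h : H17C.AutQ L) (hh : h ∈ H) : ∃ k : ℤ, h = σ ^ k := by
  haveI : Fact p.Prime := ⟨hp⟩
  have h1 : (⟨σ, hσ⟩ : H) ≠ 1 := fun e => hσ1 (congrArg Subtype.val e)
  have h2 := zpowers_eq_top_of_prime_card (G := H) hcard h1
  have h3 : (⟨h, hh⟩ : H) ∈ Subgroup.zpowers (⟨σ, hσ⟩ : H) := by rw [h2]; trivial
  obtain ⟨k, hk⟩ := Subgroup.mem_zpowers_iff.1 h3
  exact ⟨k, by
    have := congrArg Subtype.val hk
    simpa using this.symm⟩

theorem h22c_rep_zpow {V : Type} [AddCommGroup V] (ρ : Representation ℤ (H17C.AutQ L) V)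
    (σ : H17C.AutQ L) (v : V) (hv : ρ σ v = v) (k : ℤ) : ρ (σ ^ k) v = v := by
  have hinv : ρ σ⁻¹ v = v := by
    have h1 : ρ σ⁻¹ (ρ σ v) = v := by
      rw [← Module.End.mul_apply, ← map_mul, inv_mul_cancel, map_one, Module.End.one_apply]
    rwa [hv] at h1
  have hnat : ∀ (τ : H17C.AutQ L), ρ τ v = v → ∀ n : ℕ, ρ (τ ^ n) v = v := by
    intro τ hτ n
    induction n with
    | zero => rw [pow_zero, map_one, Module.End.one_apply]
    | succ n ih => rw [pow_succ, map_mul, Module.End.mul_apply, hτ, ih]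
  rcases Int.eq_nat_or_neg k with ⟨n, rfl | rfl⟩
  · rw [zpow_natCast]
    exact hnat σ hv n
  · rw [zpow_neg, zpow_natCast, ← inv_pow]
    exact hnat σ⁻¹ hinv n

section maps

variable (S L H)

/-- `π : A_L → C_L` as an additive map -/
def h22c_pi : H17C.AmbS S L →+ H17C.ClS S L := (H17C.clsMk S L).toAddMonoidHom

theorem h22c_pi_apply (z : H17C.AmbS S L) : h22c_pi S L z = H17C.clsMk S L z := rfl

theorem h22c_pi_ambN (a : H17C.AmbS S L) :
    h22c_pi S L (H17C.ambN S L H a) = H17C.clsN S L H (h22c_pi S L a) := by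
  letI : Fintype H := Fintype.ofFinite H
  show H17C.clsMk S L ((∑ h : H, H17C.ambRep S ℚ L (h : H17C.AutQ L)) a) =
    (∑ h : H, H17C.clsRep S ℚ L (h : H17C.AutQ L)) (H17C.clsMk S L a)
  rw [LinearMap.sum_apply, LinearMap.sum_apply, map_sum]
  rfl

end maps

/-- `π⁻¹(N_H C_L) = N_H A_L + Lˣ` -/
theorem h22c_comap_range :
    (H17C.clsN S L H).range.comap (h22c_pi S L) =
      (H17C.ambN S L H).range ⊔ (H17C.princS S L).toAddSubgroup := by
  ext x
  rw [AddSubgroup.mem_comap, AddSubgroup.mem_sup]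
  constructor
  · rintro ⟨c, hc⟩
    obtain ⟨a, rfl⟩ := H17C.clsMk_surjective S L c
    have h1 : h22c_pi S L (x - H17C.ambN S L H a) = 0 := by
      rw [map_sub, h22c_pi_ambN, sub_eq_zero]
      exact hc.symm
    refine ⟨H17C.ambN S L H a, ⟨a, rfl⟩, x - H17C.ambN S L H a, ?_, by abel⟩
    exact (H17C.clsMk_eq_zero_iff S L _).1 h1
  · rintro ⟨y, ⟨a, rfl⟩, z, hz, rfl⟩
    refine ⟨h22c_pi S L a, ?_⟩
    rw [map_add, h22c_pi_ambN]
    have : h22c_pi S L z = 0 := (H17C.clsMk_eq_zero_iff S L _).2 hz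
    rw [this, add_zero]

theorem h22c_mem_ker_ambD (σ : H17C.AutQ L) (z : H17C.AmbS S L) :
    z ∈ (H17C.ambD S L σ).ker ↔ H17C.ambRep S ℚ L σ z = z := by
  rw [AddMonoidHom.mem_ker]
  show (H17C.ambRep S ℚ L σ - 1 : H17C.AmbS S L →ₗ[ℤ] H17C.AmbS S L) z = 0 ↔ _
  rw [LinearMap.sub_apply, Module.End.one_apply, sub_eq_zero]

theorem h22c_mem_ker_clsD (σ : H17C.AutQ L) (c : H17C.ClS S L) :
    c ∈ (H17C.clsD S L σ).ker ↔ H17C.clsRep S ℚ L σ c = c := by
  rw [AddMonoidHom.mem_ker]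
  show (H17C.clsRep S ℚ L σ - 1 : H17C.ClS S L →ₗ[ℤ] H17C.ClS S L) c = 0 ↔ _
  rw [LinearMap.sub_apply, Module.End.one_apply, sub_eq_zero]

/-- `π(A_L^H) = C_L^H` (Hilbert 90) -/
theorem h22c_map_ker (hS : S.Nonempty) {p : ℕ} (hp : p.Prime) (hcard : Nat.card H = p)
    {σ : H17C.AutQ L} (hσ : σ ∈ H) (hσ1 : σ ≠ 1) :
    (H17C.ambD S L σ).ker.map (h22c_pi S L) = (H17C.clsD S L σ).ker := by
  ext c
  rw [AddSubgroup.mem_map]
  constructor
  · rintro ⟨z, hz, rfl⟩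
    rw [h22c_mem_ker_ambD] at hz
    rw [h22c_mem_ker_clsD, h22c_pi_apply, H17C.clsRep_mk, hz]
  · intro hc
    rw [h22c_mem_ker_clsD] at hc
    obtain ⟨z, rfl⟩ := H17C.clsMk_surjective S L c
    have hinv : ∀ h ∈ H, H17C.clsRep S ℚ L h (H17C.clsMk S L z) = H17C.clsMk S L z := by
      intro h hh
      obtain ⟨k, rfl⟩ := h22c_pow_of_prime hp hcard hσ hσ1 h hh
      exact h22c_rep_zpow _ σ _ hc k
    obtain ⟨β, hβ⟩ := h22c_exists_invariant hS z hinv
    refine ⟨z - H17C.princHom S L (Additive.ofMul β), ?_, ?_⟩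
    · rw [h22c_mem_ker_ambD]
      exact hβ σ hσ
    · rw [map_sub, h22c_pi_apply, h22c_pi_apply]
      have : H17C.clsMk S L (H17C.princHom S L (Additive.ofMul β)) = 0 :=
        (H17C.clsMk_eq_zero_iff S L _).2 ((H17C.mem_princS_iff S L _).2 ⟨_, rfl⟩)
      rw [this, sub_zero]

/-- `[C_L^H : N_H C_L] = [A_L^H : (N_H A_L + Lˣ) ∩ A_L^H]` -/
theorem h22c_h0_eq (hS : S.Nonempty) {p : ℕ} (hp : p.Prime) (hcard : Nat.card H = p)
    {σ : H17C.AutQ L} (hσ : σ ∈ H) (hσ1 : σ ≠ 1) :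
    H25Herb.h0 (H17C.clsD S L σ) (H17C.clsN S L H) =
      ((H17C.ambN S L H).range ⊔ (H17C.princS S L).toAddSubgroup).relIndex
        (H17C.ambD S L σ).ker := by
  unfold H25Herb.h0
  rw [← h22c_map_ker hS hp hcard hσ hσ1, ← AddSubgroup.relIndex_comap, h22c_comap_range]

/-- **(SI)** from (SI-A), pointwise -/
theorem h22c_SI_pointwise (hS : S.Nonempty) {p : ℕ} (hp : p.Prime) (hcard : Nat.card H = p)
    {σ : H17C.AutQ L} (hσ : σ ∈ H) (hσ1 : σ ≠ 1)
    (hA : ((H17C.ambN S L H).range ⊔ (H17C.princS S L).toAddSubgroup).relIndex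
        (H17C.ambD S L σ).ker ≠ 0 ∧
      ((H17C.ambN S L H).range ⊔ (H17C.princS S L).toAddSubgroup).relIndex
        (H17C.ambD S L σ).ker ≤ p) :
    H25Herb.h0 (H17C.clsD S L σ) (H17C.clsN S L H) ≠ 0 ∧
      H25Herb.h0 (H17C.clsD S L σ) (H17C.clsN S L H) ≤ p := by
  rw [h22c_h0_eq hS hp hcard hσ hσ1]
  exact hA

/-- **(SI)** the second inequality for `C_L` from (SI-A) -/
theorem h22c_secondIneqNE (hA : H17C.SecondIneqAmb) : H17C.SecondIneqNE := by
  intro p S L _ _ H hS hp hcard hunr σ hσ hσ1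
  exact h22c_SI_pointwise hS hp hcard hσ hσ1 (hA p S L H hp hcard hunr σ hσ hσ1)

end H22C
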