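/-
W2-C (S55) block C-finite (helper17): the second inequality, UNCONDITIONAL.
`H17SI.h17si_secondIneqAmb_final : H17C.SecondIneqAmb`, `h17si_secondIneqNE_final : H17C.SecondIneqNE`.
-/
import Fermat.Agent.CFT2.C.SIAmb2_helper17
import Fermat.Agent.CFT2.C.WeakApprox_helper3
import Fermat.Agent.CFT2.C.PowOpenS_helper21
import Fermat.Agent.CFT2.C.DescIdele_helper22
import Fermat.Agent.CFT2.C.DescDiv_helper22
import Fermat.Agent.CFT2.C.SI_helper22

set_option autoImplicit false

namespace H17SI

/-- **(SI-A)**, unconditional. -/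
theorem h17si_secondIneqAmb_final : H17C.SecondIneqAmb :=
  h17si_secondIneqAmb H3C.h3c_weakApprox H21C.powOpenS' H21C.congUnit H22C.h22c_descIdele
    H22C.h22c_descDiv

/-- **(SI)**, unconditional. -/
theorem h17si_secondIneqNE_final : H17C.SecondIneqNE :=
  H22C.h22c_secondIneqNE h17si_secondIneqAmb_final

end H17SI
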