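/-
W2-C (S55) block C-finite, slice FI-U (helper26), abstract part (Mathlib only), namespace `H26SU`:
* `RFilt`: an `H`-stable multiplicative complete filtration of a commutative ring with
  cohomologically trivial graded pieces; `H0`, `H1`: the unit group `V 0 = 1 + N 0` has
  `Ĥ⁰ = Ĥ⁻¹ = 0` (successive approximation `sa`; ring version of helper6's `h6ni_sa`);
* `LatData` / `LatData.filt`: the filtration `m^(i+e) Λ₀` of a lattice `Λ₀` commensurable with a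
  complete subring `Λ`;
* `finite_index`; `ind_t0`, `ind_t1`: `Map(H × J, B)` is cohomologically trivial for cyclic `H`.
-/
import Mathlib

set_option autoImplicit false
set_option linter.style.haveILetI false
set_option linter.unusedSectionVars false
noncomputable section
namespace H26SU

/-- a `H`-stable multiplicative filtration of a commutative ring by complete subgroups whose
graded pieces are cohomologically trivial (`t0`, `t1`) -/
structure RFilt (𝔄 : Type) [CommRing 𝔄] (H : Type) [Group H] [Fintype H]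
    [MulSemiringAction H 𝔄] (σ : H) where
  /-- the subgroups -/
  N : ℕ → AddSubgroup 𝔄
  anti : ∀ i j : ℕ, i ≤ j → N j ≤ N i
  stable : ∀ (i : ℕ) (τ : H) (x : 𝔄), x ∈ N i → τ • x ∈ N i
  mul : ∀ (i j : ℕ) (x y : 𝔄), x ∈ N i → y ∈ N j → x * y ∈ N (i + j + 1)
  complete : ∀ x : ℕ → 𝔄, (∀ k, x (k + 1) - x k ∈ N k) → ∃ y : 𝔄, ∀ k, y - x k ∈ N k
  sep : ∀ x : 𝔄, (∀ k, x ∈ N k) → x = 0
  t0 : ∀ (i : ℕ) (x : 𝔄), x ∈ N i → σ • x = x → ∃ y ∈ N i, ∑ τ : H, τ • y = x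
  t1 : ∀ (i : ℕ) (x : 𝔄), x ∈ N i → (∑ τ : H, τ • x) ∈ N (i + 1) →
    ∃ z ∈ N i, x - (σ • z - z) ∈ N (i + 1)

section basic
variable {𝔄 : Type} [CommRing 𝔄] {H : Type} [Group H] [Fintype H] [MulSemiringAction H 𝔄]
  {σ : H} (F : RFilt 𝔄 H σ)

theorem N_mul {j k : ℕ} {x y : 𝔄} (hx : x ∈ F.N j) (hy : y ∈ F.N k) : x * y ∈ F.N (k + 1) :=
  F.anti _ _ (by omega) (F.mul j k x y hx hy)

theorem N_mul' {j k : ℕ} {x y : 𝔄} (hx : x ∈ F.N j) (hy : y ∈ F.N k) : x * y ∈ F.N (j + 1) :=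
  F.anti _ _ (by omega) (F.mul j k x y hx hy)

/-- `(1 + N j) · N k ⊆ N k` -/
theorem unit_mul {j k : ℕ} {u y : 𝔄} (hu : u - 1 ∈ F.N j) (hy : y ∈ F.N k) : u * y ∈ F.N k := by
  have h1 : u * y = y + (u - 1) * y := by ring
  rw [h1]
  exact (F.N k).add_mem hy (F.anti _ _ (Nat.le_succ k) (N_mul F hu hy))

theorem mul_mem' {k : ℕ} {u u' : 𝔄} (hu : u - 1 ∈ F.N k) (hu' : u' - 1 ∈ F.N k) :
    u * u' - 1 ∈ F.N k := by
  have h1 : u * u' - 1 = u * (u' - 1) + (u - 1) := by ring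
  rw [h1]
  exact (F.N _).add_mem (unit_mul F hu hu') hu

theorem prod_mem {ι : Type} (S : Finset ι) (k : ℕ) (u : ι → 𝔄)
    (hu : ∀ i ∈ S, u i - 1 ∈ F.N k) : (∏ i ∈ S, u i) - 1 ∈ F.N k := by
  classical
  induction S using Finset.induction_on with
  | empty => simp
  | insert a S ha ih =>
    rw [Finset.prod_insert ha]
    exact mul_mem' F (hu a (Finset.mem_insert_self a S))
      (ih fun i hi => hu i (Finset.mem_insert_of_mem hi))

/-- `∏ (1 + x_i) ≡ 1 + ∑ x_i` modulo `N (k+1)` -/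
theorem prod_one_add {ι : Type} (S : Finset ι) (k : ℕ) (x : ι → 𝔄)
    (hx : ∀ i ∈ S, x i ∈ F.N k) :
    (∏ i ∈ S, (1 + x i)) - 1 - ∑ i ∈ S, x i ∈ F.N (k + 1) := by
  classical
  induction S using Finset.induction_on with
  | empty => simp
  | insert a S ha ih =>
    rw [Finset.prod_insert ha, Finset.sum_insert ha]
    have hS : ∀ i ∈ S, x i ∈ F.N k := fun i hi => hx i (Finset.mem_insert_of_mem hi)
    have hxa : x a ∈ F.N k := hx a (Finset.mem_insert_self a S)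
    have h1 := ih hS
    have h2 : (∏ i ∈ S, (1 + x i)) - 1 ∈ F.N k :=
      prod_mem F S k _ (fun i hi => by simpa using hS i hi)
    have h3 : (1 + x a) * ∏ i ∈ S, (1 + x i) - 1 - (x a + ∑ i ∈ S, x i)
        = ((∏ i ∈ S, (1 + x i)) - 1 - ∑ i ∈ S, x i) + x a * ((∏ i ∈ S, (1 + x i)) - 1) := by
      ring
    rw [h3]
    exact (F.N _).add_mem h1 (N_mul F hxa h2)

theorem pow_succ_mem {k : ℕ} {z : 𝔄} (hz : z ∈ F.N k) (n : ℕ) : z ^ (n + 1) ∈ F.N (n + k) := by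
  induction n with
  | zero => simpa using hz
  | succ n ih =>
    rw [pow_succ]
    exact F.anti _ _ (by omega) (F.mul _ _ _ _ ih hz)

/-- inverses by the geometric series -/
theorem exists_inv {k : ℕ} {x : 𝔄} (hx : x ∈ F.N k) :
    ∃ v : 𝔄, (1 + x) * v = 1 ∧ v - 1 ∈ F.N k := by
  have hz : -x ∈ F.N k := (F.N k).neg_mem hx
  let s : ℕ → 𝔄 := fun n => ∑ i ∈ Finset.range (n + 1), (-x) ^ i
  have hs : ∀ n, s (n + 1) - s n = (-x) ^ (n + 1) := by
    intro n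
    change ∑ i ∈ Finset.range (n + 1 + 1), (-x) ^ i - ∑ i ∈ Finset.range (n + 1), (-x) ^ i = _
    rw [Finset.sum_range_succ _ (n + 1)]
    ring
  obtain ⟨y, hy⟩ := F.complete s (fun n => by
    rw [hs n]
    exact F.anti _ _ (by omega) (pow_succ_mem F hz n))
  have hgeo : ∀ n, (1 + x) * s n = 1 - (-x) ^ (n + 1) := by
    intro n
    have := mul_neg_geom_sum (-x) (n + 1)
    rw [sub_neg_eq_add] at this
    exact this
  have hu : (1 + x) - 1 ∈ F.N k := by simpa using hx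
  refine ⟨y, ?_, ?_⟩
  · have h0 : (1 + x) * y - 1 = 0 := by
      apply F.sep
      intro n
      have h1 : (1 + x) * y - 1 = (1 + x) * (y - s n) - (-x) ^ (n + 1) := by
        have := hgeo n
        linear_combination this
      rw [h1]
      exact (F.N n).sub_mem (unit_mul F hu (hy n))
        (F.anti _ _ (by omega) (pow_succ_mem F hz n))
    exact sub_eq_zero.1 h0
  · have h1 : y - 1 = (y - s k) + (s k - 1) := by ring
    rw [h1]
    refine (F.N k).add_mem (hy k) ?_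
    have h2 : s k - 1 = ∑ i ∈ Finset.range k, (-x) ^ (i + 1) := by
      change ∑ i ∈ Finset.range (k + 1), (-x) ^ i - 1 = _
      rw [Finset.sum_range_succ']
      simp
    rw [h2]
    exact (F.N k).sum_mem (fun i _ => F.anti _ _ (by omega) (pow_succ_mem F hz i))

/-- the unit subgroups `V k = 1 + N k` -/
def RFilt.V (k : ℕ) : Subgroup 𝔄ˣ where
  carrier := {u | (u : 𝔄) - 1 ∈ F.N k}
  mul_mem' := by
    intro a b ha hb
    simp only [Set.mem_ofPred_eq] at ha hb ⊢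
    rw [Units.val_mul]
    exact mul_mem' F ha hb
  one_mem' := by simp
  inv_mem' := by
    intro a ha
    simp only [Set.mem_ofPred_eq] at ha ⊢
    obtain ⟨v, hv, hv1⟩ := exists_inv F ha
    have h1 : (a : 𝔄) * v = 1 := by
      have : (1 + ((a : 𝔄) - 1)) = a := by ring
      rwa [this] at hv
    have h2 : ((a⁻¹ : 𝔄ˣ) : 𝔄) = v := by
      have := congrArg (fun t => ((a⁻¹ : 𝔄ˣ) : 𝔄) * t) h1
      simpa [← mul_assoc] using this.symm
    rw [h2]
    exact hv1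

theorem mem_V {k : ℕ} {u : 𝔄ˣ} : u ∈ F.V k ↔ (u : 𝔄) - 1 ∈ F.N k := Iff.rfl

theorem V_anti {j k : ℕ} (hjk : j ≤ k) : F.V k ≤ F.V j :=
  fun _ hu => F.anti _ _ hjk hu

/-- the unit `1 + x` for `x ∈ N k` -/
theorem exists_unit {k : ℕ} {x : 𝔄} (hx : x ∈ F.N k) : ∃ u : 𝔄ˣ, (u : 𝔄) = 1 + x ∧ u ∈ F.V k := by
  obtain ⟨v, hv, _⟩ := exists_inv F hx
  refine ⟨Units.mkOfMulEqOne (1 + x) v hv, rfl, ?_⟩
  rw [mem_V]
  simpa using hx


/-- the action of `τ` on units -/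
def actU (τ : H) : 𝔄ˣ →* 𝔄ˣ := Units.map (MulSemiringAction.toRingHom H 𝔄 τ : 𝔄 →* 𝔄)

theorem actU_val (τ : H) (u : 𝔄ˣ) : ((actU τ u : 𝔄ˣ) : 𝔄) = τ • (u : 𝔄) := rfl

theorem V_stable (k : ℕ) (τ : H) {u : 𝔄ˣ} (hu : u ∈ F.V k) : actU τ u ∈ F.V k := by
  rw [mem_V] at hu ⊢
  have : ((actU τ u : 𝔄ˣ) : 𝔄) - 1 = τ • ((u : 𝔄) - 1) := by
    rw [smul_sub, smul_one, actU_val]
  rw [this]
  exact F.stable k τ _ hu

/-- **successive approximation** -/
theorem sa (Φ : 𝔄ˣ →* 𝔄ˣ) (T : Set 𝔄ˣ)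
    (hΦV : ∀ k, ∀ y ∈ F.V k, Φ y ∈ F.V k)
    (step : ∀ k, ∀ u ∈ T, u ∈ F.V k →
      ∃ y ∈ F.V k, u / Φ y ∈ T ∧ u / Φ y ∈ F.V (k + 1))
    (u : 𝔄ˣ) (huT : u ∈ T) (hu : u ∈ F.V 0) : ∃ y ∈ F.V 0, Φ y = u := by
  classical
  have hstep' : ∀ (k : ℕ) (u' : 𝔄ˣ), ∃ y : 𝔄ˣ, (u' ∈ T ∧ u' ∈ F.V k) →
      (y ∈ F.V k ∧ u' / Φ y ∈ T ∧ u' / Φ y ∈ F.V (k + 1)) := by
    intro k u'
    by_cases hc : u' ∈ T ∧ u' ∈ F.V k
    · obtain ⟨y, hy⟩ := step k u' hc.1 hc.2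
      exact ⟨y, fun _ => hy⟩
    · exact ⟨1, fun hc' => absurd hc' hc⟩
  choose Y hY using hstep'
  let U : ℕ → 𝔄ˣ := fun k => Nat.rec u (fun k u' => u' / Φ (Y k u')) k
  have hUs : ∀ k, U (k + 1) = U k / Φ (Y k (U k)) := fun k => rfl
  have hUinv : ∀ k, U k ∈ T ∧ U k ∈ F.V k := by
    intro k
    induction k with
    | zero => exact ⟨huT, hu⟩
    | succ k ih =>
      rw [hUs]
      exact (hY k (U k) ih).2
  have hy : ∀ k, Y k (U k) ∈ F.V k := fun k => (hY k (U k) (hUinv k)).1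
  let P : ℕ → 𝔄ˣ := fun k => ∏ j ∈ Finset.range k, Y j (U j)
  have hPs : ∀ k, P (k + 1) = P k * Y k (U k) := fun k => Finset.prod_range_succ _ k
  have hPu : ∀ k, u = Φ (P k) * U k := by
    intro k
    induction k with
    | zero => simp [P, U]
    | succ k ih =>
      rw [hPs, hUs, map_mul, mul_assoc, mul_div_cancel]
      exact ih
  have hPV : ∀ k, P k ∈ F.V 0 := fun k =>
    Subgroup.prod_mem _ (fun j _ => V_anti F (Nat.zero_le j) (hy j))
  have hdiff : ∀ k, ((P (k + 1) : 𝔄ˣ) : 𝔄) - (P k : 𝔄) ∈ F.N k := by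
    intro k
    rw [hPs, Units.val_mul]
    have : (P k : 𝔄) * (Y k (U k) : 𝔄) - (P k : 𝔄) = (P k : 𝔄) * ((Y k (U k) : 𝔄) - 1) := by ring
    rw [this]
    exact unit_mul F (hPV k) (hy k)
  obtain ⟨p, hp⟩ := F.complete (fun k => (P k : 𝔄)) hdiff
  have hp1 : p - 1 ∈ F.N 0 := by
    have := hp 0
    simpa [P] using this
  obtain ⟨pu, hpu, hpuV⟩ := exists_unit F hp1
  have hpu' : (pu : 𝔄) = p := by rw [hpu]; ring
  refine ⟨pu, hpuV, ?_⟩
  have hquot : ∀ k, pu / P k ∈ F.V k := by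
    intro k
    rw [mem_V]
    have : ((pu / P k : 𝔄ˣ) : 𝔄) - 1 = (((P k)⁻¹ : 𝔄ˣ) : 𝔄) * (p - (P k : 𝔄)) := by
      rw [div_eq_mul_inv, Units.val_mul, hpu', mul_sub, Units.inv_mul]
      ring
    rw [this]
    refine unit_mul F (j := 0) ?_ (hp k)
    exact (F.V 0).inv_mem (hPV k)
  have hfin : ∀ k, u / Φ pu ∈ F.V k := by
    intro k
    have h1 : u / Φ pu = U k * (Φ (pu / P k))⁻¹ := by
      rw [map_div, inv_div, mul_div_assoc', mul_comm (U k)]
      rw [← hPu k]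
    rw [h1]
    exact (F.V k).mul_mem (hUinv k).2 ((F.V k).inv_mem (hΦV k _ (hquot k)))
  have hone : ((u / Φ pu : 𝔄ˣ) : 𝔄) - 1 = 0 :=
    F.sep _ (fun k => hfin k)
  have hone' : u / Φ pu = 1 := by
    apply Units.ext
    rw [Units.val_one]
    exact sub_eq_zero.mp hone
  exact (div_eq_one.mp hone').symm

/-- the norm `∏_τ τ` on units -/
def normU : 𝔄ˣ →* 𝔄ˣ := ∏ τ : H, actU τ

theorem normU_val (u : 𝔄ˣ) : ((normU (H := H) u : 𝔄ˣ) : 𝔄) = ∏ τ : H, τ • (u : 𝔄) := by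
  unfold normU
  rw [MonoidHom.finsetProd_apply, Units.coe_prod]
  rfl

theorem normU_act (ρ : H) (u : 𝔄ˣ) : normU (H := H) (actU ρ u) = normU (H := H) u := by
  apply Units.ext
  rw [normU_val, normU_val]
  simp only [actU_val, smul_smul]
  exact Fintype.prod_equiv (Equiv.mulRight ρ) _ _ (fun τ => rfl)

theorem act_normU (ρ : H) (u : 𝔄ˣ) : actU ρ (normU (H := H) u) = normU (H := H) u := by
  apply Units.ext
  rw [actU_val, normU_val, Finset.smul_prod']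
  simp only [smul_smul]
  exact Fintype.prod_equiv (Equiv.mulLeft ρ) _ _ (fun τ => rfl)

theorem normU_mem (k : ℕ) {u : 𝔄ˣ} (hu : u ∈ F.V k) : normU (H := H) u ∈ F.V k := by
  unfold normU
  rw [MonoidHom.finsetProd_apply]
  exact Subgroup.prod_mem _ (fun τ _ => V_stable F k τ hu)

/-- `Ĥ⁰(V) = 0` -/
theorem H0 (u : 𝔄ˣ) (hu : u ∈ F.V 0) (hσ : actU σ u = u) :
    ∃ y ∈ F.V 0, normU (H := H) y = u := by
  refine sa F (normU (H := H)) {u : 𝔄ˣ | actU σ u = u}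
    (fun k y hy => normU_mem F k hy) ?_ u hσ hu
  intro k u hu hk
  simp only [Set.mem_ofPred_eq] at hu
  rw [mem_V] at hk
  have hx : σ • ((u : 𝔄) - 1) = (u : 𝔄) - 1 := by
    rw [smul_sub, smul_one, ← actU_val, hu]
  obtain ⟨y', hy'N, hsum⟩ := F.t0 _ _ hk hx
  obtain ⟨yu, hyu, hyV⟩ := exists_unit F hy'N
  refine ⟨yu, hyV, ?_, ?_⟩
  · simp only [Set.mem_ofPred_eq]
    rw [map_div, hu, act_normU]
  · rw [mem_V]
    have hNV := normU_mem (H := H) F k hyV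
    have hNinv := (F.V k).inv_mem hNV
    rw [mem_V] at hNinv
    have hdiff : (u : 𝔄) - ((normU (H := H) yu : 𝔄ˣ) : 𝔄) ∈ F.N (k + 1) := by
      have h1 := prod_one_add F (Finset.univ : Finset H) k
        (fun τ => τ • y') (fun τ _ => F.stable k τ _ hy'N)
      rw [hsum] at h1
      have h2 : ((normU (H := H) yu : 𝔄ˣ) : 𝔄) = ∏ τ : H, (1 + τ • y') := by
        rw [normU_val]
        refine Finset.prod_congr rfl (fun τ _ => ?_)
        rw [hyu, smul_add, smul_one]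
      rw [h2]
      have := (F.N (k + 1)).neg_mem h1
      convert this using 1
      ring
    have heq : ((u / normU (H := H) yu : 𝔄ˣ) : 𝔄) - 1
        = ((((normU (H := H) yu)⁻¹ : 𝔄ˣ) : 𝔄))
          * ((u : 𝔄) - ((normU (H := H) yu : 𝔄ˣ) : 𝔄)) := by
      rw [div_eq_mul_inv, Units.val_mul, mul_sub, Units.inv_mul]
      ring
    rw [heq]
    exact unit_mul F hNinv hdiff

/-- the map `u ↦ σ u / u` on units -/
def sigmaU (σ : H) : 𝔄ˣ →* 𝔄ˣ := actU σ / MonoidHom.id 𝔄ˣ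

theorem sigmaU_apply (u : 𝔄ˣ) : sigmaU σ u = actU σ u / u := rfl

theorem normU_sigmaU (u : 𝔄ˣ) : normU (H := H) (sigmaU σ u) = 1 := by
  rw [sigmaU_apply, map_div, normU_act, div_self']

/-- `Ĥ⁻¹(V) = 0` -/
theorem H1 (u : 𝔄ˣ) (hu : u ∈ F.V 0) (hN : normU (H := H) u = 1) :
    ∃ y ∈ F.V 0, sigmaU σ y = u := by
  refine sa F (sigmaU σ) {u : 𝔄ˣ | normU (H := H) u = 1}
    (fun k y hy => ?_) ?_ u hN hu
  · rw [sigmaU_apply]
    exact (F.V k).div_mem (V_stable F k σ hy) hy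
  · intro k u hu hk
    simp only [Set.mem_ofPred_eq] at hu
    rw [mem_V] at hk
    set x : 𝔄 := (u : 𝔄) - 1 with hx
    have hsum : ∑ τ : H, τ • x ∈ F.N (k + 1) := by
      have h1 := prod_one_add F (Finset.univ : Finset H) k
        (fun τ => τ • x) (fun τ _ => F.stable k τ _ hk)
      have h2 : ∏ τ : H, (1 + τ • x) = 1 := by
        have h3 : ∀ τ : H, 1 + τ • x = τ • (u : 𝔄) := fun τ => by
          rw [hx, smul_sub, smul_one]; ring
        simp only [h3]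
        rw [← normU_val, hu]
        rfl
      rw [h2] at h1
      have := (F.N (k + 1)).neg_mem h1
      convert this using 1
      ring
    obtain ⟨z, hzN, hzx⟩ := F.t1 _ x hk hsum
    obtain ⟨zu, hzu, hzV⟩ := exists_unit F hzN
    have hσzV : actU σ zu ∈ F.V k := V_stable F k σ hzV
    refine ⟨zu, hzV, ?_, ?_⟩
    · simp only [Set.mem_ofPred_eq]
      rw [map_div, hu, normU_sigmaU, div_one]
    · rw [mem_V]
      have hinv := (F.V k).inv_mem hσzV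
      rw [mem_V] at hinv
      have hnum : (x - (σ • z - z)) + x * z ∈ F.N (k + 1) :=
        (F.N (k + 1)).add_mem hzx (N_mul' F hk hzN)
      have heq : ((u / sigmaU σ zu : 𝔄ˣ) : 𝔄) - 1
          = (((actU σ zu)⁻¹ : 𝔄ˣ) : 𝔄) * ((x - (σ • z - z)) + x * z) := by
        have hu' : (u : 𝔄) = 1 + x := by rw [hx]; ring
        have hσ' : ((actU σ zu : 𝔄ˣ) : 𝔄) = 1 + σ • z := by
          rw [actU_val, hzu, smul_add, smul_one]
        have e1 : u / sigmaU σ zu = u * zu * (actU σ zu)⁻¹ := by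
          rw [sigmaU_apply, div_div_eq_mul_div, div_eq_mul_inv]
        rw [e1, Units.val_mul, Units.val_mul, hu', hzu]
        have e2 : (((actU σ zu)⁻¹ : 𝔄ˣ) : 𝔄) * (1 + σ • z) = 1 := by
          rw [← hσ', Units.inv_mul]
        linear_combination e2
      rw [heq]
      exact unit_mul F hinv hnum

end basic

/-! ### from a lattice to a filtration -/

section lattice
variable {𝔄 : Type} [CommRing 𝔄] {H : Type} [Group H] [Fintype H] [MulSemiringAction H 𝔄]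

/-- a `H`-stable lattice `Λ₀` commensurable with a complete subring `Λ`, with `Ĥ⁰ = Ĥ⁻¹ = 0` -/
structure LatData (𝔄 : Type) [CommRing 𝔄] (H : Type) [Group H] [Fintype H]
    [MulSemiringAction H 𝔄] (σ : H) where
  /-- the uniformizer -/
  m : ℕ
  /-- an exponent of commensurability -/
  c : ℕ
  /-- an exponent of commensurability -/
  d : ℕ
  /-- the big lattice -/
  Λ : Subring 𝔄
  /-- the small lattice -/
  Λ₀ : AddSubgroup 𝔄
  unit : IsUnit (m : 𝔄)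
  le : ∀ x ∈ Λ₀, (m : 𝔄) ^ d * x ∈ Λ
  ge : ∀ x ∈ Λ, (m : 𝔄) ^ c * x ∈ Λ₀
  stable : ∀ (τ : H) (x : 𝔄), x ∈ Λ₀ → τ • x ∈ Λ₀
  pre : ∀ f : ℕ → 𝔄, (∀ j, ∃ y ∈ Λ, f (j + 1) - f j = (m : 𝔄) ^ j * y) →
    ∃ l : 𝔄, ∀ j, ∃ y ∈ Λ, l - f j = (m : 𝔄) ^ j * y
  haus : ∀ x : 𝔄, (∀ j, ∃ y ∈ Λ, x = (m : 𝔄) ^ j * y) → x = 0
  t0 : ∀ x ∈ Λ₀, σ • x = x → ∃ y ∈ Λ₀, ∑ τ : H, τ • y = x
  t1 : ∀ x ∈ Λ₀, (∃ w ∈ Λ₀, ∑ τ : H, τ • x = (m : 𝔄) * w) →
    ∃ z ∈ Λ₀, ∃ w ∈ Λ₀, x - (σ • z - z) = (m : 𝔄) * w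

variable {σ : H} (D : LatData 𝔄 H σ)

/-- the lattices `m ^ k Λ₀` -/
def LatData.M (k : ℕ) : AddSubgroup 𝔄 := D.Λ₀.map (AddMonoidHom.mulLeft ((D.m : 𝔄) ^ k))

theorem mem_M {k : ℕ} {x : 𝔄} : x ∈ D.M k ↔ ∃ y ∈ D.Λ₀, x = (D.m : 𝔄) ^ k * y := by
  unfold LatData.M
  rw [AddSubgroup.mem_map]
  constructor
  · rintro ⟨y, hy, rfl⟩
    exact ⟨y, hy, rfl⟩
  · rintro ⟨y, hy, rfl⟩
    exact ⟨y, hy, rfl⟩

theorem natMul_mem (n : ℕ) {x : 𝔄} (hx : x ∈ D.Λ₀) : (n : 𝔄) * x ∈ D.Λ₀ := by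
  rw [← nsmul_eq_mul]
  exact D.Λ₀.nsmul_mem hx n

theorem natPow_mul_mem (n k : ℕ) {x : 𝔄} (hx : x ∈ D.Λ₀) : (n : 𝔄) ^ k * x ∈ D.Λ₀ := by
  rw [← Nat.cast_pow]
  exact natMul_mem D _ hx

theorem natPow_mul_mem_lat (n k : ℕ) {x : 𝔄} (hx : x ∈ D.Λ) : (n : 𝔄) ^ k * x ∈ D.Λ := by
  refine D.Λ.mul_mem ?_ hx
  rw [← Nat.cast_pow]
  exact natCast_mem D.Λ _

theorem M_anti {i j : ℕ} (h : i ≤ j) : D.M j ≤ D.M i := by
  intro x hx
  rw [mem_M] at hx ⊢
  obtain ⟨y, hy, rfl⟩ := hx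
  obtain ⟨d, rfl⟩ := Nat.exists_eq_add_of_le h
  exact ⟨(D.m : 𝔄) ^ d * y, natPow_mul_mem D _ _ hy, by rw [pow_add, mul_assoc]⟩

theorem smul_natPow (τ : H) (n k : ℕ) (x : 𝔄) : τ • ((n : 𝔄) ^ k * x) = (n : 𝔄) ^ k * τ • x := by
  rw [smul_mul', smul_pow']
  congr 2
  exact map_natCast (MulSemiringAction.toRingHom H 𝔄 τ) n

theorem smul_nat (τ : H) (n : ℕ) (x : 𝔄) : τ • ((n : 𝔄) * x) = (n : 𝔄) * τ • x := by
  have := smul_natPow τ n 1 x
  simpa using this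

theorem M_stable (k : ℕ) (τ : H) {x : 𝔄} (hx : x ∈ D.M k) : τ • x ∈ D.M k := by
  rw [mem_M] at hx ⊢
  obtain ⟨y, hy, rfl⟩ := hx
  exact ⟨τ • y, D.stable τ y hy, smul_natPow τ _ _ y⟩

/-- `m ^ (k + d) Λ₀ ⊆ m ^ k Λ` -/
theorem M_le_lat {k : ℕ} {x : 𝔄} (hx : x ∈ D.M (k + D.d)) :
    ∃ y ∈ D.Λ, x = (D.m : 𝔄) ^ k * y := by
  rw [mem_M] at hx
  obtain ⟨y, hy, rfl⟩ := hx
  exact ⟨(D.m : 𝔄) ^ D.d * y, D.le y hy, by rw [pow_add, mul_assoc]⟩

/-- `m ^ (k + c) Λ ⊆ m ^ k Λ₀` -/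
theorem lat_le_M {k : ℕ} {y : 𝔄} (hy : y ∈ D.Λ) : (D.m : 𝔄) ^ (k + D.c) * y ∈ D.M k := by
  rw [mem_M]
  exact ⟨(D.m : 𝔄) ^ D.c * y, D.ge y hy, by rw [pow_add, mul_assoc]⟩

theorem pow_cancel {k : ℕ} {x y : 𝔄} (h : (D.m : 𝔄) ^ k * x = (D.m : 𝔄) ^ k * y) : x = y :=
  (D.unit.pow k).mul_left_cancel h

theorem sum_smul_natPow (k : ℕ) (n : ℕ) (x : 𝔄) :
    ∑ τ : H, τ • ((n : 𝔄) ^ k * x) = (n : 𝔄) ^ k * ∑ τ : H, τ • x := by
  rw [Finset.mul_sum]
  exact Finset.sum_congr rfl (fun τ _ => smul_natPow τ n k x)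

/-- the base exponent -/
def LatData.e : ℕ := 1 + D.c + 2 * D.d

/-- the filtration attached to lattice data -/
def LatData.filt : RFilt 𝔄 H σ where
  N i := D.M (i + D.e)
  anti i j h := M_anti D (by omega)
  stable i τ x hx := M_stable D _ τ hx
  mul i j x y hx hy := by
    rw [mem_M] at hx hy ⊢
    obtain ⟨x', hx', rfl⟩ := hx
    obtain ⟨y', hy', rfl⟩ := hy
    refine ⟨(D.m : 𝔄) ^ D.c * (((D.m : 𝔄) ^ D.d * x') * ((D.m : 𝔄) ^ D.d * y')),
      D.ge _ (D.Λ.mul_mem (D.le _ hx') (D.le _ hy')), ?_⟩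
    have e : i + D.e + (j + D.e) = (i + j + 1 + D.e) + (D.c + (D.d + D.d)) := by
      unfold LatData.e
      omega
    have e1 : (D.m : 𝔄) ^ (i + D.e) * x' * ((D.m : 𝔄) ^ (j + D.e) * y')
        = (D.m : 𝔄) ^ (i + D.e + (j + D.e)) * (x' * y') := by
      rw [pow_add]; ring
    rw [e1, e, pow_add, pow_add, pow_add]
    ring
  complete x hx := by
    have htel : ∀ k n, k ≤ n → x n - x k ∈ D.M (k + D.e) := by
      intro k n hn
      induction n, hn using Nat.le_induction with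
      | base => simp
      | succ n hn ih =>
        have : x (n + 1) - x k = (x (n + 1) - x n) + (x n - x k) := by ring
        rw [this]
        exact (D.M _).add_mem (M_anti D (by omega) (hx n)) ih
    -- shift by `s = e - d`
    set s : ℕ := 1 + D.c + D.d with hs
    have hse : ∀ k, k + D.e = (k + s) + D.d := by
      intro k
      unfold LatData.e
      omega
    obtain ⟨l, hl⟩ := D.pre (fun j => x (j - s)) (fun j => by
      by_cases hj : j < s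
      · refine ⟨0, D.Λ.zero_mem, ?_⟩
        have h1 : j + 1 - s = 0 := by omega
        have h2 : j - s = 0 := by omega
        simp only [h1, h2, sub_self, mul_zero]
      · obtain ⟨k, rfl⟩ : ∃ k, j = k + s := ⟨j - s, by omega⟩
        have h1 : k + s + 1 - s = k + 1 := by omega
        have h2 : k + s - s = k := by omega
        simp only [h1, h2]
        have := hx k
        rw [hse] at this
        exact M_le_lat D this)
    refine ⟨l, fun k => ?_⟩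
    have h1 : l - x k = (l - x (k + (D.c + D.d))) + (x (k + (D.c + D.d)) - x k) := by ring
    rw [h1]
    refine (D.M _).add_mem ?_ (htel k (k + (D.c + D.d)) (by omega))
    obtain ⟨y, hy, hly⟩ := hl (k + (D.c + D.d) + s)
    have h2 : k + (D.c + D.d) + s - s = k + (D.c + D.d) := by omega
    simp only [h2] at hly
    rw [hly]
    have h3 : k + (D.c + D.d) + s = (k + D.e) + D.c := by
      unfold LatData.e
      omega
    rw [h3]
    exact lat_le_M D hy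
  sep x hx := by
    apply D.haus
    intro j
    have h1 : j + D.e = (j + (1 + D.c + D.d)) + D.d := by
      unfold LatData.e
      omega
    have := hx j
    rw [h1] at this
    obtain ⟨y, hy, hxy⟩ := M_le_lat D this
    refine ⟨(D.m : 𝔄) ^ (1 + D.c + D.d) * y, natPow_mul_mem_lat D _ _ hy, ?_⟩
    rw [hxy, pow_add, mul_assoc]
  t0 i x hx hσ := by
    rw [mem_M] at hx
    obtain ⟨y, hy, rfl⟩ := hx
    rw [smul_natPow] at hσ
    obtain ⟨y', hy', hsum⟩ := D.t0 y hy (pow_cancel D hσ)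
    refine ⟨(D.m : 𝔄) ^ (i + D.e) * y', (mem_M D).mpr ⟨y', hy', rfl⟩, ?_⟩
    rw [sum_smul_natPow, hsum]
  t1 i x hx hs := by
    rw [mem_M] at hx hs
    obtain ⟨y, hy, rfl⟩ := hx
    obtain ⟨w, hw, hsw⟩ := hs
    rw [sum_smul_natPow] at hsw
    have e1 : i + 1 + D.e = (i + D.e) + 1 := by omega
    have h1 : ∑ τ : H, τ • y = (D.m : 𝔄) * w := by
      apply pow_cancel D (k := i + D.e)
      rw [hsw, e1, pow_succ, mul_assoc]
    obtain ⟨z, hz, w', hw', hzw⟩ := D.t1 y hy ⟨w, hw, h1⟩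
    refine ⟨(D.m : 𝔄) ^ (i + D.e) * z, (mem_M D).mpr ⟨z, hz, rfl⟩, ?_⟩
    rw [mem_M]
    refine ⟨w', hw', ?_⟩
    rw [smul_natPow, ← mul_sub, ← mul_sub, hzw, e1, pow_succ, mul_assoc]

theorem mem_filt_V {u : 𝔄ˣ} :
    u ∈ D.filt.V 0 ↔ ∃ y ∈ D.Λ₀, (u : 𝔄) = 1 + (D.m : 𝔄) ^ D.e * y := by
  rw [mem_V]
  change (u : 𝔄) - 1 ∈ D.M (0 + D.e) ↔ _
  rw [mem_M, zero_add]
  constructor
  · rintro ⟨y, hy, h⟩
    exact ⟨y, hy, by rw [← h]; ring⟩
  · rintro ⟨y, hy, h⟩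
    exact ⟨y, hy, by rw [h]; ring⟩

/-- `V ⊆ Λ` -/
theorem filt_V_le {u : 𝔄ˣ} (hu : u ∈ D.filt.V 0) : (u : 𝔄) ∈ D.Λ := by
  rw [mem_filt_V] at hu
  obtain ⟨y, hy, h⟩ := hu
  rw [h]
  refine D.Λ.add_mem D.Λ.one_mem ?_
  have e : D.e = (1 + D.c + D.d) + D.d := by
    unfold LatData.e
    omega
  rw [e, pow_add, mul_assoc]
  exact natPow_mul_mem_lat D _ _ (D.le y hy)

/-- `1 + m ^ (e + c) Λ ⊆ V` -/
theorem filt_V_ge {u : 𝔄ˣ} (hu : ∃ y ∈ D.Λ, (u : 𝔄) = 1 + (D.m : 𝔄) ^ (D.e + D.c) * y) :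
    u ∈ D.filt.V 0 := by
  rw [mem_filt_V]
  obtain ⟨y, hy, h⟩ := hu
  exact ⟨(D.m : 𝔄) ^ D.c * y, D.ge y hy, by rw [h, pow_add, mul_assoc]⟩

end lattice

/-! ### finite index -/

section finiteIndex
variable {𝔄 : Type} [CommRing 𝔄]

/-- a subgroup of `Λˣ` containing `1 + MΛ` has finite index if `Λ / MΛ` is finite -/
theorem finite_index (Λ : Subring 𝔄) (U V : Subgroup 𝔄ˣ) (M : 𝔄)
    (hU : ∀ u ∈ U, (u : 𝔄) ∈ Λ ∧ ((u⁻¹ : 𝔄ˣ) : 𝔄) ∈ Λ)
    (hV : ∀ u ∈ U, (∃ y ∈ Λ, (u : 𝔄) - 1 = M * y) → u ∈ V)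
    (T : Set 𝔄) (hT : T.Finite) (hΛ : ∀ x ∈ Λ, ∃ t ∈ T, ∃ y ∈ Λ, x - t = M * y) :
    V.relIndex U ≠ 0 := by
  classical
  haveI : Finite T := hT
  have hf : ∀ u : U, ∃ s : T, ∃ y ∈ Λ, ((u : 𝔄ˣ) : 𝔄) - (s : 𝔄) = M * y := by
    intro u
    obtain ⟨t, ht, y, hy, h⟩ := hΛ _ (hU u u.2).1
    exact ⟨⟨t, ht⟩, y, hy, h⟩
  choose f hf' using hf
  have hkey : ∀ u u' : U, f u = f u' → u⁻¹ * u' ∈ V.subgroupOf U := by
    intro u u' hfu
    rw [Subgroup.mem_subgroupOf]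
    apply hV _ (u⁻¹ * u').2
    obtain ⟨y, hy, h⟩ := hf' u
    obtain ⟨y', hy', h'⟩ := hf' u'
    rw [hfu] at h
    refine ⟨(((u : 𝔄ˣ)⁻¹ : 𝔄ˣ) : 𝔄) * (y' - y),
      Λ.mul_mem (hU u u.2).2 (Λ.sub_mem hy' hy), ?_⟩
    have h1 : (((u⁻¹ * u' : U) : 𝔄ˣ) : 𝔄) = (((u : 𝔄ˣ)⁻¹ : 𝔄ˣ) : 𝔄) * ((u' : 𝔄ˣ) : 𝔄) := by
      push_cast
      rfl
    have h2 : (((u : 𝔄ˣ)⁻¹ : 𝔄ˣ) : 𝔄) * ((u : 𝔄ˣ) : 𝔄) = 1 := Units.inv_mul _
    rw [h1]
    linear_combination (((u : 𝔄ˣ)⁻¹ : 𝔄ˣ) : 𝔄) * h' - (((u : 𝔄ˣ)⁻¹ : 𝔄ˣ) : 𝔄) * h + h2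
  have hfin : Finite (↥U ⧸ V.subgroupOf U) := by
    refine Finite.of_injective (fun q => f (Quotient.out q)) (fun q q' hq => ?_)
    have := hkey _ _ hq
    rw [← QuotientGroup.eq] at this
    rwa [QuotientGroup.out_eq', QuotientGroup.out_eq'] at this
  exact Subgroup.index_ne_zero_of_finite

end finiteIndex

/-! ### induced modules -/

section induced
variable {H : Type} [Group H] [Fintype H] {J B : Type} [AddCommGroup B]

/-- the shift action on `Map(H × J, B)` -/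
def shift (τ : H) (z : H × J → B) : H × J → B := fun a => z (τ⁻¹ * a.1, a.2)

theorem shift_apply (τ : H) (z : H × J → B) (h : H) (j : J) : shift τ z (h, j) = z (τ⁻¹ * h, j) :=
  rfl

theorem shift_add (τ : H) (z w : H × J → B) : shift τ (z + w) = shift τ z + shift τ w := rfl

theorem shift_sub (τ : H) (z w : H × J → B) : shift τ (z - w) = shift τ z - shift τ w := rfl

theorem sum_shift (z : H × J → B) : ∑ τ : H, shift τ z = fun a => ∑ h : H, z (h, a.2) := by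
  funext a
  rw [Finset.sum_apply]
  simp only [shift]
  exact Fintype.sum_equiv ((Equiv.inv H).trans (Equiv.mulRight a.1)) _ _ (fun τ => rfl)

/-- the function concentrated at `h = 1` -/
def atOne [DecidableEq H] (s : J → B) : H × J → B := fun a => if a.1 = 1 then s a.2 else 0

theorem sum_atOne [DecidableEq H] (s : J → B) (j : J) : ∑ h : H, atOne s (h, j) = s j := by
  simp [atOne]

theorem sum_shift_atOne [DecidableEq H] (s : J → B) :
    ∑ τ : H, shift τ (atOne s) = fun a => s a.2 := by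
  rw [sum_shift]
  funext a
  exact sum_atOne s a.2

theorem eq_of_gen (σ : H) (hgen : ∀ h : H, h ∈ Subgroup.zpowers σ) (P : H → Prop) (h1 : P 1)
    (hσ : ∀ h, P h → P (σ * h)) (h : H) : P h := by
  have hp : ∀ n : ℕ, P (σ ^ n) := by
    intro n
    induction n with
    | zero => simpa using h1
    | succ n ih =>
      rw [pow_succ']
      exact hσ _ ih
  obtain ⟨n, rfl⟩ := (mem_powers_iff_mem_zpowers.mpr (hgen h))
  exact hp n

theorem ind_t0 [DecidableEq H] (σ : H) (hgen : ∀ h : H, h ∈ Subgroup.zpowers σ)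
    (z : H × J → B) (hz : shift σ z = z) :
    ∑ τ : H, shift τ (atOne (fun j => z (1, j))) = z := by
  rw [sum_shift_atOne]
  funext a
  obtain ⟨h, j⟩ := a
  change z (1, j) = z (h, j)
  refine eq_of_gen σ hgen (fun h => z (1, j) = z (h, j)) rfl (fun h hh => ?_) h
  have := congrFun hz (σ * h, j)
  rw [shift_apply, inv_mul_cancel_left] at this
  exact hh.trans this

theorem ind_t1 [DecidableEq H] [DecidableEq J] [Fintype J] (σ : H) (hgen : ∀ h : H, h ∈ Subgroup.zpowers σ)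
    (z : H × J → B) (hz : ∀ j, ∑ h : H, z (h, j) = 0) :
    ∃ g : H × J → B, z = shift σ g - g := by
  -- the set of coboundaries
  let P : AddSubgroup (H × J → B) :=
    { carrier := {z | ∃ g : H × J → B, z = shift σ g - g}
      zero_mem' := ⟨0, by funext a; simp [shift]⟩
      add_mem' := by
        rintro _ _ ⟨g, rfl⟩ ⟨g', rfl⟩
        exact ⟨g + g', by rw [shift_add]; abel⟩
      neg_mem' := by
        rintro _ ⟨g, rfl⟩
        exact ⟨-g, by funext a; simp [shift]; abel⟩ }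
  change z ∈ P
  -- elementary functions
  have hel : ∀ (h : H) (j : J) (b : B),
      (Pi.single (h, j) b - Pi.single (1, j) b : H × J → B) ∈ P := by
    intro h j b
    refine eq_of_gen σ hgen
      (fun h => (Pi.single (h, j) b - Pi.single (1, j) b : H × J → B) ∈ P) ?_ ?_ h
    · rw [sub_self]
      exact P.zero_mem
    · intro h hh
      have h1 : (Pi.single (σ * h, j) b - Pi.single (1, j) b : H × J → B)
          = (Pi.single (σ * h, j) b - Pi.single (h, j) b)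
            + (Pi.single (h, j) b - Pi.single (1, j) b) := by abel
      rw [h1]
      refine P.add_mem ⟨Pi.single (h, j) b, ?_⟩ hh
      funext a
      obtain ⟨h', j'⟩ := a
      simp only [Pi.sub_apply, shift_apply, Pi.single_apply, Prod.mk.injEq]
      have e : (σ⁻¹ * h' = h) ↔ (h' = σ * h) := by
        constructor
        · intro h2
          rw [← h2, mul_inv_cancel_left]
        · intro h2
          rw [h2, inv_mul_cancel_left]
      simp only [e]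
  have hz' : z = ∑ a : H × J, (Pi.single a (z a) - Pi.single ((1 : H), a.2) (z a)) := by
    rw [Finset.sum_sub_distrib]
    have h1 : ∑ a : H × J, (Pi.single a (z a) : H × J → B) = z := by
      funext a
      rw [Finset.sum_apply]
      simp [Pi.single_apply]
    have h2 : ∑ a : H × J, (Pi.single ((1 : H), a.2) (z a) : H × J → B) = 0 := by
      funext a
      obtain ⟨h', j'⟩ := a
      rw [Finset.sum_apply, Fintype.sum_prod_type]
      simp only [Pi.single_apply, Prod.mk.injEq, Pi.zero_apply]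
      by_cases h1 : h' = 1
      · subst h1
        simp only [true_and]
        rw [Finset.sum_comm]
        simp [hz]
      · have : ∀ (x : H) (y : J), ((h' = 1 ∧ j' = y) ↔ False) := fun x y =>
          ⟨fun hc => h1 hc.1, False.elim⟩
        simp [h1]
    rw [h1, h2, sub_zero]
  rw [hz']
  exact P.sum_mem (fun a _ => hel a.1 a.2 (z a))

end induced
end H26SU
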