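/-
W2-C (S55) block C-finite, slice FI-U (helper26): `H26SU.h26c_semilocalUnits : H17C.SemilocalUnits`.
For `|H| = p` prime, `σ ≠ 1` in `H ≤ Aut(L)`: there is an `H`-stable subgroup `V ≤ U_L` of finite index
with `Ĥ⁰(H, V) = Ĥ⁻¹(H, V) = 0`.  `V = 1 + m_S^e Λ₀`, `Λ₀ = ⊕ ℤ_S · h(θ_j)` the lattice of a normal
basis (`IsGalois.normalBasis` for `L / L^H` times a `ℚ`-basis of `L^H`), which is an induced module;
`Λ₀` is commensurable with `Λ_L` (bounded denominators, helper3) and `Λ_L` is complete (helper21);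
successive approximation (`SemilocalUnitsAbs_helper26.lean`, after helper6's local version).
-/
import Fermat.Agent.CFT2.C.SemilocalUnitsAbs_helper26
import Fermat.Agent.CFT2.C.PowOpenS_helper21
import Fermat.Agent.CFT2.C.WeakApproxBase_helper3
import Fermat.Agent.CFT2.C.Slices_helper17

set_option autoImplicit false
set_option linter.style.haveILetI false
set_option linter.unusedSectionVars false
set_option linter.unusedVariables false
noncomputable section
namespace H26SU

open H17C NumberField TensorProduct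

/-! ### the normal basis -/

section normal
variable (L : Type) [Field L] [NumberField L] (H : Subgroup (AutQ L))

/-- a `ℚ`-basis of `L` of the form `h (θ_j)`, `h ∈ H` -/
theorem exists_normal_basis :
    ∃ (J : Type) (_ : Fintype J) (e : Module.Basis (H × J) ℚ L),
      ∀ (τ h : H) (j : J), (τ : AutQ L) (e (h, j)) = e (τ * h, j) := by
  classical
  let F := IntermediateField.fixedField H
  haveI : IsGalois F L := IsGalois.of_fixed_field L H
  let e₀ : H ≃* (L ≃ₐ[F] L) := IntermediateField.subgroupEquivAlgEquiv H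
  let nb : Module.Basis (L ≃ₐ[F] L) F L := IsGalois.normalBasis F L
  let bF : Module.Basis (Module.Free.ChooseBasisIndex ℚ F) ℚ F := Module.Free.chooseBasis ℚ F
  let b := bF.smulTower nb
  let eq : Module.Free.ChooseBasisIndex ℚ F × (L ≃ₐ[F] L) ≃ H × Module.Free.ChooseBasisIndex ℚ F :=
    (Equiv.prodComm _ _).trans (Equiv.prodCongr e₀.symm.toEquiv (Equiv.refl _))
  refine ⟨Module.Free.ChooseBasisIndex ℚ F, inferInstance, b.reindex eq, ?_⟩
  intro τ h j
  have h1 : ∀ (h : H), (b.reindex eq) (h, j) = (bF j : L) * (h : AutQ L) (nb 1) := by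
    intro h
    rw [Module.Basis.reindex_apply]
    have : eq.symm (h, j) = (j, e₀ h) := rfl
    rw [this, Module.Basis.smulTower_apply, IsGalois.normalBasis_apply]
    rfl
  rw [h1, h1, map_mul]
  congr 1
  exact (bF j).2 τ

end normal

/-! ### the action on `L_S` -/

section action
variable (S : Finset Nat.Primes) (L : Type) [Field L] [NumberField L] (H : Subgroup (AutQ L))

/-- the action of `H` on `L_S` -/
@[reducible] def instActKS : MulSemiringAction H (KS S L) where
  smul τ x := ksAut S ℚ L (τ : AutQ L) x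
  one_smul x := ksAut_one S ℚ L x
  mul_smul τ τ' x := ksAut_mul S ℚ L τ τ' x
  smul_zero τ := map_zero _
  smul_add τ x y := map_add _ x y
  smul_one τ := map_one _
  smul_mul τ x y := map_mul _ x y

attribute [local instance] instActKS

theorem smul_def (τ : H) (x : KS S L) : τ • x = ksAut S ℚ L (τ : AutQ L) x := rfl

theorem smul_tmulS (τ : H) (x : L) (y : QS S) :
    τ • tmulS S L x y = tmulS S L ((τ : AutQ L) x) y := rfl

end action

attribute [local instance] instActKS

/-! ### coordinates -/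

section coords
variable (S : Finset Nat.Primes) (L : Type) [Field L] [NumberField L]
variable {A : Type} [Fintype A] (e : Module.Basis A ℚ L)

/-- `ℚ_S`-combinations of a basis -/
def cmbQ : (A → QS S) →+ KS S L where
  toFun y := ∑ a, tmulS S L (e a) (y a)
  map_zero' := by
    refine Finset.sum_eq_zero (fun a _ => ?_)
    exact TensorProduct.tmul_zero _ _
  map_add' y y' := by
    rw [← Finset.sum_add_distrib]
    exact Finset.sum_congr rfl (fun a _ => tmulS_add_right _ _ _)

theorem cmbQ_apply (y : A → QS S) : cmbQ S L e y = ∑ a, tmulS S L (e a) (y a) := rfl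

theorem tmulS_eq (x : L) (y : QS S) : tmulS S L x y = locRing S L y * diagRing S L x := by
  rw [diagRing_apply, locRing_apply, tmulS_mul, one_mul, mul_one]

theorem cmbQ_mul (r : QS S) (y : A → QS S) :
    cmbQ S L e (fun a => r * y a) = locRing S L r * cmbQ S L e y := by
  rw [cmbQ_apply, cmbQ_apply, Finset.mul_sum]
  refine Finset.sum_congr rfl (fun a _ => ?_)
  rw [tmulS_eq, tmulS_eq, map_mul, mul_assoc]

theorem cmbQ_natCast (n : ℕ) (y : A → QS S) :
    cmbQ S L e (fun a => (n : QS S) * y a) = (n : KS S L) * cmbQ S L e y := by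
  rw [cmbQ_mul, map_natCast]

theorem cmbQ_surj (x : KS S L) : ∃ y : A → QS S, x = cmbQ S L e y := by
  induction x using ks_induction with
  | zero => exact ⟨0, (map_zero _).symm⟩
  | tmul x y =>
    refine ⟨fun a => (e.repr x a) • y, ?_⟩
    rw [cmbQ_apply]
    have h1 : x = ∑ a, e.repr x a • e a := (e.sum_repr x).symm
    conv_lhs => rw [h1]
    have h2 : ∀ (s : Finset A) (f : A → L), tmulS S L (∑ a ∈ s, f a) y
        = ∑ a ∈ s, tmulS S L (f a) y := by
      intro s f
      exact TensorProduct.sum_tmul s f y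
    rw [h2]
    exact Finset.sum_congr rfl (fun a _ => tmulS_smul _ _ _)
  | add a b ha hb =>
    obtain ⟨y, rfl⟩ := ha
    obtain ⟨y', rfl⟩ := hb
    exact ⟨y + y', (map_add _ _ _).symm⟩

/-- the coordinates -/
def crd (b : A) : KS S L →+ QS S where
  toFun x := by
    classical
    exact (TensorProduct.equivFinsuppOfBasisLeft e (x : L ⊗[ℚ] QS S)) b
  map_zero' := by
    classical
    have h := map_zero (TensorProduct.equivFinsuppOfBasisLeft (R := ℚ) (N := QS S) e)
    exact congrArg (fun f : A →₀ QS S => f b) h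
  map_add' x y := by
    classical
    have h := map_add (TensorProduct.equivFinsuppOfBasisLeft (R := ℚ) (N := QS S) e)
      (x : L ⊗[ℚ] QS S) (y : L ⊗[ℚ] QS S)
    exact congrArg (fun f : A →₀ QS S => f b) h

theorem crd_tmulS (b : A) (x : L) (y : QS S) : crd S L e b (tmulS S L x y) = e.repr x b • y := by
  classical
  exact TensorProduct.equivFinsuppOfBasisLeft_apply_tmul_apply e x y b

theorem crd_cmbQ (b : A) (y : A → QS S) : crd S L e b (cmbQ S L e y) = y b := by
  classical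
  rw [cmbQ_apply, map_sum]
  simp only [crd_tmulS, Module.Basis.repr_self, Finsupp.single_apply]
  rw [Finset.sum_eq_single b]
  · simp
  · intro a _ hab
    simp [hab]
  · intro hb
    exact absurd (Finset.mem_univ b) hb

theorem cmbQ_inj : Function.Injective (cmbQ S L e) := by
  intro y y' h
  funext b
  rw [← crd_cmbQ S L e b y, ← crd_cmbQ S L e b y', h]

end coords

/-! ### the lattice `Λ₀` -/

section lattice0
variable (S : Finset Nat.Primes) (L : Type) [Field L] [NumberField L] (H : Subgroup (AutQ L))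
  [Fintype H]
variable {J : Type} [Fintype J] (e : Module.Basis (H × J) ℚ L)

theorem mS_ne_zero : mS S ≠ 0 := by
  unfold mS
  exact Finset.prod_ne_zero_iff.mpr fun q _ => q.2.ne_zero

theorem zsToQs_injective : Function.Injective (zsToQs S) := by
  intro z z' h
  funext q
  have := congrFun h q
  exact Subtype.ext this

/-- `ℤ_S`-combinations of a basis -/
def cmbZ {A : Type} [Fintype A] (e : Module.Basis A ℚ L) : (A → ZS S) →+ KS S L :=
  (cmbQ S L e).comp
    ({ toFun := fun z a => zsToQs S (z a)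
       map_zero' := by funext a; exact map_zero _
       map_add' := fun z z' => by funext a; exact map_add _ _ _ } : (A → ZS S) →+ (A → QS S))

theorem cmbZ_apply {A : Type} [Fintype A] (e : Module.Basis A ℚ L) (z : A → ZS S) :
    cmbZ S L e z = cmbQ S L e (fun a => zsToQs S (z a)) := rfl

theorem cmbZ_inj {A : Type} [Fintype A] (e : Module.Basis A ℚ L) :
    Function.Injective (cmbZ S L e) := by
  intro z z' h
  have := cmbQ_inj S L e h
  funext a
  exact zsToQs_injective S (congrFun this a)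

theorem cmbZ_mul {A : Type} [Fintype A] (e : Module.Basis A ℚ L) (r : ZS S) (z : A → ZS S) :
    cmbZ S L e (fun a => r * z a) = H21C.zsHom S L r * cmbZ S L e z := by
  rw [cmbZ_apply, cmbZ_apply]
  have : (fun a => zsToQs S (r * z a)) = fun a => zsToQs S r * zsToQs S (z a) := by
    funext a
    exact map_mul _ _ _
  rw [this, cmbQ_mul]
  rfl

theorem cmbZ_natCast {A : Type} [Fintype A] (e : Module.Basis A ℚ L) (n : ℕ) (z : A → ZS S) :
    cmbZ S L e (fun a => (n : ZS S) * z a) = (n : KS S L) * cmbZ S L e z := by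
  rw [cmbZ_mul, H21C.zsHom_natCast]

variable (he : ∀ (τ h : H) (j : J), (τ : AutQ L) (e (h, j)) = e (τ * h, j))

include he in
theorem smul_cmbQ (τ : H) (y : H × J → QS S) :
    τ • cmbQ S L e y = cmbQ S L e (shift τ y) := by
  rw [cmbQ_apply, cmbQ_apply, Finset.smul_sum]
  refine Fintype.sum_equiv (Equiv.prodCongr (Equiv.mulLeft τ) (Equiv.refl J)) _ _ (fun a => ?_)
  obtain ⟨h, j⟩ := a
  rw [smul_tmulS, he]
  change _ = tmulS S L (e (τ * h, j)) (y (τ⁻¹ * (τ * h), j))
  rw [inv_mul_cancel_left]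

include he in
theorem smul_cmbZ (τ : H) (z : H × J → ZS S) :
    τ • cmbZ S L e z = cmbZ S L e (shift τ z) := by
  rw [cmbZ_apply, cmbZ_apply, smul_cmbQ S L H e he]
  rfl

/-- the lattice `Λ₀ = ⊕ ℤ_S e_a` -/
def lat0 {A : Type} [Fintype A] (e : Module.Basis A ℚ L) : AddSubgroup (KS S L) :=
  (cmbZ S L e).range

theorem mem_lat0 {A : Type} [Fintype A] (e : Module.Basis A ℚ L) {x : KS S L} :
    x ∈ lat0 S L e ↔ ∃ z : A → ZS S, cmbZ S L e z = x := Iff.rfl

theorem zsHom_mul_mem {A : Type} [Fintype A] (e : Module.Basis A ℚ L) (r : ZS S) {x : KS S L}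
    (hx : x ∈ lat0 S L e) : H21C.zsHom S L r * x ∈ lat0 S L e := by
  obtain ⟨z, rfl⟩ := hx
  exact ⟨fun a => r * z a, cmbZ_mul S L e r z⟩

theorem natCast_mul_mem {A : Type} [Fintype A] (e : Module.Basis A ℚ L) (n : ℕ) {x : KS S L}
    (hx : x ∈ lat0 S L e) : (n : KS S L) * x ∈ lat0 S L e := by
  rw [← H21C.zsHom_natCast]
  exact zsHom_mul_mem S L e _ hx

theorem mS_isUnit : IsUnit ((mS S : ℕ) : KS S L) := by
  have h : ((mS S : ℕ) : ℚ) ≠ 0 := by
    exact_mod_cast mS_ne_zero S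
  have := (IsUnit.mk0 _ h).map (algebraMap ℚ (KS S L))
  rwa [map_natCast] at this

/-- bounded denominators for `Λ₀`: `m ^ k x ∈ Λ₀` for all large `k` -/
theorem lat0_bounded {A : Type} [Fintype A] (e : Module.Basis A ℚ L) (x : KS S L) :
    ∃ k : ℕ, ∀ k' : ℕ, k ≤ k' → ((mS S : ℕ) : KS S L) ^ k' * x ∈ lat0 S L e := by
  classical
  obtain ⟨y, rfl⟩ := cmbQ_surj S L e x
  choose k z hkz using fun a => H3C.h3c_exists_pow_mul S (y a)
  refine ⟨∑ a, k a, fun k' hk' => ?_⟩
  refine ⟨fun a => ((mS S : ℕ) : ZS S) ^ (k' - k a) * z a, ?_⟩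
  rw [cmbZ_apply, ← Nat.cast_pow, ← cmbQ_natCast]
  congr 1
  funext a
  have h1 : k a ≤ k' := le_trans (Finset.single_le_sum (fun _ _ => Nat.zero_le _)
    (Finset.mem_univ a)) hk'
  rw [map_mul, ← hkz a, map_pow, map_natCast, ← mul_assoc]
  congr 1
  rw [Nat.cast_pow, Nat.cast_pow, ← pow_add]
  congr 1
  omega

/-- `m ^ c Λ ⊆ Λ₀` -/
theorem lat0_ge {A : Type} [Fintype A] (e : Module.Basis A ℚ L) :
    ∃ c : ℕ, ∀ x ∈ latS S L, ((mS S : ℕ) : KS S L) ^ c * x ∈ lat0 S L e := by
  classical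
  choose k hk using fun i : H21C.JB L => lat0_bounded S L e (H21C.eB S L i)
  refine ⟨∑ i, k i, fun x hx => ?_⟩
  obtain ⟨z, rfl⟩ := (H21C.latS_iff S L x).mp hx
  unfold H21C.comb
  rw [Finset.mul_sum]
  refine (lat0 S L e).sum_mem (fun i _ => ?_)
  have h1 : k i ≤ ∑ i, k i :=
    Finset.single_le_sum (fun _ _ => Nat.zero_le _) (Finset.mem_univ i)
  rw [mul_left_comm]
  exact zsHom_mul_mem S L e _ (hk i _ h1)

/-- `m ^ d Λ₀ ⊆ Λ` -/
theorem lat0_le {A : Type} [Fintype A] (e : Module.Basis A ℚ L) :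
    ∃ d : ℕ, ∀ x ∈ lat0 S L e, ((mS S : ℕ) : KS S L) ^ d * x ∈ latS S L := by
  classical
  choose k hk using fun a : A => H3C.h3c_bounded S L (tmulS S L (e a) 1)
  refine ⟨∑ a, k a, fun x hx => ?_⟩
  obtain ⟨z, rfl⟩ := hx
  rw [cmbZ_apply, cmbQ_apply, Finset.mul_sum]
  refine (latS S L).sum_mem (fun a _ => ?_)
  have h1 : k a ≤ ∑ a, k a :=
    Finset.single_le_sum (fun _ _ => Nat.zero_le _) (Finset.mem_univ a)
  obtain ⟨r, hr⟩ := Nat.exists_eq_add_of_le h1
  have h2 : tmulS S L (e a) (zsToQs S (z a))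
      = tmulS S L (e a) 1 * H21C.zsHom S L (z a) := by
    change _ = tmulS S L (e a) 1 * tmulS S L 1 (zsToQs S (z a))
    rw [tmulS_mul, mul_one, one_mul]
  rw [h2, hr, pow_add, mul_comm (((mS S : ℕ) : KS S L) ^ k a), mul_assoc, ← mul_assoc
    (((mS S : ℕ) : KS S L) ^ k a)]
  refine (latS S L).mul_mem ?_ ((latS S L).mul_mem ?_ (H21C.zsHom_mem S L _))
  · rw [← Nat.cast_pow]
    exact natCast_mem _ _
  · have := hk a
    rwa [Nat.cast_pow] at this

end lattice0

/-! ### cohomological triviality of `Λ₀` -/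

section triv
variable (S : Finset Nat.Primes) (L : Type) [Field L] [NumberField L] (H : Subgroup (AutQ L))
  [Fintype H]
variable {J : Type} [Fintype J] (e : Module.Basis (H × J) ℚ L)
variable (he : ∀ (τ h : H) (j : J), (τ : AutQ L) (e (h, j)) = e (τ * h, j))
variable (σ : H) (hgen : ∀ h : H, h ∈ Subgroup.zpowers σ)

include he in
theorem sum_smul_cmbZ (z : H × J → ZS S) :
    ∑ τ : H, τ • cmbZ S L e z = cmbZ S L e (∑ τ : H, shift τ z) := by
  rw [map_sum]
  exact Finset.sum_congr rfl (fun τ _ => smul_cmbZ S L H e he τ z)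

include he hgen in
theorem lat0_t0 (x : KS S L) (hx : x ∈ lat0 S L e) (hσ : σ • x = x) :
    ∃ y ∈ lat0 S L e, ∑ τ : H, τ • y = x := by
  classical
  obtain ⟨z, rfl⟩ := hx
  rw [smul_cmbZ S L H e he] at hσ
  have hz := cmbZ_inj S L e hσ
  refine ⟨cmbZ S L e (atOne (fun j => z (1, j))), ⟨_, rfl⟩, ?_⟩
  rw [sum_smul_cmbZ S L H e he, ind_t0 σ hgen z hz]

include he hgen in
theorem lat0_t1 (x : KS S L) (hx : x ∈ lat0 S L e)
    (hs : ∃ w ∈ lat0 S L e, ∑ τ : H, τ • x = ((mS S : ℕ) : KS S L) * w) :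
    ∃ z ∈ lat0 S L e, ∃ w ∈ lat0 S L e, x - (σ • z - z) = ((mS S : ℕ) : KS S L) * w := by
  classical
  obtain ⟨z, rfl⟩ := hx
  obtain ⟨w, ⟨zw, rfl⟩, hsw⟩ := hs
  rw [sum_smul_cmbZ S L H e he, ← cmbZ_natCast] at hsw
  have h1 := cmbZ_inj S L e hsw
  rw [sum_shift] at h1
  -- the column sums
  have hs : ∀ j : J, ∑ h : H, z (h, j) = ((mS S : ℕ) : ZS S) * zw (1, j) := fun j =>
    congrFun h1 (1, j)
  have h2 : ∀ j : J, ∑ h : H,
      ((z - atOne (fun j => ∑ h : H, z (h, j)) : H × J → ZS S)) (h, j) = 0 := by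
    intro j
    simp only [Pi.sub_apply]
    rw [Finset.sum_sub_distrib, sum_atOne, sub_self]
  obtain ⟨g, hg⟩ := ind_t1 σ hgen _ h2
  refine ⟨cmbZ S L e g, ⟨_, rfl⟩, cmbZ S L e (atOne (fun j => zw (1, j))), ⟨_, rfl⟩, ?_⟩
  rw [smul_cmbZ S L H e he, ← map_sub, ← map_sub, ← hg, sub_sub_cancel, ← cmbZ_natCast]
  congr 1
  funext a
  simp only [atOne]
  split_ifs
  · exact hs a.2
  · rw [mul_zero]

end triv

/-! ### the final assembly -/

section final
variable (S : Finset Nat.Primes) (L : Type) [Field L] [NumberField L] (H : Subgroup (AutQ L))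
  [Fintype H]
variable {J : Type} [Fintype J] (e : Module.Basis (H × J) ℚ L)
variable (he : ∀ (τ h : H) (j : J), (τ : AutQ L) (e (h, j)) = e (τ * h, j))
variable (σ : H) (hgen : ∀ h : H, h ∈ Subgroup.zpowers σ)

/-- the lattice data of `Λ₀ ⊆ L_S` -/
def latData (c d : ℕ)
    (hc : ∀ x ∈ latS S L, ((mS S : ℕ) : KS S L) ^ c * x ∈ lat0 S L e)
    (hd : ∀ x ∈ lat0 S L e, ((mS S : ℕ) : KS S L) ^ d * x ∈ latS S L) :
    LatData (KS S L) H σ where
  m := mS S
  c := c
  d := d
  Λ := latS S L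
  Λ₀ := lat0 S L e
  unit := mS_isUnit S L
  le := hd
  ge := hc
  stable τ x hx := by
    obtain ⟨z, rfl⟩ := hx
    exact ⟨shift τ z, (smul_cmbZ S L H e he τ z).symm⟩
  pre f hf := by
    obtain ⟨l, -, hl⟩ := H21C.lat_pre S L f hf
    exact ⟨l, hl⟩
  haus := H21C.lat_haus S L
  t0 := lat0_t0 S L H e he σ hgen
  t1 := lat0_t1 S L H e he σ hgen

/-- `Λ / MΛ` is finite -/
theorem lat_finite_quot (M : ℕ) (hM : M ≠ 0) :
    ∃ T : Set (KS S L), T.Finite ∧
      ∀ x ∈ latS S L, ∃ t ∈ T, ∃ y ∈ latS S L, x - t = (M : KS S L) * y := by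
  classical
  refine ⟨Set.range (fun c : H21C.JB L → Fin M => H21C.comb S L (fun i => ((c i : ℕ) : ZS S))),
    Set.finite_range _, fun x hx => ?_⟩
  obtain ⟨z, rfl⟩ := (H21C.latS_iff S L x).mp hx
  choose c t hct using fun i => H3C.h3c_crt S (z i) M hM
  refine ⟨_, ⟨fun i => ⟨c i % M, Nat.mod_lt _ (Nat.pos_of_ne_zero hM)⟩, rfl⟩,
    H21C.comb S L (fun i => t i + ((c i / M : ℕ) : ZS S)), H21C.comb_mem S L _, ?_⟩
  rw [← H21C.comb_sub, ← H21C.zsHom_natCast, ← H21C.comb_smul]
  congr 1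
  funext i
  simp only [Pi.sub_apply]
  rw [hct i]
  have h1 : ((c i : ℕ) : ZS S) = (M : ZS S) * ((c i / M : ℕ) : ZS S) + ((c i % M : ℕ) : ZS S) := by
    have := congrArg (fun n : ℕ => (n : ZS S)) (Nat.div_add_mod (c i) M)
    simp only [Nat.cast_add, Nat.cast_mul] at this
    exact this.symm
  rw [h1]
  ring

end final

section main
variable (S : Finset Nat.Primes) (L : Type) [Field L] [NumberField L] (H : Subgroup (AutQ L))

theorem ideleRep_eq [Fintype H] (τ : H) (v : Additive (KS S L)ˣ) :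
    ideleRep S ℚ L (τ : AutQ L) v = Additive.ofMul (actU τ (Additive.toMul v)) := rfl

theorem ideleD_eq [Fintype H] (σ : H) (v : Additive (KS S L)ˣ) :
    ideleD S L (σ : AutQ L) v = Additive.ofMul (sigmaU σ (Additive.toMul v)) := rfl

theorem ideleN_eq (v : Additive (KS S L)ˣ) :
    letI : Fintype H := Fintype.ofFinite H
    ideleN S L H v = Additive.ofMul (normU (H := H) (Additive.toMul v)) := by
  letI : Fintype H := Fintype.ofFinite H
  change (∑ h : H, ideleRep S ℚ L (h : AutQ L)) v = _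
  rw [LinearMap.sum_apply]
  unfold normU
  rw [MonoidHom.finsetProd_apply, ofMul_prod]
  rfl

/-- **(FI-U)** -/
theorem h26c_semilocalUnits : H17C.SemilocalUnits := by
  intro p S L _ _ H hp hcard σ hσH hσ1
  classical
  haveI : Finite H := Nat.finite_of_card_ne_zero (hcard ▸ hp.ne_zero)
  letI : Fintype H := Fintype.ofFinite H
  haveI : Fact p.Prime := ⟨hp⟩
  obtain ⟨J, hJ, e, he⟩ := exists_normal_basis L H
  have hgen : ∀ h : H, h ∈ Subgroup.zpowers (⟨σ, hσH⟩ : H) := by
    have h1 := zpowers_eq_top_of_prime_card hcard (g := (⟨σ, hσH⟩ : H))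
      (by intro h; exact hσ1 (congrArg Subtype.val h))
    intro h
    rw [h1]
    exact Subgroup.mem_top h
  obtain ⟨c, hc⟩ := lat0_ge S L e
  obtain ⟨d, hd⟩ := lat0_le S L e
  set D := latData S L H e he ⟨σ, hσH⟩ hgen c d hc hd with hD
  have hVU : D.filt.V 0 ≤ unitIdele S L := by
    intro u hu
    exact ⟨filt_V_le D hu, filt_V_le D ((D.filt.V 0).inv_mem hu)⟩
  refine ⟨(D.filt.V 0).toAddSubgroup, ?_, ?_, ?_, ?_, ?_⟩
  · exact hVU
  · change (Subgroup.toAddSubgroup (D.filt.V 0)).relIndex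
      (Subgroup.toAddSubgroup (unitIdele S L)) ≠ 0
    rw [Subgroup.relIndex_toAddSubgroup]
    have hM : mS S ^ (D.e + D.c) ≠ 0 := pow_ne_zero _ (mS_ne_zero S)
    obtain ⟨T, hT, hTq⟩ := lat_finite_quot S L (mS S ^ (D.e + D.c)) hM
    refine finite_index (latS S L) (unitIdele S L) (D.filt.V 0)
      ((mS S ^ (D.e + D.c) : ℕ) : KS S L) (fun u hu => hu) ?_ T hT hTq
    intro u _ hy
    apply filt_V_ge D
    obtain ⟨y, hy, h⟩ := hy
    refine ⟨y, hy, ?_⟩
    rw [Nat.cast_pow] at h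
    change (u : KS S L) = 1 + ((mS S : ℕ) : KS S L) ^ (D.e + D.c) * y
    rw [← h]
    ring
  · intro τ hτ v hv
    exact V_stable D.filt 0 (⟨τ, hτ⟩ : H) hv
  · intro v hv hσv
    have h1 : actU (⟨σ, hσH⟩ : H) (Additive.toMul v) = Additive.toMul v := by
      have h2 : sigmaU (⟨σ, hσH⟩ : H) (Additive.toMul v) = 1 := congrArg Additive.toMul hσv
      rw [sigmaU_apply] at h2
      exact div_eq_one.mp h2
    obtain ⟨y, hy, hyv⟩ := H0 D.filt (Additive.toMul v) hv h1
    refine ⟨Additive.ofMul y, hy, ?_⟩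
    rw [ideleN_eq]
    exact congrArg Additive.ofMul hyv
  · intro v hv hNv
    have h1 : normU (H := H) (Additive.toMul v) = 1 := by
      rw [ideleN_eq] at hNv
      exact congrArg Additive.toMul hNv
    obtain ⟨y, hy, hyv⟩ := H1 D.filt (Additive.toMul v) hv h1
    exact ⟨Additive.ofMul y, hy, congrArg Additive.ofMul hyv⟩

end main
end H26SU
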