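/-
helper19: W2-C (S55) block C-finite, slice FI-E (UnitHerbrand), part 1: polynomial identity
`p = (X - 1)^(p-1) v + Φ_p h` in `ℤ[X]` (i.e. `p ∈ (ζ - 1)^(p-1) ℤ[ζ]`).
-/
import Mathlib

set_option autoImplicit false
set_option linter.style.haveILetI false

namespace H19C

open Polynomial

/-- `p = (X - 1)^(p-1) * v + (1 + X + ... + X^(p-1)) * h` in `ℤ[X]`. -/
theorem h19c_poly_identity3 (p : ℕ) (hp : p.Prime) :
    ∃ v h : ℤ[X], C (p : ℤ) = (X - 1) ^ (p - 1) * v + (∑ i ∈ Finset.range p, X ^ i) * h := by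
  haveI : Fact p.Prime := ⟨hp⟩
  have hirr : Irreducible (cyclotomic p ℤ) := cyclotomic.irreducible hp.pos
  have hprime : Prime (cyclotomic p ℤ) := hirr.prime
  haveI : IsDomain (AdjoinRoot (cyclotomic p ℤ)) := AdjoinRoot.isDomain_of_prime hprime
  have hdeg : (cyclotomic p ℤ).degree ≠ 0 := by
    rw [degree_cyclotomic, Nat.totient_prime hp]
    intro h
    have h1 : ((p - 1 : ℕ) : WithBot ℕ) = ((0 : ℕ) : WithBot ℕ) := h
    have h2 : p - 1 = 0 := by exact_mod_cast h1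
    have := hp.two_le
    omega
  have hinj : Function.Injective (AdjoinRoot.of (cyclotomic p ℤ)) :=
    AdjoinRoot.of.injective_of_degree_ne_zero hdeg
  haveI : NeZero ((p : ℕ) : AdjoinRoot (cyclotomic p ℤ)) := by
    refine ⟨?_⟩
    intro h
    have h1 : AdjoinRoot.of (cyclotomic p ℤ) (p : ℤ) = 0 := by
      rw [map_natCast]
      exact h
    have h2 := hinj (h1.trans (map_zero _).symm)
    exact hp.ne_zero (by exact_mod_cast h2)
  have hroot : IsRoot (cyclotomic p (AdjoinRoot (cyclotomic p ℤ))) (AdjoinRoot.root (cyclotomic p ℤ)) := by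
    rw [IsRoot, ← map_cyclotomic_int p (AdjoinRoot (cyclotomic p ℤ)), eval_map]
    have := AdjoinRoot.eval₂_root (cyclotomic p ℤ)
    have he : Int.castRingHom (AdjoinRoot (cyclotomic p ℤ)) = AdjoinRoot.of (cyclotomic p ℤ) :=
      RingHom.ext_int _ _
    rw [he]
    exact this
  have hμ : IsPrimitiveRoot (AdjoinRoot.root (cyclotomic p ℤ)) p := isRoot_cyclotomic_iff.mp hroot
  obtain ⟨z, hz, hpz⟩ := hμ.self_sub_one_pow_dvd_order (Nat.sub_lt hp.pos Nat.one_pos)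
  obtain ⟨v, rfl⟩ := Algebra.adjoin_mem_exists_aeval _ _ hz
  have hmk : AdjoinRoot.mk (cyclotomic p ℤ) (C (p : ℤ) - (X - 1) ^ (p - 1) * v) = 0 := by
    have hv : AdjoinRoot.mk (cyclotomic p ℤ) v = aeval (AdjoinRoot.root (cyclotomic p ℤ)) v :=
      (AdjoinRoot.aeval_eq v).symm
    have hC : AdjoinRoot.mk (cyclotomic p ℤ) (C (p : ℤ)) =
        ((p : ℕ) : AdjoinRoot (cyclotomic p ℤ)) := by
      rw [AdjoinRoot.mk_C, map_natCast]
    rw [map_sub, map_mul, map_pow, map_sub, map_one, AdjoinRoot.mk_X, hC, hv, sub_eq_zero, hpz,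
      mul_comm]
    congr 2
  obtain ⟨h, hh⟩ := AdjoinRoot.mk_eq_zero.mp hmk
  refine ⟨v, h, ?_⟩
  rw [← cyclotomic_prime ℤ p, ← hh]
  ring

end H19C
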