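/-
helper19: W2-C (S55) block C-finite, slice FI-E (UnitHerbrand), part 2: the abstract Herbrand
quotient computation.

`A` a finitely generated abelian group without `p`-torsion, `D` ("σ - 1"), `N` ("norm") with
`D N = 0 = N D`, `N = p` on `ker D`, `D^(p-1) (im D) = p (im D)`, and
`rank A + 1 = p (rank (ker D) + 1)`.  Then `h1 = p * h0` (Herbrand quotient `1/p`).
Proof: `0 → ker D → A → im D → 0` and multiplicativity (`H25Herb.h25herb_mul`).
-/
import Mathlib
import Fermat.Agent.CFT2.A.H25Herbrand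
import Fermat.Agent.CFT.FI.UNEnd
import Fermat.Agent.CFT2.C.UnitHerbrandPoly_helper19

set_option autoImplicit false
set_option linter.unusedSectionVars false
set_option linter.style.haveILetI false

namespace H19C

open Module Polynomial H25Herb H29FI

section iter

variable {B : Type*} [AddCommGroup B]

theorem h19c_mem_R (f : B →+ B) (k : ℕ) (x : B) : x ∈ h29fi_R f k ↔ ∃ m : B, x = f^[k] m := by
  constructor
  · exact h29fi_R_mem f k x
  · rintro ⟨m, rfl⟩
    induction k generalizing m with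
    | zero => exact AddSubgroup.mem_top _
    | succ k ih =>
      rw [Function.iterate_succ_apply']
      exact ⟨f^[k] m, ih m, rfl⟩

/-- `[B : f^k B] = [B : f B]^k` for an injective endomorphism `f`. -/
theorem h19c_index_R_of_injective (f : B →+ B) (hf : Function.Injective f) (k : ℕ) :
    (h29fi_R f k).index = f.range.index ^ k := by
  induction k with
  | zero =>
    rw [pow_zero]
    exact AddSubgroup.index_top
  | succ k ih =>
    have h1 : (h29fi_R f (k + 1)).index = ((h29fi_R f k).map f).index := rfl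
    rw [h1, AddSubgroup.index_map_of_injective (h29fi_R f k) hf, ih, pow_succ]

end iter

section core

variable {A : Type*} [AddCommGroup A]

/-- index of `pK` for a f.g. group `K` without `p`-torsion. -/
theorem h19c_index_nsmul_tf (K : Type*) [AddCommGroup K] [Module.Finite ℤ K] (p : ℕ) [NeZero p]
    (htf : ∀ x : K, p • x = 0 → x = 0) :
    (nsmulAddMonoidHom p : K →+ K).range.index = p ^ finrank ℤ K := by
  rw [h29fi_index_nsmul K p]
  have hker : (nsmulAddMonoidHom p : K →+ K).ker = ⊥ := by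
    ext x
    simp only [AddMonoidHom.mem_ker, nsmulAddMonoidHom_apply, AddSubgroup.mem_bot]
    exact ⟨htf x, fun h => by rw [h, smul_zero]⟩
  rw [hker, AddSubgroup.card_bot, mul_one]

set_option maxHeartbeats 1000000 in
/-- **the abstract unit Herbrand quotient, `p`-torsion-free case.** -/
theorem h19c_core [Module.Finite ℤ A] (p : ℕ) (hp : p.Prime) (D N : A →+ A)
    (hDN : ∀ x, D (N x) = 0) (hND : ∀ x, N (D x) = 0)
    (hNX : ∀ x, D x = 0 → N x = p • x)
    (hW : ∀ x, ∃ y, (D^[p-1]) (D x) = p • D y)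
    (hV : ∀ x, ∃ y, p • D x = (D^[p-1]) (D y))
    (htf : ∀ x : A, p • x = 0 → x = 0)
    (hrank : finrank ℤ A + 1 = p * (finrank ℤ D.ker + 1)) :
    h0 D N ≠ 0 ∧ h1 D N = p * h0 D N := by
  classical
  haveI : NeZero p := ⟨hp.ne_zero⟩
  haveI hKfin : Module.Finite ℤ D.ker := h29fi_finite_addSubgroup D.ker
  haveI hBfin : Module.Finite ℤ D.range := h29fi_finite_addSubgroup D.range
  -- the maps
  let fK : D.ker →+ D.ker := 0
  let gK : D.ker →+ D.ker := nsmulAddMonoidHom p
  let fB : D.range →+ D.range := (D.comp D.range.subtype).codRestrict D.range (fun b => ⟨b.1, rfl⟩)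
  let gB : D.range →+ D.range := 0
  have hfBcoe : ∀ b : D.range, ((fB b : D.range) : A) = D b.1 := fun _ => rfl
  have hi : Function.Injective D.ker.subtype := Subtype.val_injective
  have hπ : Function.Surjective D.rangeRestrict := D.rangeRestrict_surjective
  have hex : D.rangeRestrict.ker = D.ker.subtype.range := by
    rw [AddMonoidHom.ker_rangeRestrict, AddSubgroup.range_subtype]
  have hfi : ∀ a, D.ker.subtype (fK a) = D (D.ker.subtype a) := by
    intro a
    have : D a.1 = 0 := a.2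
    simp [fK, this]
  have hgi : ∀ a, D.ker.subtype (gK a) = N (D.ker.subtype a) := by
    intro a
    have h1 : D a.1 = 0 := a.2
    simp [gK, hNX a.1 h1]
  have hfπ : ∀ b, D.rangeRestrict (D b) = fB (D.rangeRestrict b) := fun b => Subtype.ext rfl
  have hgπ : ∀ b, D.rangeRestrict (N b) = gB (D.rangeRestrict b) := by
    intro b
    apply Subtype.ext
    simp [gB, hDN b]
  have hmul := h25herb_mul fK gK D N fB gB D.ker.subtype D.rangeRestrict hDN hND hi hπ hex
    hfi hgi hfπ hgπ
  -- `K`: `h0 = p^a`, `h1 = 1`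
  have htfK : ∀ x : D.ker, p • x = 0 → x = 0 := by
    intro x hx
    apply Subtype.ext
    apply htf
    have := congrArg Subtype.val hx
    simpa using this
  have hK0 : h0 fK gK = p ^ finrank ℤ D.ker := by
    unfold h0
    have hk : fK.ker = ⊤ := by
      ext x
      simp [fK]
    rw [hk, AddSubgroup.relIndex_top_right]
    exact h19c_index_nsmul_tf D.ker p htfK
  have hK1 : h1 fK gK = 1 := by
    unfold h1
    have hk : gK.ker = ⊥ := by
      ext x
      simp only [AddMonoidHom.mem_ker, AddSubgroup.mem_bot, gK, nsmulAddMonoidHom_apply]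
      exact ⟨htfK x, fun h => by rw [h, smul_zero]⟩
    rw [hk, AddSubgroup.relIndex_bot_right]
  -- `B`: `fB` is injective
  have hfBinj : Function.Injective fB := by
    rw [injective_iff_map_eq_zero]
    intro b hb
    have h1 : D b.1 = 0 := by
      have := congrArg Subtype.val hb
      simpa [hfBcoe] using this
    have h2 : N b.1 = 0 := by
      obtain ⟨a, ha⟩ := b.2
      rw [← ha]
      exact hND a
    apply Subtype.ext
    apply htf
    rw [← hNX b.1 h1, h2]
  have hB0 : h0 fB gB = 1 := by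
    unfold h0
    have hk : fB.ker = ⊥ := (AddMonoidHom.ker_eq_bot_iff fB).mpr hfBinj
    rw [hk, AddSubgroup.relIndex_bot_right]
  have hB1 : h1 fB gB = fB.range.index := by
    unfold h1
    have hk : gB.ker = ⊤ := by
      ext x
      simp [gB]
    rw [hk, AddSubgroup.relIndex_top_right]
  -- `[B : fB B]^(p-1) = [B : pB] = p^b`
  have htfB : ∀ x : D.range, p • x = 0 → x = 0 := by
    intro x hx
    apply Subtype.ext
    apply htf
    have := congrArg Subtype.val hx
    simpa using this
  have hiter : ∀ (k : ℕ) (b : D.range), ((fB^[k] b : D.range) : A) = D^[k] b.1 := by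
    intro k
    induction k with
    | zero => intro b; rfl
    | succ k ih =>
      intro b
      rw [Function.iterate_succ_apply', Function.iterate_succ_apply', hfBcoe, ih]
  have hrange : h29fi_R fB (p - 1) = (nsmulAddMonoidHom p : D.range →+ D.range).range := by
    ext b
    rw [h19c_mem_R]
    constructor
    · rintro ⟨c, rfl⟩
      obtain ⟨a, ha⟩ := c.2
      obtain ⟨y, hy⟩ := hW a
      refine ⟨⟨D y, ⟨y, rfl⟩⟩, ?_⟩
      apply Subtype.ext
      rw [hiter, ← ha, hy]
      rfl
    · rintro ⟨c, rfl⟩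
      obtain ⟨a, ha⟩ := c.2
      obtain ⟨y, hy⟩ := hV a
      refine ⟨⟨D y, ⟨y, rfl⟩⟩, ?_⟩
      apply Subtype.ext
      rw [hiter]
      show p • c.1 = D^[p - 1] (D y)
      rw [← hy, ha]
  have hpow : fB.range.index ^ (p - 1) = p ^ finrank ℤ D.range := by
    rw [← h19c_index_R_of_injective fB hfBinj (p - 1), hrange]
    exact h19c_index_nsmul_tf D.range p htfB
  -- ranks
  have hrk := h29fi_finrank_ker_add_range D
  have hp1 : 1 ≤ p - 1 := by have := hp.two_le; omega
  have hb : finrank ℤ D.range = (finrank ℤ D.ker + 1) * (p - 1) := by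
    obtain ⟨q, hq⟩ : ∃ q, p = q + 1 := ⟨p - 1, by omega⟩
    subst hq
    simp only [Nat.add_sub_cancel]
    have : finrank ℤ A + 1 = (q + 1) * (finrank ℤ D.ker + 1) := hrank
    nlinarith
  have hd : fB.range.index = p ^ (finrank ℤ D.ker + 1) := by
    have h1 : fB.range.index ^ (p - 1) = (p ^ (finrank ℤ D.ker + 1)) ^ (p - 1) := by
      rw [hpow, hb, pow_mul]
    exact Nat.pow_left_injective (by omega : p - 1 ≠ 0) h1
  -- conclusion
  rw [hK0, hK1, hB0, hB1, hd] at hmul
  have hpa : 0 < p ^ finrank ℤ D.ker := pow_pos hp.pos _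
  have hfinal : h1 D N = p * h0 D N := by
    have h2 : p ^ finrank ℤ D.ker * (p * h0 D N) = p ^ finrank ℤ D.ker * h1 D N := by
      have h3 : h0 D N * 1 * p ^ (finrank ℤ D.ker + 1) = h1 D N * p ^ finrank ℤ D.ker * 1 := hmul
      rw [pow_succ] at h3
      linarith
    exact (Nat.eq_of_mul_eq_mul_left hpa h2).symm
  have hdefK : Defined fK gK := ⟨by rw [hK0]; exact hpa.ne', by rw [hK1]; exact one_ne_zero⟩
  have hdefB : Defined fB gB := ⟨by rw [hB0]; exact one_ne_zero, by
    rw [hB1, hd]; exact (pow_pos hp.pos _).ne'⟩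
  have hdef := h25herb_defined_mid fK gK D N fB gB D.ker.subtype D.rangeRestrict hDN hND hi hπ hex
    hfi hgi hfπ hgπ hdefK hdefB
  exact ⟨hdef.1, hfinal⟩

end core

section poly

variable {A : Type*} [AddCommGroup A]

/-- the relations between `D = s - 1` and `N = 1 + s + ... + s^(p-1)` for `s^p = 1`. -/
theorem h19c_poly_facts (p : ℕ) (hp : p.Prime) (s D N : A →+ A)
    (hs : ∀ x, s^[p] x = x)
    (hD : ∀ x, D x = s x - x)
    (hN : ∀ x, N x = ∑ i ∈ Finset.range p, s^[i] x) :
    (∀ x, D (N x) = 0) ∧ (∀ x, N (D x) = 0) ∧ (∀ x, D x = 0 → N x = p • x) ∧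
      (∀ x, ∃ y, (D^[p-1]) (D x) = p • D y) ∧ (∀ x, ∃ y, p • D x = (D^[p-1]) (D y)) := by
  let sE : AddMonoid.End A := s
  have hsE : sE ^ p = 1 := by
    ext x
    rw [AddMonoid.End.coe_pow]
    exact hs x
  have hDE' : aeval sE (X - 1 : ℤ[X]) = sE - 1 := by rw [map_sub, aeval_X, map_one]
  have hNE' : aeval sE (∑ i ∈ Finset.range p, X ^ i : ℤ[X]) = ∑ i ∈ Finset.range p, sE ^ i := by
    rw [map_sum]
    simp only [map_pow, aeval_X]
  have hsum : ∀ (n : ℕ) (x : A), (∑ i ∈ Finset.range n, sE ^ i : AddMonoid.End A) x =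
      ∑ i ∈ Finset.range n, s^[i] x := by
    intro n x
    induction n with
    | zero => simp
    | succ n ih =>
      rw [Finset.sum_range_succ, Finset.sum_range_succ, ← ih]
      show (∑ i ∈ Finset.range n, sE ^ i : AddMonoid.End A) x + (sE ^ n) x = _
      rw [AddMonoid.End.coe_pow]
      rfl
  have hDE : ∀ x, D x = (aeval sE (X - 1 : ℤ[X])) x := by
    intro x
    rw [hD, hDE']
    rfl
  have hNE : ∀ x, N x = (aeval sE (∑ i ∈ Finset.range p, X ^ i : ℤ[X])) x := by
    intro x
    rw [hN, hNE', hsum]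
  have hXp : aeval sE (X ^ p - 1 : ℤ[X]) = 0 := by
    simp [hsE]
  have hDN : ∀ x, D (N x) = 0 := by
    intro x
    rw [hDE, hNE]
    have : aeval sE (X - 1 : ℤ[X]) * aeval sE (∑ i ∈ Finset.range p, X ^ i : ℤ[X]) = 0 := by
      rw [← map_mul, mul_geom_sum, hXp]
    exact DFunLike.congr_fun this x
  have hND : ∀ x, N (D x) = 0 := by
    intro x
    rw [hNE, hDE, h29fi_aeval_comm, ← hNE, ← hDE]
    exact hDN x
  have hNX : ∀ x, D x = 0 → N x = p • x := by
    intro x hx
    have hsx : s x = x := by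
      rw [hD] at hx
      exact sub_eq_zero.mp hx
    rw [hN]
    have : ∀ i, s^[i] x = x := fun i => Function.iterate_fixed hsx i
    simp [this]
  obtain ⟨w, hw⟩ := h29fi_poly_identity p hp
  obtain ⟨v, h, hvh⟩ := h19c_poly_identity3 p hp
  have hiter : ∀ (k : ℕ) (x : A), D^[k] x = (aeval sE ((X - 1 : ℤ[X]) ^ k)) x := by
    intro k
    induction k with
    | zero => intro x; simp
    | succ k ih =>
      intro x
      rw [Function.iterate_succ_apply', ih, hDE, pow_succ', map_mul]
      rfl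
  have hCp : (aeval sE (C (p : ℤ))) = (p : AddMonoid.End A) := by simp
  have hpapp : ∀ x : A, (p : AddMonoid.End A) x = p • x := by
    intro x
    simp
  refine ⟨hDN, hND, hNX, ?_, ?_⟩
  · intro x
    refine ⟨(aeval sE w) x, ?_⟩
    rw [hiter, hw, map_add, map_mul, hCp]
    show (aeval sE (∑ i ∈ Finset.range p, X ^ i : ℤ[X])) (D x) +
      (p : AddMonoid.End A) ((aeval sE w) (D x)) = _
    rw [← hNE, hND, zero_add, hpapp, hDE x, h29fi_aeval_comm, ← hDE]
  · intro x
    refine ⟨(aeval sE v) x, ?_⟩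
    have h1 : (aeval sE (C (p : ℤ))) (D x) = p • D x := by rw [hCp, hpapp]
    rw [← h1, hvh, map_add, map_mul, map_mul]
    show (aeval sE ((X - 1 : ℤ[X]) ^ (p - 1))) ((aeval sE v) (D x)) +
      (aeval sE (∑ i ∈ Finset.range p, X ^ i : ℤ[X])) ((aeval sE h) (D x)) = _
    rw [h29fi_aeval_comm sE (∑ i ∈ Finset.range p, X ^ i : ℤ[X]) h, ← hNE, hND, map_zero,
      add_zero, ← hiter, hDE x, h29fi_aeval_comm, ← hDE]

end poly

section reduce

variable {A : Type*} [AddCommGroup A]

/-- restriction of an endomorphism to a stable subgroup -/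
def h19c_res (A₀ : AddSubgroup A) (f : A →+ A) (hf : ∀ x ∈ A₀, f x ∈ A₀) : A₀ →+ A₀ :=
  (f.comp A₀.subtype).codRestrict A₀ (fun x => hf x.1 x.2)

theorem h19c_res_coe (A₀ : AddSubgroup A) (f : A →+ A) (hf : ∀ x ∈ A₀, f x ∈ A₀) (x : A₀) :
    ((h19c_res A₀ f hf x : A₀) : A) = f x.1 := rfl

theorem h19c_res_iter (A₀ : AddSubgroup A) (f : A →+ A) (hf : ∀ x ∈ A₀, f x ∈ A₀) (k : ℕ)
    (x : A₀) : (((h19c_res A₀ f hf)^[k] x : A₀) : A) = f^[k] x.1 := by
  induction k with
  | zero => rfl
  | succ k ih => rw [Function.iterate_succ_apply', Function.iterate_succ_apply', h19c_res_coe, ih]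

theorem h19c_iter_nsmul (f : A →+ A) (k m : ℕ) (x : A) : f^[k] (m • x) = m • f^[k] x := by
  induction k with
  | zero => rfl
  | succ k ih => rw [Function.iterate_succ_apply', Function.iterate_succ_apply', ih, map_nsmul]

/-- a positive integer killing the torsion of a finitely generated abelian group -/
theorem h19c_exists_torsion_exponent [Module.Finite ℤ A] :
    ∃ m : ℕ, 0 < m ∧ ∀ (n : ℕ) (a : A), 0 < n → n • a = 0 → m • a = 0 := by
  haveI : IsNoetherian ℤ A := inferInstance
  haveI : Module.Finite ℤ (Submodule.torsion ℤ A) := inferInstance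
  haveI : Finite (Submodule.torsion ℤ A) :=
    Module.finite_of_fg_torsion _ (Submodule.torsion_isTorsion (R := ℤ) (M := A))
  refine ⟨Nat.card (Submodule.torsion ℤ A), Nat.card_pos, ?_⟩
  intro n a hn hna
  have ha : a ∈ Submodule.torsion ℤ A := by
    rw [Submodule.mem_torsion_iff]
    refine ⟨⟨(n : ℤ), ?_⟩, ?_⟩
    · rw [mem_nonZeroDivisors_iff_ne_zero]
      exact_mod_cast hn.ne'
    · show (n : ℤ) • a = 0
      rw [natCast_zsmul]
      exact hna
  have h1 : Nat.card (Submodule.torsion ℤ A) • (⟨a, ha⟩ : Submodule.torsion ℤ A) = 0 :=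
    card_nsmul_eq_zero'
  have h2 := congrArg Subtype.val h1
  simpa using h2

set_option maxHeartbeats 1000000 in
/-- **the abstract unit Herbrand quotient**: `h(A) = 1/p`. -/
theorem h19c_abs [Module.Finite ℤ A] (p : ℕ) (hp : p.Prime) (s D N : A →+ A)
    (hs : ∀ x, s^[p] x = x)
    (hD : ∀ x, D x = s x - x)
    (hN : ∀ x, N x = ∑ i ∈ Finset.range p, s^[i] x)
    (hrank : finrank ℤ A + 1 = p * (finrank ℤ D.ker + 1)) :
    h0 D N ≠ 0 ∧ h1 D N = p * h0 D N := by
  classical
  obtain ⟨hDN, hND, hNX, hW, hV⟩ := h19c_poly_facts p hp s D N hs hD hN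
  obtain ⟨m, hm, hmt⟩ := h19c_exists_torsion_exponent (A := A)
  haveI : NeZero m := ⟨hm.ne'⟩
  -- the subgroup `A₀ = m A`
  set A₀ : AddSubgroup A := (nsmulAddMonoidHom m : A →+ A).range with hA₀
  have hmem : ∀ x : A, m • x ∈ A₀ := fun x => ⟨x, rfl⟩
  have hstab : ∀ f : A →+ A, ∀ x ∈ A₀, f x ∈ A₀ := by
    rintro f _ ⟨a, rfl⟩
    exact ⟨f a, by simp⟩
  haveI : Module.Finite ℤ A₀ := h29fi_finite_addSubgroup A₀
  have hDres := h19c_res_coe A₀ D (hstab D)
  have hNres := h19c_res_coe A₀ N (hstab N)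
  -- torsion-freeness of `A₀`
  have htf : ∀ x : A₀, p • x = 0 → x = 0 := by
    rintro ⟨_, ⟨a, rfl⟩⟩ hx
    apply Subtype.ext
    have h1 : p • (m • a) = 0 := by
      have := congrArg Subtype.val hx
      simpa using this
    have h2 : (p * m) • a = 0 := by rw [mul_smul]; exact h1
    show m • a = 0
    exact hmt (p * m) a (Nat.mul_pos hp.pos hm) h2
  -- ranks
  have hrA : finrank ℤ A₀ = finrank ℤ A := by
    have h1 := h29fi_finrank_eq_of_nsmul_le (S := A₀) (T := ⊤) m le_top (fun x _ => hmem x)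
    rw [h1]
    exact LinearEquiv.finrank_eq (AddEquiv.toIntLinearEquiv AddSubgroup.topEquiv)
  have hrK : finrank ℤ (h19c_res A₀ D (hstab D)).ker = finrank ℤ D.ker := by
    have h1 := h29fi_finrank_eq_of_nsmul_le (S := A₀ ⊓ D.ker) (T := D.ker) m inf_le_right
      (fun x hx => ⟨hmem x, by
        show D (m • x) = 0
        rw [map_nsmul, AddMonoidHom.mem_ker.mp hx, smul_zero]⟩)
    rw [← h1]
    refine LinearEquiv.finrank_eq (AddEquiv.toIntLinearEquiv
      { toFun := fun x => ⟨x.1.1, ⟨x.1.2, by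
          have h2 : h19c_res A₀ D (hstab D) x.1 = 0 := x.2
          have h3 := congrArg Subtype.val h2
          exact h3⟩⟩
        invFun := fun y => ⟨⟨y.1, y.2.1⟩, by
          show h19c_res A₀ D (hstab D) ⟨y.1, y.2.1⟩ = 0
          apply Subtype.ext
          exact y.2.2⟩
        left_inv := fun _ => rfl
        right_inv := fun _ => rfl
        map_add' := fun _ _ => rfl })
  -- the core on `A₀`
  have hcore := h19c_core (A := A₀) p hp (h19c_res A₀ D (hstab D)) (h19c_res A₀ N (hstab N))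
    (fun x => Subtype.ext (by rw [hDres, hNres]; exact hDN x.1))
    (fun x => Subtype.ext (by rw [hNres, hDres]; exact hND x.1))
    (fun x hx => Subtype.ext (by
      rw [hNres]
      have h1 : D x.1 = 0 := by
        have := congrArg Subtype.val hx
        exact this
      rw [hNX x.1 h1]
      rfl))
    (by
      rintro ⟨_, ⟨a, rfl⟩⟩
      obtain ⟨y, hy⟩ := hW a
      refine ⟨⟨m • y, hmem y⟩, ?_⟩
      apply Subtype.ext
      rw [h19c_res_iter, hDres]
      show D^[p - 1] (D (m • a)) = p • D (m • y)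
      rw [map_nsmul, h19c_iter_nsmul, hy, map_nsmul, smul_comm])
    (by
      rintro ⟨_, ⟨a, rfl⟩⟩
      obtain ⟨y, hy⟩ := hV a
      refine ⟨⟨m • y, hmem y⟩, ?_⟩
      apply Subtype.ext
      rw [h19c_res_iter, hDres]
      show p • D (m • a) = D^[p - 1] (D (m • y))
      rw [map_nsmul, map_nsmul, h19c_iter_nsmul, ← hy, smul_comm])
    htf (by rw [hrA, hrK]; exact hrank)
  -- finite index invariance
  have hidx : A₀.subtype.range.index ≠ 0 := by
    rw [AddSubgroup.range_subtype]
    exact h29fi_index_nsmul_ne_zero A m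
  obtain ⟨heq, hdef⟩ := h25herb_finiteIndex (h19c_res A₀ D (hstab D)) (h19c_res A₀ N (hstab N))
    D N A₀.subtype hDN hND Subtype.val_injective (fun _ => rfl) (fun _ => rfl) hidx
  obtain ⟨h00, h10⟩ := hcore
  have hdefA : Defined D N := hdef.mp ⟨h00, by rw [h10]; exact mul_ne_zero hp.ne_zero h00⟩
  refine ⟨hdefA.1, ?_⟩
  rw [h10] at heq
  have h3 : h0 (h19c_res A₀ D (hstab D)) (h19c_res A₀ N (hstab N)) * (p * h0 D N) =
      h0 (h19c_res A₀ D (hstab D)) (h19c_res A₀ N (hstab N)) * h1 D N := by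
    linarith
  exact (Nat.eq_of_mul_eq_mul_left (Nat.pos_of_ne_zero h00) h3).symm

end reduce

end H19C
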