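/-
helper19: W2-C (S55) block C-finite, slice FI-E (UnitHerbrand), part 3: instantiation of the
abstract Herbrand quotient computation `H19C.h19c_abs` at the global units `𝓞_Lˣ` of a number
field `L` with a subgroup `H ≤ Aut(L)` of odd prime order `p`.

* `rank 𝓞_Lˣ + 1 = #(infinite places of L) = p · #(infinite places of F) = p (rank 𝓞_Fˣ + 1)`
  for `F = L^H` (`L/F` is Galois of odd degree, hence unramified at the infinite places);
* `ker (σ - 1) = 𝓞_Fˣ`.
-/
import Mathlib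
import Fermat.Agent.CFT2.C.Slices_helper17
import Fermat.Agent.CFT2.C.UnitHerbrandAbs_helper19

set_option autoImplicit false
set_option linter.unusedSectionVars false
set_option linter.unusedVariables false
set_option linter.style.haveILetI false

noncomputable section

namespace H19C

open NumberField Module H17C

section inst

variable (L : Type) [Field L] [NumberField L]

/-- the additive endomorphism of the units given by `σ` -/
def h19c_s (σ : AutQ L) : Additive (𝓞 L)ˣ →+ Additive (𝓞 L)ˣ :=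
  (unitRep L σ : Additive (𝓞 L)ˣ →ₗ[ℤ] Additive (𝓞 L)ˣ).toAddMonoidHom

theorem h19c_s_apply (σ : AutQ L) (x : Additive (𝓞 L)ˣ) :
    h19c_s L σ x = Additive.ofMul (σ • Additive.toMul x) := rfl

theorem h19c_s_coe (σ : AutQ L) (x : Additive (𝓞 L)ˣ) :
    (((Additive.toMul (h19c_s L σ x) : (𝓞 L)ˣ) : 𝓞 L) : L) =
      σ (((Additive.toMul x : (𝓞 L)ˣ) : 𝓞 L) : L) := rfl

theorem h19c_s_iter (σ : AutQ L) (n : ℕ) (x : Additive (𝓞 L)ˣ) :
    (h19c_s L σ)^[n] x = h19c_s L (σ ^ n) x := by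
  induction n with
  | zero =>
    show x = unitRep L 1 x
    rw [map_one]
    rfl
  | succ n ih =>
    rw [Function.iterate_succ_apply', ih, pow_succ']
    show _ = unitRep L (σ * σ ^ n) x
    rw [map_mul]
    rfl

theorem h19c_unitDL_apply (σ : AutQ L) (x : Additive (𝓞 L)ˣ) :
    unitDL L σ x = h19c_s L σ x - x := rfl

theorem h19c_unitNL_apply (H : Subgroup (AutQ L)) [Fintype H] (x : Additive (𝓞 L)ˣ) :
    unitNL L H x = ∑ h : H, h19c_s L (h : AutQ L) x := by
  have h1 : unitNL L H x =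
      (letI : Fintype H := Fintype.ofFinite H; ∑ h : H, h19c_s L (h : AutQ L) x) := by
    letI : Fintype H := Fintype.ofFinite H
    show (∑ h : H, unitRep L (h : AutQ L) : Additive (𝓞 L)ˣ →ₗ[ℤ] Additive (𝓞 L)ˣ) x = _
    rw [LinearMap.sum_apply]
    rfl
  rw [h1]
  exact Finset.sum_congr (by ext; simp) (fun _ _ => rfl)

variable (H : Subgroup (AutQ L))

theorem h19c_orderOf {p : ℕ} (hp : p.Prime) (hH : Nat.card H = p) (σ : AutQ L) (hσ : σ ∈ H)
    (hσ1 : σ ≠ 1) : orderOf (⟨σ, hσ⟩ : H) = p := by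
  have h1 : orderOf (⟨σ, hσ⟩ : H) ∣ p := hH ▸ orderOf_dvd_natCard (⟨σ, hσ⟩ : H)
  rcases (Nat.dvd_prime hp).mp h1 with h | h
  · exfalso
    apply hσ1
    have := orderOf_eq_one_iff.mp h
    exact congrArg Subtype.val this
  · exact h

theorem h19c_mem_powers {p : ℕ} (hp : p.Prime) (hH : Nat.card H = p) (σ : AutQ L) (hσ : σ ∈ H)
    (hσ1 : σ ≠ 1) (h : AutQ L) (hh : h ∈ H) : ∃ i : ℕ, h = σ ^ i := by
  classical
  have hord := h19c_orderOf L H hp hH σ hσ hσ1
  have hmem : (⟨h, hh⟩ : H) ∈ Subgroup.zpowers (⟨σ, hσ⟩ : H) := by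
    have : Subgroup.zpowers (⟨σ, hσ⟩ : H) = ⊤ := by
      apply Subgroup.eq_top_of_card_eq
      rw [Nat.card_zpowers, hord, hH]
    rw [this]
    trivial
  have hmem' := mem_zpowers_iff_mem_range_orderOf.mp hmem
  obtain ⟨i, _, hi⟩ := Finset.mem_image.mp hmem'
  refine ⟨i, ?_⟩
  have := congrArg Subtype.val hi
  simpa using this.symm

theorem h19c_sum_H {p : ℕ} (hp : p.Prime) (hH : Nat.card H = p) (σ : AutQ L) (hσ : σ ∈ H)
    (hσ1 : σ ≠ 1) [Fintype H] {M : Type*} [AddCommMonoid M] (f : AutQ L → M) :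
    ∑ h : H, f (h : AutQ L) = ∑ i ∈ Finset.range p, f (σ ^ i) := by
  classical
  have hord := h19c_orderOf L H hp hH σ hσ hσ1
  have hinj : Set.InjOn (fun i : ℕ => (⟨σ, hσ⟩ : H) ^ i) (Finset.range p : Set ℕ) := by
    intro i hi j hj hij
    have := pow_injOn_Iio_orderOf (x := (⟨σ, hσ⟩ : H))
    rw [hord] at this
    exact this (by simpa using hi) (by simpa using hj) hij
  have himg : (Finset.range p).image (fun i : ℕ => (⟨σ, hσ⟩ : H) ^ i) = Finset.univ := by
    apply Finset.eq_univ_of_card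
    rw [Finset.card_image_of_injOn hinj, Finset.card_range, ← Nat.card_eq_fintype_card, hH]
  rw [← himg, Finset.sum_image hinj]
  exact Finset.sum_congr rfl (fun i _ => by simp)

/-- the fixed field -/
abbrev h19c_F : IntermediateField ℚ L := IntermediateField.fixedField H

/-- the inclusion of the units of the fixed field -/
def h19c_incl : (𝓞 (h19c_F L H))ˣ →* (𝓞 L)ˣ :=
  Units.map (algebraMap (𝓞 (h19c_F L H)) (𝓞 L))

theorem h19c_incl_coe (k : (𝓞 (h19c_F L H))ˣ) :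
    (((h19c_incl L H k : (𝓞 L)ˣ) : 𝓞 L) : L) = (((k : 𝓞 (h19c_F L H)) : h19c_F L H) : L) := rfl

theorem h19c_incl_injective : Function.Injective (h19c_incl L H) := by
  intro a b h
  apply Units.ext
  apply RingOfIntegers.ext
  apply Subtype.ext
  have := congrArg (fun u : (𝓞 L)ˣ => ((u : 𝓞 L) : L)) h
  exact this

/-- an element of `𝓞_L` fixed by `H` comes from `𝓞_F` -/
theorem h19c_fixed_int (u : 𝓞 L) (hu : ∀ h ∈ H, h (u : L) = (u : L)) :
    ∃ k : 𝓞 (h19c_F L H), ((k : h19c_F L H) : L) = (u : L) := by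
  have hmem : (u : L) ∈ h19c_F L H := (IntermediateField.mem_fixedField_iff H _).mpr hu
  have hint : IsIntegral ℤ (⟨(u : L), hmem⟩ : h19c_F L H) := by
    have h1 : IsIntegral ℤ (algebraMap (h19c_F L H) L ⟨(u : L), hmem⟩) :=
      RingOfIntegers.isIntegral_coe u
    exact (isIntegral_algebraMap_iff (FaithfulSMul.algebraMap_injective (h19c_F L H) L)).mp h1
  exact ⟨⟨⟨(u : L), hmem⟩, hint⟩, rfl⟩

/-- a unit of `𝓞_L` fixed by `H` comes from `𝓞_Fˣ` -/
theorem h19c_fixed_unit (u : (𝓞 L)ˣ) (hu : ∀ h ∈ H, h ((u : 𝓞 L) : L) = ((u : 𝓞 L) : L)) :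
    ∃ k : (𝓞 (h19c_F L H))ˣ, h19c_incl L H k = u := by
  obtain ⟨k, hk⟩ := h19c_fixed_int L H (u : 𝓞 L) hu
  have hu' : ∀ h ∈ H, h (((u⁻¹ : (𝓞 L)ˣ) : 𝓞 L) : L) = (((u⁻¹ : (𝓞 L)ˣ) : 𝓞 L) : L) := by
    intro h hh
    have h1 : ((u : 𝓞 L) : L) * (((u⁻¹ : (𝓞 L)ˣ) : 𝓞 L) : L) = 1 := by
      rw [← map_mul (algebraMap (𝓞 L) L), Units.mul_inv, map_one]
    have h2 : ((u : 𝓞 L) : L) ≠ 0 := left_ne_zero_of_mul_eq_one h1
    have h3 : h ((u : 𝓞 L) : L) * h (((u⁻¹ : (𝓞 L)ˣ) : 𝓞 L) : L) = 1 := by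
      rw [← map_mul, h1, map_one]
    rw [hu h hh] at h3
    exact mul_left_cancel₀ h2 (h3.trans h1.symm)
  obtain ⟨k', hk'⟩ := h19c_fixed_int L H ((u⁻¹ : (𝓞 L)ˣ) : 𝓞 L) hu'
  have hmul : k * k' = 1 := by
    apply RingOfIntegers.ext
    apply Subtype.ext
    show ((k : h19c_F L H) : L) * ((k' : h19c_F L H) : L) = 1
    rw [hk, hk', ← map_mul (algebraMap (𝓞 L) L), Units.mul_inv, map_one]
  refine ⟨⟨k, k', hmul, by rw [mul_comm]; exact hmul⟩, ?_⟩
  apply Units.ext
  apply RingOfIntegers.ext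
  exact hk

theorem h19c_kerD {p : ℕ} (hp : p.Prime) (hH : Nat.card H = p) (σ : AutQ L) (hσ : σ ∈ H)
    (hσ1 : σ ≠ 1) (x : Additive (𝓞 L)ˣ) :
    x ∈ (unitDL L σ).ker ↔ ∃ k : (𝓞 (h19c_F L H))ˣ, Additive.ofMul (h19c_incl L H k) = x := by
  rw [AddMonoidHom.mem_ker, h19c_unitDL_apply, sub_eq_zero]
  constructor
  · intro hx
    have hpow : ∀ i : ℕ, h19c_s L (σ ^ i) x = x := by
      intro i
      rw [← h19c_s_iter]
      exact Function.iterate_fixed hx i
    have hfix : ∀ h ∈ H, h (((Additive.toMul x : (𝓞 L)ˣ) : 𝓞 L) : L) =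
        (((Additive.toMul x : (𝓞 L)ˣ) : 𝓞 L) : L) := by
      intro h hh
      obtain ⟨i, rfl⟩ := h19c_mem_powers L H hp hH σ hσ hσ1 h hh
      rw [← h19c_s_coe, hpow i]
    obtain ⟨k, hk⟩ := h19c_fixed_unit L H (Additive.toMul x) hfix
    exact ⟨k, by rw [hk]; rfl⟩
  · rintro ⟨k, rfl⟩
    apply Additive.toMul.injective
    apply Units.ext
    apply RingOfIntegers.ext
    rw [h19c_s_coe]
    show σ (((k : 𝓞 (h19c_F L H)) : h19c_F L H) : L) = _
    exact (k : 𝓞 (h19c_F L H)).1.2 ⟨σ, hσ⟩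

theorem h19c_finrank_kerD {p : ℕ} (hp : p.Prime) (hH : Nat.card H = p) (σ : AutQ L) (hσ : σ ∈ H)
    (hσ1 : σ ≠ 1) :
    finrank ℤ (unitDL L σ).ker = finrank ℤ (Additive (𝓞 (h19c_F L H))ˣ) := by
  let f : Additive (𝓞 (h19c_F L H))ˣ →+ (unitDL L σ).ker :=
    (MonoidHom.toAdditive (h19c_incl L H)).codRestrict (unitDL L σ).ker (by
      intro x
      rw [h19c_kerD L H hp hH σ hσ hσ1]
      exact ⟨Additive.toMul x, rfl⟩)
  have hf : Function.Bijective f := by
    constructor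
    · intro a b hab
      have := congrArg (fun z : (unitDL L σ).ker => (z : Additive (𝓞 L)ˣ)) hab
      exact h19c_incl_injective L H this
    · rintro ⟨y, hy⟩
      rw [h19c_kerD L H hp hH σ hσ hσ1] at hy
      obtain ⟨k, hk⟩ := hy
      exact ⟨Additive.ofMul k, Subtype.ext hk⟩
  exact (LinearEquiv.finrank_eq (AddEquiv.toIntLinearEquiv (AddEquiv.ofBijective f hf))).symm

theorem h19c_card_places {p : ℕ} (hp : p.Prime) (hp2 : p ≠ 2) (hH : Nat.card H = p) :
    Fintype.card (InfinitePlace L) = p * Fintype.card (InfinitePlace (h19c_F L H)) := by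
  haveI : IsGalois (h19c_F L H) L := IsGalois.of_fixed_field L H
  have hdeg : finrank (h19c_F L H) L = p := by
    rw [IntermediateField.finrank_fixedField_eq_card, hH]
  haveI : IsUnramifiedAtInfinitePlaces (h19c_F L H) L :=
    IsUnramifiedAtInfinitePlaces_of_odd_finrank (by rw [hdeg]; exact hp.odd_of_ne_two hp2)
  rw [IsUnramifiedAtInfinitePlaces.card_infinitePlace (h19c_F L H) L, hdeg, mul_comm]

/-- **(FI-E)** the Herbrand quotient of the global units is `1/p`. -/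
theorem h19c_unitHerbrand : UnitHerbrand := by
  intro p L _ _ H hp hp2 hH σ hσ hσ1
  classical
  letI : Fintype H := Fintype.ofFinite H
  have hs : ∀ x, (h19c_s L σ)^[p] x = x := by
    intro x
    rw [h19c_s_iter]
    have h1 : σ ^ p = 1 := by
      have h2 : (⟨σ, hσ⟩ : H) ^ p = 1 := by
        rw [← hH]
        exact pow_card_eq_one'
      have := congrArg Subtype.val h2
      simpa using this
    rw [h1]
    show unitRep L 1 x = x
    rw [map_one]
    rfl
  have hN : ∀ x, unitNL L H x = ∑ i ∈ Finset.range p, (h19c_s L σ)^[i] x := by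
    intro x
    rw [h19c_unitNL_apply, h19c_sum_H L H hp hH σ hσ hσ1 (fun h => h19c_s L h x)]
    exact Finset.sum_congr rfl (fun i _ => (h19c_s_iter L σ i x).symm)
  have hrank : finrank ℤ (Additive (𝓞 L)ˣ) + 1 = p * (finrank ℤ (unitDL L σ).ker + 1) := by
    rw [h19c_finrank_kerD L H hp hH σ hσ hσ1, Units.finrank_eq, Units.finrank_eq, Units.rank,
      Units.rank]
    have h1 := h19c_card_places L H hp hp2 hH
    have h2 : 0 < Fintype.card (InfinitePlace (h19c_F L H)) := Fintype.card_pos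
    have h3 : 0 < Fintype.card (InfinitePlace L) := Fintype.card_pos
    rw [Nat.sub_add_cancel h3, Nat.sub_add_cancel h2, h1]
  exact h19c_abs p hp (h19c_s L σ) (unitDL L σ) (unitNL L H) hs (h19c_unitDL_apply L σ) hN hrank

end inst

end H19C
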