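/-
W2-C (S55) block C-finite (helper17): the class module upper bounds CM, UNCONDITIONAL:
`H17SI.h17c_firstIneqNE_final`, `h17c_cyclicClassNE_final`, `h17c_classModuleNE_final`.
-/
import Fermat.Agent.CFT2.C.SIFinal_helper17
import Fermat.Agent.CFT2.C.FI_helper21
import Fermat.Agent.CFT2.C.UnitHerbrand_helper19
import Fermat.Agent.CFT2.C.SemilocalUnits_helper26
import Fermat.Agent.CFT2.C.UnitIndexFinite_helper12
import Fermat.Agent.CFT2.C.Cyc_helper25
import Fermat.Agent.CFT2.C.CM_helper22

set_option autoImplicit false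

namespace H17SI

/-- **(FI)**, unconditional. -/
theorem h17c_firstIneqNE_final : H17C.FirstIneqNE :=
  H21FI.h21_firstIneqNE H19C.h19c_unitHerbrand H26SU.h26c_semilocalUnits
    H12FIN.h12c_unitIndexFinite

/-- **(CYC)**, unconditional. -/
theorem h17c_cyclicClassNE_final : H17C.CyclicClassNE :=
  H25C.h25c_cyclicClass_of h17c_firstIneqNE_final h17si_secondIneqNE_final

/-- **(CM)**, unconditional. -/
theorem h17c_classModuleNE_final : H17C.ClassModuleNE :=
  H22C.h22c_classModuleNE h17c_cyclicClassNE_final

end H17SI
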