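/-
W2-C (S55) block C-finite, slice **PCM-SUB** (helper25): a `p`-class module passes to a
`G`-submodule with cokernel killed by an integer prime to `p`.

* `H25C.PcmSubStatement G` : the statement;
* `H25C.h25c_pcmSub G : H25C.PcmSubStatement G`.

For `0 → B → C → Q → 0` with `m Q = 0`, `p ∤ m`, and a `p`-subgroup `H`: `Hⁿ(H, Q)` is killed by `m`
and (for `n ≥ 1`) by `|H|`, so `Hⁿ(H, B) → Hⁿ(H, C)` is bijective for `n ≥ 1`; and `m γ` comes from
`H²(G, B)`.
-/
import Mathlib
import Fermat.Agent.CFT2.A.Defs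
import Fermat.Agent.CFT2.A.Defs3
import Fermat.Agent.CFT2.A.ARCoh_helper26
import Fermat.Agent.CFT2.A.W320_helper20
import Fermat.Agent.CFT2.A.AI2_helper22
import Fermat.Agent.CFT2.C.Slices4_helper17

set_option autoImplicit false
set_option linter.unusedSectionVars false
set_option linter.style.haveILetI false

noncomputable section

namespace H25C

open CategoryTheory Rep groupCohomology H20A

/-- **(PCM-SUB)**: if `i : B → C` is injective with `m C ⊆ i(B)`, `p ∤ m`, and `(C, γ)` is a
`p`-class module, then `B` is a `p`-class module, with a class `γ'` mapping to `m γ`. -/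
def PcmSubStatement (G : Type) [Group G] [Finite G] : Prop :=
  ∀ (p : ℕ) [Fact p.Prime] (B C : Rep ℤ G) (i : B ⟶ C) (m : ℕ),
    Function.Injective i.hom → ¬ p ∣ m → (∀ c : C.V, ∃ b : B.V, i.hom b = m • c) →
    ∀ γ : groupCohomology C 2, IsPClassModule p C γ →
    ∃ γ' : groupCohomology B 2, IsPClassModule p B γ' ∧ cohMap i 2 γ' = m • γ

section generic
variable {G : Type} [Group G] [Finite G]

/-- `|G|` kills `Hⁿ⁺¹(G, A)` -/
theorem pcm_card_nsmul (A : Rep.{0} ℤ G) (n : ℕ) (x : groupCohomology A (n + 1)) :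
    Nat.card G • x = 0 := by
  have h1 := H26AR.h26ar_indexKillsCoh G A (⊥ : Subgroup G) (n + 1) x
  rw [Subgroup.index_bot] at h1
  apply h1
  have hz : Limits.IsZero (groupCohomology (resSub A (⊥ : Subgroup G)) (n + 1)) :=
    isZero_groupCohomology_succ_of_subsingleton _ n
  have h2 : groupCohomology.map (⊥ : Subgroup G).subtype (𝟙 (resSub A ⊥)) (n + 1) = 0 :=
    hz.eq_of_tgt _ _
  change (groupCohomology.map (⊥ : Subgroup G).subtype (𝟙 (resSub A ⊥)) (n + 1)).hom x = 0
  rw [h2]
  rfl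

theorem pcm_lin_ext {V W : Type} [AddCommGroup V] [AddCommGroup W] [Module ℤ V] [Module ℤ W]
    {ρ : Representation ℤ G V} {σ : Representation ℤ G W} (f g : ρ.IntertwiningMap σ)
    (h : ∀ a : V, f a = g a) : f = g := by
  apply Representation.IntertwiningMap.ext
  exact LinearMap.ext h

/-- morphisms of `Rep ℤ G` are equal if they agree on elements -/
theorem pcm_hom_ext {A B : Rep.{0} ℤ G} (f g : A ⟶ B) (h : ∀ a : A.V, f.hom a = g.hom a) :
    f = g := by
  apply Rep.hom_ext
  exact @pcm_lin_ext G _ _ A.V B.V _ _ A.hV2 B.hV2 A.ρ B.ρ f.hom g.hom h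

/-- an integer killing `A` kills `Hⁿ(G, A)` -/
theorem pcm_kills (A : Rep.{0} ℤ G) (m : ℕ) (hm : ∀ a : A.V, m • a = 0) (n : ℕ)
    (x : groupCohomology A n) : m • x = 0 := by
  have h1 : (m : ℤ) • 𝟙 A = 0 := by
    apply pcm_hom_ext
    intro a
    change (m : ℤ) • a = 0
    rw [natCast_zsmul]
    exact hm a
  have h2 := H20W3.h20p_functor_map_zsmul (A := A) (m : ℤ) n
  rw [h1] at h2
  have h3 : (groupCohomology.functor ℤ G n).map (0 : A ⟶ A) = 0 :=
    (cochainsFunctor ℤ G ⋙ HomologicalComplex.homologyFunctor (ModuleCat ℤ) _ n).map_zero _ _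
  rw [h3] at h2
  have h4 := congrArg (fun f => f.hom x) h2
  rw [← natCast_zsmul]
  exact h4.symm

/-- an element killed by two coprime integers vanishes -/
theorem pcm_coprime {M : Type} [AddCommGroup M] (u : M) (a b : ℕ)
    (hab : a.Coprime b) (ha : a • u = 0) (hb : b • u = 0) : u = 0 := by
  have h1 : IsCoprime (a : ℤ) (b : ℤ) := Nat.isCoprime_iff_coprime.2 hab
  obtain ⟨x, y, hxy⟩ := h1
  have h2 : ((x * a + y * b : ℤ)) • u = 0 := by
    rw [add_smul, mul_smul, mul_smul, natCast_zsmul, natCast_zsmul, ha, hb, smul_zero, smul_zero,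
      add_zero]
  rw [hxy, one_smul] at h2
  exact h2

/-- transfer of generators along an injective map -/
theorem pcm_gen_transfer {X Y : Type} [AddCommGroup X] [AddCommGroup Y] (f : X →+ Y)
    (hf : Function.Injective f) (x x₀ : X) (y₀ : Y) (m n : ℕ) (hcop : m.Coprime n)
    (hn : n • y₀ = 0) (hx₀ : f x₀ = m • y₀) (k : ℤ) (hk : f x = k • y₀) :
    ∃ k' : ℤ, x = k' • x₀ := by
  obtain ⟨u, v, huv⟩ := Nat.isCoprime_iff_coprime.2 hcop
  have h1 : y₀ = u • f x₀ := by
    have h2 : ((u * m + v * n : ℤ)) • y₀ = u • f x₀ := by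
      rw [add_smul, mul_smul, mul_smul, natCast_zsmul, natCast_zsmul, hn, smul_zero, add_zero,
        hx₀]
    rw [huv, one_smul] at h2
    exact h2
  refine ⟨k * u, hf ?_⟩
  rw [hk, map_zsmul, mul_smul, ← h1]

variable (X : ShortComplex (Rep.{0} ℤ G)) (hX : X.ShortExact) (m : ℕ)
  (hm : ∀ q : X.X₃.V, m • q = 0) (hcop : m.Coprime (Nat.card G))

include hX hm hcop

/-- `Hⁿ⁺¹(G, B) → Hⁿ⁺¹(G, C)` is injective -/
theorem pcm_injective (n : ℕ) :
    Function.Injective (groupCohomology.map (MonoidHom.id G) X.f (n + 1)) := by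
  rw [← AddMonoidHom.coe_coe, injective_iff_map_eq_zero]
  intro x hx
  have hex := mapShortComplex₁_exact hX (i := n) (j := n + 1) rfl
  rw [ShortComplex.moduleCat_exact_iff] at hex
  obtain ⟨q, hq⟩ : ∃ q : groupCohomology X.X₃ n, (δ hX n (n + 1) rfl).hom q = x := hex x hx
  have h1 : m • x = 0 := by
    rw [← hq, ← map_nsmul, pcm_kills X.X₃ m hm n q, map_zero]
  exact pcm_coprime x m (Nat.card G) hcop h1 (pcm_card_nsmul X.X₁ n x)

/-- `Hⁿ⁺¹(G, B) → Hⁿ⁺¹(G, C)` is surjective -/
theorem pcm_surjective (n : ℕ) :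
    Function.Surjective (groupCohomology.map (MonoidHom.id G) X.f (n + 1)) := by
  intro y
  have hex := mapShortComplex₂_exact hX (n + 1)
  rw [ShortComplex.moduleCat_exact_iff] at hex
  refine hex y ?_
  exact pcm_coprime _ m (Nat.card G) hcop (pcm_kills X.X₃ m hm (n + 1) _)
    (pcm_card_nsmul X.X₃ n _)

end generic

section sub
variable {G : Type} [Group G] [Finite G]

/-- elements of a zero object vanish -/
theorem pcm_eq_zero_of_isZero {M : ModuleCat.{0} ℤ} (h : Limits.IsZero M) (x : M) : x = 0 := by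
  have h1 : (𝟙 M : M ⟶ M) = 0 := h.eq_of_src _ _
  exact congrArg (fun f => f.hom x) h1

theorem pcm_isZero_of_forall {M : ModuleCat.{0} ℤ} (h : ∀ x : M, x = 0) : Limits.IsZero M := by
  haveI : Subsingleton M := ⟨fun a b => by rw [h a, h b]⟩
  exact ModuleCat.isZero_of_subsingleton M

/-- the short exact sequence `0 → B → C → coker → 0` -/
def pcmSC {B C : Rep.{0} ℤ G} (i : B ⟶ C) : ShortComplex (Rep.{0} ℤ G) :=
  ShortComplex.mk i (Limits.cokernel.π i) (Limits.cokernel.condition i)

theorem pcmSC_shortExact {B C : Rep.{0} ℤ G} (i : B ⟶ C) (hi : Function.Injective i.hom) :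
    (pcmSC i).ShortExact :=
  haveI : Mono i := (Rep.mono_iff_injective i).2 hi
  ShortComplex.ShortExact.mk' (ShortComplex.exact_cokernel _) (inferInstanceAs (Mono i))
    (inferInstanceAs (Epi (Limits.cokernel.π i)))

theorem pcmSC_kills {B C : Rep.{0} ℤ G} (i : B ⟶ C) (m : ℕ)
    (hm : ∀ c : C.V, ∃ b : B.V, i.hom b = m • c) (q : (pcmSC i).X₃.V) : m • q = 0 := by
  obtain ⟨c, rfl⟩ := (Rep.epi_iff_surjective (Limits.cokernel.π i)).1 inferInstance q
  obtain ⟨b, hb⟩ := hm c
  have h1 : (Limits.cokernel.π i).hom (i.hom b) = 0 :=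
    congrArg (fun f => f.hom b) (Limits.cokernel.condition i)
  rw [hb, map_nsmul] at h1
  exact h1

/-- naturality of restriction, elementwise -/
theorem pcm_res_nat {B C : Rep.{0} ℤ G} (i : B ⟶ C) (H : Subgroup G) (n : ℕ)
    (y : groupCohomology B n) :
    resCoh C H n (cohMap i n y) =
      groupCohomology.map (MonoidHom.id H) ((resFunctor H.subtype).map i) n (resCoh B H n y) :=
  congrArg (fun f => f.hom y) (H26AR.resH_naturality i H n)

/-- `Hⁿ⁺¹(H, B) → Hⁿ⁺¹(H, C)` is bijective for a subgroup `H` of order prime to `m` -/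
theorem pcm_res_bijective {B C : Rep.{0} ℤ G} (i : B ⟶ C) (hi : Function.Injective i.hom)
    (m : ℕ) (hm : ∀ c : C.V, ∃ b : B.V, i.hom b = m • c) (H : Subgroup G)
    (hcop : m.Coprime (Nat.card H)) (n : ℕ) :
    Function.Bijective
      (groupCohomology.map (A := resSub B H) (B := resSub C H) (MonoidHom.id H)
        ((resFunctor H.subtype).map i) (n + 1)) := by
  have hX := pcmSC_shortExact i hi
  have hXH : ((pcmSC i).map (resFunctor H.subtype)).ShortExact :=
    (Rep.shortExact_res H.subtype).2 hX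
  have hkill : ∀ q : ((pcmSC i).map (resFunctor H.subtype)).X₃.V, m • q = 0 :=
    fun q => pcmSC_kills i m hm q
  exact ⟨pcm_injective ((pcmSC i).map (resFunctor H.subtype)) hXH m hkill hcop n,
    pcm_surjective ((pcmSC i).map (resFunctor H.subtype)) hXH m hkill hcop n⟩

/-- `m γ` comes from `H²(G, B)` -/
theorem pcm_lift {B C : Rep.{0} ℤ G} (i : B ⟶ C) (hi : Function.Injective i.hom)
    (m : ℕ) (hm : ∀ c : C.V, ∃ b : B.V, i.hom b = m • c) (n : ℕ) (γ : groupCohomology C n) :
    ∃ γ' : groupCohomology B n, cohMap i n γ' = m • γ := by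
  have hX := pcmSC_shortExact i hi
  have hex := mapShortComplex₂_exact hX n
  rw [ShortComplex.moduleCat_exact_iff] at hex
  refine hex (m • γ) ?_
  change (groupCohomology.map (MonoidHom.id G) (pcmSC i).g n).hom (m • γ) = 0
  rw [map_nsmul]
  exact pcm_kills (pcmSC i).X₃ m (pcmSC_kills i m hm) n _

/-- **PCM-SUB** -/
theorem h25c_pcmSub (G : Type) [Group G] [Finite G] : PcmSubStatement G := by
  intro p hp B C i m hi hpm hm γ hC
  obtain ⟨γ', hγ'⟩ := pcm_lift i hi m hm 2 γ
  refine ⟨γ', ?_, hγ'⟩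
  have hcop : ∀ H : Subgroup G, IsPGroup p H → m.Coprime (Nat.card H) := by
    intro H hH
    obtain ⟨a, ha⟩ := hH.exists_card_eq
    rw [ha]
    exact Nat.Coprime.pow_right a
      (Nat.Coprime.symm ((Nat.Prime.coprime_iff_not_dvd hp.out).2 hpm))
  refine ⟨fun H hH => ?_, fun H hH => ?_, fun H hH x => ?_⟩
  · -- `H¹ = 0`
    apply pcm_isZero_of_forall
    intro x
    apply (pcm_res_bijective i hi m hm H (hcop H hH) 0).1
    rw [map_zero]
    exact pcm_eq_zero_of_isZero (hC.h1 H hH) _
  · -- `|H²| = |H|`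
    rw [← hC.card H hH]
    exact Nat.card_eq_of_bijective _ (pcm_res_bijective i hi m hm H (hcop H hH) 1)
  · -- generation
    obtain ⟨k, hk⟩ := hC.gen H hH
      (groupCohomology.map (A := resSub B H) (B := resSub C H) (MonoidHom.id H)
        ((resFunctor H.subtype).map i) 2 x)
    have h3 : groupCohomology.map (A := resSub B H) (B := resSub C H) (MonoidHom.id H)
          ((resFunctor H.subtype).map i) 2 (resCoh B H 2 γ') = m • resCoh C H 2 γ := by
      rw [← pcm_res_nat, hγ', map_nsmul]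
    exact pcm_gen_transfer
      ((groupCohomology.map (A := resSub B H) (B := resSub C H) (MonoidHom.id H)
        ((resFunctor H.subtype).map i) 2).hom.toAddMonoidHom)
      (pcm_res_bijective i hi m hm H (hcop H hH) 1).1 x (resCoh B H 2 γ') (resCoh C H 2 γ)
      m (Nat.card H) (hcop H hH) (pcm_card_nsmul (resSub C H) 1 _) h3 k hk

end sub

/-! ### transport along an isomorphism of groups -/

section isok
variable {k : Type} [CommRing k] {G G' : Type} [Group G] [Group G']

/-- `Hⁿ(H, (e^* C)|H) ≅ Hⁿ(e H, C|eH)` for `e : G ≃* G'` and `H ≤ G` (generic coefficients) -/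
def pcmIso' (e : G ≃* G') (C : Rep.{0} k G') (H : Subgroup G) (n : ℕ) :
    groupCohomology (Rep.res H.subtype (Rep.res e.toMonoidHom C)) n ≅
      groupCohomology (Rep.res (H.map e.toMonoidHom).subtype C) n :=
  groupCohomology.mapIso (H.equivMapOfInjective e.toMonoidHom e.injective)
    (LinearEquiv.refl k C.V) (fun _ => rfl) n

/-- compatibility of `pcmIso'` with the restrictions -/
theorem pcmIso_res' (e : G ≃* G') (C : Rep.{0} k G') (H : Subgroup G) (n : ℕ) :
    groupCohomology.map e.toMonoidHom (𝟙 (Rep.res e.toMonoidHom C)) n ≫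
      groupCohomology.map H.subtype (𝟙 (Rep.res H.subtype (Rep.res e.toMonoidHom C))) n ≫
        (pcmIso' e C H n).hom =
      groupCohomology.map (H.map e.toMonoidHom).subtype
        (𝟙 (Rep.res (H.map e.toMonoidHom).subtype C)) n := by
  change _ ≫ _ ≫ groupCohomology.map _ _ n = _
  rw [← groupCohomology.map_comp, ← groupCohomology.map_comp]
  refine groupCohomology.map_congr ?_ ?_ n
  · ext x
    obtain ⟨y, rfl⟩ := (H.equivMapOfInjective e.toMonoidHom e.injective).surjective x
    change e.toMonoidHom (((H.equivMapOfInjective e.toMonoidHom e.injective).symm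
      ((H.equivMapOfInjective e.toMonoidHom e.injective) y) : H) : G) = _
    rw [MulEquiv.symm_apply_apply]
    rfl
  · exact LinearMap.ext fun a => rfl

end isok

section iso
variable {G G' : Type} [Group G] [Finite G] [Group G'] [Finite G']

/-- transport of a `p`-class module along an isomorphism of groups -/
theorem pcm_iso (p : ℕ) [Fact p.Prime] (e : G ≃* G') (C : Rep.{0} ℤ G')
    (γ : groupCohomology C 2) (hC : IsPClassModule p C γ) :
    IsPClassModule p (Rep.res e.toMonoidHom C)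
      ((groupCohomology.map e.toMonoidHom (𝟙 (Rep.res e.toMonoidHom C)) 2).hom γ) := by
  have hP : ∀ H : Subgroup G, IsPGroup p H → IsPGroup p (H.map e.toMonoidHom) :=
    fun H hH => hH.map e.toMonoidHom
  have hres : ∀ H : Subgroup G, (pcmIso' e C H 2).hom
      (resCoh (Rep.res e.toMonoidHom C) H 2
        ((groupCohomology.map e.toMonoidHom (𝟙 (Rep.res e.toMonoidHom C)) 2).hom γ)) =
      resCoh C (H.map e.toMonoidHom) 2 γ :=
    fun H => congrArg (fun f => f.hom γ) (pcmIso_res' e C H 2)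
  refine ⟨fun H hH => ?_, fun H hH => ?_, fun H hH x => ?_⟩
  · exact (hC.h1 _ (hP H hH)).of_iso (pcmIso' e C H 1)
  · rw [Nat.card_congr (pcmIso' e C H 2).toLinearEquiv.toEquiv, hC.card _ (hP H hH)]
    exact Nat.card_congr (H.equivMapOfInjective e.toMonoidHom e.injective).symm.toEquiv
  · obtain ⟨k, hk⟩ := hC.gen _ (hP H hH) ((pcmIso' e C H 2).hom x)
    refine ⟨k, ?_⟩
    apply (pcmIso' e C H 2).toLinearEquiv.injective
    change (pcmIso' e C H 2).hom x = (pcmIso' e C H 2).hom _
    rw [hk, map_zsmul, hres]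

/-- **PCM-EMB** -/
theorem h25c_pcmEmb (G G' : Type) [Group G] [Finite G] [Group G'] [Finite G'] :
    H17C.PcmEmbStatement G G' := by
  intro p _ e B C j hj hje hidx hpidx hγ
  obtain ⟨γ, hC⟩ := hγ
  have hC' := pcm_iso p e C γ hC
  -- the morphism `B ⟶ e^* C`
  let i : B ⟶ Rep.res e.toMonoidHom C :=
    H22AI.h22ai_mkHom B (Rep.res e.toMonoidHom C) j hje
  have hi : Function.Injective i.hom := hj
  have hm : ∀ c : (Rep.res e.toMonoidHom C).V, ∃ b : B.V, i.hom b = j.range.index • c := by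
    intro c
    have h1 : j.range.index • (c : C.V) ∈ j.range := AddSubgroup.nsmul_index_mem j.range c
    obtain ⟨b, hb⟩ := h1
    exact ⟨b, hb⟩
  obtain ⟨β, hβ, -⟩ := h25c_pcmSub G p B (Rep.res e.toMonoidHom C) i j.range.index hi hpidx hm
    _ hC'
  exact ⟨β, hβ⟩

end iso

end H25C
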