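/-
W2-C (S55) block C (helper25): **CMB-ASM** `H17C.CmbAsmStatement`:
`B-CLS + FundamentalClass + PCM-EMB ⇒ H14PT.CMB S p` (the deliverable CM of block C for block E).
-/
import Fermat.Agent.CFT2.C.Transport_helper17
import Fermat.Agent.CFT2.C.PcmSub_helper25

set_option autoImplicit false
set_option linter.unusedSectionVars false
set_option linter.unusedVariables false
set_option linter.style.haveILetI false

noncomputable section

namespace H25C

open NumberField CategoryTheory groupCohomology H14PT H15D H17C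

local notation "Qb" => AlgebraicClosure ℚ
local notation "GQ" => (AlgebraicClosure ℚ ≃ₐ[ℚ] AlgebraicClosure ℚ)

/-- **(CMB-ASM)** -/
theorem h25c_cmbAsm : H17C.CmbAsmStatement := by
  intro S p hp hp2 hpS hB hFC hPcm
  obtain ⟨L₀⟩ := (levelsS S).exists_lv
  refine ⟨L₀, fun L _ => ?_⟩
  obtain ⟨F, iF, iNF, iGal, hunr, e, j, hinj, heq, hidx, hnd⟩ := hB L
  letI := iF
  letI := iNF
  letI := iGal
  haveI : Fact p.Prime := ⟨hp⟩
  have hγ := hFC p S F hp hp2 hpS hunr
  exact hPcm (GQ ⧸ L.U) (AutQ F) p e (BL S L) (clsObj S ℚ F) j hinj (fun g b => heq g b)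
    hidx hnd hγ

/-- `CMB` from B-CLS and the fundamental class (PCM-EMB is `h25c_pcmEmb`) -/
theorem h25c_cmb_of (S : Finset Nat.Primes) (p : ℕ) (hp : p.Prime) (hp2 : p ≠ 2)
    (hpS : ∃ q ∈ S, (q : ℕ) = p) (hB : H17C.BClsStatement S p) (hFC : H17C.FundamentalClass) :
    H14PT.CMB S p :=
  h25c_cmbAsm S p hp hp2 hpS hB hFC (fun G G' _ _ _ _ => h25c_pcmEmb G G')

end H25C

end
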