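/-
W2-C (S55) block C-finite, slice DESC-I (helper3): Galois descent for `L_S = L ⊗_ℚ ℚ_S`:
`F_S → L_S` is injective and `(L_S)^H = F_S`, `F = L^H`.
Proof: coefficients with respect to a `ℚ`-basis of `ℚ_S` (`TensorProduct.equivFinsuppOfBasisRight`).
-/
import Mathlib
import Fermat.Agent.CFT2.C.Slices_helper17

set_option autoImplicit false
set_option linter.style.haveILetI false
set_option linter.unusedSectionVars false
set_option linter.unusedVariables false

noncomputable section

namespace H3C

open NumberField TensorProduct H17C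

/-- coefficientwise description of `f ⊗ id` in a basis of the right factor -/
theorem h3c_coeff {k F L W ι : Type} [Field k] [Field F] [Field L] [Algebra k F] [Algebra k L]
    [AddCommGroup W] [Module k W] [DecidableEq ι]
    (f : F →ₐ[k] L) (𝒞 : Module.Basis ι k W)
    (B : F ⊗[k] W →+ L ⊗[k] W) (hB : ∀ x y, B (x ⊗ₜ y) = f x ⊗ₜ y) (w : F ⊗[k] W) :
    TensorProduct.equivFinsuppOfBasisRight 𝒞 (B w) =
      Finsupp.mapRange f (map_zero _) (TensorProduct.equivFinsuppOfBasisRight 𝒞 w) := by
  induction w using TensorProduct.induction_on with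
  | zero => simp
  | tmul x y =>
    rw [hB]
    ext i
    simp only [TensorProduct.equivFinsuppOfBasisRight_apply_tmul, Finsupp.mapRange_apply]
    rw [map_smul]
  | add a b ha hb =>
    rw [map_add, map_add, map_add, ha, hb]
    ext i
    simp

/-- descent for tensor products: invariants and injectivity -/
theorem h3c_desc_core {k L W : Type} [Field k] [Field L] [Algebra k L]
    [AddCommGroup W] [Module k W] (H : Subgroup (L ≃ₐ[k] L))
    (B : (IntermediateField.fixedField H) ⊗[k] W →+ L ⊗[k] W)
    (hB : ∀ x y, B (x ⊗ₜ y) = (algebraMap (IntermediateField.fixedField H) L x) ⊗ₜ y)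
    (A : (L ≃ₐ[k] L) → (L ⊗[k] W →+ L ⊗[k] W))
    (hA : ∀ σ x y, A σ (x ⊗ₜ y) = (σ x) ⊗ₜ y) :
    Function.Injective B ∧
      ∀ z : L ⊗[k] W, (∀ σ ∈ H, A σ z = z) → ∃ w, B w = z := by
  classical
  let 𝒞 := Module.Free.chooseBasis k W
  let eL : (L ⊗[k] W) ≃ₗ[k] (_ →₀ L) := TensorProduct.equivFinsuppOfBasisRight 𝒞
  let eF : ((IntermediateField.fixedField H) ⊗[k] W) ≃ₗ[k]
      (_ →₀ (IntermediateField.fixedField H)) := TensorProduct.equivFinsuppOfBasisRight 𝒞
  have hbase : ∀ w, eL (B w) =
      Finsupp.mapRange (IsScalarTower.toAlgHom k (IntermediateField.fixedField H) L)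
        (map_zero _) (eF w) :=
    h3c_coeff (IsScalarTower.toAlgHom k (IntermediateField.fixedField H) L) 𝒞 B hB
  have hact : ∀ (σ : L ≃ₐ[k] L) (z : L ⊗[k] W),
      eL (A σ z) = Finsupp.mapRange (σ : L →ₐ[k] L) (map_zero _) (eL z) :=
    fun σ => h3c_coeff (σ : L →ₐ[k] L) 𝒞 (A σ) (hA σ)
  constructor
  · intro w w' h
    apply eF.injective
    have h1 := congrArg eL h
    rw [hbase, hbase] at h1
    exact Finsupp.mapRange_injective _ (map_zero _)
      (algebraMap (IntermediateField.fixedField H) L).injective h1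
  · intro z hz
    have hcoef : ∀ i, eL z i ∈ IntermediateField.fixedField H := by
      intro i
      rw [IntermediateField.mem_fixedField_iff]
      intro σ hσ
      have h1 := congrArg (fun f => f i) (hact σ z)
      rw [hz σ hσ] at h1
      simpa using h1.symm
    let c : _ →₀ (IntermediateField.fixedField H) :=
      (eL z).mapRange (fun x => if h : x ∈ IntermediateField.fixedField H then ⟨x, h⟩ else 0)
        (by rw [dif_pos (zero_mem _)]; rfl)
    refine ⟨eF.symm c, ?_⟩
    apply eL.injective
    rw [hbase, LinearEquiv.apply_symm_apply]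
    ext i
    simp only [c, Finsupp.mapRange_apply, dif_pos (hcoef i)]
    rfl

/-- **(DESC-I)** Galois descent for `L_S = L ⊗ ℚ_S` -/
theorem h3c_descIdele : H17C.DescIdele := by
  intro S L _ _ H
  exact h3c_desc_core (k := ℚ) (L := L) (W := QS S) H
    ((ksBase S (IntermediateField.fixedField H) L : KS S (IntermediateField.fixedField H) →ₐ[ℚ]
      KS S L) : KS S (IntermediateField.fixedField H) →+ KS S L)
    (fun x y => ksBase_tmul S (IntermediateField.fixedField H) L x y)
    (fun σ => ((ksAut S ℚ L σ : KS S L ≃ₐ[ℚ] KS S L) : KS S L →+ KS S L))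
    (fun σ x y => ksAut_tmul S ℚ L σ x y)

end H3C
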