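/-
W2-C (S55) block C-finite, FC slice CYCLO (helper3), part D1: Galois descent for `F_S = F ⊗ ℚ_S`
over the base `ℚ` itself (`F/ℚ` Galois): `ℚ_S → F_S` is injective with image `(F_S)^{Gal(F/ℚ)}`.
-/
import Mathlib
import Fermat.Agent.CFT2.C.DescIdele_helper3
import Fermat.Agent.CFT2.C.Slices5_helper17

set_option autoImplicit false
set_option linter.style.haveILetI false
set_option linter.unusedSectionVars false
set_option linter.unusedVariables false

noncomputable section

namespace H3C

open NumberField TensorProduct H17C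

/-- descent for tensor products over the base field: invariants and injectivity -/
theorem h3c_desc_core_bot {k L W : Type} [Field k] [Field L] [Algebra k L]
    [FiniteDimensional k L] [IsGalois k L]
    [AddCommGroup W] [Module k W]
    (B : k ⊗[k] W →+ L ⊗[k] W)
    (hB : ∀ x y, B (x ⊗ₜ y) = (algebraMap k L x) ⊗ₜ y)
    (A : (L ≃ₐ[k] L) → (L ⊗[k] W →+ L ⊗[k] W))
    (hA : ∀ σ x y, A σ (x ⊗ₜ y) = (σ x) ⊗ₜ y) :
    Function.Injective B ∧
      ∀ z : L ⊗[k] W, (∀ σ, A σ z = z) → ∃ w, B w = z := by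
  classical
  let 𝒞 := Module.Free.chooseBasis k W
  let eL : (L ⊗[k] W) ≃ₗ[k] (_ →₀ L) := TensorProduct.equivFinsuppOfBasisRight 𝒞
  let eF : (k ⊗[k] W) ≃ₗ[k] (_ →₀ k) := TensorProduct.equivFinsuppOfBasisRight 𝒞
  have hbase : ∀ w, eL (B w) =
      Finsupp.mapRange (Algebra.ofId k L) (map_zero _) (eF w) :=
    h3c_coeff (Algebra.ofId k L) 𝒞 B hB
  have hact : ∀ (σ : L ≃ₐ[k] L) (z : L ⊗[k] W),
      eL (A σ z) = Finsupp.mapRange (σ : L →ₐ[k] L) (map_zero _) (eL z) :=
    fun σ => h3c_coeff (σ : L →ₐ[k] L) 𝒞 (A σ) (hA σ)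
  constructor
  · intro w w' h
    apply eF.injective
    have h1 := congrArg eL h
    rw [hbase, hbase] at h1
    exact Finsupp.mapRange_injective _ (map_zero _) (algebraMap k L).injective h1
  · intro z hz
    have hcoef : ∀ i, ∃ c : k, algebraMap k L c = eL z i := by
      intro i
      have hmem : eL z i ∈ (⊥ : IntermediateField k L) := by
        rw [IsGalois.mem_bot_iff_fixed]
        intro σ
        have h1 := congrArg (fun f => f i) (hact σ z)
        rw [hz σ] at h1
        simpa using h1.symm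
      exact IntermediateField.mem_bot.mp hmem
    choose c hc using hcoef
    let cf : _ →₀ k := Finsupp.onFinset (eL z).support c (by
      intro i hi
      rw [Finsupp.mem_support_iff]
      intro h0
      apply hi
      have := hc i
      rw [h0] at this
      exact (map_eq_zero (algebraMap k L)).mp this)
    refine ⟨eF.symm cf, ?_⟩
    apply eL.injective
    rw [hbase, LinearEquiv.apply_symm_apply]
    ext i
    simp only [cf, Finsupp.mapRange_apply, Finsupp.onFinset_apply]
    exact hc i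

section rat

variable (S : Finset Nat.Primes) (F : Type) [Field F] [NumberField F] [IsGalois ℚ F]

theorem h3c_desc_rat :
    Function.Injective (ksBase S ℚ F) ∧
      ∀ z : KS S F, (∀ σ : AutQ F, ksAut S ℚ F σ z = z) → ∃ w : KS S ℚ, ksBase S ℚ F w = z :=
  h3c_desc_core_bot (k := ℚ) (L := F) (W := QS S)
    ((ksBase S ℚ F : KS S ℚ →ₐ[ℚ] KS S F) : KS S ℚ →+ KS S F)
    (fun x y => ksBase_tmul S ℚ F x y)
    (fun σ => ((ksAut S ℚ F σ : KS S F ≃ₐ[ℚ] KS S F) : KS S F →+ KS S F))
    (fun σ x y => ksAut_tmul S ℚ F σ x y)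

theorem h3c_ksBase_rat_injective : Function.Injective (ksBase S ℚ F) := (h3c_desc_rat S F).1

theorem h3c_ideleBase_rat_injective : Function.Injective (ideleBase S ℚ F) := by
  intro u v h
  apply Units.ext
  apply h3c_ksBase_rat_injective S F
  exact congrArg Units.val h

/-- an invariant idele of `F` comes from `ℚ` -/
theorem h3c_idele_desc_rat (u : (KS S F)ˣ) (hu : ∀ σ : AutQ F, σ • u = u) :
    ∃ y : (KS S ℚ)ˣ, ideleBase S ℚ F y = u := by
  have h1 : ∀ σ : AutQ F, ksAut S ℚ F σ (u : KS S F) = (u : KS S F) := by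
    intro σ
    have := congrArg Units.val (hu σ)
    rwa [ideleAct_coe] at this
  have h2 : ∀ σ : AutQ F, ksAut S ℚ F σ ((u⁻¹ : (KS S F)ˣ) : KS S F) =
      ((u⁻¹ : (KS S F)ˣ) : KS S F) := by
    intro σ
    have h3 : σ • u⁻¹ = u⁻¹ := by rw [smul_inv', hu σ]
    have := congrArg Units.val h3
    rwa [ideleAct_coe] at this
  obtain ⟨w, hw⟩ := (h3c_desc_rat S F).2 _ h1
  obtain ⟨w', hw'⟩ := (h3c_desc_rat S F).2 _ h2
  have hww' : w * w' = 1 := by
    apply h3c_ksBase_rat_injective S F
    rw [map_mul, hw, hw', map_one]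
    simp
  refine ⟨⟨w, w', hww', by rw [mul_comm]; exact hww'⟩, ?_⟩
  apply Units.ext
  exact hw

end rat

end H3C
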