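/-
W2-C (S55) block C-finite, FC slice CYCLO (helper3), part A: the character
`ψ : A_ℚ = I_ℚ × Div_S(ℚ) → (ℤ/p^{M+1})ˣ`,
`ψ(y, d) = (y_p p^{-v_p(y_p)} mod p^{M+1}) · ∏_{q ∈ S, q ≠ p} q^{-v_q(y_q)} · ∏_{r ∉ S} r^{-d_r}`.
-/
import Mathlib
import Fermat.Agent.CFT2.C.Slices5_helper17

set_option autoImplicit false
set_option linter.style.haveILetI false
set_option linter.unusedSectionVars false
set_option linter.unusedVariables false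

noncomputable section

namespace H3C

open NumberField TensorProduct H17C IsDedekindDomain

/-! ### local homomorphisms on `ℚ_qˣ` -/

section loc

variable (q : ℕ) [hq : Fact q.Prime]

theorem h3c_norm_unitPart (x : ℚ_[q]ˣ) :
    ‖(x : ℚ_[q]) * (q : ℚ_[q]) ^ (-(x : ℚ_[q]).valuation)‖ = 1 := by
  have hq0 : (0 : ℝ) < (q : ℝ) := by exact_mod_cast hq.out.pos
  rw [norm_mul, Padic.norm_eq_zpow_neg_valuation x.ne_zero, norm_zpow, Padic.norm_p,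
    inv_zpow', neg_neg, ← zpow_add₀ hq0.ne', neg_add_cancel, zpow_zero]

/-- the unit part `x ↦ x q^{-v(x)} ∈ ℤ_q` -/
def h3c_unitPart : ℚ_[q]ˣ →* ℤ_[q] where
  toFun x := ⟨(x : ℚ_[q]) * (q : ℚ_[q]) ^ (-(x : ℚ_[q]).valuation), (h3c_norm_unitPart q x).le⟩
  map_one' := by
    apply Subtype.ext
    simp [Padic.valuation_one]
  map_mul' x y := by
    apply Subtype.ext
    have hq0 : (q : ℚ_[q]) ≠ 0 := by exact_mod_cast hq.out.ne_zero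
    show ((x * y : ℚ_[q]ˣ) : ℚ_[q]) * (q : ℚ_[q]) ^ (-((x * y : ℚ_[q]ˣ) : ℚ_[q]).valuation) =
      ((x : ℚ_[q]) * (q : ℚ_[q]) ^ (-(x : ℚ_[q]).valuation)) *
      ((y : ℚ_[q]) * (q : ℚ_[q]) ^ (-(y : ℚ_[q]).valuation))
    rw [Units.val_mul, Padic.valuation_mul x.ne_zero y.ne_zero, neg_add, zpow_add₀ hq0]
    ring

theorem h3c_unitPart_coe (x : ℚ_[q]ˣ) :
    ((h3c_unitPart q x : ℤ_[q]) : ℚ_[q]) = (x : ℚ_[q]) * (q : ℚ_[q]) ^ (-(x : ℚ_[q]).valuation) :=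
  rfl

/-- the valuation as a homomorphism -/
def h3c_val : ℚ_[q]ˣ →* Multiplicative ℤ where
  toFun x := Multiplicative.ofAdd ((x : ℚ_[q]).valuation)
  map_one' := by simp [Padic.valuation_one]
  map_mul' x y := by
    rw [Units.val_mul, Padic.valuation_mul x.ne_zero y.ne_zero]
    rfl

theorem h3c_val_apply (x : ℚ_[q]ˣ) : h3c_val q x = Multiplicative.ofAdd ((x : ℚ_[q]).valuation) :=
  rfl

end loc

/-! ### the components of an idele of `ℚ` -/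

section comp

variable (S : Finset Nat.Primes)

/-- `ℚ ⊗ ℚ_S → ℚ_S` -/
def h3c_lid : KS S ℚ →+* QS S :=
  ((Algebra.TensorProduct.lid ℚ (QS S)).toAlgHom : ℚ ⊗[ℚ] QS S →ₐ[ℚ] QS S).toRingHom

theorem h3c_lid_tmul (x : ℚ) (y : QS S) : h3c_lid S (tmulS S ℚ x y) = x • y := by
  show (Algebra.TensorProduct.lid ℚ (QS S)) (x ⊗ₜ[ℚ] y) = x • y
  rw [Algebra.TensorProduct.lid_tmul]

/-- the `q`-component `ℚ ⊗ ℚ_S → ℚ_q` -/
def h3c_comp (q : S) : KS S ℚ →+* ℚ_[((q : Nat.Primes) : ℕ)] :=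
  (Pi.evalRingHom (fun q : S => ℚ_[((q : Nat.Primes) : ℕ)]) q).comp (h3c_lid S)

theorem h3c_comp_tmul (q : S) (x : ℚ) (y : QS S) :
    h3c_comp S q (tmulS S ℚ x y) = (x : ℚ_[((q : Nat.Primes) : ℕ)]) * y q := by
  show (h3c_lid S (tmulS S ℚ x y)) q = _
  rw [h3c_lid_tmul, Pi.smul_apply, Algebra.smul_def, eq_ratCast]

theorem h3c_comp_diag (q : S) (x : ℚ) :
    h3c_comp S q (diagRing S ℚ x) = (x : ℚ_[((q : Nat.Primes) : ℕ)]) := by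
  rw [diagRing_apply, h3c_comp_tmul, Pi.one_apply, mul_one]

theorem h3c_comp_loc (q : S) (y : QS S) : h3c_comp S q (locRing S ℚ y) = y q := by
  rw [locRing_apply, h3c_comp_tmul, Rat.cast_one, one_mul]

/-- the `q`-component of an idele -/
def h3c_compU (q : S) : (KS S ℚ)ˣ →* ℚ_[((q : Nat.Primes) : ℕ)]ˣ :=
  Units.map (h3c_comp S q : KS S ℚ →* ℚ_[((q : Nat.Primes) : ℕ)])

theorem h3c_compU_coe (q : S) (y : (KS S ℚ)ˣ) :
    ((h3c_compU S q y : ℚ_[((q : Nat.Primes) : ℕ)]ˣ) : ℚ_[((q : Nat.Primes) : ℕ)]) =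
      h3c_comp S q (y : KS S ℚ) := rfl

end comp

/-! ### the character `ψ` -/

section psi

variable (S : Finset Nat.Primes) (q₀ : S) (M : ℕ)

local notation "𝕡" => ((q₀ : Nat.Primes) : ℕ)

/-- the unit `n mod p^{M+1}` for `n` prime to `p`, and `1` otherwise -/
def h3c_u (n : ℕ) : (ZMod (𝕡 ^ (M + 1)))ˣ :=
  open Classical in
  if h : n.Coprime (𝕡 ^ (M + 1)) then ZMod.unitOfCoprime n h else 1

theorem h3c_u_coe (n : ℕ) (h : n.Coprime 𝕡) :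
    ((h3c_u S q₀ M n : (ZMod (𝕡 ^ (M + 1)))ˣ) : ZMod (𝕡 ^ (M + 1))) = (n : ZMod (𝕡 ^ (M + 1))) := by
  unfold h3c_u
  rw [dif_pos (Nat.Coprime.pow_right _ h)]
  rfl

theorem h3c_u_self : h3c_u S q₀ M 𝕡 = 1 := by
  unfold h3c_u
  rw [dif_neg]
  intro h
  have h1 : Nat.Coprime 𝕡 𝕡 := Nat.Coprime.coprime_dvd_right (dvd_pow_self _ (Nat.succ_ne_zero M)) h
  rw [Nat.coprime_self] at h1
  exact (q₀ : Nat.Primes).2.one_lt.ne' h1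

/-- the character at `p`: `x ↦ x p^{-v(x)} mod p^{M+1}` -/
def h3c_chi : ℚ_[𝕡]ˣ →* (ZMod (𝕡 ^ (M + 1)))ˣ :=
  (((PadicInt.toZModPow (M + 1) : ℤ_[𝕡] →+* ZMod (𝕡 ^ (M + 1))) : ℤ_[𝕡] →* ZMod (𝕡 ^ (M + 1))).comp
    (h3c_unitPart 𝕡)).toHomUnits

theorem h3c_chi_coe (x : ℚ_[𝕡]ˣ) :
    ((h3c_chi S q₀ M x : (ZMod (𝕡 ^ (M + 1)))ˣ) : ZMod (𝕡 ^ (M + 1))) =
      PadicInt.toZModPow (M + 1) (h3c_unitPart 𝕡 x) := rfl

/-- the factor `q^{-v_q(y_q)}` -/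
def h3c_valFactor (q : S) : (KS S ℚ)ˣ →* (ZMod (𝕡 ^ (M + 1)))ˣ :=
  ((zpowersHom (ZMod (𝕡 ^ (M + 1)))ˣ (h3c_u S q₀ M ((q : Nat.Primes) : ℕ))⁻¹).comp
    (h3c_val ((q : Nat.Primes) : ℕ))).comp (h3c_compU S q)

theorem h3c_valFactor_apply (q : S) (y : (KS S ℚ)ˣ) :
    h3c_valFactor S q₀ M q y =
      (h3c_u S q₀ M ((q : Nat.Primes) : ℕ))⁻¹ ^ ((h3c_comp S q (y : KS S ℚ)).valuation) := rfl

/-- `ψ` on the ideles -/
def h3c_psiI : (KS S ℚ)ˣ →* (ZMod (𝕡 ^ (M + 1)))ˣ :=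
  ((h3c_chi S q₀ M).comp (h3c_compU S q₀)) * ∏ q : S, h3c_valFactor S q₀ M q

theorem h3c_psiI_apply (y : (KS S ℚ)ˣ) :
    h3c_psiI S q₀ M y = h3c_chi S q₀ M (h3c_compU S q₀ y) * ∏ q : S, h3c_valFactor S q₀ M q y := by
  unfold h3c_psiI
  rw [MonoidHom.mul_apply, MonoidHom.finsetProd_apply]
  rfl

/-- the positive generator of a prime of `𝓞 ℚ` -/
def h3c_gen (P : PrimesS S ℚ) : ℕ := Rat.HeightOneSpectrum.natGenerator P.toHOS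

/-- `ψ` on the divisors -/
def h3c_psiD : DivS S ℚ →+ Additive (ZMod (𝕡 ^ (M + 1)))ˣ :=
  Finsupp.liftAddHom (fun P : PrimesS S ℚ =>
    zmultiplesHom (Additive (ZMod (𝕡 ^ (M + 1)))ˣ)
      (Additive.ofMul (h3c_u S q₀ M (h3c_gen S P))⁻¹))

theorem h3c_psiD_single (P : PrimesS S ℚ) (n : ℤ) :
    h3c_psiD S q₀ M (Finsupp.single P n) = n • Additive.ofMul (h3c_u S q₀ M (h3c_gen S P))⁻¹ := by
  unfold h3c_psiD
  rw [Finsupp.liftAddHom_apply_single]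
  rfl

/-- the character `ψ : A_ℚ → (ℤ/p^{M+1})ˣ` -/
def h3c_psi : AmbS S ℚ →+ Additive (ZMod (𝕡 ^ (M + 1)))ˣ :=
  AddMonoidHom.coprod (MonoidHom.toAdditive (h3c_psiI S q₀ M)) (h3c_psiD S q₀ M)

theorem h3c_psi_apply (z : AmbS S ℚ) :
    h3c_psi S q₀ M z = Additive.ofMul (h3c_psiI S q₀ M (Additive.toMul z.1)) + h3c_psiD S q₀ M z.2 :=
  rfl

end psi

end H3C
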