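/-
W2-C (S55) block C-finite, FC slice CYCLO (helper3), part A2: the primes of `𝓞 ℚ` outside `S`,
`ψ` on principal elements (`2 ψ(princ a) = 0`), `ψ(c₀) = 1 + p`.
-/
import Mathlib
import Fermat.Agent.CFT2.C.CycloPsi_helper3

set_option autoImplicit false
set_option linter.style.haveILetI false
set_option linter.unusedSectionVars false
set_option linter.unusedVariables false

noncomputable section

namespace H3C

open NumberField TensorProduct H17C IsDedekindDomain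

/-! ### the primes of `𝓞 ℚ` outside `S` -/

section primes

variable (S : Finset Nat.Primes)

theorem h3c_gen_prime (P : PrimesS S ℚ) : (h3c_gen S P).Prime :=
  Rat.HeightOneSpectrum.prime_natGenerator _

theorem h3c_natCast_mem_iff (P : PrimesS S ℚ) (n : ℕ) :
    ((n : ℤ) : 𝓞 ℚ) ∈ P.1 ↔ h3c_gen S P ∣ n := by
  unfold h3c_gen
  rw [Rat.HeightOneSpectrum.natGenerator_dvd_iff]
  have h := Ideal.apply_mem_of_equiv_iff (I := P.1)
    (f := Rat.IsIntegralClosure.intEquiv (𝓞 ℚ)) (x := ((n : ℤ) : 𝓞 ℚ))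
  rw [map_intCast] at h
  exact h.symm

theorem h3c_gen_notMem (P : PrimesS S ℚ) (q : Nat.Primes) (hq : q ∈ S) :
    h3c_gen S P ≠ (q : ℕ) := by
  intro h
  apply P.2.2.2 q hq
  rw [h3c_natCast_mem_iff, h]

/-- the prime of `𝓞 ℚ` attached to a prime number outside `S` -/
def h3c_mkPrime (ℓ : Nat.Primes) (hℓ : ℓ ∉ S) : PrimesS S ℚ :=
  ⟨(Rat.HeightOneSpectrum.primesEquiv (R := 𝓞 ℚ)).symm ℓ |>.asIdeal,
    (Rat.HeightOneSpectrum.primesEquiv (R := 𝓞 ℚ)).symm ℓ |>.isPrime,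
    (Rat.HeightOneSpectrum.primesEquiv (R := 𝓞 ℚ)).symm ℓ |>.ne_bot, by
      intro q hq hmem
      have h1 : Rat.HeightOneSpectrum.natGenerator
          ((Rat.HeightOneSpectrum.primesEquiv (R := 𝓞 ℚ)).symm ℓ) ∣ (q : ℕ) := by
        rw [Rat.HeightOneSpectrum.natGenerator_dvd_iff]
        have h := Ideal.apply_mem_of_equiv_iff
          (I := ((Rat.HeightOneSpectrum.primesEquiv (R := 𝓞 ℚ)).symm ℓ).asIdeal)
          (f := Rat.IsIntegralClosure.intEquiv (𝓞 ℚ)) (x := (((q : ℕ) : ℤ) : 𝓞 ℚ))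
        rw [map_intCast] at h
        exact h.mpr hmem
      have h2 : Rat.HeightOneSpectrum.natGenerator
          ((Rat.HeightOneSpectrum.primesEquiv (R := 𝓞 ℚ)).symm ℓ) = (ℓ : ℕ) :=
        congrArg Subtype.val ((Rat.HeightOneSpectrum.primesEquiv (R := 𝓞 ℚ)).apply_symm_apply ℓ)
      rw [h2] at h1
      have h3 : (ℓ : ℕ) = (q : ℕ) := (Nat.prime_dvd_prime_iff_eq ℓ.2 q.2).mp h1
      exact hℓ (by rw [Subtype.ext h3]; exact hq)⟩

theorem h3c_gen_mkPrime (ℓ : Nat.Primes) (hℓ : ℓ ∉ S) : h3c_gen S (h3c_mkPrime S ℓ hℓ) = ℓ :=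
  congrArg Subtype.val ((Rat.HeightOneSpectrum.primesEquiv (R := 𝓞 ℚ)).apply_symm_apply ℓ)

theorem h3c_gen_injective : Function.Injective (h3c_gen S) := by
  intro P P' h
  apply PrimesS.toHOS_injective
  apply (Rat.HeightOneSpectrum.primesEquiv (R := 𝓞 ℚ)).injective
  exact Subtype.ext h

theorem h3c_asIdeal_eq (P : PrimesS S ℚ) :
    P.1 = Ideal.span {(((h3c_gen S P : ℕ) : ℤ) : 𝓞 ℚ)} := by
  have h := Rat.HeightOneSpectrum.span_natGenerator P.toHOS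
  have h1 : P.1 = (P.1.map (Rat.IsIntegralClosure.intEquiv (𝓞 ℚ))).map
      ((Rat.IsIntegralClosure.intEquiv (𝓞 ℚ)).symm) := by
    rw [Ideal.map_symm, Ideal.comap_map_of_bijective _
      (Rat.IsIntegralClosure.intEquiv (𝓞 ℚ)).bijective]
  have h2 : P.toHOS.asIdeal = P.1 := rfl
  rw [h2] at h
  rw [h1, ← h, Ideal.map_span, Set.image_singleton]
  congr 2
  unfold h3c_gen
  exact (map_intCast (Rat.IsIntegralClosure.intEquiv (𝓞 ℚ)).symm _)

/-- `ord_P(ℓ)` for a prime number `ℓ` -/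
theorem h3c_ordP_prime (P : PrimesS S ℚ) (ℓ : ℕ) (hℓ : ℓ.Prime) :
    ordP P (ℓ : ℚ) = if h3c_gen S P = ℓ then 1 else 0 := by
  have e : (ℓ : ℚ) = algebraMap (𝓞 ℚ) ℚ (((ℓ : ℕ) : ℤ) : 𝓞 ℚ) := by
    rw [map_intCast]
    simp
  unfold ordP
  rw [e, HeightOneSpectrum.valuation_of_algebraMap]
  by_cases h : h3c_gen S P = ℓ
  · rw [if_pos h]
    have h1 : P.toHOS.asIdeal = Ideal.span {(((ℓ : ℕ) : ℤ) : 𝓞 ℚ)} := by
      rw [← h]
      exact h3c_asIdeal_eq S P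
    have h0 : (((ℓ : ℕ) : ℤ) : 𝓞 ℚ) ≠ 0 := by
      intro h0
      have := congrArg (algebraMap (𝓞 ℚ) ℚ) h0
      rw [map_intCast, map_zero] at this
      have h00 : (ℓ : ℚ) = 0 := by exact_mod_cast this
      exact hℓ.ne_zero (by exact_mod_cast h00)
    rw [HeightOneSpectrum.intValuation_singleton P.toHOS h0 h1]
    simp
  · rw [if_neg h]
    have h1 : (((ℓ : ℕ) : ℤ) : 𝓞 ℚ) ∉ P.toHOS.asIdeal := by
      intro hmem
      have h2 : h3c_gen S P ∣ ℓ := (h3c_natCast_mem_iff S P ℓ).mp hmem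
      exact h ((Nat.prime_dvd_prime_iff_eq (h3c_gen_prime S P) hℓ).mp h2)
    rw [HeightOneSpectrum.intValuation_eq_one_iff.mpr h1]
    simp

end primes

/-! ### `ψ` on principal elements -/

section princ

variable (S : Finset Nat.Primes) (q₀ : S) (M : ℕ)

local notation "𝕡" => ((q₀ : Nat.Primes) : ℕ)

/-- the unit of `ℚ` attached to a prime number -/
def h3c_primeUnit (ℓ : Nat.Primes) : ℚˣ :=
  Units.mk0 ((ℓ : ℕ) : ℚ) (by exact_mod_cast ℓ.2.ne_zero)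

theorem h3c_valuation_prime (q : ℕ) [hq : Fact q.Prime] (ℓ : Nat.Primes) :
    (((ℓ : ℕ) : ℚ_[q])).valuation = if q = (ℓ : ℕ) then 1 else 0 := by
  rw [Padic.valuation_natCast]
  by_cases h : q = (ℓ : ℕ)
  · rw [if_pos h]
    subst h
    rw [padicValNat_self]
    rfl
  · rw [if_neg h]
    haveI : Fact (ℓ : ℕ).Prime := ⟨ℓ.2⟩
    rw [padicValNat_primes h]
    rfl

theorem h3c_unitPart_of_valuation_eq_zero (q : ℕ) [hq : Fact q.Prime] (x : ℚ_[q]ˣ)
    (hx : (x : ℚ_[q]).valuation = 0) : ((h3c_unitPart q x : ℤ_[q]) : ℚ_[q]) = (x : ℚ_[q]) := by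
  rw [h3c_unitPart_coe, hx, neg_zero, zpow_zero, mul_one]

theorem h3c_chi_natCast (n : ℕ) (hn : n.Coprime 𝕡) (x : ℚ_[𝕡]ˣ) (hx : (x : ℚ_[𝕡]) = (n : ℚ_[𝕡])) :
    ((h3c_chi S q₀ M x : (ZMod (𝕡 ^ (M + 1)))ˣ) : ZMod (𝕡 ^ (M + 1))) = (n : ZMod (𝕡 ^ (M + 1))) := by
  rw [h3c_chi_coe]
  have hv : (x : ℚ_[𝕡]).valuation = 0 := by
    rw [hx, Padic.valuation_natCast]
    have : padicValNat 𝕡 n = 0 := by
      apply padicValNat.eq_zero_of_not_dvd
      intro hd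
      have := Nat.Coprime.eq_one_of_dvd hn.symm hd
      exact (q₀ : Nat.Primes).2.one_lt.ne' this
    rw [this]
    rfl
  have h1 : h3c_unitPart 𝕡 x = (n : ℤ_[𝕡]) := by
    apply Subtype.ext
    rw [h3c_unitPart_of_valuation_eq_zero _ x hv, hx]
    simp
  rw [h1, map_natCast]

theorem h3c_chi_prime (ℓ : Nat.Primes) (x : ℚ_[𝕡]ˣ) (hx : (x : ℚ_[𝕡]) = ((ℓ : ℕ) : ℚ_[𝕡])) :
    h3c_chi S q₀ M x = h3c_u S q₀ M ℓ := by
  apply Units.ext
  by_cases h : (ℓ : ℕ) = 𝕡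
  · rw [h, h3c_u_self, h3c_chi_coe]
    have h1 : h3c_unitPart 𝕡 x = 1 := by
      apply Subtype.ext
      rw [h3c_unitPart_coe, hx, h, Padic.valuation_p]
      have hp0 : ((𝕡 : ℕ) : ℚ_[𝕡]) ≠ 0 := by exact_mod_cast (q₀ : Nat.Primes).2.ne_zero
      rw [zpow_neg, zpow_one, mul_inv_cancel₀ hp0]
      rfl
    rw [h1, map_one]
    rfl
  · have hc : Nat.Coprime (ℓ : ℕ) 𝕡 := (Nat.coprime_primes ℓ.2 (q₀ : Nat.Primes).2).mpr h
    rw [h3c_chi_natCast S q₀ M ℓ hc x hx, h3c_u_coe S q₀ M ℓ hc]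

theorem h3c_psiI_prime (ℓ : Nat.Primes) :
    h3c_psiI S q₀ M (diagS S ℚ (h3c_primeUnit ℓ)) =
      h3c_u S q₀ M ℓ * (open Classical in if ℓ ∈ S then (h3c_u S q₀ M ℓ)⁻¹ else 1) := by
  classical
  rw [h3c_psiI_apply]
  congr 1
  · apply h3c_chi_prime
    rw [h3c_compU_coe]
    show h3c_comp S q₀ (diagRing S ℚ ((ℓ : ℕ) : ℚ)) = _
    rw [h3c_comp_diag]
    simp
  · have hf : ∀ q : S, h3c_valFactor S q₀ M q (diagS S ℚ (h3c_primeUnit ℓ)) =
        if (q : Nat.Primes) = ℓ then (h3c_u S q₀ M ℓ)⁻¹ else 1 := by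
      intro q
      rw [h3c_valFactor_apply]
      have h1 : h3c_comp S q ((diagS S ℚ (h3c_primeUnit ℓ) : (KS S ℚ)ˣ) : KS S ℚ) =
          ((ℓ : ℕ) : ℚ_[((q : Nat.Primes) : ℕ)]) := by
        show h3c_comp S q (diagRing S ℚ ((ℓ : ℕ) : ℚ)) = _
        rw [h3c_comp_diag]
        simp
      rw [h1, h3c_valuation_prime]
      by_cases h : (q : Nat.Primes) = ℓ
      · rw [if_pos h, if_pos (congrArg Subtype.val h), zpow_one, h]
      · rw [if_neg h, if_neg (fun h' => h (Subtype.ext h')), zpow_zero]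
    rw [Finset.prod_congr rfl (fun q _ => hf q)]
    by_cases hℓ : ℓ ∈ S
    · rw [if_pos hℓ]
      rw [Finset.prod_eq_single (⟨ℓ, hℓ⟩ : S)]
      · rw [if_pos rfl]
      · intro q _ hq
        rw [if_neg]
        intro h
        exact hq (Subtype.ext h)
      · intro h
        exact absurd (Finset.mem_univ _) h
    · rw [if_neg hℓ]
      apply Finset.prod_eq_one
      intro q _
      rw [if_neg]
      intro h
      exact hℓ (h ▸ q.2)

theorem h3c_div_prime (ℓ : Nat.Primes) :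
    divS S ℚ (Additive.ofMul (h3c_primeUnit ℓ)) =
      (open Classical in if h : ℓ ∈ S then 0 else Finsupp.single (h3c_mkPrime S ℓ h) 1) := by
  classical
  ext P
  rw [divS_apply]
  have h1 : (((Additive.toMul (Additive.ofMul (h3c_primeUnit ℓ)) : ℚˣ)) : ℚ) = ((ℓ : ℕ) : ℚ) := rfl
  rw [h1, h3c_ordP_prime S P ℓ ℓ.2]
  by_cases hℓ : ℓ ∈ S
  · rw [dif_pos hℓ, if_neg (h3c_gen_notMem S P ℓ hℓ)]
    rfl
  · rw [dif_neg hℓ, Finsupp.single_apply]
    by_cases h : h3c_gen S P = ℓ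
    · rw [if_pos h, if_pos]
      apply h3c_gen_injective S
      rw [h3c_gen_mkPrime, h]
    · rw [if_neg h, if_neg]
      intro h'
      apply h
      rw [← h', h3c_gen_mkPrime]

theorem h3c_psi_prime (ℓ : Nat.Primes) :
    h3c_psi S q₀ M (princHom S ℚ (Additive.ofMul (h3c_primeUnit ℓ))) = 0 := by
  classical
  rw [h3c_psi_apply]
  have h1 : (princHom S ℚ (Additive.ofMul (h3c_primeUnit ℓ))).1 =
      Additive.ofMul (diagS S ℚ (h3c_primeUnit ℓ)) := rfl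
  have h2 : (princHom S ℚ (Additive.ofMul (h3c_primeUnit ℓ))).2 =
      divS S ℚ (Additive.ofMul (h3c_primeUnit ℓ)) := rfl
  rw [h1, h2, toMul_ofMul, h3c_psiI_prime, h3c_div_prime]
  by_cases hℓ : ℓ ∈ S
  · rw [if_pos hℓ, dif_pos hℓ, map_zero, add_zero, mul_inv_cancel]
    rfl
  · rw [if_neg hℓ, dif_neg hℓ, mul_one, h3c_psiD_single, one_smul, h3c_gen_mkPrime,
      ← ofMul_mul, mul_inv_cancel]
    rfl

/-- a homomorphism on `ℚˣ` killing the primes is killed by `2` -/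
theorem h3c_rat_gen {G : Type} [AddCommGroup G] (θ : Additive ℚˣ →+ G)
    (h : ∀ ℓ : Nat.Primes, θ (Additive.ofMul (h3c_primeUnit ℓ)) = 0) (a : ℚˣ) :
    2 • θ (Additive.ofMul a) = 0 := by
  have hnat : ∀ n : ℕ, ∀ hn : (n : ℚ) ≠ 0, θ (Additive.ofMul (Units.mk0 (n : ℚ) hn)) = 0 := by
    intro n
    induction n using Nat.recOnMul with
    | zero => intro hn; exact absurd (by simp) hn
    | one =>
      intro hn
      have : Units.mk0 ((1 : ℕ) : ℚ) hn = 1 := by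
        apply Units.ext
        simp
      rw [this]
      exact map_zero θ
    | prime p hp =>
      intro hn
      have : Units.mk0 ((p : ℕ) : ℚ) hn = h3c_primeUnit ⟨p, hp⟩ := Units.ext rfl
      rw [this]
      exact h ⟨p, hp⟩
    | mul a b ha hb =>
      intro hn
      have ha0 : (a : ℚ) ≠ 0 := by
        intro h0
        apply hn
        push_cast
        rw [h0, zero_mul]
      have hb0 : (b : ℚ) ≠ 0 := by
        intro h0
        apply hn
        push_cast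
        rw [h0, mul_zero]
      have : Units.mk0 ((a * b : ℕ) : ℚ) hn = Units.mk0 (a : ℚ) ha0 * Units.mk0 (b : ℚ) hb0 := by
        apply Units.ext
        simp
      rw [this, ofMul_mul, map_add, ha ha0, hb hb0, add_zero]
  have hd0 : ((a : ℚ).den : ℚ) ≠ 0 := by exact_mod_cast (a : ℚ).den_ne_zero
  have hn0 : (((a : ℚ).num.natAbs : ℕ) : ℚ) ≠ 0 := by
    have : (a : ℚ).num ≠ 0 := Rat.num_ne_zero.mpr a.ne_zero
    exact_mod_cast Int.natAbs_ne_zero.mpr this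
  have key : a ^ 2 * (Units.mk0 ((a : ℚ).den : ℚ) hd0) ^ 2 =
      (Units.mk0 (((a : ℚ).num.natAbs : ℕ) : ℚ) hn0) ^ 2 := by
    apply Units.ext
    simp only [Units.val_mul, Units.val_pow_eq_pow_val, Units.val_mk0]
    have h1 : (a : ℚ) * ((a : ℚ).den : ℚ) = ((a : ℚ).num : ℚ) := Rat.mul_den_eq_num (a : ℚ)
    have h2 : ((((a : ℚ).num.natAbs : ℕ) : ℚ)) ^ 2 = (((a : ℚ).num : ℚ)) ^ 2 := by
      have := Int.natAbs_sq (a : ℚ).num
      have h3 : ((((a : ℚ).num.natAbs : ℕ) : ℤ) : ℚ) ^ 2 = (((a : ℚ).num : ℚ)) ^ 2 := by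
        exact_mod_cast congrArg (fun z : ℤ => (z : ℚ)) this
      simp
    rw [h2, ← h1]
    ring
  have key2 := congrArg (fun u : ℚˣ => θ (Additive.ofMul u)) key
  simp only [ofMul_mul, ofMul_pow, map_add, map_nsmul] at key2
  rw [hnat _ hd0, hnat _ hn0, smul_zero, add_zero] at key2
  exact key2

/-- `2 ψ(princ a) = 0` -/
theorem h3c_psi_princ (z : AmbS S ℚ) (hz : z ∈ princS S ℚ) : 2 • h3c_psi S q₀ M z = 0 := by
  obtain ⟨a, rfl⟩ := (mem_princS_iff S ℚ z).mp hz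
  exact h3c_rat_gen ((h3c_psi S q₀ M).comp (princHom S ℚ)) (h3c_psi_prime S q₀ M)
    (Additive.toMul a)

end princ

end H3C
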