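/-
W2-C (S55) block C-finite, FC slice CYCLO (helper3), part A3/B: `ψ(c₀) = 1 + p`, and `ψ` is trivial
on the ideles of `ℚ` which are `≡ 1 mod p^{M+1}` units.
-/
import Mathlib
import Fermat.Agent.CFT2.C.CycloPsi2_helper3

set_option autoImplicit false
set_option linter.style.haveILetI false
set_option linter.unusedSectionVars false
set_option linter.unusedVariables false

noncomputable section

namespace H3C

open NumberField TensorProduct H17C IsDedekindDomain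

section c0

variable (S : Finset Nat.Primes) (q₀ : S) (M : ℕ)

local notation "𝕡" => ((q₀ : Nat.Primes) : ℕ)

theorem h3c_idelP_apply (q : S) :
    (((idelP S 𝕡 : (QS S)ˣ) : QS S) q) =
      if ((q : Nat.Primes) : ℕ) = 𝕡 then ((1 + 𝕡 : ℕ) : ℚ_[((q : Nat.Primes) : ℕ)]) else 1 := by
  classical
  unfold idelP
  show ((if ((q : Nat.Primes) : ℕ) = 𝕡 then
      Units.mk0 (((1 + 𝕡 : ℕ) : ℚ_[((q : Nat.Primes) : ℕ)])) _ else 1 :
      ℚ_[((q : Nat.Primes) : ℕ)]ˣ) : ℚ_[((q : Nat.Primes) : ℕ)]) = _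
  split_ifs <;> rfl

theorem h3c_valuation_one_add (q : S) :
    (((idelP S 𝕡 : (QS S)ˣ) : QS S) q).valuation = 0 := by
  rw [h3c_idelP_apply]
  by_cases h : ((q : Nat.Primes) : ℕ) = 𝕡
  · rw [if_pos h, Padic.valuation_natCast]
    have : padicValNat ((q : Nat.Primes) : ℕ) (1 + 𝕡) = 0 := by
      apply padicValNat.eq_zero_of_not_dvd
      rw [h]
      intro hd
      have h1 : 𝕡 ∣ 1 := (Nat.dvd_add_left (dvd_refl _)).mp hd
      exact (q₀ : Nat.Primes).2.one_lt.ne' (Nat.dvd_one.mp h1)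
    rw [this]
    rfl
  · rw [if_neg h, Padic.valuation_one]

/-- `ψ(c₀) = 1 + p` -/
theorem h3c_psi_c0 :
    ((Additive.toMul (h3c_psi S q₀ M (Additive.ofMul (locUnit S ℚ (idelP S 𝕡)), 0)) :
      (ZMod (𝕡 ^ (M + 1)))ˣ) : ZMod (𝕡 ^ (M + 1))) = 1 + (𝕡 : ZMod (𝕡 ^ (M + 1))) := by
  rw [h3c_psi_apply, map_zero, add_zero, toMul_ofMul, toMul_ofMul, h3c_psiI_apply]
  have hcomp : ∀ q : S, h3c_comp S q ((locUnit S ℚ (idelP S 𝕡) : (KS S ℚ)ˣ) : KS S ℚ) =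
      ((idelP S 𝕡 : (QS S)ˣ) : QS S) q := by
    intro q
    show h3c_comp S q (locRing S ℚ ((idelP S 𝕡 : (QS S)ˣ) : QS S)) = _
    rw [h3c_comp_loc]
  have h1 : ∏ q : S, h3c_valFactor S q₀ M q (locUnit S ℚ (idelP S 𝕡)) = 1 := by
    apply Finset.prod_eq_one
    intro q _
    rw [h3c_valFactor_apply, hcomp, h3c_valuation_one_add, zpow_zero]
  rw [h1, mul_one]
  have hc : Nat.Coprime (1 + 𝕡) 𝕡 := by
    rw [Nat.coprime_add_self_left]
    exact Nat.coprime_one_left _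
  rw [h3c_chi_natCast S q₀ M (1 + 𝕡) hc]
  · push_cast
    rfl
  · rw [h3c_compU_coe, hcomp, h3c_idelP_apply, if_pos rfl]

/-- `k ψ(c₀) = 0 ⇒ p^M ∣ k`, up to the factor `2(p-1)` -/
theorem h3c_dvd_of_psi_c0 (hp2 : 𝕡 ≠ 2) (k : ℕ)
    (h : (2 * (𝕡 - 1) * k) • h3c_psi S q₀ M (Additive.ofMul (locUnit S ℚ (idelP S 𝕡)), 0) = 0) :
    𝕡 ^ M ∣ k := by
  have hp : Nat.Prime 𝕡 := (q₀ : Nat.Primes).2
  have h1 : (Additive.toMul (h3c_psi S q₀ M (Additive.ofMul (locUnit S ℚ (idelP S 𝕡)), 0)) :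
      (ZMod (𝕡 ^ (M + 1)))ˣ) ^ (2 * (𝕡 - 1) * k) = 1 := by
    have := congrArg Additive.toMul h
    rw [toMul_nsmul, toMul_zero] at this
    exact this
  have h2 : (1 + (𝕡 : ZMod (𝕡 ^ (M + 1)))) ^ (2 * (𝕡 - 1) * k) = 1 := by
    have := congrArg (fun u : (ZMod (𝕡 ^ (M + 1)))ˣ => (u : ZMod (𝕡 ^ (M + 1)))) h1
    simp only [Units.val_pow_eq_pow_val, Units.val_one] at this
    rw [h3c_psi_c0] at this
    exact this
  have h3 : 𝕡 ^ M ∣ 2 * (𝕡 - 1) * k := by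
    rw [← ZMod.orderOf_one_add_prime hp hp2 M]
    exact orderOf_dvd_of_pow_eq_one h2
  have hcop : Nat.Coprime (𝕡 ^ M) (2 * (𝕡 - 1)) := by
    apply Nat.Coprime.pow_left
    apply Nat.Coprime.mul_right
    · rw [Nat.coprime_primes hp Nat.prime_two]
      exact hp2
    · exact Nat.coprime_of_lt_prime (by have := hp.two_le; omega) (by have := hp.two_le; omega) hp
  exact hcop.dvd_of_dvd_mul_left h3

end c0

end H3C
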