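/-
W2-C (S55) block C-finite, FC slice CYCLO (helper3), part B: `Λ_F ∩ ℚ_S = ℤ_S` (integrality), and
`ψ` is trivial on the ideles of `ℚ` whose image in `I_F` lies in `1 + p^{M+1} Λ_F`.
-/
import Mathlib
import Fermat.Agent.CFT2.C.CycloDesc_helper3
import Fermat.Agent.CFT2.C.CycloPsi3_helper3

set_option autoImplicit false
set_option linter.style.haveILetI false
set_option linter.unusedSectionVars false
set_option linter.unusedVariables false

noncomputable section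

namespace H3C

open NumberField TensorProduct H17C IsDedekindDomain

/-! ### integral elements for ring homomorphisms -/

theorem h3c_isIntegralElem_of_injective {R A B : Type} [CommRing R] [CommRing A] [CommRing B]
    (f : R →+* A) (j : A →+* B) (hj : Function.Injective j) (x : A)
    (h : (j.comp f).IsIntegralElem (j x)) : f.IsIntegralElem x := by
  obtain ⟨P, hP, h0⟩ := h
  refine ⟨P, hP, hj ?_⟩
  rw [map_zero, Polynomial.hom_eval₂]
  exact h0

theorem h3c_isIntegralElem_map {R A B : Type} [CommRing R] [CommRing A] [CommRing B]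
    (f : R →+* A) (g : A →+* B) (x : A) (h : f.IsIntegralElem x) :
    (g.comp f).IsIntegralElem (g x) := by
  obtain ⟨P, hP, h0⟩ := h
  refine ⟨P, hP, ?_⟩
  rw [← Polynomial.hom_eval₂, h0, map_zero]

theorem h3c_isIntegralElem_of_comp {R R' A : Type} [CommRing R] [CommRing R'] [CommRing A]
    (f' : R →+* R') (g : R' →+* A) (x : A) (h : (g.comp f').IsIntegralElem x) :
    g.IsIntegralElem x := by
  obtain ⟨P, hP, h0⟩ := h
  exact ⟨P.map f', hP.map f', by rw [Polynomial.eval₂_map]; exact h0⟩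

section lat

variable (S : Finset Nat.Primes) (F : Type) [Field F] [NumberField F]

/-- `ℤ_S → F_S` -/
def h3c_ψZ : ZS S →+* KS S F :=
  ((locRing S F : QS S →ₐ[ℚ] KS S F) : QS S →+* KS S F).comp (zsToQs S)

theorem h3c_ψZ_apply (z : ZS S) : h3c_ψZ S F z = locRing S F (zsToQs S z) := rfl

/-- the elements of `Λ_F` are integral over `ℤ_S` -/
theorem h3c_lat_integral (x : KS S F) (hx : x ∈ latS S F) : (h3c_ψZ S F).IsIntegralElem x := by
  unfold latS at hx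
  induction hx using Subring.closure_induction with
  | mem x hx =>
    rcases hx with ⟨a, rfl⟩ | ⟨z, rfl⟩
    · have ha : IsIntegral ℤ (a : F) := a.2
      obtain ⟨P, hP, h0⟩ := ha
      refine ⟨P.map (Int.castRingHom (ZS S)), hP.map _, ?_⟩
      rw [Polynomial.eval₂_map]
      have e : (h3c_ψZ S F).comp (Int.castRingHom (ZS S)) =
          ((diagRing S F : F →ₐ[ℚ] KS S F) : F →+* KS S F).comp (algebraMap ℤ F) :=
        RingHom.ext_int _ _
      rw [e]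
      have h := Polynomial.hom_eval₂ P (algebraMap ℤ F)
        ((diagRing S F : F →ₐ[ℚ] KS S F) : F →+* KS S F) (a : F)
      rw [h0, map_zero] at h
      exact h.symm
    · exact RingHom.isIntegralElem_map (h3c_ψZ S F)
  | zero => exact RingHom.isIntegralElem_zero _
  | one => exact RingHom.isIntegralElem_one _
  | add x y _ _ hx hy => exact RingHom.IsIntegralElem.add _ hx hy
  | neg x _ hx => exact RingHom.IsIntegralElem.neg _ hx
  | mul x y _ _ hx hy => exact RingHom.IsIntegralElem.mul _ hx hy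

variable [IsGalois ℚ F]

theorem h3c_lid_apply (w : KS S ℚ) (q : S) : (h3c_lid S w) q = h3c_comp S q w := rfl

/-- **`Λ_F ∩ ℚ_S = ℤ_S`** -/
theorem h3c_lat_inter (w : KS S ℚ) (h : ksBase S ℚ F w ∈ latS S F) :
    ∃ z : ZS S, h3c_lid S w = zsToQs S z := by
  have h1 := h3c_lat_integral S F _ h
  have e : h3c_ψZ S F = ((ksBase S ℚ F : KS S ℚ →ₐ[ℚ] KS S F) : KS S ℚ →+* KS S F).comp
      (h3c_ψZ S ℚ) := by
    refine RingHom.ext fun z => ?_
    show locRing S F (zsToQs S z) = ksBase S ℚ F (locRing S ℚ (zsToQs S z))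
    rw [locRing_apply, locRing_apply, ksBase_tmul, map_one]
  rw [e] at h1
  have h2 := h3c_isIntegralElem_of_injective _ _ (h3c_ksBase_rat_injective S F) w h1
  have h3 : ∀ q : S, IsIntegral ℤ_[((q : Nat.Primes) : ℕ)] (h3c_comp S q w) := by
    intro q
    have h4 := h3c_isIntegralElem_map (h3c_ψZ S ℚ) (h3c_comp S q) w h2
    have e2 : (h3c_comp S q).comp (h3c_ψZ S ℚ) =
        (algebraMap ℤ_[((q : Nat.Primes) : ℕ)] ℚ_[((q : Nat.Primes) : ℕ)]).comp
          (Pi.evalRingHom (fun q : S => ℤ_[((q : Nat.Primes) : ℕ)]) q) := by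
      refine RingHom.ext fun z => ?_
      show h3c_comp S q (locRing S ℚ (zsToQs S z)) = _
      rw [h3c_comp_loc]
      rfl
    rw [e2] at h4
    exact h3c_isIntegralElem_of_comp _ _ _ h4
  have h5 : ∀ q : S, ∃ zq : ℤ_[((q : Nat.Primes) : ℕ)],
      algebraMap ℤ_[((q : Nat.Primes) : ℕ)] ℚ_[((q : Nat.Primes) : ℕ)] zq = h3c_comp S q w :=
    fun q => IsIntegrallyClosed.isIntegral_iff.mp (h3 q)
  choose z hz using h5
  refine ⟨z, ?_⟩
  funext q
  rw [h3c_lid_apply, ← hz q]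
  rfl

end lat

/-! ### `ψ` on the congruence ideles -/

section cong

variable (S : Finset Nat.Primes) (q₀ : S) (M : ℕ)
  (F : Type) [Field F] [NumberField F] [IsGalois ℚ F]

local notation "𝕡" => ((q₀ : Nat.Primes) : ℕ)

theorem h3c_valuation_eq_zero_of_norm (q : ℕ) [hq : Fact q.Prime] (x : ℚ_[q]) (hx : ‖x‖ = 1) :
    x.valuation = 0 := by
  have hx0 : x ≠ 0 := by
    intro h
    rw [h, norm_zero] at hx
    exact zero_ne_one hx
  have h1 := Padic.norm_eq_zpow_neg_valuation hx0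
  rw [hx] at h1
  have hq1 : (1 : ℝ) < (q : ℝ) := by exact_mod_cast hq.out.one_lt
  have h2 : (q : ℝ) ^ (-x.valuation) = (q : ℝ) ^ (0 : ℤ) := by rw [← h1, zpow_zero]
  have h3 := zpow_right_injective₀ (by linarith : (0 : ℝ) < (q : ℝ)) hq1.ne' h2
  linarith

/-- the components of an idele of `ℚ` which is a unit of `Λ_F` are units of `ℤ_q` -/
theorem h3c_comp_unit (y : (KS S ℚ)ˣ) (h : ideleBase S ℚ F y ∈ unitIdele S F) (q : S) :
    ∃ z : ℤ_[((q : Nat.Primes) : ℕ)], (z : ℚ_[((q : Nat.Primes) : ℕ)]) = h3c_comp S q (y : KS S ℚ) ∧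
      (h3c_comp S q (y : KS S ℚ)).valuation = 0 := by
  obtain ⟨hy1, hy2⟩ := h
  have hy1' : ksBase S ℚ F (y : KS S ℚ) ∈ latS S F := hy1
  have hy2' : ksBase S ℚ F ((y⁻¹ : (KS S ℚ)ˣ) : KS S ℚ) ∈ latS S F := by
    have e : ((ideleBase S ℚ F y)⁻¹ : (KS S F)ˣ) = ideleBase S ℚ F y⁻¹ := (map_inv _ _).symm
    rw [e] at hy2
    exact hy2
  obtain ⟨z, hz⟩ := h3c_lat_inter S F _ hy1'
  obtain ⟨z', hz'⟩ := h3c_lat_inter S F _ hy2'
  have e1 : h3c_comp S q (y : KS S ℚ) = (z q : ℚ_[((q : Nat.Primes) : ℕ)]) := by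
    rw [← h3c_lid_apply, hz]
    rfl
  have e2 : h3c_comp S q ((y⁻¹ : (KS S ℚ)ˣ) : KS S ℚ) = (z' q : ℚ_[((q : Nat.Primes) : ℕ)]) := by
    rw [← h3c_lid_apply, hz']
    rfl
  have e3 : h3c_comp S q (y : KS S ℚ) * h3c_comp S q ((y⁻¹ : (KS S ℚ)ˣ) : KS S ℚ) = 1 := by
    rw [← map_mul, Units.mul_inv, map_one]
  refine ⟨z q, e1.symm, ?_⟩
  apply h3c_valuation_eq_zero_of_norm
  have n1 : ‖(z q : ℚ_[((q : Nat.Primes) : ℕ)])‖ ≤ 1 := PadicInt.norm_le_one (z q)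
  have n2 : ‖(z' q : ℚ_[((q : Nat.Primes) : ℕ)])‖ ≤ 1 := PadicInt.norm_le_one (z' q)
  have n3 : ‖(z q : ℚ_[((q : Nat.Primes) : ℕ)])‖ * ‖(z' q : ℚ_[((q : Nat.Primes) : ℕ)])‖ = 1 := by
    rw [← norm_mul, ← e1, ← e2, e3, norm_one]
  rw [e1]
  apply le_antisymm n1
  by_contra hlt
  rw [not_le] at hlt
  have : ‖(z q : ℚ_[((q : Nat.Primes) : ℕ)])‖ * ‖(z' q : ℚ_[((q : Nat.Primes) : ℕ)])‖ < 1 := by
    calc ‖(z q : ℚ_[((q : Nat.Primes) : ℕ)])‖ * ‖(z' q : ℚ_[((q : Nat.Primes) : ℕ)])‖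
        ≤ ‖(z q : ℚ_[((q : Nat.Primes) : ℕ)])‖ * 1 :=
          mul_le_mul_of_nonneg_left n2 (norm_nonneg _)
      _ < 1 := by rw [mul_one]; exact hlt
  linarith

/-- **`ψ` is trivial on `ℚ_Sˣ ∩ (1 + p^{M+1} Λ_F)`** -/
theorem h3c_psiI_cong (y : (KS S ℚ)ˣ)
    (h : ideleBase S ℚ F y ∈ congIdele S F (𝕡 ^ (M + 1))) : h3c_psiI S q₀ M y = 1 := by
  obtain ⟨hu, t, ht, hyt⟩ := h
  have hyt' : ksBase S ℚ F (y : KS S ℚ) = 1 + ((𝕡 ^ (M + 1) : ℕ) : KS S F) * t := hyt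
  rw [h3c_psiI_apply]
  have h1 : ∏ q : S, h3c_valFactor S q₀ M q y = 1 := by
    apply Finset.prod_eq_one
    intro q _
    obtain ⟨z, hz, hv⟩ := h3c_comp_unit S F y hu q
    rw [h3c_valFactor_apply, hv, zpow_zero]
  rw [h1, mul_one]
  -- the `p`-component
  obtain ⟨z, hz, hv⟩ := h3c_comp_unit S F y hu q₀
  have hn0 : ((𝕡 ^ (M + 1) : ℕ) : ℚ) ≠ 0 := by
    exact_mod_cast pow_ne_zero _ (q₀ : Nat.Primes).2.ne_zero
  set t₀ : KS S ℚ := (((𝕡 ^ (M + 1) : ℕ) : ℚ)⁻¹) • ((y : KS S ℚ) - 1) with ht₀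
  have hcast : ∀ x : KS S F, ((𝕡 ^ (M + 1) : ℕ) : KS S F) * x = ((𝕡 ^ (M + 1) : ℕ) : ℚ) • x := by
    intro x
    rw [Algebra.smul_def, map_natCast]
  have hcast' : ∀ x : KS S ℚ, ((𝕡 ^ (M + 1) : ℕ) : KS S ℚ) * x = ((𝕡 ^ (M + 1) : ℕ) : ℚ) • x := by
    intro x
    rw [Algebra.smul_def, map_natCast]
  have hbt : ksBase S ℚ F t₀ = t := by
    rw [ht₀, map_smul, map_sub, map_one, hyt', add_sub_cancel_left, hcast, smul_smul,
      inv_mul_cancel₀ hn0, one_smul]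
  have ht' : ksBase S ℚ F t₀ ∈ latS S F := by rw [hbt]; exact ht
  obtain ⟨s, hs⟩ := h3c_lat_inter S F _ ht'
  have hy_eq : (y : KS S ℚ) = 1 + ((𝕡 ^ (M + 1) : ℕ) : KS S ℚ) * t₀ := by
    rw [hcast', ht₀, smul_smul, mul_inv_cancel₀ hn0, one_smul]
    ring
  have hc : h3c_comp S q₀ (y : KS S ℚ) = 1 + ((𝕡 ^ (M + 1) : ℕ) : ℚ_[𝕡]) * (s q₀ : ℚ_[𝕡]) := by
    conv_lhs => rw [hy_eq]
    rw [map_add, map_one, map_mul, map_natCast, ← h3c_lid_apply, hs]
    rfl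
  have hzs : z = 1 + ((𝕡 ^ (M + 1) : ℕ) : ℤ_[𝕡]) * s q₀ := by
    apply Subtype.ext
    rw [hz, hc]
    push_cast
    rfl
  apply Units.ext
  rw [h3c_chi_coe]
  have hup : h3c_unitPart 𝕡 (h3c_compU S q₀ y) = z := by
    apply Subtype.ext
    rw [h3c_unitPart_of_valuation_eq_zero _ _ (by rw [h3c_compU_coe]; exact hv), h3c_compU_coe, hz]
  rw [hup, hzs, map_add, map_one, map_mul, map_natCast, ZMod.natCast_self, zero_mul, add_zero]
  rfl

end cong

end H3C
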