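/-
W2-C (S55) block C-finite, FC slice CYCLO (helper3), part C: the Frobenius in the `p^M`-layer `F` of
`ℚ(ζ_{p^{M+1}})`: for a prime `Q` of `F` over `r ≠ p`:  `r^{|Stab(Q)| (p-1)} ≡ 1 mod p^{M+1}`
(Mathlib: `IsCyclotomicExtension.Rat.galEquivZMod_stabilizer`).
-/
import Mathlib
import Fermat.Agent.CFT2.C.CycloPsi3_helper3

set_option autoImplicit false
set_option linter.style.haveILetI false
set_option linter.unusedSectionVars false
set_option linter.unusedVariables false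

noncomputable section

namespace H3C

open NumberField IsDedekindDomain H17C
open scoped Pointwise

section frob

variable (p : ℕ) [hp : Fact p.Prime] (M : ℕ) (F : Type) [Field F] [NumberField F] [IsGalois ℚ F]
  (K : Type) [Field K] [NumberField K] [hK : IsCyclotomicExtension {p ^ (M + 1)} ℚ K]
  [Algebra F K] [IsScalarTower ℚ F K]

/-- compatibility of restriction with the action on integers -/
theorem h3c_restrict_smul (σ : K ≃ₐ[ℚ] K) (x : 𝓞 F) :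
    algebraMap (𝓞 F) (𝓞 K) (AlgEquiv.restrictNormalHom F σ • x) = σ • algebraMap (𝓞 F) (𝓞 K) x := by
  apply RingOfIntegers.ext
  show algebraMap F K ((AlgEquiv.restrictNormalHom F σ) (x : F)) = σ (algebraMap F K (x : F))
  exact AlgEquiv.restrictNormal_commutes σ F (x : F)

/-- the restriction of an element of the decomposition group of `𝔔` stabilises `𝔔 ∩ 𝓞_F` -/
theorem h3c_restrict_stab (σ : K ≃ₐ[ℚ] K) (𝔔 : Ideal (𝓞 K)) (hσ : σ • 𝔔 = 𝔔) :
    AlgEquiv.restrictNormalHom F σ • (𝔔.comap (algebraMap (𝓞 F) (𝓞 K))) =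
      𝔔.comap (algebraMap (𝓞 F) (𝓞 K)) := by
  have hσ' : σ⁻¹ • 𝔔 = 𝔔 := by
    conv_lhs => rw [← hσ]
    rw [inv_smul_smul]
  ext x
  rw [Ideal.mem_pointwise_smul_iff_inv_smul_mem, Ideal.mem_comap, Ideal.mem_comap, ← map_inv,
    h3c_restrict_smul, ← Ideal.mem_pointwise_smul_iff_inv_smul_mem, hσ]

/-- the kernel of the restriction `Gal(K/ℚ) → Gal(F/ℚ)` has order `p - 1` -/
theorem h3c_card_ker (hF : Module.finrank ℚ F = p ^ M) :
    Nat.card (AlgEquiv.restrictNormalHom (F := ℚ) (K₁ := K) F).ker = p - 1 := by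
  haveI : NeZero (p ^ (M + 1)) := ⟨pow_ne_zero _ hp.out.ne_zero⟩
  haveI : IsGalois ℚ K := IsCyclotomicExtension.isGalois {p ^ (M + 1)} ℚ K
  have h1 := Subgroup.card_mul_index (AlgEquiv.restrictNormalHom (F := ℚ) (K₁ := K) F).ker
  rw [Subgroup.index_ker] at h1
  have hsurj : Function.Surjective (AlgEquiv.restrictNormalHom (F := ℚ) (K₁ := K) F) :=
    AlgEquiv.restrictNormalHom_surjective K
  have h2 : Nat.card (AlgEquiv.restrictNormalHom (F := ℚ) (K₁ := K) F).range = p ^ M := by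
    rw [MonoidHom.range_eq_top.mpr hsurj, Subgroup.card_top, IsGalois.card_aut_eq_finrank, hF]
  have h3 : Nat.card (K ≃ₐ[ℚ] K) = p ^ M * (p - 1) := by
    rw [IsGalois.card_aut_eq_finrank,
      IsCyclotomicExtension.finrank (n := p ^ (M + 1)) K
        (Polynomial.cyclotomic.irreducible_rat (NeZero.pos _)),
      Nat.totient_prime_pow_succ hp.out]
  rw [h2, h3, mul_comm] at h1
  exact Nat.eq_of_mul_eq_mul_left (pow_pos hp.out.pos M) h1

include K hK in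
theorem h3c_frob_core (hF : Module.finrank ℚ F = p ^ M)
    (Q : Ideal (𝓞 F)) [Q.IsPrime] (hQ0 : Q ≠ ⊥) (r : ℕ) (hr : r.Prime)
    (hrQ : ((r : ℤ) : 𝓞 F) ∈ Q) (hc : r.Coprime (p ^ (M + 1))) :
    ∃ τ : F ≃ₐ[ℚ] F, τ • Q = Q ∧
      ∀ n : ℕ, τ ^ n = 1 → (ZMod.unitOfCoprime r hc) ^ (n * (p - 1)) = 1 := by
  classical
  haveI : NeZero (p ^ (M + 1)) := ⟨pow_ne_zero _ hp.out.ne_zero⟩
  haveI : Fact r.Prime := ⟨hr⟩
  obtain ⟨𝔔, -, h𝔔p, h𝔔c⟩ := Ideal.exists_ideal_over_prime_of_isIntegral Q (⊥ : Ideal (𝓞 K))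
    (by
      rw [Ideal.comap_bot_of_injective _ (FaithfulSMul.algebraMap_injective (𝓞 F) (𝓞 K))]
      exact bot_le)
  haveI := h𝔔p
  have h𝔔0 : 𝔔 ≠ ⊥ := by
    intro h
    apply hQ0
    rw [← h𝔔c, h, Ideal.comap_bot_of_injective _ (FaithfulSMul.algebraMap_injective (𝓞 F) (𝓞 K))]
  haveI h𝔔max : 𝔔.IsMaximal := Ideal.IsPrime.isMaximal h𝔔p h𝔔0
  have hr𝔔 : ((r : ℤ) : 𝓞 K) ∈ 𝔔 := by
    have : algebraMap (𝓞 F) (𝓞 K) ((r : ℤ) : 𝓞 F) ∈ 𝔔 := by
      rw [← Ideal.mem_comap, h𝔔c]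
      exact hrQ
    rwa [map_intCast] at this
  haveI : 𝔔.LiesOver (Ideal.span {(r : ℤ)}) := by
    constructor
    have hle : Ideal.span {(r : ℤ)} ≤ 𝔔.under ℤ := by
      rw [Ideal.span_le, Set.singleton_subset_iff]
      show (r : ℤ) ∈ Ideal.comap (algebraMap ℤ (𝓞 K)) 𝔔
      rw [Ideal.mem_comap, eq_intCast]
      exact hr𝔔
    exact (Int.ideal_span_isMaximal_of_prime r).eq_of_le Ideal.IsPrime.ne_top' hle
  have hstab := IsCyclotomicExtension.Rat.galEquivZMod_stabilizer (p ^ (M + 1)) K r 𝔔 hc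
  have hmem : ZMod.unitOfCoprime r hc ∈
      (IsCyclotomicExtension.Rat.galEquivZMod (p ^ (M + 1)) K).mapSubgroup
        (MulAction.stabilizer (K ≃ₐ[ℚ] K) 𝔔) := by
    rw [hstab]
    exact Subgroup.mem_zpowers _
  obtain ⟨σ, hσ, hσr⟩ := hmem
  refine ⟨AlgEquiv.restrictNormalHom F σ, ?_, ?_⟩
  · rw [← h𝔔c]
    exact h3c_restrict_stab F K σ 𝔔 (MulAction.mem_stabilizer_iff.mp hσ)
  · intro n hn
    have hker : σ ^ n ∈ (AlgEquiv.restrictNormalHom (F := ℚ) (K₁ := K) F).ker := by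
      rw [MonoidHom.mem_ker, map_pow]
      exact hn
    have h1 : (σ ^ n) ^ (p - 1) = 1 := by
      have h2 := pow_card_eq_one'
        (x := (⟨σ ^ n, hker⟩ : (AlgEquiv.restrictNormalHom (F := ℚ) (K₁ := K) F).ker))
      rw [h3c_card_ker p M F K hF] at h2
      exact congrArg Subtype.val h2
    have h3 : (IsCyclotomicExtension.Rat.galEquivZMod (p ^ (M + 1)) K) σ =
        ZMod.unitOfCoprime r hc := hσr
    rw [← h3, ← map_pow, pow_mul, h1, map_one]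

end frob

section frobS

variable (S : Finset Nat.Primes) (q₀ : S) (M : ℕ)
  (F : Type) [Field F] [NumberField F] [IsGalois ℚ F]

local notation "𝕡" => ((q₀ : Nat.Primes) : ℕ)

theorem h3c_gen_coprime (P : PrimesS S ℚ) : (h3c_gen S P).Coprime (𝕡 ^ (M + 1)) := by
  apply Nat.Coprime.pow_right
  rw [Nat.coprime_primes (h3c_gen_prime S P) (q₀ : Nat.Primes).2]
  exact h3c_gen_notMem S P q₀ q₀.2

theorem h3c_u_gen (P : PrimesS S ℚ) :
    h3c_u S q₀ M (h3c_gen S P) = ZMod.unitOfCoprime (h3c_gen S P) (h3c_gen_coprime S q₀ M P) := by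
  unfold h3c_u
  rw [dif_pos (h3c_gen_coprime S q₀ M P)]

/-- **Frobenius**: `r^{|Stab(Q)| (p-1)} = 1` in `(ℤ/p^{M+1})ˣ`, `r` the prime number under `Q` -/
theorem h3c_frob (hF : Module.finrank ℚ F = 𝕡 ^ M)
    (ι : F →ₐ[ℚ] CyclotomicField (𝕡 ^ (M + 1)) ℚ) (Q : PrimesS S F) :
    (h3c_u S q₀ M (h3c_gen S (PrimesS.under S ℚ F Q))) ^
      (Nat.card (MulAction.stabilizer (AutQ F) Q) * (𝕡 - 1)) = 1 := by
  haveI : NeZero (𝕡 ^ (M + 1)) := ⟨pow_ne_zero _ (q₀ : Nat.Primes).2.ne_zero⟩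
  haveI : NeZero (((𝕡 ^ (M + 1) : ℕ)) : ℚ) :=
    ⟨by exact_mod_cast pow_ne_zero _ (q₀ : Nat.Primes).2.ne_zero⟩
  haveI : IsCyclotomicExtension {𝕡 ^ (M + 1)} ℚ (CyclotomicField (𝕡 ^ (M + 1)) ℚ) :=
    CyclotomicField.isCyclotomicExtension _ _
  letI : Algebra F (CyclotomicField (𝕡 ^ (M + 1)) ℚ) := ι.toRingHom.toAlgebra
  haveI : IsScalarTower ℚ F (CyclotomicField (𝕡 ^ (M + 1)) ℚ) :=
    IsScalarTower.of_algebraMap_eq (fun x => (ι.commutes x).symm)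
  haveI : Q.1.IsPrime := Q.2.1
  have hrQ : (((h3c_gen S (PrimesS.under S ℚ F Q) : ℕ) : ℤ) : 𝓞 F) ∈ Q.1 := by
    have h1 : (((h3c_gen S (PrimesS.under S ℚ F Q) : ℕ) : ℤ) : 𝓞 ℚ) ∈ (PrimesS.under S ℚ F Q).1 :=
      (h3c_natCast_mem_iff S _ _).mpr (dvd_refl _)
    have h2 : (PrimesS.under S ℚ F Q).1 = Q.1.comap (algebraMap (𝓞 ℚ) (𝓞 F)) := rfl
    rw [h2, Ideal.mem_comap, map_intCast] at h1
    exact h1
  obtain ⟨τ, hτ, hτn⟩ := h3c_frob_core 𝕡 M F (CyclotomicField (𝕡 ^ (M + 1)) ℚ) hF Q.1 Q.2.2.1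
    (h3c_gen S (PrimesS.under S ℚ F Q)) (h3c_gen_prime S _) hrQ (h3c_gen_coprime S q₀ M _)
  rw [h3c_u_gen]
  apply hτn
  have hmem : τ ∈ MulAction.stabilizer (AutQ F) Q := by
    rw [MulAction.mem_stabilizer_iff]
    apply Subtype.ext
    rw [smul_primesS_coe]
    exact hτ
  have h2 := pow_card_eq_one' (x := (⟨τ, hmem⟩ : MulAction.stabilizer (AutQ F) Q))
  exact congrArg Subtype.val h2

end frobS

end H3C
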