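/-
W2-C (S55) block C-finite, FC slice CYCLO (helper3), part D2: `F ⊂ ℚ(ζ_{p^{M+1}})` is unramified
outside `p`; `ord_Q(x) = ord_{Q ∩ ℚ}(x)` for `x ∈ ℚ`; base change of principal elements; the norm of
divisors `Div_S(F) → Div_S(ℚ)`.
-/
import Mathlib
import Fermat.Agent.CFT2.C.CycloFrob_helper3
import Fermat.Agent.CFT2.C.CycloDesc_helper3

set_option autoImplicit false
set_option linter.style.haveILetI false
set_option linter.unusedSectionVars false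
set_option linter.unusedVariables false

noncomputable section

namespace H3C

open NumberField IsDedekindDomain H17C
open scoped Pointwise

section ram

variable (p : ℕ) [hp : Fact p.Prime] (M : ℕ) (F : Type) [Field F] [NumberField F] [IsGalois ℚ F]
  (K : Type) [Field K] [NumberField K] [hK : IsCyclotomicExtension {p ^ (M + 1)} ℚ K]
  [Algebra F K] [IsScalarTower ℚ F K]

include K hK in
/-- `F` is unramified over `ℤ` at the primes not above `p` -/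
theorem h3c_ramIdx_int (Q : Ideal (𝓞 F)) [Q.IsPrime] (hQ0 : Q ≠ ⊥) (r : ℕ) (hr : r.Prime)
    (hrQ : ((r : ℤ) : 𝓞 F) ∈ Q) (hrp : ¬ r ∣ p ^ (M + 1)) : Q.ramificationIdx ℤ = 1 := by
  classical
  haveI : NeZero (p ^ (M + 1)) := ⟨pow_ne_zero _ hp.out.ne_zero⟩
  haveI : Fact r.Prime := ⟨hr⟩
  obtain ⟨𝔔, -, h𝔔p, h𝔔c⟩ := Ideal.exists_ideal_over_prime_of_isIntegral Q (⊥ : Ideal (𝓞 K))
    (by
      rw [Ideal.comap_bot_of_injective _ (FaithfulSMul.algebraMap_injective (𝓞 F) (𝓞 K))]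
      exact bot_le)
  haveI := h𝔔p
  have h𝔔0 : 𝔔 ≠ ⊥ := by
    intro h
    apply hQ0
    rw [← h𝔔c, h, Ideal.comap_bot_of_injective _ (FaithfulSMul.algebraMap_injective (𝓞 F) (𝓞 K))]
  have hr𝔔 : ((r : ℤ) : 𝓞 K) ∈ 𝔔 := by
    have : algebraMap (𝓞 F) (𝓞 K) ((r : ℤ) : 𝓞 F) ∈ 𝔔 := by
      rw [← Ideal.mem_comap, h𝔔c]
      exact hrQ
    rwa [map_intCast] at this
  haveI : 𝔔.LiesOver (Ideal.span {(r : ℤ)}) := by
    constructor
    have hle : Ideal.span {(r : ℤ)} ≤ 𝔔.under ℤ := by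
      rw [Ideal.span_le, Set.singleton_subset_iff]
      show (r : ℤ) ∈ Ideal.comap (algebraMap ℤ (𝓞 K)) 𝔔
      rw [Ideal.mem_comap, eq_intCast]
      exact hr𝔔
    exact (Int.ideal_span_isMaximal_of_prime r).eq_of_le Ideal.IsPrime.ne_top' hle
  haveI : 𝔔.LiesOver Q := ⟨h𝔔c.symm⟩
  have h1 : 𝔔.ramificationIdx ℤ = 1 :=
    IsCyclotomicExtension.Rat.ramificationIdx_eq_of_not_dvd r K 𝔔 hrp
  have h2 : Q.ramificationIdx ℤ ∣ 𝔔.ramificationIdx ℤ := Ideal.ramificationIdx_below_dvd Q 𝔔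
  rw [h1] at h2
  exact Nat.dvd_one.mp h2

end ram

section ordS

variable (S : Finset Nat.Primes) (q₀ : S) (M : ℕ)
  (F : Type) [Field F] [NumberField F] [IsGalois ℚ F]

local notation "𝕡" => ((q₀ : Nat.Primes) : ℕ)

theorem h3c_gen_mem (Q : PrimesS S F) :
    (((h3c_gen S (PrimesS.under S ℚ F Q) : ℕ) : ℤ) : 𝓞 F) ∈ Q.1 := by
  have h1 : (((h3c_gen S (PrimesS.under S ℚ F Q) : ℕ) : ℤ) : 𝓞 ℚ) ∈ (PrimesS.under S ℚ F Q).1 :=
    (h3c_natCast_mem_iff S _ _).mpr (dvd_refl _)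
  have h2 : (PrimesS.under S ℚ F Q).1 = Q.1.comap (algebraMap (𝓞 ℚ) (𝓞 F)) := rfl
  rw [h2, Ideal.mem_comap, map_intCast] at h1
  exact h1

/-- `F/ℚ` is unramified at the primes outside `S` -/
theorem h3c_ramIdx_eq_one (ι : F →ₐ[ℚ] CyclotomicField (𝕡 ^ (M + 1)) ℚ) (Q : PrimesS S F) :
    Q.1.ramificationIdx (𝓞 ℚ) = 1 := by
  haveI : NeZero (𝕡 ^ (M + 1)) := ⟨pow_ne_zero _ (q₀ : Nat.Primes).2.ne_zero⟩
  haveI : NeZero (((𝕡 ^ (M + 1) : ℕ)) : ℚ) :=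
    ⟨by exact_mod_cast pow_ne_zero _ (q₀ : Nat.Primes).2.ne_zero⟩
  haveI : IsCyclotomicExtension {𝕡 ^ (M + 1)} ℚ (CyclotomicField (𝕡 ^ (M + 1)) ℚ) :=
    CyclotomicField.isCyclotomicExtension _ _
  letI : Algebra F (CyclotomicField (𝕡 ^ (M + 1)) ℚ) := ι.toRingHom.toAlgebra
  haveI : IsScalarTower ℚ F (CyclotomicField (𝕡 ^ (M + 1)) ℚ) :=
    IsScalarTower.of_algebraMap_eq (fun x => (ι.commutes x).symm)
  haveI : Q.1.IsPrime := Q.2.1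
  have hrp : ¬ h3c_gen S (PrimesS.under S ℚ F Q) ∣ 𝕡 ^ (M + 1) :=
    ((h3c_gen_prime S _).coprime_iff_not_dvd).mp (h3c_gen_coprime S q₀ M _)
  have h1 := h3c_ramIdx_int 𝕡 M F (CyclotomicField (𝕡 ^ (M + 1)) ℚ) Q.1 Q.2.2.1
    (h3c_gen S (PrimesS.under S ℚ F Q)) (h3c_gen_prime S _) (h3c_gen_mem S F Q) hrp
  haveI : Q.1.LiesOver (PrimesS.under S ℚ F Q).1 := ⟨rfl⟩
  have h2 : Q.1.ramificationIdx (𝓞 ℚ) ∣ Q.1.ramificationIdx ℤ :=
    Ideal.ramificationIdx_above_dvd (PrimesS.under S ℚ F Q).1 Q.1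
  rw [h1] at h2
  exact Nat.dvd_one.mp h2

/-- `ord_Q(x) = ord_{Q ∩ ℚ}(x)` for `x ∈ ℚ` -/
theorem h3c_ordP_rat (ι : F →ₐ[ℚ] CyclotomicField (𝕡 ^ (M + 1)) ℚ) (Q : PrimesS S F) (x : ℚ) :
    ordP Q (algebraMap ℚ F x) = ordP (PrimesS.under S ℚ F Q) x := by
  haveI : Q.1.IsPrime := Q.2.1
  have hQ : Q.1 ≠ ⊥ := Q.2.2.1
  have hP0 : Q.1.under (𝓞 ℚ) ≠ ⊥ := Ideal.under_ne_bot _ hQ
  haveI : Q.toHOS.asIdeal.LiesOver (PrimesS.under S ℚ F Q).toHOS.asIdeal := ⟨rfl⟩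
  have h1 := IsDedekindDomain.HeightOneSpectrum.valuation_liesOver F
    (PrimesS.under S ℚ F Q).toHOS Q.toHOS x
  have he : (PrimesS.under S ℚ F Q).toHOS.asIdeal.ramificationIdx' Q.toHOS.asIdeal = 1 := by
    have h2 := Ideal.ramificationIdx'_eq_ramificationIdx
      (PrimesS.under S ℚ F Q).toHOS.asIdeal Q.toHOS.asIdeal hP0
    rw [h2]
    exact h3c_ramIdx_eq_one S q₀ M F ι Q
  rw [he, pow_one] at h1
  unfold ordP
  rw [h1]

/-- base change of a principal element -/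
theorem h3c_ambBase_princ (ι : F →ₐ[ℚ] CyclotomicField (𝕡 ^ (M + 1)) ℚ) (x : ℚˣ) :
    ambBase S ℚ F (princHom S ℚ (Additive.ofMul x)) =
      princHom S F (Additive.ofMul (Units.map (algebraMap ℚ F : ℚ →* F) x)) := by
  refine Prod.ext ?_ ?_
  · apply congrArg Additive.ofMul
    apply Units.ext
    rfl
  · ext Q
    show (divS S ℚ (Additive.ofMul x)) (PrimesS.under S ℚ F Q) = divS S F _ Q
    rw [divS_apply, divS_apply]
    exact (h3c_ordP_rat S q₀ M F ι Q (x : ℚ)).symm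

end ordS

end H3C
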