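/-
W2-C (S55) block C-finite, FC slice CYCLO (helper3), part D3: the norm of divisors
`Div_S(F) → Div_S(ℚ)`, `Q ↦ |Stab(Q)| · (Q ∩ ℚ)`, and `ψ` on norms of divisors.
-/
import Mathlib
import Fermat.Agent.CFT2.C.CycloNorm_helper3

set_option autoImplicit false
set_option linter.style.haveILetI false
set_option linter.unusedSectionVars false
set_option linter.unusedVariables false

noncomputable section

namespace H3C

open NumberField IsDedekindDomain H17C
open scoped Pointwise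

section normDiv

variable (S : Finset Nat.Primes) (F : Type) [Field F] [NumberField F] [IsGalois ℚ F]

theorem h3c_smul_algebraMap (σ : AutQ F) (x : 𝓞 ℚ) :
    σ • algebraMap (𝓞 ℚ) (𝓞 F) x = algebraMap (𝓞 ℚ) (𝓞 F) x := by
  apply RingOfIntegers.ext
  show σ (algebraMap ℚ F (x : ℚ)) = algebraMap ℚ F (x : ℚ)
  exact σ.commutes (x : ℚ)

theorem h3c_under_smul (σ : AutQ F) (Q : PrimesS S F) :
    PrimesS.under S ℚ F (σ • Q) = PrimesS.under S ℚ F Q := by
  apply Subtype.ext
  show (σ • Q.1).comap (algebraMap (𝓞 ℚ) (𝓞 F)) = Q.1.comap (algebraMap (𝓞 ℚ) (𝓞 F))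
  ext x
  rw [Ideal.mem_comap, Ideal.mem_comap, Ideal.mem_pointwise_smul_iff_inv_smul_mem,
    h3c_smul_algebraMap]

/-- `Gal(F/ℚ)` acts transitively on the primes of `F` above a prime of `ℚ` -/
theorem h3c_transitive (Q Q' : PrimesS S F)
    (h : PrimesS.under S ℚ F Q = PrimesS.under S ℚ F Q') : ∃ σ : AutQ F, σ • Q = Q' := by
  haveI : Q.1.IsPrime := Q.2.1
  haveI : Q'.1.IsPrime := Q'.2.1
  let P : Ideal (𝓞 ℚ) := Q.1.comap (algebraMap (𝓞 ℚ) (𝓞 F))
  haveI : Q.1.LiesOver P := ⟨rfl⟩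
  haveI : Q'.1.LiesOver P := ⟨congrArg Subtype.val h⟩
  obtain ⟨τ, hτ⟩ := Ideal.exists_smul_eq_of_isGaloisGroup P Q.1 Q'.1 (F ≃ₐ[ℚ] F)
  exact ⟨τ, Subtype.ext hτ⟩

/-- the sum over the subgroup `⊤` (in the form used by `ambN`) -/
def h3c_sumTop {A : Type} [AddCommMonoid A] (f : AutQ F → A) : A :=
  letI : Fintype (⊤ : Subgroup (AutQ F)) := Fintype.ofFinite _
  ∑ h : (⊤ : Subgroup (AutQ F)), f (h : AutQ F)

theorem h3c_sumTop_eq {A : Type} [AddCommMonoid A] (f : AutQ F → A) :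
    h3c_sumTop F f = ∑ σ : AutQ F, f σ := by
  unfold h3c_sumTop
  letI : Fintype (⊤ : Subgroup (AutQ F)) := Fintype.ofFinite _
  exact Fintype.sum_equiv (Subgroup.topEquiv (G := AutQ F)).toEquiv _ _ (fun h => rfl)

theorem h3c_ambN_apply (z : AmbS S F) :
    ambN S F ⊤ z = ∑ σ : AutQ F, ambRep S ℚ F σ z := by
  rw [← h3c_sumTop_eq]
  unfold h3c_sumTop
  letI : Fintype (⊤ : Subgroup (AutQ F)) := Fintype.ofFinite _
  show (∑ h : (⊤ : Subgroup (AutQ F)), ambRep S ℚ F (h : AutQ F)) z = _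
  rw [LinearMap.sum_apply]

/-- the number of `σ` with `σ Q = Q'` -/
theorem h3c_count (Q Q' : PrimesS S F) :
    (∑ σ : AutQ F, (Finsupp.single (σ • Q) (1 : ℤ)) Q') =
      open Classical in
      if PrimesS.under S ℚ F Q = PrimesS.under S ℚ F Q' then
        (Nat.card (MulAction.stabilizer (AutQ F) Q) : ℤ) else 0 := by
  classical
  by_cases hQ : PrimesS.under S ℚ F Q = PrimesS.under S ℚ F Q'
  · rw [if_pos hQ]
    obtain ⟨τ, rfl⟩ := h3c_transitive S F Q Q' hQ
    simp only [Finsupp.single_apply]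
    rw [Finset.sum_boole]
    congr 1
    rw [← Fintype.card_subtype, ← Nat.card_eq_fintype_card]
    apply Nat.card_congr
    refine ⟨fun h => ⟨τ⁻¹ * (h.1 : AutQ F), ?_⟩, fun g => ⟨τ * (g : AutQ F), ?_⟩, ?_, ?_⟩
    · rw [MulAction.mem_stabilizer_iff, mul_smul, h.2, inv_smul_smul]
    · show (τ * (g : AutQ F)) • Q = τ • Q
      rw [mul_smul, MulAction.mem_stabilizer_iff.mp g.2]
    · intro h
      apply Subtype.ext
      show τ * (τ⁻¹ * (h.1 : AutQ F)) = (h.1 : AutQ F)
      rw [mul_inv_cancel_left]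
    · intro g
      apply Subtype.ext
      show τ⁻¹ * (τ * (g : AutQ F)) = (g : AutQ F)
      rw [inv_mul_cancel_left]
  · rw [if_neg hQ]
    apply Finset.sum_eq_zero
    intro h _
    rw [Finsupp.single_apply, if_neg]
    intro h'
    apply hQ
    rw [← h', h3c_under_smul]

/-- the norm of divisors `Div_S(F) → Div_S(ℚ)` -/
def h3c_normDiv : DivS S F →+ DivS S ℚ :=
  Finsupp.liftAddHom (fun Q : PrimesS S F =>
    zmultiplesHom (DivS S ℚ)
      (Finsupp.single (PrimesS.under S ℚ F Q) (Nat.card (MulAction.stabilizer (AutQ F) Q) : ℤ)))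

theorem h3c_normDiv_single (Q : PrimesS S F) (m : ℤ) :
    h3c_normDiv S F (Finsupp.single Q m) =
      m • Finsupp.single (PrimesS.under S ℚ F Q)
        (Nat.card (MulAction.stabilizer (AutQ F) Q) : ℤ) := by
  unfold h3c_normDiv
  rw [Finsupp.liftAddHom_apply_single]
  rfl

/-- the divisor part of the norm on `A_F` -/
def h3c_divN : DivS S F →+ DivS S F :=
  (AddMonoidHom.snd _ _).comp ((ambN S F ⊤).comp (AddMonoidHom.inr _ _))

theorem h3c_divN_apply (d : DivS S F) :
    h3c_divN S F d = ∑ σ : AutQ F, divRep S ℚ F σ d := by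
  show (ambN S F ⊤ ((0 : Additive (KS S F)ˣ), d)).2 = _
  rw [h3c_ambN_apply, Prod.snd_sum]
  rfl

theorem h3c_ambN_snd (z : AmbS S F) : (ambN S F ⊤ z).2 = h3c_divN S F z.2 := by
  rw [h3c_divN_apply, h3c_ambN_apply, Prod.snd_sum]
  rfl

/-- `N_G d` is the pull-back of the norm of `d` -/
theorem h3c_pullDiv_normDiv (d : DivS S F) :
    H17SI.pullDiv S ℚ F (h3c_normDiv S F d) = h3c_divN S F d := by
  classical
  have key : (H17SI.pullDiv S ℚ F).comp (h3c_normDiv S F) = h3c_divN S F := by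
    apply Finsupp.addHom_ext
    intro Q m
    rw [AddMonoidHom.comp_apply, h3c_normDiv_single, h3c_divN_apply, map_zsmul]
    ext Q'
    rw [Finsupp.smul_apply, H17SI.h17si_pullDiv_apply, Finsupp.single_apply,
      Finsupp.finsetSum_apply]
    have h1 := h3c_count S F Q Q'
    have h2 : ∀ σ : AutQ F,
        (divRep S ℚ F σ (Finsupp.single Q m)) Q' =
          m * (Finsupp.single (σ • Q) (1 : ℤ)) Q' := by
      intro σ
      rw [divRep_single, Finsupp.single_apply, Finsupp.single_apply]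
      split_ifs <;> simp
    rw [Finset.sum_congr rfl (fun σ _ => h2 σ), ← Finset.mul_sum, h1, smul_eq_mul]

  exact DFunLike.congr_fun key d

end normDiv

section psiNorm

variable (S : Finset Nat.Primes) (q₀ : S) (M : ℕ)
  (F : Type) [Field F] [NumberField F] [IsGalois ℚ F]

local notation "𝕡" => ((q₀ : Nat.Primes) : ℕ)

/-- `(p - 1) ψ(N d) = 0` for the divisors of `F` -/
theorem h3c_psiD_normDiv (hF : Module.finrank ℚ F = 𝕡 ^ M)
    (ι : F →ₐ[ℚ] CyclotomicField (𝕡 ^ (M + 1)) ℚ) (d : DivS S F) :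
    (𝕡 - 1) • h3c_psiD S q₀ M (h3c_normDiv S F d) = 0 := by
  induction d using Finsupp.induction_linear with
  | zero => rw [map_zero, map_zero, smul_zero]
  | add d d' hd hd' => rw [map_add, map_add, nsmul_add, hd, hd', add_zero]
  | single Q m =>
    have h := h3c_frob S q₀ M F hF ι Q
    have h1 : (𝕡 - 1) • h3c_psiD S q₀ M (Finsupp.single (PrimesS.under S ℚ F Q)
        (Nat.card (MulAction.stabilizer (AutQ F) Q) : ℤ)) = 0 := by
      rw [h3c_psiD_single, natCast_zsmul, ← mul_nsmul, ← ofMul_pow, inv_pow, h, inv_one, ofMul_one]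
    rw [h3c_normDiv_single, map_zsmul, ← natCast_zsmul, smul_smul, mul_comm, ← smul_smul,
      natCast_zsmul, h1, smul_zero]

end psiNorm

end H3C
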