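/-
W2-C (S55) block C-finite, FC slice CYCLO (helper3), part E: `ψ` kills the norms from `F`
(`h3c_psi_norm`).
-/
import Mathlib
import Fermat.Agent.CFT2.C.CycloNorm2_helper3
import Fermat.Agent.CFT2.C.CycloCong_helper3
import Fermat.Agent.CFT2.C.WeakApprox_helper3
import Fermat.Agent.CFT2.C.DescCls_helper22

set_option autoImplicit false
set_option linter.style.haveILetI false
set_option linter.unusedSectionVars false
set_option linter.unusedVariables false

noncomputable section

namespace H3C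

open NumberField IsDedekindDomain H17C
open scoped Pointwise

section stable

variable (S : Finset Nat.Primes) (F : Type) [Field F] [NumberField F]

/-- `Aut(F)` preserves the lattice `Λ_F` -/
theorem h3c_ksAut_latS (τ : AutQ F) (x : KS S F) (hx : x ∈ latS S F) :
    ksAut S ℚ F τ x ∈ latS S F := by
  unfold latS at hx ⊢
  induction hx using Subring.closure_induction with
  | mem x hx =>
    rcases hx with ⟨a, rfl⟩ | ⟨z, rfl⟩
    · apply Subring.subset_closure
      left
      exact ⟨τ • a, rfl⟩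
    · apply Subring.subset_closure
      right
      refine ⟨z, ?_⟩
      rw [locRing_apply, ksAut_tmul, map_one]
  | zero => rw [map_zero]; exact Subring.zero_mem _
  | one => rw [map_one]; exact Subring.one_mem _
  | add x y _ _ hx hy => rw [map_add]; exact Subring.add_mem _ hx hy
  | neg x _ hx => rw [map_neg]; exact Subring.neg_mem _ hx
  | mul x y _ _ hx hy => rw [map_mul]; exact Subring.mul_mem _ hx hy

/-- the congruence ideles are stable under `Aut(F)` -/
theorem h3c_congIdele_stable (n : ℕ) (τ : AutQ F) (u : (KS S F)ˣ) (hu : u ∈ congIdele S F n) :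
    τ • u ∈ congIdele S F n := by
  obtain ⟨⟨h1, h2⟩, y, hy, huy⟩ := hu
  refine ⟨⟨?_, ?_⟩, ksAut S ℚ F τ y, h3c_ksAut_latS S F τ y hy, ?_⟩
  · rw [ideleAct_coe]
    exact h3c_ksAut_latS S F τ _ h1
  · have e : (τ • u)⁻¹ = τ • u⁻¹ := (smul_inv' τ u).symm
    rw [e, ideleAct_coe]
    exact h3c_ksAut_latS S F τ _ h2
  · rw [ideleAct_coe, huy, map_add, map_one, map_mul, map_natCast]

variable [IsGalois ℚ F]

/-- the image of `ℚ_S` in `F_S` is invariant -/
theorem h3c_ksAut_ksBase (σ : AutQ F) (w : KS S ℚ) :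
    ksAut S ℚ F σ (ksBase S ℚ F w) = ksBase S ℚ F w := by
  induction w using ks_induction with
  | zero => simp only [map_zero]
  | tmul x y =>
    rw [ksBase_tmul, ksAut_tmul]
    congr 1
    exact σ.commutes x
  | add a b ha hb => simp only [map_add, ha, hb]

theorem h3c_ideleRep_apply (τ : AutQ F) (u : Additive (KS S F)ˣ) :
    ideleRep S ℚ F τ u = Additive.ofMul (τ • Additive.toMul u) := rfl

/-- the norm of an idele -/
def h3c_idN : Additive (KS S F)ˣ →+ Additive (KS S F)ˣ :=
  (AddMonoidHom.fst _ _).comp ((ambN S F ⊤).comp (AddMonoidHom.inl _ _))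

theorem h3c_idN_apply (u : Additive (KS S F)ˣ) :
    h3c_idN S F u = ∑ σ : AutQ F, ideleRep S ℚ F σ u := by
  show (ambN S F ⊤ (u, (0 : DivS S F))).1 = _
  rw [h3c_ambN_apply, Prod.fst_sum]
  rfl

theorem h3c_ambN_fst (z : AmbS S F) : (ambN S F ⊤ z).1 = h3c_idN S F z.1 := by
  rw [h3c_idN_apply, h3c_ambN_apply, Prod.fst_sum]
  rfl

theorem h3c_idN_invariant (u : Additive (KS S F)ˣ) (τ : AutQ F) :
    τ • Additive.toMul (h3c_idN S F u) = Additive.toMul (h3c_idN S F u) := by
  have h1 : ideleRep S ℚ F τ (h3c_idN S F u) = h3c_idN S F u := by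
    rw [h3c_idN_apply, map_sum]
    have h2 : ∀ σ : AutQ F, ideleRep S ℚ F τ (ideleRep S ℚ F σ u) = ideleRep S ℚ F (τ * σ) u := by
      intro σ
      rw [map_mul]
      rfl
    rw [Finset.sum_congr rfl (fun σ _ => h2 σ)]
    exact Fintype.sum_equiv (Equiv.mulLeft τ) _ _ (fun σ => rfl)
  exact congrArg Additive.toMul h1

theorem h3c_idN_mem (n : ℕ) (u : (KS S F)ˣ) (hu : u ∈ congIdele S F n) :
    Additive.toMul (h3c_idN S F (Additive.ofMul u)) ∈ congIdele S F n := by
  have h1 : h3c_idN S F (Additive.ofMul u) ∈ congIdeleAdd S F n := by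
    rw [h3c_idN_apply]
    apply AddSubgroup.sum_mem
    intro σ _
    exact h3c_congIdele_stable S F n σ u hu
  exact h1

end stable

section inj

variable (S : Finset Nat.Primes) (q₀ : S) (M : ℕ)
  (F : Type) [Field F] [NumberField F] [IsGalois ℚ F]

local notation "𝕡" => ((q₀ : Nat.Primes) : ℕ)

/-- `C_ℚ → C_F` is injective (on representatives) -/
theorem h3c_descCls2_rat (ι : F →ₐ[ℚ] CyclotomicField (𝕡 ^ (M + 1)) ℚ) (x : AmbS S ℚ)
    (hx : ambBase S ℚ F x ∈ princS S F) : x ∈ princS S ℚ := by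
  have hS : S.Nonempty := ⟨q₀, q₀.2⟩
  obtain ⟨b, hb⟩ := (mem_princS_iff S F _).mp hx
  have h1 : diagS S F (Additive.toMul b) = ideleBase S ℚ F (Additive.toMul x.1) :=
    congrArg Additive.toMul (congrArg Prod.fst hb)
  have hfix : ∀ σ : AutQ F, σ ((Additive.toMul b : Fˣ) : F) = ((Additive.toMul b : Fˣ) : F) := by
    intro σ
    have h2 : σ • diagS S F (Additive.toMul b) = diagS S F (Additive.toMul b) := by
      rw [h1]
      apply Units.ext
      rw [ideleAct_coe]
      exact h3c_ksAut_ksBase S F σ _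
    rw [ideleAct_diagS] at h2
    have h3 := H22C.h22c_diagS_injective hS F h2
    exact congrArg Units.val h3
  have hmem : ((Additive.toMul b : Fˣ) : F) ∈ (⊥ : IntermediateField ℚ F) := by
    rw [IsGalois.mem_bot_iff_fixed]
    exact hfix
  obtain ⟨b₀, hb₀⟩ := IntermediateField.mem_bot.mp hmem
  have hb₀0 : b₀ ≠ 0 := by
    intro h
    rw [h, map_zero] at hb₀
    exact (Additive.toMul b : Fˣ).ne_zero hb₀.symm
  have e : Units.map (algebraMap ℚ F : ℚ →* F) (Units.mk0 b₀ hb₀0) = Additive.toMul b :=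
    Units.ext hb₀
  have h4 := h3c_ambBase_princ S q₀ M F ι (Units.mk0 b₀ hb₀0)
  rw [e] at h4
  have h5 : ambBase S ℚ F x = ambBase S ℚ F (princHom S ℚ (Additive.ofMul (Units.mk0 b₀ hb₀0))) := by
    rw [h4, ← hb]
    rfl
  have hinj : Function.Injective (ambBase S ℚ F) := by
    intro a a' h
    refine Prod.ext ?_ ?_
    · have := congrArg Prod.fst h
      have h6 : ideleBase S ℚ F (Additive.toMul a.1) = ideleBase S ℚ F (Additive.toMul a'.1) :=
        congrArg Additive.toMul this
      exact congrArg Additive.ofMul (h3c_ideleBase_rat_injective S F h6)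
    · exact H22C.h22c_pullDiv_injective S ℚ F (congrArg Prod.snd h)
  rw [hinj h5]
  exact (mem_princS_iff S ℚ _).mpr ⟨_, rfl⟩

end inj

end H3C
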