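/-
W2-C (S55) block C-finite, FC slice CYCLO (helper3): `h3c_psi_norm` (`ψ` kills the norms from the
`p^M`-layer `F ⊂ ℚ(ζ_{p^{M+1}})`) and `h3c_cyclo : H17C.CycloStatement`.
-/
import Mathlib
import Fermat.Agent.CFT2.C.CycloAsm_helper3

set_option autoImplicit false
set_option linter.style.haveILetI false
set_option linter.unusedSectionVars false
set_option linter.unusedVariables false

noncomputable section

namespace H3C

open NumberField IsDedekindDomain H17C
open scoped Pointwise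

section main

variable (S : Finset Nat.Primes) (q₀ : S) (M : ℕ)
  (F : Type) [Field F] [NumberField F] [IsGalois ℚ F]

local notation "𝕡" => ((q₀ : Nat.Primes) : ℕ)

/-- the norm of a principal element is principal -/
theorem h3c_ambN_princ (z : AmbS S F) (hz : z ∈ princS S F) : ambN S F ⊤ z ∈ princS S F := by
  rw [h3c_ambN_apply]
  apply Submodule.sum_mem
  intro σ _
  exact princS_stable S ℚ F σ hz

/-- **`ψ` kills the norms from `F`**: if the base change of `w ∈ A_ℚ` is a norm from `A_F` modulo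
principal elements, then `2(p-1) ψ(w) = 0`. -/
theorem h3c_psi_norm (hF : Module.finrank ℚ F = 𝕡 ^ M)
    (ι : F →ₐ[ℚ] CyclotomicField (𝕡 ^ (M + 1)) ℚ) (w : AmbS S ℚ) (z : AmbS S F)
    (hw : ambBase S ℚ F w - ambN S F ⊤ z ∈ princS S F) :
    (2 * (𝕡 - 1)) • h3c_psi S q₀ M w = 0 := by
  have hn0 : 𝕡 ^ (M + 1) ≠ 0 := pow_ne_zero _ (q₀ : Nat.Primes).2.ne_zero
  -- weak approximation
  obtain ⟨a, ha⟩ := h3c_weakApprox S F (𝕡 ^ (M + 1)) hn0 (Additive.toMul z.1)
  set u' : (KS S F)ˣ := Additive.toMul z.1 * (diagS S F a)⁻¹ with hu'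
  set z' : AmbS S F := z - princHom S F (Additive.ofMul a) with hz'
  have hz'1 : z'.1 = Additive.ofMul u' := by
    rw [hz', hu']
    rfl
  -- the norm of `z'`
  have hN : ambBase S ℚ F w - ambN S F ⊤ z' ∈ princS S F := by
    have e : ambBase S ℚ F w - ambN S F ⊤ z' =
        (ambBase S ℚ F w - ambN S F ⊤ z) + ambN S F ⊤ (princHom S F (Additive.ofMul a)) := by
      rw [hz', map_sub]
      abel
    rw [e]
    exact (princS S F).add_mem hw
      (h3c_ambN_princ S F _ ((mem_princS_iff S F _).mpr ⟨_, rfl⟩))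
  -- the idele part of the norm comes from `ℚ`
  have hmem := h3c_idN_mem S F (𝕡 ^ (M + 1)) u' ha
  obtain ⟨y, hy⟩ := h3c_idele_desc_rat S F _ (h3c_idN_invariant S F (Additive.ofMul u'))
  have hy1 : h3c_psiI S q₀ M y = 1 := by
    apply h3c_psiI_cong S q₀ M F y
    rw [hy]
    exact hmem
  -- the norm of `z'` is the base change of `(y, N d')`
  have hbase : ambN S F ⊤ z' = ambBase S ℚ F (Additive.ofMul y, h3c_normDiv S F z'.2) := by
    refine Prod.ext ?_ ?_
    · rw [h3c_ambN_fst, hz'1]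
      show _ = Additive.ofMul (ideleBase S ℚ F y)
      rw [hy]
      rfl
    · rw [h3c_ambN_snd]
      show _ = H17SI.pullDiv S ℚ F (h3c_normDiv S F z'.2)
      rw [h3c_pullDiv_normDiv]
  rw [hbase, ← map_sub] at hN
  have hprinc := h3c_descCls2_rat S q₀ M F ι _ hN
  have h1 := h3c_psi_princ S q₀ M _ hprinc
  rw [map_sub, nsmul_sub, sub_eq_zero] at h1
  have h2 : (𝕡 - 1) • h3c_psi S q₀ M (Additive.ofMul y, h3c_normDiv S F z'.2) = 0 := by
    rw [h3c_psi_apply, toMul_ofMul, hy1, ofMul_one, zero_add]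
    exact h3c_psiD_normDiv S q₀ M F hF ι _
  rw [mul_nsmul, h1, ← mul_nsmul, mul_comm, mul_nsmul, h2, smul_zero]

/-- `c₀` on `F` is the base change of `c₀` on `ℚ` -/
theorem h3c_ambBase_c0 (p : ℕ) :
    ambBase S ℚ F (Additive.ofMul (locUnit S ℚ (idelP S p)), 0) =
      (Additive.ofMul (locUnit S F (idelP S p)), 0) := by
  refine Prod.ext ?_ ?_
  · apply congrArg Additive.ofMul
    apply Units.ext
    show ksBase S ℚ F (locRing S ℚ _) = locRing S F _
    rw [locRing_apply, locRing_apply, ksBase_tmul, map_one]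
  · exact (H17SI.pullDiv S ℚ F).map_zero

theorem h3c_clsN_mk (z : AmbS S F) :
    clsN S F ⊤ (clsMk S F z) = clsMk S F (ambN S F ⊤ z) := by
  letI : Fintype (⊤ : Subgroup (AutQ F)) := Fintype.ofFinite _
  show (∑ h : (⊤ : Subgroup (AutQ F)), clsRep S ℚ F (h : AutQ F)) (clsMk S F z) =
    clsMk S F ((∑ h : (⊤ : Subgroup (AutQ F)), ambRep S ℚ F (h : AutQ F)) z)
  rw [LinearMap.sum_apply, LinearMap.sum_apply, map_sum]
  rfl

end main

/-- **(CYCLO)** -/
theorem h3c_cyclo : H17C.CycloStatement := by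
  intro p S F _ _ _ M hp hp2 hpS hF hι k hk
  obtain ⟨q, hq, rfl⟩ := hpS
  obtain ⟨ι⟩ := hι
  obtain ⟨x, hx⟩ := hk
  obtain ⟨z, rfl⟩ := clsMk_surjective S F x
  have h1 : clsN S F ⊤ (clsMk S F z) = clsMk S F (ambN S F ⊤ z) := h3c_clsN_mk S F z
  rw [h1] at hx
  have h2 : k • clsP S (q : ℕ) F =
      clsMk S F (ambBase S ℚ F (k • (Additive.ofMul (locUnit S ℚ (idelP S (q : ℕ))), 0))) := by
    rw [map_nsmul, h3c_ambBase_c0, map_nsmul]
    rfl
  rw [h2, ← sub_eq_zero, ← map_sub, clsMk_eq_zero_iff] at hx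
  have hx' : ambBase S ℚ F (k • (Additive.ofMul (locUnit S ℚ (idelP S (q : ℕ))), 0)) -
      ambN S F ⊤ z ∈ princS S F := by
    have := (princS S F).neg_mem hx
    rwa [neg_sub] at this
  have h3 := h3c_psi_norm S ⟨q, hq⟩ M F hF ι _ z hx'
  rw [map_nsmul, ← mul_nsmul] at h3
  exact h3c_dvd_of_psi_c0 S ⟨q, hq⟩ M hp2 k (by rw [mul_comm k] at h3; exact h3)

end H3C
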