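/-
W2-C (S55) block C-finite, slice **FC-ASM** (helper25): the assembly of the fundamental class.

* `H25C.h25c_fcAsm : H17C.FCAsmStatement`  (TOWER + CYCLO + NL + TR + FIELD-ISO + CM + ABS-FC +
  SYL-ISO + GEN ⇒ `FundamentalClass`).
-/
import Fermat.Agent.CFT2.C.Slices5_helper17

set_option autoImplicit false
set_option linter.unusedSectionVars false
set_option linter.unusedVariables false
set_option linter.style.haveILetI false

noncomputable section

namespace H25C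

open NumberField CategoryTheory groupCohomology H17C

section lemmas
variable (S : Finset Nat.Primes)

/-- `σ (1 ⊗ y) = 1 ⊗ y` -/
theorem fc_locUnit_smul (K : Type) [Field K] [NumberField K] (σ : AutQ K) (y : (QS S)ˣ) :
    σ • locUnit S K y = locUnit S K y := by
  apply Units.ext
  change ksAut S ℚ K σ (tmulS S K 1 (y : QS S)) = tmulS S K 1 (y : QS S)
  rw [ksAut_tmul, map_one]

/-- the class `c₀` is invariant -/
theorem fc_clsP_inv (p : ℕ) (K : Type) [Field K] [NumberField K] (σ : AutQ K) :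
    clsRep S ℚ K σ (clsP S p K) = clsP S p K := by
  unfold clsP
  rw [clsRep_mk, ambRep_apply]
  congr 1
  refine Prod.ext ?_ ?_
  · exact congrArg Additive.ofMul (fc_locUnit_smul S K σ (idelP S p))
  · exact map_zero _

/-- base change of `c₀` -/
theorem fc_ambBase_locUnit (K L : Type) [Field K] [NumberField K] [Field L] [NumberField L]
    [Algebra K L] (y : (QS S)ˣ) :
    ambBase S K L (Additive.ofMul (locUnit S K y), 0) = (Additive.ofMul (locUnit S L y), 0) := by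
  rw [ambBase_apply]
  refine Prod.ext ?_ ?_
  · apply congrArg Additive.ofMul
    apply Units.ext
    change ksBase S K L (tmulS S K 1 (y : QS S)) = tmulS S L 1 (y : QS S)
    rw [ksBase_tmul, map_one]
  · exact map_zero _

end lemmas

section cyclo
variable (S : Finset Nat.Primes) (Ω : Type) [Field Ω] [NumberField Ω] [IsGalois ℚ Ω]

theorem fc_unram_of_top (H : Subgroup (AutQ Ω)) (h : UnramOutside S Ω ⊤) : UnramOutside S Ω H :=
  fun Q σ _ hσ => h Q σ (Subgroup.mem_top σ) hσ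

/-- the norm of the full group as a sum over the group -/
theorem fc_clsN_top (F : Type) [Field F] [NumberField F] (x : ClS S F) :
    clsN S F ⊤ x = ∑ᶠ g : AutQ F, clsRep S ℚ F g x := by
  letI : Fintype (AutQ F) := Fintype.ofFinite _
  letI : Fintype (⊤ : Subgroup (AutQ F)) := Fintype.ofFinite _
  rw [finsum_eq_sum_of_fintype]
  change (∑ h : (⊤ : Subgroup (AutQ F)), clsRep S ℚ F (h : AutQ F)) x = _
  rw [LinearMap.sum_apply]
  exact Fintype.sum_equiv Subgroup.topEquiv.toEquiv _ _ (fun h => rfl)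

/-- from CYCLO and TR: `k c₀ ∈ relNorm_{N_M}(C_Ω^{N_M}) ⇒ p^M ∣ k` -/
theorem fc_cyclo_hyp (hCyclo : CycloStatement) (hTR : TRStatement) (p : ℕ)
    (NM : Subgroup (AutQ Ω)) [NM.Normal] (M : ℕ) (hp : p.Prime) (hp2 : p ≠ 2)
    (hpS : ∃ q ∈ S, (q : ℕ) = p) (hunr : UnramOutside S Ω ⊤)
    (hcard : Nat.card (AutQ Ω ⧸ NM) = p ^ M)
    (hψ : Nonempty (IntermediateField.fixedField NM →ₐ[ℚ] CyclotomicField (p ^ (M + 1)) ℚ))
    (k : ℕ) (w : ClS S Ω) (hw : ∀ n ∈ NM, clsRep S ℚ Ω n w = w)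
    (hk : k • clsP S p Ω = relNorm (clsRep S ℚ Ω) NM w) : p ^ M ∣ k := by
  have hSne : S.Nonempty := by
    obtain ⟨q, hq, -⟩ := hpS
    exact ⟨q, hq⟩
  obtain ⟨e, j, hje, -, hjb⟩ := hTR S Ω NM hSne (fc_unram_of_top S Ω NM hunr)
  haveI hgal : IsGalois ℚ (IntermediateField.fixedField NM) :=
    IsGalois.of_fixedField_normal_subgroup NM
  have hfin : Module.finrank ℚ (IntermediateField.fixedField NM) = p ^ M := by
    rw [← IsGalois.card_aut_eq_finrank, ← hcard]
    exact (Nat.card_congr e.toEquiv).symm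
  -- the invariant elements
  let b₀ : ((clsObj S ℚ Ω).quotientToInvariants NM).V :=
    ⟨clsP S p Ω, fun n => fc_clsP_inv S p Ω n⟩
  let bw : ((clsObj S ℚ Ω).quotientToInvariants NM).V := ⟨w, fun n => hw n n.2⟩
  have hj0 : j b₀ = clsP S p (IntermediateField.fixedField NM) := by
    have h1 := hjb (Additive.ofMul (locUnit S (IntermediateField.fixedField NM) (idelP S p)), 0)
      (j.symm (clsP S p (IntermediateField.fixedField NM))) (by
        rw [AddEquiv.apply_symm_apply]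
        rfl)
    rw [fc_ambBase_locUnit] at h1
    have h2 : j.symm (clsP S p (IntermediateField.fixedField NM)) = b₀ := Subtype.ext h1
    rw [← h2, AddEquiv.apply_symm_apply]
  -- `k • b₀ = ∑_q q • bw`
  letI : Fintype (AutQ Ω ⧸ NM) := Fintype.ofFinite _
  letI : Fintype (AutQ (IntermediateField.fixedField NM)) := Fintype.ofFinite _
  have hval : ∀ q : AutQ Ω ⧸ NM,
      ((((clsObj S ℚ Ω).quotientToInvariants NM).ρ q bw).val : ClS S Ω) =
        clsRep S ℚ Ω (Quotient.out q) w := by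
    intro q
    have h1 : (QuotientGroup.mk (Quotient.out q) : AutQ Ω ⧸ NM) = q := QuotientGroup.out_eq' q
    have h2 : ((((clsObj S ℚ Ω).quotientToInvariants NM).ρ
        (QuotientGroup.mk (Quotient.out q)) bw).val : ClS S Ω) =
        clsRep S ℚ Ω (Quotient.out q) w := rfl
    rw [h1] at h2
    exact h2
  have hsum : k • b₀ = ∑ q : AutQ Ω ⧸ NM, ((clsObj S ℚ Ω).quotientToInvariants NM).ρ q bw := by
    apply Subtype.ext
    rw [AddSubmonoidClass.coe_finsetSum]
    rw [Finset.sum_congr rfl (fun q _ => hval q)]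
    exact hk
  have hj1 : k • clsP S p (IntermediateField.fixedField NM) =
      ∑ q : AutQ Ω ⧸ NM, clsRep S ℚ (IntermediateField.fixedField NM) (e q) (j bw) := by
    rw [← hj0, ← map_nsmul, hsum, map_sum]
    exact Finset.sum_congr rfl (fun q _ => hje q bw)
  have hj2 : ∑ q : AutQ Ω ⧸ NM, clsRep S ℚ (IntermediateField.fixedField NM) (e q) (j bw) =
      clsN S (IntermediateField.fixedField NM) ⊤ (j bw) := by
    rw [fc_clsN_top, finsum_eq_sum_of_fintype]
    exact Fintype.sum_equiv e.toEquiv _ _ (fun q => rfl)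
  exact hCyclo p S (IntermediateField.fixedField NM) M hp hp2 hpS hfin hψ k
    ⟨j bw, (hj1.trans hj2).symm⟩

end cyclo

/-- **FC-ASM**: the assembly of the fundamental class. -/
theorem h25c_fcAsm : H17C.FCAsmStatement := by
  intro hTower hCyclo hNL hTR hFI hCM hAbs hSyl hGen p S L _ _ _ hp hp2 hpS hunr
  haveI : Fact p.Prime := ⟨hp⟩
  have hSne : S.Nonempty := by
    obtain ⟨q, hq, -⟩ := hpS
    exact ⟨q, hq⟩
  -- `|Aut L| = p^a m'`
  have hpos : Nat.card (AutQ L) ≠ 0 := Nat.card_pos.ne'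
  obtain ⟨a, m', hm', hcard⟩ := Nat.exists_eq_pow_mul_and_not_dvd hpos p hp.ne_one
  -- TOWER with `M = a`
  obtain ⟨Ω, iF, iN, iG, NL, NM, iNL, iNM, hunrΩ, hcap, hcyc, hcardM, ⟨φ⟩, hψ⟩ :=
    hTower p S L a hp hp2 hpS hunr
  -- TR for `N_L`, FIELD-ISO
  obtain ⟨eL, jL, hjeL, -, -⟩ := hTR S Ω NL hSne (fc_unram_of_top S Ω NL hunrΩ)
  obtain ⟨j₂, hj₂⟩ := hFI S (IntermediateField.fixedField NL) L φ.symm
  let e : (AutQ Ω ⧸ NL) ≃* AutQ L := eL.trans (AlgEquiv.autCongr φ.symm)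
  let j : ((clsObj S ℚ Ω).quotientToInvariants NL).V ≃+ ClS S L := jL.trans j₂
  have hje : ∀ (g : AutQ Ω ⧸ NL) (b : ((clsObj S ℚ Ω).quotientToInvariants NL).V),
      j (((clsObj S ℚ Ω).quotientToInvariants NL).ρ g b) = (clsObj S ℚ L).ρ (e g) (j b) := by
    intro g b
    change j₂ (jL _) = clsRep S ℚ L (AlgEquiv.autCongr φ.symm (eL g)) (j₂ (jL b))
    rw [hjeL, hj₂]
  have hcardL : Nat.card (AutQ Ω ⧸ NL) = p ^ a * m' := by
    rw [← hcard]
    exact Nat.card_congr e.toEquiv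
  -- ABS-FC
  obtain ⟨γ, hγ⟩ := hAbs (AutQ Ω) p (clsObj S ℚ Ω) NL NM a a m' hcap hcyc hcardM le_rfl hm' hcardL
    (fun H hH => (hCM p S Ω H hSne hp hp2 hH (fc_unram_of_top S Ω H hunrΩ)).1)
    (clsP S p Ω) (fun g => fc_clsP_inv S p Ω g)
    (fun k ⟨w, hw, hk⟩ =>
      fc_cyclo_hyp S Ω hCyclo hTR p NM a hp hp2 hpS hunrΩ hcardM hψ k w hw hk)
    (hNL p S Ω NL NM a a m' hp hp2 hpS hunrΩ hcap hcyc hcardM hψ le_rfl hm' hcardL)
  -- SYL-ISO
  obtain ⟨γ', hγ'⟩ := hSyl (AutQ Ω ⧸ NL) (AutQ L) p e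
    ((clsObj S ℚ Ω).quotientToInvariants NL) (clsObj S ℚ L) j hje ⟨γ, hγ⟩
  -- GEN
  exact ⟨γ', hGen (AutQ L) p (clsObj S ℚ L) γ'
    (fun H hH => (hCM p S L H hSne hp hp2 hH (fc_unram_of_top S L H hunr)).1)
    (fun H hH => (hCM p S L H hSne hp hp2 hH (fc_unram_of_top S L H hunr)).2)
    hγ'⟩

end H25C
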