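/-
W2-C (S55) block C-finite, slice GEN (helper20): pure group cohomology.
If `H¹(H, C) = 0` and `|H²(H, C)| ≤ |H|` for all `p`-subgroups `H`, and the restriction of `γ` to
every Sylow `p`-subgroup `P` has order divisible by `|P|`, then `(C, γ)` is a `p`-class module.
-/
import Fermat.Agent.CFT2.C.Slices3_helper17
import Fermat.Agent.CFT2.A.ARCoh_helper26

set_option autoImplicit false

noncomputable section

open CategoryTheory groupCohomology

namespace H20GEN

/-- a finite additive group of order `≤ n` containing an element `y` such that `m • y = 0` implies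
`n ∣ m` is cyclic of order `n`, generated by `y` -/
theorem h20gen_cyclic {M : Type} [AddCommGroup M] [Finite M] (n : ℕ)
    (hcard : Nat.card M ≤ n) (y : M) (hy : ∀ m : ℕ, m • y = 0 → n ∣ m) :
    Nat.card M = n ∧ ∀ x : M, ∃ k : ℤ, x = k • y := by
  have h1 : n ∣ addOrderOf y := hy _ (addOrderOf_nsmul_eq_zero y)
  have h2 : 0 < addOrderOf y := addOrderOf_pos y
  have h3 : Nat.card (AddSubgroup.zmultiples y) = addOrderOf y := Nat.card_zmultiples y
  have h4 : Nat.card (AddSubgroup.zmultiples y) ≤ Nat.card M :=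
    Nat.card_le_card_of_injective _ Subtype.val_injective
  have h5 : n ≤ addOrderOf y := Nat.le_of_dvd h2 h1
  have h6 : Nat.card M = n := by omega
  refine ⟨h6, ?_⟩
  have h7 : AddSubgroup.zmultiples y = ⊤ := by
    apply AddSubgroup.eq_top_of_card_eq
    omega
  intro x
  have hx : x ∈ AddSubgroup.zmultiples y := by rw [h7]; trivial
  obtain ⟨k, hk⟩ := AddSubgroup.mem_zmultiples_iff.1 hx
  exact ⟨k, hk.symm⟩

/-- the arithmetic: `|P| ∣ [G:H] m` implies `|H| ∣ m` for a Sylow `P` and a `p`-subgroup `H` -/
theorem h20gen_arith {G : Type} [Group G] [Finite G] (p : ℕ) [Fact p.Prime] (P : Sylow p G)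
    (H : Subgroup G) (hH : IsPGroup p H) (m : ℕ) (h : Nat.card P ∣ H.index * m) :
    Nat.card H ∣ m := by
  have hp : p.Prime := Fact.out
  obtain ⟨b, hb⟩ := hH.exists_card_eq
  have hP : Nat.card P = p ^ (Nat.card G).factorization p := P.card_eq_multiplicity
  have hG : H.index * Nat.card H = Nat.card G := H.index_mul_card
  have hGpos : 0 < Nat.card G := Nat.card_pos
  have hidx : H.index ≠ 0 := by
    intro h0
    rw [h0, zero_mul] at hG
    omega
  rw [hb]
  rcases Nat.eq_zero_or_pos m with hm | hm
  · rw [hm]; exact dvd_zero _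
  rw [hP] at h
  have h1 : (Nat.card G).factorization p ≤ (H.index * m).factorization p :=
    (hp.pow_dvd_iff_le_factorization (Nat.mul_ne_zero hidx hm.ne')).1 h
  rw [Nat.factorization_mul hidx hm.ne'] at h1
  have h2 : (Nat.card G).factorization p = H.index.factorization p + b := by
    rw [← hG, hb, Nat.factorization_mul hidx (pow_ne_zero _ hp.ne_zero)]
    simp [hp.factorization_self]
  simp only [Finsupp.add_apply] at h1
  exact (hp.pow_dvd_iff_le_factorization hm.ne').2 (by omega)

theorem h20gen_gen (G : Type) [Group G] [Finite G] : H17C.GenStatement G := by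
  intro p _ C γ h1 h2 h3
  obtain ⟨P⟩ : Nonempty (Sylow p G) := inferInstance
  have key : ∀ H : Subgroup G, IsPGroup p H → ∀ m : ℕ, m • H20A.resCoh C H 2 γ = 0 →
      Nat.card H ∣ m := by
    intro H hH m hm
    apply h20gen_arith p P H hH m
    apply h3 P
    have e1 : H20A.resCoh C H 2 (m • γ) = 0 := by rw [map_nsmul, hm]
    have e2 := H26AR.h26ar_indexKillsCoh G C H 2 (m • γ) e1
    rw [mul_smul, ← map_nsmul, ← map_nsmul, e2, map_zero]
  refine ⟨h1, fun H hH => ?_, fun H hH => ?_⟩
  · have := (h2 H hH).1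
    exact (h20gen_cyclic (Nat.card H) (h2 H hH).2 _ (key H hH)).1
  · have := (h2 H hH).1
    exact (h20gen_cyclic (Nat.card H) (h2 H hH).2 _ (key H hH)).2

end H20GEN

end
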