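/-
W2-C (S55) block C-finite, slice **SYL-ISO** (helper25): transport of the hypothesis of GEN
(a class whose restrictions to the Sylow `p`-subgroups have order divisible by their orders)
along an isomorphism of pairs `e : G ≃* G'`, `j : B ≃ C`.

* `H25C.h25c_sylIso G G' : H17C.SylIsoStatement G G'`.
-/
import Mathlib
import Fermat.Agent.CFT2.A.Defs
import Fermat.Agent.CFT2.A.AR_helper26
import Fermat.Agent.CFT2.C.Slices4_helper17

set_option autoImplicit false
set_option linter.unusedSectionVars false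
set_option linter.style.haveILetI false

noncomputable section

namespace H25C

open CategoryTheory Rep groupCohomology H20A

section sylk
variable {k : Type} [CommRing k] {G G' : Type} [Group G] [Group G']

/-- the morphism `(e⁻¹)^* B ⟶ C` given by `j` -/
def sylFwd (e : G ≃* G') (B : Rep.{0} k G) (C : Rep.{0} k G') (j : B.V →ₗ[k] C.V)
    (hj : ∀ g b, j (B.ρ g b) = C.ρ (e g) (j b)) : Rep.res e.symm.toMonoidHom B ⟶ C :=
  Rep.ofHom ⟨j, fun g' => LinearMap.ext fun b => by
    have h1 := hj (e.symm g') b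
    rw [MulEquiv.apply_symm_apply] at h1
    exact h1⟩

/-- the morphism from `C|P'`, pulled back to `P = e⁻¹(P')`, to `B|P` given by `j⁻¹` -/
def sylBwd (e : G ≃* G') (B : Rep.{0} k G) (C : Rep.{0} k G') (j' : C.V →ₗ[k] B.V)
    (hj' : ∀ g c, j' (C.ρ (e g) c) = B.ρ g (j' c)) (P' : Subgroup G') :
    Rep.res (e.toMonoidHom.subgroupComap P') (Rep.res P'.subtype C) ⟶
      Rep.res (P'.comap e.toMonoidHom).subtype B :=
  Rep.ofHom ⟨j', fun g => LinearMap.ext fun c => hj' g c⟩

/-- the transported class restricts to the given one -/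
theorem syl_compat (e : G ≃* G') (B : Rep.{0} k G) (C : Rep.{0} k G') (j : B.V →ₗ[k] C.V)
    (hj : ∀ g b, j (B.ρ g b) = C.ρ (e g) (j b)) (j' : C.V →ₗ[k] B.V)
    (hj' : ∀ g c, j' (C.ρ (e g) c) = B.ρ g (j' c)) (hjj : ∀ b, j' (j b) = b)
    (P' : Subgroup G') (n : ℕ) :
    groupCohomology.map e.symm.toMonoidHom (sylFwd e B C j hj) n ≫
      groupCohomology.map P'.subtype (𝟙 (Rep.res P'.subtype C)) n ≫
        groupCohomology.map (e.toMonoidHom.subgroupComap P') (sylBwd e B C j' hj' P') n =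
      groupCohomology.map (P'.comap e.toMonoidHom).subtype
        (𝟙 (Rep.res (P'.comap e.toMonoidHom).subtype B)) n := by
  rw [← groupCohomology.map_comp, ← groupCohomology.map_comp]
  refine groupCohomology.map_congr ?_ ?_ n
  · ext x
    change e.symm (e (x : G)) = (x : G)
    rw [MulEquiv.symm_apply_apply]
  · exact LinearMap.ext fun b => hjj b

end sylk

section sylInt
variable {G G' : Type} [Group G] [Finite G] [Group G'] [Finite G']

theorem syl_card_comap (e : G ≃* G') (P' : Subgroup G') :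
    Nat.card (P'.comap e.toMonoidHom) = Nat.card P' := by
  refine Nat.card_eq_of_bijective (fun x => (⟨e x.1, x.2⟩ : P')) ⟨?_, ?_⟩
  · intro x y hxy
    have h1 : e x.1 = e y.1 := congrArg Subtype.val hxy
    exact Subtype.ext (e.injective h1)
  · intro y
    refine ⟨⟨e.symm y.1, ?_⟩, ?_⟩
    · change e (e.symm y.1) ∈ P'
      rw [MulEquiv.apply_symm_apply]
      exact y.2
    · apply Subtype.ext
      exact MulEquiv.apply_symm_apply e y.1

theorem sylIso_core {V V' : Type} [AddCommGroup V] [AddCommGroup V'] (e : G ≃* G')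
    (ρ : Representation ℤ G V) (ρ' : Representation ℤ G' V') (j : V ≃+ V')
    (hj : ∀ g b, j (ρ g b) = ρ' (e g) (j b)) (p : ℕ) [Fact p.Prime]
    (γ : groupCohomology (Rep.of ρ) 2)
    (hγ : ∀ (P : Sylow p G) (k : ℕ),
      k • resCoh (Rep.of ρ) (P : Subgroup G) 2 γ = 0 → Nat.card P ∣ k) :
    ∃ γ' : groupCohomology (Rep.of ρ') 2, ∀ (P' : Sylow p G') (k : ℕ),
      k • resCoh (Rep.of ρ') (P' : Subgroup G') 2 γ' = 0 → Nat.card P' ∣ k := by
  have hj' : ∀ (g : G) (c : V'), j.symm (ρ' (e g) c) = ρ g (j.symm c) := by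
    intro g c
    apply j.injective
    rw [hj, AddEquiv.apply_symm_apply, AddEquiv.apply_symm_apply]
  refine ⟨(groupCohomology.map e.symm.toMonoidHom
    (sylFwd e (Rep.of ρ) (Rep.of ρ') j.toAddMonoidHom.toIntLinearMap hj) 2).hom γ, ?_⟩
  intro P' k hk
  have hle : (P' : Subgroup G') ≤ e.toMonoidHom.range := by
    intro x _
    exact ⟨e.symm x, MulEquiv.apply_symm_apply e x⟩
  have hcomp := congrArg (fun f => f.hom γ)
    (syl_compat e (Rep.of ρ) (Rep.of ρ') j.toAddMonoidHom.toIntLinearMap hj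
      j.symm.toAddMonoidHom.toIntLinearMap hj' (fun b => j.symm_apply_apply b)
      (P' : Subgroup G') 2)
  have h1 : k • resCoh (Rep.of ρ) ((P' : Subgroup G').comap e.toMonoidHom) 2 γ = 0 := by
    have h2 := congrArg (fun x => (groupCohomology.map
      (e.toMonoidHom.subgroupComap (P' : Subgroup G'))
      (sylBwd e (Rep.of ρ) (Rep.of ρ') j.symm.toAddMonoidHom.toIntLinearMap hj'
        (P' : Subgroup G')) 2).hom x) hk
    simp only [map_nsmul, map_zero] at h2
    rw [← h2]
    congr 1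
    exact hcomp.symm
  have h3 := hγ (P'.comapOfInjective e.toMonoidHom e.injective hle) k h1
  rw [← syl_card_comap e (P' : Subgroup G')]
  exact h3

/-- **SYL-ISO** -/
theorem h25c_sylIso (G G' : Type) [Group G] [Finite G] [Group G'] [Finite G'] :
    H17C.SylIsoStatement G G' := by
  intro p _ e B C
  refine H26AR.rep_int_induction (G := G) (fun B => ∀ (j : B.V ≃+ C.V),
    (∀ g b, j (B.ρ g b) = C.ρ (e g) (j b)) →
    (∃ γ : groupCohomology B 2, ∀ (P : Sylow p G) (k : ℕ),
      k • H20A.resCoh B (P : Subgroup G) 2 γ = 0 → Nat.card P ∣ k) →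
    ∃ γ : groupCohomology C 2, ∀ (P : Sylow p G') (k : ℕ),
      k • H20A.resCoh C (P : Subgroup G') 2 γ = 0 → Nat.card P ∣ k) ?_ B
  intro V _ ρ
  refine H26AR.rep_int_induction (G := G') (fun C => ∀ (j : V ≃+ C.V),
    (∀ g b, j (ρ g b) = C.ρ (e g) (j b)) →
    (∃ γ : groupCohomology (Rep.of ρ) 2, ∀ (P : Sylow p G) (k : ℕ),
      k • H20A.resCoh (Rep.of ρ) (P : Subgroup G) 2 γ = 0 → Nat.card P ∣ k) →
    ∃ γ : groupCohomology C 2, ∀ (P : Sylow p G') (k : ℕ),
      k • H20A.resCoh C (P : Subgroup G') 2 γ = 0 → Nat.card P ∣ k) ?_ C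
  intro V' _ ρ' j hj hγ
  obtain ⟨γ, hγ⟩ := hγ
  exact sylIso_core e ρ ρ' j hj p γ hγ

end sylInt

end H25C
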