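import Mathlib
import Fermat.Agent.CFT2.C.Slices5_helper17
import Fermat.Agent.CFT2.C.CM3_helper22

/-!
# W2-C (S55), block C-finite, FC slice TR (helper22)

`H22C.h22c_tr : H17C.TRStatement`: for `N ◁ Γ = Aut(Ω)` (`Ω/ℚ` Galois), `F = Ω^N`, the pair
`(Γ/N, (C_Ω)^N)` is isomorphic to `(Aut(F), C_F)` by restriction of automorphisms and base change
of classes.
-/

set_option autoImplicit false
set_option linter.unusedSectionVars false
set_option linter.unusedSimpArgs false
set_option linter.unusedVariables false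
set_option linter.style.haveILetI false

noncomputable section

namespace H22C

open NumberField IsDedekindDomain TensorProduct CategoryTheory
open scoped Pointwise

variable (S : Finset Nat.Primes) {Ω : Type} [Field Ω] [NumberField Ω]

/-- the pair `(⊤, N)` -/
def h22c_topPair (N : Subgroup (H17C.AutQ Ω)) [hN : N.Normal] : NormalPair Ω where
  H := ⊤
  N := N
  le := le_top
  conj := fun h _ n hn => hN.conj_mem n hn h

section tr

variable (N : Subgroup (H17C.AutQ Ω)) [hN : N.Normal]

/-- restriction `Aut(Ω) → Aut(Ω^N)` -/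
def h22c_resTop : H17C.AutQ Ω →* H17C.AutQ (IntermediateField.fixedField N) :=
  (h22c_topPair N).res.comp (Subgroup.topEquiv (G := H17C.AutQ Ω)).symm.toMonoidHom

theorem h22c_resTop_coe (g : H17C.AutQ Ω) (x : IntermediateField.fixedField N) :
    ((h22c_resTop N g x : IntermediateField.fixedField N) : Ω) = g (x : Ω) := rfl

theorem h22c_resTop_ker : (h22c_resTop N).ker = N := by
  ext g
  rw [MonoidHom.mem_ker]
  have h1 := (h22c_topPair N).ker_res
  have h2 : (⟨g, Subgroup.mem_top g⟩ : (h22c_topPair N).H) ∈ (h22c_topPair N).res.ker ↔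
      g ∈ N := by
    rw [h1, Subgroup.mem_subgroupOf]
    rfl
  rw [← h2, MonoidHom.mem_ker]
  rfl

theorem h22c_resTop_surjective [IsGalois ℚ Ω] : Function.Surjective (h22c_resTop N) := by
  intro τ
  refine ⟨τ.liftNormal Ω, ?_⟩
  ext x
  exact AlgEquiv.liftNormal_commutes τ Ω x

/-- `Γ / N ≅ Aut(Ω^N)` -/
def h22c_trEquiv [IsGalois ℚ Ω] :
    (H17C.AutQ Ω ⧸ N) ≃* H17C.AutQ (IntermediateField.fixedField N) :=
  (QuotientGroup.quotientMulEquivOfEq (h22c_resTop_ker N).symm).trans
    (QuotientGroup.quotientKerEquivOfSurjective (h22c_resTop N) (h22c_resTop_surjective N))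

theorem h22c_trEquiv_mk [IsGalois ℚ Ω] (g : H17C.AutQ Ω) :
    h22c_trEquiv N (QuotientGroup.mk g) = h22c_resTop N g := rfl

/-- `C_F → (C_Ω)^N` -/
def h22c_trToInv (hunr : H17C.UnramOutside S Ω N) :
    H17C.ClS S (IntermediateField.fixedField N) →+
      Representation.invariants ((H17C.clsRep S ℚ Ω).comp N.subtype) where
  toFun c := ⟨(h22c_topPair N).clsBase S hunr c,
    fun n => (h22c_topPair N).clsBase_invariant S hunr c n n.2⟩
  map_zero' := Subtype.ext (map_zero _)
  map_add' a b := Subtype.ext (map_add _ a b)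

theorem h22c_trToInv_coe (hunr : H17C.UnramOutside S Ω N)
    (c : H17C.ClS S (IntermediateField.fixedField N)) :
    ((h22c_trToInv S N hunr c :
      Representation.invariants ((H17C.clsRep S ℚ Ω).comp N.subtype)) : H17C.ClS S Ω) =
      (h22c_topPair N).clsBase S hunr c := rfl

theorem h22c_trToInv_bijective (hS : S.Nonempty) (hunr : H17C.UnramOutside S Ω N) :
    Function.Bijective (h22c_trToInv S N hunr) := by
  constructor
  · intro a b h
    exact (h22c_topPair N).clsBase_injective S hS hunr (congrArg Subtype.val h)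
  · rintro ⟨x, hx⟩
    obtain ⟨c, hc⟩ := (h22c_topPair N).clsBase_surjective S hS hunr x
      (fun n hn => hx ⟨n, hn⟩)
    exact ⟨c, Subtype.ext hc⟩

end tr

/-- **(TR)** -/
theorem h22c_tr : H17C.TRStatement := by
  intro S Ω _ _ _ N _ hS hunr
  let j₀ := AddEquiv.ofBijective (h22c_trToInv S N hunr) (h22c_trToInv_bijective S N hS hunr)
  have hj₀ : ∀ c, j₀.symm (h22c_trToInv S N hunr c) = c := fun c => j₀.symm_apply_apply c
  refine ⟨h22c_trEquiv N, j₀.symm, ?_, ?_, ?_⟩
  · intro g b
    obtain ⟨h, rfl⟩ := QuotientGroup.mk_surjective g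
    obtain ⟨c, rfl⟩ := (h22c_trToInv_bijective S N hS hunr).2 b
    have e1 : (((H17C.clsObj S ℚ Ω).quotientToInvariants N).ρ (QuotientGroup.mk h)
        (h22c_trToInv S N hunr c) :
          Representation.invariants ((H17C.clsRep S ℚ Ω).comp N.subtype)) =
        h22c_trToInv S N hunr
          (H17C.clsRep S ℚ (IntermediateField.fixedField N) (h22c_resTop N h) c) := by
      apply Subtype.ext
      rw [h22c_trToInv_coe]
      exact ((h22c_topPair N).clsBase_equivariant S hunr ⟨h, Subgroup.mem_top h⟩ c).symm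
    exact (congrArg j₀.symm e1).trans ((hj₀ _).trans
      (congrArg (H17C.clsRep S ℚ (IntermediateField.fixedField N) (h22c_resTop N h))
        (hj₀ c).symm))
  · intro g x
    rfl
  · intro w b hb
    obtain ⟨c, rfl⟩ := (h22c_trToInv_bijective S N hS hunr).2 b
    have hc : c = H17C.clsMk S (IntermediateField.fixedField N) w := (hj₀ c).symm.trans hb
    subst hc
    rfl

end H22C
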