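/-
W2-C (S55) block C-FC, slice **TOWER** (helper21), part 1: the `p^M`-layer `F` of the cyclotomic
`ℤ_p`-extension of `ℚ`, as the fixed field of `μ_{p-1} ⊂ (ℤ/p^{M+1})ˣ = Gal(ℚ(ζ_{p^{M+1}})/ℚ)`:
`F/ℚ` is cyclic of degree `p^M` and unramified outside `p`.
-/
import Mathlib
import Fermat.Agent.CFT2.C.Slices5_helper17

set_option autoImplicit false
set_option linter.unusedSectionVars false
set_option linter.unusedVariables false
set_option linter.style.haveILetI false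

noncomputable section

namespace H21TW

open NumberField IsDedekindDomain H17C IntermediateField
open scoped Pointwise

/-- in a cyclic group of order `a * b` the `b`-th powers form a group of order `a` -/
theorem card_range_pow {U : Type*} [CommGroup U] [IsCyclic U] (a b : ℕ) (hb : b ≠ 0)
    (hU : Nat.card U = a * b) :
    Nat.card (powMonoidHom b : U →* U).range = a := by
  obtain ⟨u, hu⟩ := IsCyclic.exists_generator (α := U)
  have h1 : (powMonoidHom b : U →* U).range = Subgroup.zpowers (u ^ b) := by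
    ext x
    constructor
    · rintro ⟨y, rfl⟩
      obtain ⟨k, rfl⟩ := Subgroup.mem_zpowers_iff.mp (hu y)
      rw [Subgroup.mem_zpowers_iff]
      refine ⟨k, ?_⟩
      simp only [powMonoidHom_apply]
      rw [← zpow_natCast, ← zpow_natCast, ← zpow_mul, ← zpow_mul, mul_comm]
    · intro hx
      obtain ⟨k, rfl⟩ := Subgroup.mem_zpowers_iff.mp hx
      refine ⟨u ^ k, ?_⟩
      simp only [powMonoidHom_apply]
      rw [← zpow_natCast, ← zpow_natCast, ← zpow_mul, ← zpow_mul, mul_comm]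
  have h2 : orderOf u = a * b := by
    rw [← hU]
    exact orderOf_eq_card_of_forall_mem_zpowers hu
  rw [h1, Nat.card_zpowers, orderOf_pow' u hb, h2, Nat.gcd_mul_left_left]
  exact Nat.mul_div_cancel a (Nat.pos_of_ne_zero hb)

/-- a Galois subfield of a cyclotomic field `ℚ(ζ_n)` is unramified at the primes not dividing
`n` -/
theorem unram_of_cyclo (n : ℕ) [NeZero n] (K : Type) [Field K] [NumberField K]
    [IsCyclotomicExtension {n} ℚ K] (F : IntermediateField ℚ K) [IsGalois ℚ F]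
    (𝔮 : Ideal (𝓞 F)) [𝔮.IsPrime] (r : ℕ) [Fact r.Prime] [𝔮.LiesOver (Ideal.span {(r : ℤ)})]
    (hr : ¬ r ∣ n) (τ : F ≃ₐ[ℚ] F) (hτ : ∀ x : 𝓞 F, τ • x - x ∈ 𝔮) : τ = 1 := by
  haveI : IsGalois ℚ K := IsCyclotomicExtension.isGalois {n} ℚ K
  have h1 : (Ideal.span {(r : ℤ)}).ramificationIdxIn (𝓞 K) = 1 :=
    IsCyclotomicExtension.Rat.ramificationIdxIn_eq_of_not_dvd r K hr
  have h2 := Ideal.ramificationIdxIn_mul_ramificationIdxIn (p := Ideal.span {(r : ℤ)}) 𝔮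
    (F ≃ₐ[ℚ] F) (𝓞 K) (K ≃ₐ[ℚ] K) (K ≃ₐ[F] K)
  rw [h1] at h2
  have h3 : (Ideal.span {(r : ℤ)}).ramificationIdxIn (𝓞 F) = 1 := Nat.eq_one_of_mul_eq_one_right h2
  have h4 := Ideal.card_inertia_eq_ramificationIdxIn (G := F ≃ₐ[ℚ] F) (Ideal.span {(r : ℤ)}) 𝔮
  rw [h3] at h4
  have h5 : τ ∈ 𝔮.inertia (F ≃ₐ[ℚ] F) := hτ
  have h6 : 𝔮.inertia (F ≃ₐ[ℚ] F) = ⊥ := Subgroup.card_eq_one.mp h4
  rw [h6] at h5
  exact Subgroup.mem_bot.mp h5

section layer

variable (p M : ℕ) [hp : Fact p.Prime]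

instance neZero_ppow : NeZero (p ^ (M + 1)) := ⟨pow_ne_zero _ hp.out.ne_zero⟩

instance neZero_ppowQ : NeZero (((p ^ (M + 1) : ℕ)) : ℚ) :=
  ⟨by exact_mod_cast pow_ne_zero (M + 1) hp.out.ne_zero⟩

instance isCyc_KK : IsCyclotomicExtension {p ^ (M + 1)} ℚ (CyclotomicField (p ^ (M + 1)) ℚ) :=
  CyclotomicField.isCyclotomicExtension _ _

/-- `ℚ(ζ_{p^{M+1}})` -/
abbrev KK : Type := CyclotomicField (p ^ (M + 1)) ℚ

/-- the cyclotomic character `Gal(ℚ(ζ)/ℚ) ≅ (ℤ/p^{M+1})ˣ` -/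
def chi : (KK p M ≃ₐ[ℚ] KK p M) ≃* (ZMod (p ^ (M + 1)))ˣ :=
  IsCyclotomicExtension.Rat.galEquivZMod (p ^ (M + 1)) (KK p M)

/-- `ψ : Gal(ℚ(ζ)/ℚ) → (ℤ/p^{M+1})ˣ`, `σ ↦ χ(σ)^{p-1}` -/
def psi : (KK p M ≃ₐ[ℚ] KK p M) →* (ZMod (p ^ (M + 1)))ˣ :=
  (powMonoidHom (p - 1)).comp (chi p M).toMonoidHom

theorem psi_apply (σ : KK p M ≃ₐ[ℚ] KK p M) : psi p M σ = (chi p M σ) ^ (p - 1) := rfl

/-- the `p^M`-layer of the cyclotomic `ℤ_p`-extension -/
def layer : IntermediateField ℚ (KK p M) := fixedField (psi p M).ker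

instance layer_isGalois : IsGalois ℚ (layer p M) := by
  haveI : IsGalois ℚ (KK p M) := IsCyclotomicExtension.isGalois {p ^ (M + 1)} ℚ (KK p M)
  exact IsGalois.of_fixedField_normal_subgroup (psi p M).ker

theorem psi_range :
    (psi p M).range = (powMonoidHom (p - 1) : (ZMod (p ^ (M + 1)))ˣ →* _).range := by
  ext x
  constructor
  · rintro ⟨y, rfl⟩
    exact ⟨_, rfl⟩
  · rintro ⟨y, rfl⟩
    refine ⟨(chi p M).symm y, ?_⟩
    rw [psi_apply, MulEquiv.apply_symm_apply]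
    rfl

/-- `Gal(F/ℚ) ≅ ((ℤ/p^{M+1})ˣ)^{p-1}` -/
def layerEquiv : (layer p M ≃ₐ[ℚ] layer p M) ≃* (psi p M).range :=
  haveI : IsGalois ℚ (KK p M) := IsCyclotomicExtension.isGalois {p ^ (M + 1)} ℚ (KK p M)
  (IsGalois.normalAutEquivQuotient (psi p M).ker).symm.trans
    (QuotientGroup.quotientKerEquivRange (psi p M))

theorem layer_cyclic (hp2 : p ≠ 2) : IsCyclic (layer p M ≃ₐ[ℚ] layer p M) := by
  haveI := ZMod.isCyclic_units_of_prime_pow p hp.out hp2 (M + 1)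
  haveI : IsCyclic (psi p M).range := inferInstance
  exact isCyclic_of_surjective (layerEquiv p M).symm (layerEquiv p M).symm.surjective

theorem layer_card (hp2 : p ≠ 2) : Nat.card (layer p M ≃ₐ[ℚ] layer p M) = p ^ M := by
  haveI := ZMod.isCyclic_units_of_prime_pow p hp.out hp2 (M + 1)
  rw [Nat.card_congr (layerEquiv p M).toEquiv, psi_range]
  apply card_range_pow
  · have := hp.out.two_le
    omega
  · rw [Nat.card_eq_fintype_card, ZMod.card_units_eq_totient, Nat.totient_prime_pow_succ hp.out]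

/-- the layer `F` is unramified outside `S ∋ p` -/
theorem layer_unram (S : Finset Nat.Primes) (hpS : ∃ q ∈ S, (q : ℕ) = p) :
    UnramOutside S (layer p M) ⊤ := by
  intro 𝔮 τ _ hτ
  obtain ⟨hq1, hq2, hq3⟩ := 𝔮.2
  haveI : 𝔮.1.IsPrime := hq1
  have hP0 : 𝔮.1.under ℤ ≠ ⊥ := Ideal.under_ne_bot _ hq2
  have hPp : (𝔮.1.under ℤ).IsPrime := inferInstance
  rcases Ideal.isPrime_int_iff.mp hPp with h | ⟨r, hr, hPr⟩
  · exact absurd h hP0
  haveI : Fact r.Prime := ⟨hr⟩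
  haveI : 𝔮.1.LiesOver (Ideal.span {(r : ℤ)}) := ⟨hPr.symm⟩
  have hrp : ¬ r ∣ p ^ (M + 1) := by
    intro hdvd
    have hrp : r = p := (Nat.prime_dvd_prime_iff_eq hr hp.out).mp (hr.dvd_of_dvd_pow hdvd)
    obtain ⟨q, hqS, hqp⟩ := hpS
    apply hq3 q hqS
    have h1 : ((r : ℕ) : ℤ) ∈ 𝔮.1.under ℤ := by
      rw [hPr]
      exact Ideal.mem_span_singleton_self _
    have hqr : ((q : ℕ) : ℤ) = ((r : ℕ) : ℤ) := by rw [hqp, hrp]
    rw [hqr]
    rw [Ideal.under_def, Ideal.mem_comap] at h1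
    simpa using h1
  exact unram_of_cyclo (p ^ (M + 1)) (KK p M) (layer p M) 𝔮.1 r hrp τ hτ

end layer

end H21TW
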