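/-
W2-C (S55) block C-FC, slice **TOWER** (helper21), part 3: `H21TW.towerStatement : H17C.TowerStatement`.
For `L/ℚ` Galois unramified outside `S ∋ p` and `M`: `Ω = L · F` (`F` the `p^M`-layer of the cyclotomic
`ℤ_p`-extension), `N_L = Gal(Ω/L)`, `N_M = Gal(Ω/F)`.  `Ω` is unramified outside `S`: an element of an
inertia group restricts to the identity on `L` and on `F`.
-/
import Mathlib
import Fermat.Agent.CFT2.C.Slices5_helper17
import Fermat.Agent.CFT2.C.TowerLayer_helper21
import Fermat.Agent.CFT2.C.TowerComp_helper21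

set_option autoImplicit false
set_option linter.unusedSectionVars false
set_option linter.unusedVariables false
set_option linter.style.haveILetI false

noncomputable section

namespace H21TW

open NumberField IsDedekindDomain H17C IntermediateField
open scoped Pointwise

section restrict

variable (S : Finset Nat.Primes) (E Ω : Type) [Field E] [NumberField E] [Field Ω] [NumberField Ω]
  [Algebra E Ω] [Normal ℚ E]

/-- an element of the inertia group of `Ω` at `Q` (outside `S`) fixes every subfield `E` which is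
normal over `ℚ` and unramified outside `S` -/
theorem unram_restrict (hE : UnramOutside S E ⊤) (Q : PrimesS S Ω) (σ : AutQ Ω)
    (hσ : ∀ x : 𝓞 Ω, σ • x - x ∈ Q.1) (y : E) : σ (algebraMap E Ω y) = algebraMap E Ω y := by
  have h1 : σ.restrictNormal E = 1 := by
    refine hE (PrimesS.under S E Ω Q) (σ.restrictNormal E) trivial ?_
    intro x
    show algebraMap (𝓞 E) (𝓞 Ω) (σ.restrictNormal E • x - x) ∈ Q.1
    have h2 : algebraMap (𝓞 E) (𝓞 Ω) (σ.restrictNormal E • x - x) =
        σ • (algebraMap (𝓞 E) (𝓞 Ω) x) - algebraMap (𝓞 E) (𝓞 Ω) x := by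
      rw [map_sub]
      congr 1
      apply RingOfIntegers.ext
      show algebraMap E Ω (σ.restrictNormal E (x : E)) = σ (algebraMap E Ω (x : E))
      exact AlgEquiv.restrictNormal_commutes σ E (x : E)
    rw [h2]
    exact hσ _
  have h3 := AlgEquiv.restrictNormal_commutes σ E y
  rw [h1] at h3
  exact h3.symm

end restrict

section comp

variable (Ω : Type) [Field Ω] [NumberField Ω] [IsGalois ℚ Ω]
  (E : IntermediateField ℚ Ω) (hE : IsGalois ℚ E)

include hE in
theorem fix_normal : E.fixingSubgroup.Normal :=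
  @IsGalois.fixingSubgroup_normal_of_isGalois ℚ Ω _ _ _ E _ hE

theorem fixedField_fix : IntermediateField.fixedField E.fixingSubgroup = E :=
  IsGalois.fixedField_fixingSubgroup E

/-- for a Galois intermediate field `E`: `Gal(Ω/ℚ)/Gal(Ω/E) ≅ Gal(E/ℚ)` -/
def quotEquiv :
    letI := fix_normal Ω E hE
    (AutQ Ω ⧸ E.fixingSubgroup) ≃* (E ≃ₐ[ℚ] E) :=
  letI := fix_normal Ω E hE
  haveI : @Normal ℚ E _ _ E.algebra' := hE.to_normal
  QuotientGroup.liftEquiv (φ := AlgEquiv.restrictNormalHom E) _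
    (AlgEquiv.restrictNormalHom_surjective Ω) E.restrictNormalHom_ker.symm

end comp

section core

variable (S : Finset Nat.Primes) (p M : ℕ)
  (Ω : Type) [Field Ω] [NumberField Ω] [IsGalois ℚ Ω]
  (L : Type) [Field L] [NumberField L] [IsGalois ℚ L]
  (F : Type) [Field F] [NumberField F] [IsGalois ℚ F]
  (jL : L →ₐ[ℚ] Ω) (jF : F →ₐ[ℚ] Ω)

theorem fieldRange_galois : IsGalois ℚ jL.fieldRange :=
  IsGalois.of_algEquiv (AlgEquiv.ofInjectiveField jL)

theorem tower_core (hsup : jL.fieldRange ⊔ jF.fieldRange = ⊤)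
    (hL : UnramOutside S L ⊤) (hF : UnramOutside S F ⊤)
    (hcyc : IsCyclic (F ≃ₐ[ℚ] F)) (hcard : Nat.card (F ≃ₐ[ℚ] F) = p ^ M)
    (ι : F →ₐ[ℚ] CyclotomicField (p ^ (M + 1)) ℚ) :
    ∃ (NL NM : Subgroup (AutQ Ω)) (_ : NL.Normal) (_ : NM.Normal),
      UnramOutside S Ω ⊤ ∧ NL ⊓ NM = ⊥ ∧ IsCyclic (AutQ Ω ⧸ NM) ∧
      Nat.card (AutQ Ω ⧸ NM) = p ^ M ∧
      Nonempty (L ≃ₐ[ℚ] IntermediateField.fixedField NL) ∧
      Nonempty (IntermediateField.fixedField NM →ₐ[ℚ] CyclotomicField (p ^ (M + 1)) ℚ) := by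
  have hEL := fieldRange_galois Ω L jL
  have hEF := fieldRange_galois Ω F jF
  have hbot : jL.fieldRange.fixingSubgroup ⊓ jF.fieldRange.fixingSubgroup = ⊥ := by
    rw [← IntermediateField.fixingSubgroup_sup, hsup, IntermediateField.fixingSubgroup_top]
  refine ⟨jL.fieldRange.fixingSubgroup, jF.fieldRange.fixingSubgroup,
    fix_normal Ω _ hEL, fix_normal Ω _ hEF, ?_, hbot, ?_, ?_, ?_, ?_⟩
  · -- unramified outside `S`
    intro Q σ _ hσ
    have h1 : σ ∈ jL.fieldRange.fixingSubgroup := by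
      rw [IntermediateField.mem_fixingSubgroup_iff]
      rintro _ ⟨y, rfl⟩
      letI : Algebra L Ω := jL.toRingHom.toAlgebra
      exact unram_restrict S L Ω hL Q σ hσ y
    have h2 : σ ∈ jF.fieldRange.fixingSubgroup := by
      rw [IntermediateField.mem_fixingSubgroup_iff]
      rintro _ ⟨y, rfl⟩
      letI : Algebra F Ω := jF.toRingHom.toAlgebra
      exact unram_restrict S F Ω hF Q σ hσ y
    have h3 : σ ∈ jL.fieldRange.fixingSubgroup ⊓ jF.fieldRange.fixingSubgroup := ⟨h1, h2⟩
    rw [hbot] at h3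
    exact Subgroup.mem_bot.mp h3
  · -- cyclic
    letI := fix_normal Ω _ hEF
    let e1 := quotEquiv Ω jF.fieldRange hEF
    let e2 : (jF.fieldRange ≃ₐ[ℚ] jF.fieldRange) ≃* (F ≃ₐ[ℚ] F) :=
      AlgEquiv.autCongr (AlgEquiv.ofInjectiveField jF).symm
    exact isCyclic_of_surjective (e1.trans e2).symm (e1.trans e2).symm.surjective
  · letI := fix_normal Ω _ hEF
    let e1 := quotEquiv Ω jF.fieldRange hEF
    let e2 : (jF.fieldRange ≃ₐ[ℚ] jF.fieldRange) ≃* (F ≃ₐ[ℚ] F) :=
      AlgEquiv.autCongr (AlgEquiv.ofInjectiveField jF).symm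
    rw [Nat.card_congr (e1.trans e2).toEquiv, hcard]
  · exact ⟨(AlgEquiv.ofInjectiveField jL).trans
      (IntermediateField.equivOfEq (fixedField_fix Ω jL.fieldRange).symm)⟩
  · exact ⟨ι.comp ((AlgEquiv.ofInjectiveField jF).symm.toAlgHom.comp
      (IntermediateField.equivOfEq (fixedField_fix Ω jF.fieldRange)).toAlgHom)⟩

end core

/-- **(TOWER)** -/
theorem towerStatement : TowerStatement := by
  intro p S L _ _ _ M hp hp2 hpS hL
  haveI : Fact p.Prime := ⟨hp⟩
  have hF : UnramOutside S (layer p M) ⊤ := layer_unram p M S hpS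
  obtain ⟨NL, NM, hNL, hNM, h⟩ := tower_core S p M (comp L (layer p M)) L (layer p M)
    (toComp1 L (layer p M)) (toComp2 L (layer p M)) (comp_sup L (layer p M)) hL hF
    (layer_cyclic p M hp2) (layer_card p M hp2) (layer p M).val
  exact ⟨comp L (layer p M), inferInstance, inferInstance, inferInstance, NL, NM, hNL, hNM, h⟩

end H21TW
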