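/-
W2-C (S55) block C (helper25): the FUNDAMENTAL CLASS, unconditional.
`H25C.h25c_fundamentalClass : H17C.FundamentalClass` — assembly `H25C.h25c_fcAsm` applied to
TOWER (helper21), CYCLO (helper3), NL (helper20), TR + FIELD-ISO (helper22), CM (helper17 final),
ABS-FC + GEN (helper20), SYL-ISO (helper25).
Also `H25C.h25c_cmb_of_bcls : BClsStatement S p → CMB S p`.
-/
import Fermat.Agent.CFT2.C.FCAsm_helper25
import Fermat.Agent.CFT2.C.Tower_helper21
import Fermat.Agent.CFT2.C.Cyclo_helper3
import Fermat.Agent.CFT2.C.NLFinal_helper20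
import Fermat.Agent.CFT2.C.TR_helper22
import Fermat.Agent.CFT2.C.FieldIso_helper22
import Fermat.Agent.CFT2.C.CMFinal_helper17
import Fermat.Agent.CFT2.C.AbsFC_helper20
import Fermat.Agent.CFT2.C.SylIso_helper25
import Fermat.Agent.CFT2.C.Gen_helper20
import Fermat.Agent.CFT2.C.CmbAsm_helper25

set_option autoImplicit false
set_option linter.unusedSectionVars false
set_option linter.unusedVariables false

noncomputable section

namespace H25C

/-- **(FC)** the fundamental class: for `L/ℚ` Galois, unramified outside `S ∋ p`, `p` odd,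
`C_L` is a `p`-class module for `Gal(L/ℚ)`. -/
theorem h25c_fundamentalClass : H17C.FundamentalClass :=
  h25c_fcAsm H21TW.towerStatement H3C.h3c_cyclo H20NL.h20nl_normLim H22C.h22c_tr
    H22C.h22c_fieldIso H17SI.h17c_classModuleNE_final
    (fun Γ _ _ => H20FC.h20fc_absFC Γ)
    (fun G G' _ _ _ _ => h25c_sylIso G G')
    (fun G _ _ => H20GEN.h20gen_gen G)

/-- `CMB` from B-CLS alone -/
theorem h25c_cmb_of_bcls (S : Finset Nat.Primes) (p : ℕ) (hp : p.Prime) (hp2 : p ≠ 2)
    (hpS : ∃ q ∈ S, (q : ℕ) = p) (hB : H17C.BClsStatement S p) : H14PT.CMB S p :=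
  h25c_cmb_of S p hp hp2 hpS hB h25c_fundamentalClass

end H25C

end
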