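/-
W2-C (S55) block C (helper25): the deliverable **CMB**, unconditional.
`H25C.h25c_cmb S p hp hp2 hpS : H14PT.CMB S p`
(B-CLS `H22BC.h22bc_bcls` (helper22) + fundamental class `H25C.h25c_fundamentalClass` + PCM-EMB),
and its consequences for block E: `THB1`, `TDim1`.
-/
import Fermat.Agent.CFT2.C.FCFinal_helper25
import Fermat.Agent.CFT2.C.BCls.Final_helper22

set_option autoImplicit false
set_option linter.unusedSectionVars false
set_option linter.unusedVariables false

noncomputable section

namespace H25C

/-- **(CMB)** for `p` odd, `p ∈ S`: the finite levels `B_L = (I/E)^{U_L}` are `p`-class modules. -/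
theorem h25c_cmb (S : Finset Nat.Primes) (p : ℕ) (hp : p.Prime) (hp2 : p ≠ 2)
    (hpS : ∃ q ∈ S, (q : ℕ) = p) : H14PT.CMB S p :=
  h25c_cmb_of_bcls S p hp hp2 hpS (H22BC.h22bc_bcls S p hp hpS)

end H25C

end
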