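/-
W2-C (S55) block C-finite, FC route: slice CYC-COC (helper9).
`H9CC.cycCoc G : H17C.CycCocStatement G` for every finite group `G`:
the standard 2-cochain of a cyclic group `G = ⟨σ⟩` attached to an invariant `c` is a 2-cocycle,
and its class vanishes iff `c` is a norm.
-/
import Fermat.Agent.CFT2.C.Slices4_helper17

set_option autoImplicit false
set_option linter.unusedSectionVars false
set_option linter.style.haveILetI false

noncomputable section

namespace H9CC

open CategoryTheory groupCohomology H17C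

variable {G : Type} [Group G] [Finite G]

/-- existence of an exponent -/
lemma exists_pow_eq (σ : G) (hσ : ∀ x : G, x ∈ Subgroup.zpowers σ) (g : G) :
    ∃ i : ℕ, σ ^ i = g := by
  have h := hσ g
  rw [← mem_powers_iff_mem_zpowers] at h
  exact h

lemma cycIdx_spec (σ : G) (hσ : ∀ x : G, x ∈ Subgroup.zpowers σ) (g : G) :
    σ ^ cycIdx σ g = g := by
  classical
  unfold cycIdx
  rw [dif_pos (exists_pow_eq σ hσ g)]
  exact Nat.find_spec (exists_pow_eq σ hσ g)

lemma orderOf_eq_card (σ : G) (hσ : ∀ x : G, x ∈ Subgroup.zpowers σ) :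
    orderOf σ = Nat.card G :=
  orderOf_eq_card_of_forall_mem_zpowers hσ

lemma card_pos' : 0 < Nat.card G := Nat.card_pos

lemma cycIdx_le (σ : G) (g : G) (i : ℕ) (hi : σ ^ i = g) : cycIdx σ g ≤ i := by
  classical
  unfold cycIdx
  rw [dif_pos ⟨i, hi⟩]
  exact Nat.find_min' _ hi

lemma cycIdx_lt (σ : G) (hσ : ∀ x : G, x ∈ Subgroup.zpowers σ) (g : G) :
    cycIdx σ g < Nat.card G := by
  have h1 : σ ^ (cycIdx σ g % Nat.card G) = g := by
    rw [← orderOf_eq_card σ hσ, pow_mod_orderOf, cycIdx_spec σ hσ]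
  exact lt_of_le_of_lt (cycIdx_le σ g _ h1) (Nat.mod_lt _ card_pos')

lemma cycIdx_pow (σ : G) (hσ : ∀ x : G, x ∈ Subgroup.zpowers σ) (i : ℕ) :
    cycIdx σ (σ ^ i) = i % Nat.card G := by
  have h1 := cycIdx_spec σ hσ (σ ^ i)
  rw [pow_inj_mod, orderOf_eq_card σ hσ, Nat.mod_eq_of_lt (cycIdx_lt σ hσ _)] at h1
  exact h1

lemma cycIdx_mul (σ : G) (hσ : ∀ x : G, x ∈ Subgroup.zpowers σ) (g h : G) :
    cycIdx σ (g * h) = (cycIdx σ g + cycIdx σ h) % Nat.card G := by
  rw [← cycIdx_pow σ hσ, pow_add, cycIdx_spec σ hσ, cycIdx_spec σ hσ]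

/-- the carry function -/
def carry (n a b : ℕ) : ℕ := if n ≤ a + b then 1 else 0

lemma carry_assoc (n a b l : ℕ) (ha : a < n) (hb : b < n) (hl : l < n) :
    carry n ((a + b) % n) l + carry n a b = carry n b l + carry n a ((b + l) % n) := by
  unfold carry
  by_cases h1 : n ≤ a + b
  · have e1 : (a + b) % n = a + b - n := by
      rw [Nat.mod_eq_sub_mod h1, Nat.mod_eq_of_lt (by omega)]
    by_cases h2 : n ≤ b + l
    · have e2 : (b + l) % n = b + l - n := by
        rw [Nat.mod_eq_sub_mod h2, Nat.mod_eq_of_lt (by omega)]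
      rw [e1, e2]
      split_ifs <;> omega
    · have e2 : (b + l) % n = b + l := Nat.mod_eq_of_lt (by omega)
      rw [e1, e2]
      split_ifs <;> omega
  · have e1 : (a + b) % n = a + b := Nat.mod_eq_of_lt (by omega)
    by_cases h2 : n ≤ b + l
    · have e2 : (b + l) % n = b + l - n := by
        rw [Nat.mod_eq_sub_mod h2, Nat.mod_eq_of_lt (by omega)]
      rw [e1, e2]
      split_ifs <;> omega
    · have e2 : (b + l) % n = b + l := Nat.mod_eq_of_lt (by omega)
      rw [e1, e2]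
      split_ifs <;> omega

lemma stdCocFun_eq (σ : G) {V : Type} [AddCommGroup V] (c : V) (g h : G) :
    stdCocFun σ c (g, h) = carry (Nat.card G) (cycIdx σ g) (cycIdx σ h) • c := by
  unfold stdCocFun carry
  split_ifs <;> simp

/-- the standard cochain is a cocycle -/
theorem stdCocFun_mem (C : Rep ℤ G) (σ : G) (hσ : ∀ x : G, x ∈ Subgroup.zpowers σ)
    (c : C.V) (hc : ∀ g, C.ρ g c = c) : stdCocFun σ c ∈ cocycles₂ C := by
  rw [mem_cocycles₂_iff]
  intro g h j
  have hinv : C.ρ g (stdCocFun σ c (h, j)) = stdCocFun σ c (h, j) := by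
    rw [stdCocFun_eq, map_nsmul, hc]
  rw [hinv, stdCocFun_eq, stdCocFun_eq, stdCocFun_eq, stdCocFun_eq, cycIdx_mul σ hσ,
    cycIdx_mul σ hσ, ← add_nsmul, ← add_nsmul,
    carry_assoc _ _ _ _ (cycIdx_lt σ hσ g) (cycIdx_lt σ hσ h) (cycIdx_lt σ hσ j)]

/-- sum over the powers of a generator = sum over the group -/
lemma sum_range_pow (σ : G) (hσ : ∀ x : G, x ∈ Subgroup.zpowers σ)
    {V : Type} [AddCommGroup V] (F : G → V) :
    letI : Fintype G := Fintype.ofFinite G
    ∑ l ∈ Finset.range (Nat.card G), F (σ ^ l) = ∑ g : G, F g := by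
  letI : Fintype G := Fintype.ofFinite G
  refine Finset.sum_bij' (fun l _ => σ ^ l) (fun g _ => cycIdx σ g) ?_ ?_ ?_ ?_ ?_
  · intro l _; exact Finset.mem_univ _
  · intro g _; exact Finset.mem_range.2 (cycIdx_lt σ hσ g)
  · intro l hl
    rw [cycIdx_pow σ hσ, Nat.mod_eq_of_lt (Finset.mem_range.1 hl)]
  · intro g _; exact cycIdx_spec σ hσ g
  · intro l _; rfl

lemma subNorm_top_eq {V : Type} [AddCommGroup V] {mV : Module ℤ V}
    (ρ : @Representation ℤ G V _ _ _ mV) (d : V) :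
    letI : Fintype G := Fintype.ofFinite G
    subNorm ρ ⊤ d = ∑ g : G, ρ g d := by
  letI : Fintype G := Fintype.ofFinite G
  letI : Fintype (⊤ : Subgroup G) := Fintype.ofFinite _
  unfold subNorm
  exact Fintype.sum_equiv Subgroup.topEquiv.toEquiv _ _ (fun _ => rfl)

lemma subNorm_top_eq_range (σ : G) (hσ : ∀ x : G, x ∈ Subgroup.zpowers σ)
    {V : Type} [AddCommGroup V] {mV : Module ℤ V}
    (ρ : @Representation ℤ G V _ _ _ mV) (d : V) :
    subNorm ρ ⊤ d = ∑ l ∈ Finset.range (Nat.card G), ρ (σ ^ l) d := by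
  rw [subNorm_top_eq, sum_range_pow σ hσ (fun g => ρ g d)]

/-- the primitive of the standard cocycle of a norm -/
def prim (C : Rep ℤ G) (σ : G) (d : C.V) : G → C.V :=
  fun g => ∑ l ∈ Finset.range (cycIdx σ g), C.ρ (σ ^ l) d

lemma prim_d (C : Rep ℤ G) (σ : G) (hσ : ∀ x : G, x ∈ Subgroup.zpowers σ) (d : C.V)
    (g h : G) :
    C.ρ g (prim C σ d h) - prim C σ d (g * h) + prim C σ d g
      = stdCocFun σ (subNorm C.ρ ⊤ d) (g, h) := by
  set n := Nat.card G with hn
  set i := cycIdx σ g with hi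
  set j := cycIdx σ h with hj
  have hi_lt : i < n := cycIdx_lt σ hσ g
  have hj_lt : j < n := cycIdx_lt σ hσ h
  have hg : σ ^ i = g := cycIdx_spec σ hσ g
  have h1 : C.ρ g (prim C σ d h) = ∑ l ∈ Finset.range j, C.ρ (σ ^ (i + l)) d := by
    unfold prim
    rw [map_sum]
    refine Finset.sum_congr rfl fun l _ => ?_
    rw [pow_add, map_mul, hg]
    rfl
  have h2 : prim C σ d g + C.ρ g (prim C σ d h)
      = ∑ l ∈ Finset.range (i + j), C.ρ (σ ^ l) d := by
    rw [h1, Finset.sum_range_add]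
    rfl
  have h3 : prim C σ d (g * h) = ∑ l ∈ Finset.range ((i + j) % n), C.ρ (σ ^ l) d := by
    unfold prim
    rw [cycIdx_mul σ hσ]
  have key : C.ρ g (prim C σ d h) - prim C σ d (g * h) + prim C σ d g
      = (∑ l ∈ Finset.range (i + j), C.ρ (σ ^ l) d)
        - ∑ l ∈ Finset.range ((i + j) % n), C.ρ (σ ^ l) d := by
    rw [← h2, h3]; abel
  rw [key]
  unfold stdCocFun
  simp only
  by_cases hc : n ≤ i + j
  · rw [if_pos hc]
    have e1 : (i + j) % n = i + j - n := by
      rw [Nat.mod_eq_sub_mod hc, Nat.mod_eq_of_lt (by omega)]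
    have e2 : i + j = n + (i + j - n) := by omega
    rw [e1]
    conv_lhs => rw [e2, Finset.sum_range_add]
    have e3 : ∀ l, C.ρ (σ ^ (n + l)) d = C.ρ (σ ^ l) d := by
      intro l
      rw [pow_add, hn, ← orderOf_eq_card σ hσ, pow_orderOf_eq_one, one_mul]
    simp only [e3]
    rw [Nat.add_sub_cancel_left, add_sub_cancel_right, subNorm_top_eq_range σ hσ]
  · rw [if_neg hc]
    have e1 : (i + j) % n = i + j := Nat.mod_eq_of_lt (by omega)
    rw [e1, sub_self]

/-- the norm of `b σ` from a primitive `b` -/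
lemma norm_of_prim (C : Rep ℤ G) (σ : G) (hσ : ∀ x : G, x ∈ Subgroup.zpowers σ)
    (c : C.V) (b : G → C.V) (h2 : 2 ≤ Nat.card G)
    (hb : ∀ g h : G, C.ρ g (b h) - b (g * h) + b g = stdCocFun σ c (g, h)) :
    subNorm C.ρ ⊤ (b σ) = c := by
  set n := Nat.card G with hn
  have hσ1 : cycIdx σ σ = 1 := by
    have := cycIdx_pow σ hσ 1
    rw [pow_one] at this
    rw [this]
    exact Nat.mod_eq_of_lt h2
  rw [subNorm_top_eq_range σ hσ]
  have h1 : ∀ l ∈ Finset.range n, C.ρ (σ ^ l) (b σ)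
      = stdCocFun σ c (σ ^ l, σ) + (b (σ ^ (l + 1)) - b (σ ^ l)) := by
    intro l _
    rw [← hb, pow_succ]
    abel
  rw [Finset.sum_congr rfl h1, Finset.sum_add_distrib, Finset.sum_range_sub
    (fun l => b (σ ^ l))]
  have h3 : σ ^ n = 1 := by
    rw [hn, ← orderOf_eq_card σ hσ, pow_orderOf_eq_one]
  rw [h3, pow_zero, sub_self, add_zero]
  have h4 : ∀ l ∈ Finset.range n, stdCocFun σ c (σ ^ l, σ) = if l = n - 1 then c else 0 := by
    intro l hl
    have hl' := Finset.mem_range.1 hl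
    unfold stdCocFun
    simp only
    rw [cycIdx_pow σ hσ, hσ1, Nat.mod_eq_of_lt hl']
    by_cases h : l = n - 1
    · rw [if_pos h, if_pos (by omega)]
    · rw [if_neg h, if_neg (by omega)]
  rw [Finset.sum_congr rfl h4, Finset.sum_ite_eq' (Finset.range n) (n - 1) (fun _ => c),
    if_pos (Finset.mem_range.2 (by omega))]

/-- **CYC-COC** -/
theorem cycCoc (G : Type) [Group G] [Finite G] : CycCocStatement G := by
  intro C σ hσ c hc
  refine ⟨stdCocFun_mem C σ hσ c hc, ?_⟩
  rw [show (H2π C).hom ⟨stdCocFun σ c, stdCocFun_mem C σ hσ c hc⟩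
      = H2π C ⟨stdCocFun σ c, stdCocFun_mem C σ hσ c hc⟩ from rfl, H2π_eq_zero_iff]
  constructor
  · intro hmem
    obtain ⟨b, hb⟩ := hmem
    have hb' : ∀ g h : G, C.ρ g (b h) - b (g * h) + b g = stdCocFun σ c (g, h) := by
      intro g h
      have := congrFun hb (g, h)
      simpa using this
    by_cases h2 : 2 ≤ Nat.card G
    · exact ⟨b σ, norm_of_prim C σ hσ c b h2 hb'⟩
    · have h1 : Nat.card G = 1 := by
        have := card_pos' (G := G); omega
      refine ⟨c, ?_⟩
      rw [subNorm_top_eq_range σ hσ, h1, Finset.sum_range_one, pow_zero, hc]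
  · rintro ⟨d, hd⟩
    refine ⟨prim C σ d, ?_⟩
    funext ⟨g, h⟩
    have := prim_d C σ hσ d g h
    rw [hd] at this
    simpa using this

end H9CC
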