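import Mathlib.NumberTheory.NumberField.Cyclotomic.Galois
import Mathlib.NumberTheory.NumberField.Cyclotomic.Ideal
import Mathlib.NumberTheory.RamificationInertia.Galois
import Mathlib.FieldTheory.Galois.IsGaloisGroup

/-!
# W2-C (S55) block C-FC, slice CYCLO-FROB (helper28): core

The decomposition law in the `p^M`-layer `F ⊂ ℚ(ζ_{p^{M+1}})`: for a prime `𝔮` of `F` over `r ≠ p`
with `N𝔮 = r^f`:  `r^{n(p-1)} ≡ 1 mod p^{M+1}` iff `f ∣ n`.

Proof: `K = ℚ(ζ_{p^{M+1}})`, `P ∣ 𝔮` a prime of `K`.  `f(P|r) = f(𝔮|r) f(P|𝔮)`,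
`f(P|r) = ord(r mod p^{M+1})` (Mathlib), `f(𝔮|r) ∣ [F:ℚ] = p^M`, `f(P|𝔮) ∣ [K:F] = p - 1`.
-/

set_option autoImplicit false
set_option linter.style.haveILetI false
set_option linter.unusedVariables false

noncomputable section

namespace H28CF

open NumberField Ideal

/-- the arithmetic core -/
theorem arith_core (p M r n f₁ f₂ : ℕ) (hp : p.Prime) (h1 : f₁ ∣ p ^ M) (h2 : f₂ ∣ p - 1)
    (hord : orderOf ((r : ZMod (p ^ (M + 1)))) = f₁ * f₂) :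
    (r ^ (n * (p - 1)) ≡ 1 [MOD p ^ (M + 1)] ↔ f₁ ∣ n) := by
  have hcop : Nat.Coprime (p ^ M) (p - 1) := by
    apply Nat.Coprime.pow_left
    rw [Nat.Prime.coprime_iff_not_dvd hp]
    intro h
    have := Nat.le_of_dvd (Nat.sub_pos_of_lt hp.one_lt) h
    have := hp.one_lt
    omega
  rw [← ZMod.natCast_eq_natCast_iff, Nat.cast_pow, Nat.cast_one, ← orderOf_dvd_iff_pow_eq_one,
    hord]
  constructor
  · intro h
    have h3 : f₁ ∣ n * (p - 1) := dvd_trans (dvd_mul_right f₁ f₂) h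
    exact (Nat.Coprime.coprime_dvd_left h1 hcop).dvd_of_dvd_mul_right h3
  · intro h
    exact Nat.mul_dvd_mul h h2

/-- in a Galois extension of rings with group `G`, inertia degrees divide `|G|` -/
theorem inertiaDeg_dvd_card {A : Type*} [CommRing A] [IsDomain A] (p : Ideal A) [p.IsPrime]
    (B : Type*) [CommRing B] [IsDomain B] [Algebra A B] [Module.Finite A B] [Module.Flat A B]
    (G : Type*) [Group G] [Finite G] [MulSemiringAction G B] [IsGaloisGroup G A B]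
    (P : Ideal B) [P.IsPrime] [P.LiesOver p] : P.inertiaDeg A ∣ Nat.card G := by
  rw [← Ideal.inertiaDegIn_eq_inertiaDeg p P G,
    ← Ideal.ncard_primesOver_mul_ramificationIdxIn_mul_inertiaDegIn p B G]
  exact ⟨(p.primesOver B).ncard * p.ramificationIdxIn B, by ring⟩

/-- a prime ideal of norm `r^f` lies over `r` and has inertia degree `f` -/
theorem liesOver_of_absNorm (F : Type) [Field F] [NumberField F] (𝔮 : Ideal (𝓞 F)) (r f : ℕ)
    (h𝔮 : 𝔮.IsPrime) (hr : r.Prime) (hN : Ideal.absNorm 𝔮 = r ^ f) :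
    𝔮.LiesOver (span {(r : ℤ)}) ∧ 𝔮.inertiaDeg ℤ = f := by
  have hmem : ((r ^ f : ℕ) : 𝓞 F) ∈ 𝔮 := hN ▸ Ideal.absNorm_mem 𝔮
  have hrmem : ((r : ℕ) : 𝓞 F) ∈ 𝔮 := by
    rw [Nat.cast_pow] at hmem
    exact h𝔮.mem_of_pow_mem f hmem
  haveI hmax : (span {(r : ℤ)}).IsMaximal :=
    (Int.prime_iff_natAbs_prime.mpr (by simpa using hr)).isMaximal_span_singleton
  have hlo : 𝔮.LiesOver (span {(r : ℤ)}) := by
    constructor
    refine (hmax.eq_of_le ?_ ?_)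
    · intro h
      have h1 : (1 : ℤ) ∈ 𝔮.under ℤ := h ▸ Submodule.mem_top
      rw [Ideal.mem_under] at h1  
      exact h𝔮.ne_top (𝔮.eq_top_of_isUnit_mem h1 (by simp))
    · rw [Ideal.span_singleton_le_iff_mem]
      show algebraMap ℤ (𝓞 F) (r : ℤ) ∈ 𝔮
      simpa using hrmem
  refine ⟨hlo, ?_⟩
  have hne : 𝔮 ≠ ⊥ := by
    rintro rfl
    rw [Ideal.absNorm_bot] at hN
    exact (pow_ne_zero f hr.ne_zero) hN.symm
  haveI : 𝔮.IsMaximal := h𝔮.isMaximal hne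
  have h1 := Ideal.absNorm_eq_pow_inertiaDeg' 𝔮 hr
  rw [hN] at h1
  have h2 := Nat.pow_right_injective hr.two_le h1
  rw [h2, Ideal.inertiaDeg'_eq_inertiaDeg]

theorem cycloFrob (p : ℕ) (F : Type) [Field F] [NumberField F] [IsGalois ℚ F] (M : ℕ)
    (hp : p.Prime) (hp2 : p ≠ 2) (hdeg : Module.finrank ℚ F = p ^ M)
    (hφ : Nonempty (F →ₐ[ℚ] CyclotomicField (p ^ (M + 1)) ℚ))
    (𝔮 : Ideal (𝓞 F)) (r f : ℕ) (h𝔮 : 𝔮.IsPrime) (hr : r.Prime) (hrp : r ≠ p)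
    (hN : Ideal.absNorm 𝔮 = r ^ f) (n : ℕ) :
    (r ^ (n * (p - 1)) ≡ 1 [MOD p ^ (M + 1)] ↔ f ∣ n) := by
  obtain ⟨φ⟩ := hφ
  haveI : NeZero (p ^ (M + 1)) := ⟨pow_ne_zero _ hp.ne_zero⟩
  haveI : NeZero (((p ^ (M + 1) : ℕ)) : ℚ) := ⟨Nat.cast_ne_zero.mpr (pow_ne_zero _ hp.ne_zero)⟩
  haveI : IsCyclotomicExtension {p ^ (M + 1)} ℚ (CyclotomicField (p ^ (M + 1)) ℚ) :=
    CyclotomicField.isCyclotomicExtension _ _
  letI : Algebra F (CyclotomicField (p ^ (M + 1)) ℚ) := φ.toRingHom.toAlgebra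
  haveI : IsScalarTower ℚ F (CyclotomicField (p ^ (M + 1)) ℚ) :=
    IsScalarTower.of_algebraMap_eq fun x => (φ.commutes x).symm
  haveI : IsGalois ℚ (CyclotomicField (p ^ (M + 1)) ℚ) :=
    IsCyclotomicExtension.isGalois {p ^ (M + 1)} ℚ _
  haveI : IsGalois F (CyclotomicField (p ^ (M + 1)) ℚ) := IsGalois.tower_top_of_isGalois ℚ F _
  haveI : FiniteDimensional F (CyclotomicField (p ^ (M + 1)) ℚ) :=
    FiniteDimensional.right ℚ F _
  obtain ⟨hlo, hf⟩ := liesOver_of_absNorm F 𝔮 r f h𝔮 hr hN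
  haveI := hlo
  haveI := h𝔮
  haveI : (span {(r : ℤ)}).IsPrime :=
    ((Int.prime_iff_natAbs_prime.mpr (by simpa using hr)).isMaximal_span_singleton).isPrime
  obtain ⟨⟨P, hP1, hP2⟩⟩ :=
    (inferInstance : Nonempty (primesOver 𝔮 (𝓞 (CyclotomicField (p ^ (M + 1)) ℚ))))
  haveI := hP1
  haveI := hP2
  haveI : P.LiesOver (span {(r : ℤ)}) := LiesOver.trans P 𝔮 _
  haveI : Fact r.Prime := ⟨hr⟩
  have hm : ¬ r ∣ p ^ (M + 1) := fun h =>
    hrp ((Nat.prime_dvd_prime_iff_eq hr hp).mp (hr.dvd_of_dvd_pow h))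
  have hK := IsCyclotomicExtension.Rat.inertiaDeg_eq_of_not_dvd r
    (CyclotomicField (p ^ (M + 1)) ℚ) P hm
  have htower := Ideal.inertiaDeg_tower (R := ℤ) 𝔮 P
  have hd1 : 𝔮.inertiaDeg ℤ ∣ Nat.card Gal(F/ℚ) :=
    inertiaDeg_dvd_card (span {(r : ℤ)}) (𝓞 F) Gal(F/ℚ) 𝔮
  have hd2 : P.inertiaDeg (𝓞 F) ∣ Nat.card Gal((CyclotomicField (p ^ (M + 1)) ℚ)/F) :=
    inertiaDeg_dvd_card 𝔮 (𝓞 (CyclotomicField (p ^ (M + 1)) ℚ)) Gal((CyclotomicField (p ^ (M + 1)) ℚ)/F) P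
  rw [IsGalois.card_aut_eq_finrank, hdeg] at hd1
  have hK2 : Module.finrank ℚ (CyclotomicField (p ^ (M + 1)) ℚ) = p ^ M * (p - 1) := by
    rw [IsCyclotomicExtension.finrank (n := p ^ (M + 1)) (CyclotomicField (p ^ (M + 1)) ℚ)
      (Polynomial.cyclotomic.irreducible_rat (NeZero.pos (p ^ (M + 1)))),
      Nat.totient_prime_pow_succ hp]
  have hK3 : Module.finrank F (CyclotomicField (p ^ (M + 1)) ℚ) = p - 1 := by
    have := Module.finrank_mul_finrank ℚ F (CyclotomicField (p ^ (M + 1)) ℚ)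
    rw [hdeg, hK2] at this
    exact Nat.eq_of_mul_eq_mul_left (pow_pos hp.pos M) this
  rw [IsGalois.card_aut_eq_finrank, hK3] at hd2
  rw [← hf]
  exact arith_core p M r n _ _ hp hd1 hd2 (by rw [← hK, htower])

end H28CF

end
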