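import Fermat.Agent.CFT2.C.CycloFrobCore_helper28
import Fermat.Agent.CFT2.C.Slices5_helper17

/-!
# W2-C (S55) block C-FC, slice CYCLO-FROB (helper28): `H17C.CycloFrobStatement`
-/

set_option autoImplicit false

namespace H28CF

/-- **CYCLO-FROB**: the decomposition law in the `p^M`-layer of `ℚ(ζ_{p^{M+1}})`. -/
theorem cycloFrobStatement : H17C.CycloFrobStatement :=
  fun p F _ _ _ M hp hp2 hdeg hφ 𝔮 r f h𝔮 hr hrp hN n =>
    cycloFrob p F M hp hp2 hdeg hφ 𝔮 r f h𝔮 hr hrp hN n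

end H28CF
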