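/-
W2-C (S55) block C-finite, FC route: slice FIELD-ISO (helper9).
`H9FI.fieldIso : H17C.FieldIsoStatement`: the class group `C_L = ClS S L` is functorial for
isomorphisms of number fields `φ : L ≃ₐ[ℚ] L'`, equivariantly for `AlgEquiv.autCongr φ`.
-/
import Fermat.Agent.CFT2.C.Slices5_helper17

set_option autoImplicit false
set_option linter.unusedSectionVars false
set_option linter.unusedVariables false

noncomputable section

namespace H9FI

open NumberField TensorProduct IsDedekindDomain H17C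
open scoped Pointwise WithZero

variable (S : Finset Nat.Primes)
variable {L L' : Type} [Field L] [NumberField L] [Field L'] [NumberField L']

/-- the isomorphism of rings of integers -/
def oEquiv (φ : L ≃ₐ[ℚ] L') : 𝓞 L ≃+* 𝓞 L' :=
  NumberField.RingOfIntegers.mapRingEquiv φ.toRingEquiv

theorem oEquiv_coe (φ : L ≃ₐ[ℚ] L') (x : 𝓞 L) : ((oEquiv φ x : 𝓞 L') : L') = φ (x : L) := rfl

theorem oEquiv_symm_coe (φ : L ≃ₐ[ℚ] L') (x : 𝓞 L') :
    (((oEquiv φ).symm x : 𝓞 L) : L) = φ.symm (x : L') := rfl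

/-- the map on primes outside `S` induced by a ring isomorphism of the rings of integers -/
def primesMap (e : 𝓞 L ≃+* 𝓞 L') (P : PrimesS S L) : PrimesS S L' :=
  ⟨P.1.comap (e.symm : 𝓞 L' →+* 𝓞 L), by
    obtain ⟨h1, h2, h3⟩ := P.2
    refine ⟨Ideal.comap_isPrime _ _, ?_, ?_⟩
    · intro h
      apply h2
      rw [eq_bot_iff]
      intro r hr
      have h4 : e r ∈ P.1.comap (e.symm : 𝓞 L' →+* 𝓞 L) := by
        rw [Ideal.mem_comap]
        simpa using hr
      rw [h] at h4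
      have h5 : e r = 0 := by simpa using h4
      have h6 : r = 0 := by
        have := congrArg e.symm h5
        simpa using this
      rw [h6]
      exact Submodule.zero_mem _
    · intro q hq hmem
      apply h3 q hq
      rw [Ideal.mem_comap] at hmem
      have e1 : (e.symm : 𝓞 L' →+* 𝓞 L) ((((q : ℕ) : ℤ) : 𝓞 L')) = (((q : ℕ) : ℤ) : 𝓞 L) :=
        map_intCast (e.symm : 𝓞 L' →+* 𝓞 L) _
      rwa [e1] at hmem⟩

theorem primesMap_coe (e : 𝓞 L ≃+* 𝓞 L') (P : PrimesS S L) :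
    (primesMap S e P).1 = P.1.comap (e.symm : 𝓞 L' →+* 𝓞 L) := rfl

theorem mem_primesMap (e : 𝓞 L ≃+* 𝓞 L') (P : PrimesS S L) (x : 𝓞 L') :
    x ∈ (primesMap S e P).1 ↔ e.symm x ∈ P.1 := Iff.rfl

/-- the bijection on primes outside `S` -/
def primesEquiv (e : 𝓞 L ≃+* 𝓞 L') : PrimesS S L ≃ PrimesS S L' where
  toFun := primesMap S e
  invFun := primesMap S e.symm
  left_inv P := by
    apply Subtype.ext
    ext x
    rw [mem_primesMap, mem_primesMap]
    simp
  right_inv P := by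
    apply Subtype.ext
    ext x
    rw [mem_primesMap, mem_primesMap]
    simp

theorem primesEquiv_apply (e : 𝓞 L ≃+* 𝓞 L') (P : PrimesS S L) :
    primesEquiv S e P = primesMap S e P := rfl

/-! ### valuations -/

theorem intVal_map (e : 𝓞 L ≃+* 𝓞 L') (v : HeightOneSpectrum (𝓞 L))
    (w : HeightOneSpectrum (𝓞 L'))
    (hvw : w.asIdeal = v.asIdeal.comap (e.symm : 𝓞 L' →+* 𝓞 L)) (r : 𝓞 L) :
    w.intValuation (e r) = v.intValuation r := by
  by_cases hr : r = 0
  · subst hr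
    simp
  have her : e r ≠ 0 := by
    intro h
    apply hr
    have := congrArg e.symm h
    simpa using this
  have key : ∀ n : ℕ, w.intValuation (e r) ≤ WithZero.exp (-(n : ℤ)) ↔
      v.intValuation r ≤ WithZero.exp (-(n : ℤ)) := by
    intro n
    rw [HeightOneSpectrum.intValuation_le_pow_iff_mem,
      HeightOneSpectrum.intValuation_le_pow_iff_mem, hvw]
    have e1 : (v.asIdeal.comap (e.symm : 𝓞 L' →+* 𝓞 L)) ^ n
        = (v.asIdeal ^ n).comap (e.symm : 𝓞 L' →+* 𝓞 L) := by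
      have h1 : ∀ I : Ideal (𝓞 L), I.comap (e.symm : 𝓞 L' →+* 𝓞 L) = I.map (e : 𝓞 L →+* 𝓞 L') :=
        fun I => Ideal.comap_symm e
      rw [h1, h1, Ideal.map_pow]
    rw [e1, Ideal.mem_comap]
    simp
  apply le_antisymm
  · exact h17c_val_le_of (HeightOneSpectrum.intValuation_ne_zero _ _ hr)
      (HeightOneSpectrum.intValuation_le_one _ _) (fun n hn => (key n).mpr hn)
  · exact h17c_val_le_of (HeightOneSpectrum.intValuation_ne_zero _ _ her)
      (HeightOneSpectrum.intValuation_le_one _ _) (fun n hn => (key n).mp hn)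

theorem val_map (φ : L ≃ₐ[ℚ] L') (v : HeightOneSpectrum (𝓞 L))
    (w : HeightOneSpectrum (𝓞 L'))
    (hvw : w.asIdeal = v.asIdeal.comap ((oEquiv φ).symm : 𝓞 L' →+* 𝓞 L)) (x : L) :
    w.valuation L' (φ x) = v.valuation L x := by
  obtain ⟨a, b, hb, rfl⟩ := IsFractionRing.div_surjective (A := 𝓞 L) x
  have e1 : φ (algebraMap (𝓞 L) L a / algebraMap (𝓞 L) L b) =
      algebraMap (𝓞 L') L' (oEquiv φ a) / algebraMap (𝓞 L') L' (oEquiv φ b) := by
    rw [map_div₀]
    rfl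
  rw [e1, map_div₀, map_div₀, HeightOneSpectrum.valuation_of_algebraMap,
    HeightOneSpectrum.valuation_of_algebraMap, HeightOneSpectrum.valuation_of_algebraMap,
    HeightOneSpectrum.valuation_of_algebraMap, intVal_map (oEquiv φ) v w hvw,
    intVal_map (oEquiv φ) v w hvw]

theorem ordP_map (φ : L ≃ₐ[ℚ] L') (P : PrimesS S L) (x : L) :
    ordP (primesEquiv S (oEquiv φ) P) (φ x) = ordP P x := by
  unfold ordP
  rw [val_map φ P.toHOS (primesEquiv S (oEquiv φ) P).toHOS rfl x]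

/-! ### the isomorphisms -/

/-- `L_S ≃ L'_S` -/
def ksIso (φ : L ≃ₐ[ℚ] L') : KS S L ≃ₐ[ℚ] KS S L' :=
  Algebra.TensorProduct.congr φ AlgEquiv.refl

theorem ksIso_tmul (φ : L ≃ₐ[ℚ] L') (x : L) (y : QS S) :
    ksIso S φ (tmulS S L x y) = tmulS S L' (φ x) y := rfl

/-- `I_L ≃ I_L'` -/
def ideleIso (φ : L ≃ₐ[ℚ] L') : (KS S L)ˣ ≃* (KS S L')ˣ :=
  Units.mapEquiv (ksIso S φ).toMulEquiv

theorem ideleIso_coe (φ : L ≃ₐ[ℚ] L') (u : (KS S L)ˣ) :
    ((ideleIso S φ u : (KS S L')ˣ) : KS S L') = ksIso S φ (u : KS S L) := rfl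

/-- `A_L ≃ A_L'` -/
def ambIso (φ : L ≃ₐ[ℚ] L') : AmbS S L ≃ₗ[ℤ] AmbS S L' :=
  LinearEquiv.prodCongr (ideleIso S φ).toAdditive.toIntLinearEquiv
    (Finsupp.domLCongr (primesEquiv S (oEquiv φ)))

theorem ambIso_fst (φ : L ≃ₐ[ℚ] L') (z : AmbS S L) :
    (ambIso S φ z).1 = Additive.ofMul (ideleIso S φ (Additive.toMul z.1)) := rfl

theorem ambIso_snd (φ : L ≃ₐ[ℚ] L') (z : AmbS S L) :
    (ambIso S φ z).2 = Finsupp.domLCongr (R := ℤ) (primesEquiv S (oEquiv φ)) z.2 := rfl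

theorem ambIso_snd_apply (φ : L ≃ₐ[ℚ] L') (z : AmbS S L) (P : PrimesS S L) :
    (ambIso S φ z).2 (primesEquiv S (oEquiv φ) P) = z.2 P := by
  rw [ambIso_snd, Finsupp.domLCongr_apply, Finsupp.domCongr_apply,
    Finsupp.equivMapDomain_apply, Equiv.symm_apply_apply]

/-- the unit `φ x` -/
def unitMap (φ : L ≃ₐ[ℚ] L') : Lˣ ≃* L'ˣ := Units.mapEquiv φ.toMulEquiv

theorem unitMap_coe (φ : L ≃ₐ[ℚ] L') (x : Lˣ) : ((unitMap φ x : L'ˣ) : L') = φ (x : L) := rfl

theorem ambIso_princHom (φ : L ≃ₐ[ℚ] L') (x : Lˣ) :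
    ambIso S φ (princHom S L (Additive.ofMul x))
      = princHom S L' (Additive.ofMul (unitMap φ x)) := by
  refine Prod.ext ?_ ?_
  · rw [ambIso_fst]
    apply congrArg Additive.ofMul
    apply Units.ext
    rfl
  · ext P'
    obtain ⟨P, rfl⟩ := (primesEquiv S (oEquiv φ)).surjective P'
    rw [ambIso_snd_apply]
    change divS S L (Additive.ofMul x) P = divS S L' (Additive.ofMul (unitMap φ x)) _
    rw [divS_apply, divS_apply]
    exact (ordP_map S φ P (x : L)).symm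

theorem map_princS (φ : L ≃ₐ[ℚ] L') :
    (princS S L).map ((ambIso S φ : AmbS S L ≃ₗ[ℤ] AmbS S L') : AmbS S L →ₗ[ℤ] AmbS S L')
      = princS S L' := by
  apply le_antisymm
  · rintro _ ⟨_, ⟨x, rfl⟩, rfl⟩
    exact ⟨Additive.ofMul (unitMap φ (Additive.toMul x)),
      (ambIso_princHom S φ (Additive.toMul x)).symm⟩
  · rintro _ ⟨x', rfl⟩
    refine ⟨princHom S L (Additive.ofMul ((unitMap φ).symm (Additive.toMul x'))), ⟨_, rfl⟩, ?_⟩
    have := ambIso_princHom S φ ((unitMap φ).symm (Additive.toMul x'))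
    rw [MulEquiv.apply_symm_apply] at this
    exact this

/-- `C_L ≃ C_L'` -/
def clsIso (φ : L ≃ₐ[ℚ] L') : ClS S L ≃ₗ[ℤ] ClS S L' :=
  Submodule.Quotient.equiv (princS S L) (princS S L') (ambIso S φ) (map_princS S φ)

theorem clsIso_mk (φ : L ≃ₐ[ℚ] L') (z : AmbS S L) :
    clsIso S φ (clsMk S L z) = clsMk S L' (ambIso S φ z) := rfl

/-! ### equivariance -/

theorem autCongr_apply' (φ : L ≃ₐ[ℚ] L') (g : L ≃ₐ[ℚ] L) (x : L) :
    (AlgEquiv.autCongr φ g) (φ x) = φ (g x) := by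
  simp [AlgEquiv.autCongr]

theorem ksIso_ksAut (φ : L ≃ₐ[ℚ] L') (g : L ≃ₐ[ℚ] L) (z : KS S L) :
    ksIso S φ (ksAut S ℚ L g z) = ksAut S ℚ L' (AlgEquiv.autCongr φ g) (ksIso S φ z) := by
  induction z using ks_induction with
  | zero => simp only [map_zero]
  | tmul x y =>
    rw [ksAut_tmul, ksIso_tmul, ksIso_tmul, ksAut_tmul, autCongr_apply']
  | add a b ha hb => simp only [map_add, ha, hb]

theorem primes_smul (φ : L ≃ₐ[ℚ] L') (g : L ≃ₐ[ℚ] L) (P : PrimesS S L) :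
    primesEquiv S (oEquiv φ) (g • P)
      = (AlgEquiv.autCongr φ g) • primesEquiv S (oEquiv φ) P := by
  apply Subtype.ext
  ext x
  rw [primesEquiv_apply, mem_primesMap, smul_primesS_coe, smul_primesS_coe,
    Ideal.mem_pointwise_smul_iff_inv_smul_mem, Ideal.mem_pointwise_smul_iff_inv_smul_mem,
    primesEquiv_apply, mem_primesMap]
  have e1 : g⁻¹ • (oEquiv φ).symm x = (oEquiv φ).symm ((AlgEquiv.autCongr φ g)⁻¹ • x) := by
    apply Subtype.ext
    change g⁻¹ (φ.symm (x : L')) = φ.symm ((AlgEquiv.autCongr φ g)⁻¹ (x : L'))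
    have h1 : (AlgEquiv.autCongr φ g)⁻¹ = AlgEquiv.autCongr φ g⁻¹ := (map_inv _ g).symm
    rw [h1]
    have h2 := autCongr_apply' φ g⁻¹ (φ.symm (x : L'))
    rw [AlgEquiv.apply_symm_apply] at h2
    rw [h2, AlgEquiv.symm_apply_apply]
  rw [e1]

theorem ambIso_ambRep (φ : L ≃ₐ[ℚ] L') (g : L ≃ₐ[ℚ] L) (z : AmbS S L) :
    ambIso S φ (ambRep S ℚ L g z) = ambRep S ℚ L' (AlgEquiv.autCongr φ g) (ambIso S φ z) := by
  rw [ambRep_apply, ambRep_apply]
  refine Prod.ext ?_ ?_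
  · change Additive.ofMul (ideleIso S φ (g • Additive.toMul z.1))
      = Additive.ofMul ((AlgEquiv.autCongr φ g) • ideleIso S φ (Additive.toMul z.1))
    apply congrArg Additive.ofMul
    apply Units.ext
    rw [ideleIso_coe, ideleAct_coe, ideleAct_coe, ideleIso_coe]
    exact ksIso_ksAut S φ g _
  · change Finsupp.domLCongr (R := ℤ) (primesEquiv S (oEquiv φ)) (divRep S ℚ L g z.2)
      = divRep S ℚ L' (AlgEquiv.autCongr φ g)
          (Finsupp.domLCongr (R := ℤ) (primesEquiv S (oEquiv φ)) z.2)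
    induction z.2 using Finsupp.induction_linear with
    | zero => simp only [map_zero]
    | add a b ha hb => simp only [map_add, ha, hb]
    | single P n =>
      rw [divRep_single, Finsupp.domLCongr_single, Finsupp.domLCongr_single, divRep_single,
        primes_smul]

/-- **FIELD-ISO** -/
theorem fieldIso : FieldIsoStatement := by
  intro S L L' _ _ _ _ φ
  refine ⟨(clsIso S φ).toAddEquiv, ?_⟩
  intro g b
  obtain ⟨z, rfl⟩ := clsMk_surjective S L b
  change clsIso S φ (clsRep S ℚ L g (clsMk S L z))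
    = clsRep S ℚ L' (AlgEquiv.autCongr φ g) (clsIso S φ (clsMk S L z))
  rw [clsRep_mk, clsIso_mk, clsIso_mk, clsRep_mk, ambIso_ambRep]

end H9FI
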