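/-
W2-C (S55) block C-finite, slice NL (helper20), part 1: NL-ABS, the pure algebra of the norm
limitation.  `T = relNorm_{N_L} : C^{N_L}/N_{N_L} C → C^Γ / relNorm_{N_M}(C^{N_M})` is injective as soon
as the source has at most `p^b` elements and some `T(y₁)` has order `≥ p^b`.
-/
import Fermat.Agent.CFT2.C.Slices4_helper17
import Fermat.Agent.CFT2.C.Gen_helper20

set_option autoImplicit false
set_option linter.style.haveILetI false
set_option linter.unusedSectionVars false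
set_option linter.unusedVariables false

noncomputable section

namespace H20NL

open H17C

variable {Γ : Type} [Group Γ] [Finite Γ] {V : Type} [AddCommGroup V] {mV : Module ℤ V}
  (ρ : @Representation ℤ Γ V _ _ _ mV)

/-- the norm of the whole group -/
def fullNorm (x : V) : V :=
  letI : Fintype Γ := Fintype.ofFinite _
  ∑ g : Γ, ρ g x

theorem h20nl_fullNorm_eq [Fintype Γ] (x : V) : fullNorm ρ x = ∑ g : Γ, ρ g x := by
  unfold fullNorm
  exact Finset.sum_congr (by ext; simp) (fun _ _ => rfl)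

theorem h20nl_relNorm_eq (N : Subgroup Γ) [Fintype (Γ ⧸ N)] (w : V) :
    relNorm ρ N w = ∑ q : Γ ⧸ N, ρ (Quotient.out q) w := by
  unfold relNorm
  exact Finset.sum_congr (by ext; simp) (fun _ _ => rfl)

theorem h20nl_subNorm_eq (N : Subgroup Γ) [Fintype N] (x : V) :
    subNorm ρ N x = ∑ n : N, ρ (n : Γ) x := by
  unfold subNorm
  exact Finset.sum_congr (by ext; simp) (fun _ _ => rfl)

theorem h20nl_relNorm_add (N : Subgroup Γ) (v w : V) :
    relNorm ρ N (v + w) = relNorm ρ N v + relNorm ρ N w := by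
  letI : Fintype (Γ ⧸ N) := Fintype.ofFinite _
  simp only [h20nl_relNorm_eq, map_add, Finset.sum_add_distrib]

theorem h20nl_relNorm_zero (N : Subgroup Γ) : relNorm ρ N 0 = 0 := by
  letI : Fintype (Γ ⧸ N) := Fintype.ofFinite _
  simp only [h20nl_relNorm_eq, map_zero, Finset.sum_const_zero]

theorem h20nl_subNorm_add (N : Subgroup Γ) (v w : V) :
    subNorm ρ N (v + w) = subNorm ρ N v + subNorm ρ N w := by
  letI : Fintype N := Fintype.ofFinite _
  simp only [h20nl_subNorm_eq, map_add, Finset.sum_add_distrib]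

theorem h20nl_subNorm_zero (N : Subgroup Γ) : subNorm ρ N 0 = 0 := by
  letI : Fintype N := Fintype.ofFinite _
  simp only [h20nl_subNorm_eq, map_zero, Finset.sum_const_zero]

/-- `relNorm` as an additive map -/
def relNormHom (N : Subgroup Γ) : V →+ V where
  toFun := relNorm ρ N
  map_zero' := h20nl_relNorm_zero ρ N
  map_add' := h20nl_relNorm_add ρ N

/-- `subNorm` as an additive map -/
def subNormHom (N : Subgroup Γ) : V →+ V where
  toFun := subNorm ρ N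
  map_zero' := h20nl_subNorm_zero ρ N
  map_add' := h20nl_subNorm_add ρ N

theorem h20nl_relNormHom_apply (N : Subgroup Γ) (w : V) : relNormHom ρ N w = relNorm ρ N w := rfl

theorem h20nl_subNormHom_apply (N : Subgroup Γ) (w : V) : subNormHom ρ N w = subNorm ρ N w := rfl

/-- the invariants of a subgroup, as an additive subgroup -/
def invSub (N : Subgroup Γ) : AddSubgroup V where
  carrier := {v | ∀ n ∈ N, ρ n v = v}
  zero_mem' := fun n _ => map_zero _
  add_mem' := fun {a b} ha hb n hn => by rw [map_add, ha n hn, hb n hn]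
  neg_mem' := fun {a} ha n hn => by rw [map_neg, ha n hn]

theorem h20nl_mem_invSub (N : Subgroup Γ) (v : V) : v ∈ invSub ρ N ↔ ∀ n ∈ N, ρ n v = v :=
  Iff.rfl

/-- the stabilizer of a vector -/
def fixSub (y : V) : Subgroup Γ where
  carrier := {g | ρ g y = y}
  one_mem' := by
    change ρ 1 y = y
    rw [map_one]
    rfl
  mul_mem' := fun {a b} ha hb => by
    change ρ (a * b) y = y
    rw [map_mul, Module.End.mul_apply, (show ρ b y = y from hb), (show ρ a y = y from ha)]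
  inv_mem' := fun {a} ha => by
    change ρ a⁻¹ y = y
    have h : ρ a y = y := ha
    calc ρ a⁻¹ y = ρ a⁻¹ (ρ a y) := by rw [h]
      _ = (ρ a⁻¹ * ρ a) y := rfl
      _ = y := by rw [← map_mul, inv_mul_cancel, map_one]; rfl

theorem h20nl_mem_fixSub (y : V) (g : Γ) : g ∈ fixSub ρ y ↔ ρ g y = y := Iff.rfl

/-- the norm of a subgroup is invariant -/
theorem h20nl_subNorm_inv (N : Subgroup Γ) (x : V) (n : Γ) (hn : n ∈ N) :
    ρ n (subNorm ρ N x) = subNorm ρ N x := by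
  letI : Fintype N := Fintype.ofFinite _
  rw [h20nl_subNorm_eq, map_sum]
  refine Fintype.sum_equiv (Equiv.mulLeft (⟨n, hn⟩ : N)) _ _ fun m => ?_
  change ρ n (ρ (m : Γ) x) = ρ ((⟨n, hn⟩ * m : N) : Γ) x
  rw [Subgroup.coe_mul, map_mul]
  rfl

theorem h20nl_subNorm_mem_invSub (N : Subgroup Γ) (x : V) : subNorm ρ N x ∈ invSub ρ N :=
  fun n hn => h20nl_subNorm_inv ρ N x n hn

/-- the norm of a subgroup on an invariant element -/
theorem h20nl_subNorm_of_inv (N : Subgroup Γ) (y : V) (hy : ∀ n ∈ N, ρ n y = y) :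
    subNorm ρ N y = Nat.card N • y := by
  letI : Fintype N := Fintype.ofFinite _
  rw [h20nl_subNorm_eq, Finset.sum_congr rfl (fun (n : N) _ => hy (n : Γ) n.2), Finset.sum_const,
    Finset.card_univ, Nat.card_eq_fintype_card]

/-- the relative norm on an invariant element -/
theorem h20nl_relNorm_of_inv (N : Subgroup Γ) (c : V) (hc : ∀ g, ρ g c = c) :
    relNorm ρ N c = Nat.card (Γ ⧸ N) • c := by
  letI : Fintype (Γ ⧸ N) := Fintype.ofFinite _
  rw [h20nl_relNorm_eq, Finset.sum_congr rfl (fun (q : Γ ⧸ N) _ => hc (Quotient.out q)),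
    Finset.sum_const, Finset.card_univ, Nat.card_eq_fintype_card]

/-- the bijection `(Γ/N) × N ≃ Γ`, `(q, n) ↦ q.out * n` -/
def outMulEquiv (N : Subgroup Γ) : (Γ ⧸ N) × N ≃ Γ where
  toFun qn := Quotient.out qn.1 * (qn.2 : Γ)
  invFun g := ((g : Γ ⧸ N), ⟨(Quotient.out (g : Γ ⧸ N))⁻¹ * g,
    QuotientGroup.leftRel_apply.mp (Quotient.exact' (QuotientGroup.out_eq' (g : Γ ⧸ N)))⟩)
  left_inv := by
    rintro ⟨q, n⟩
    have h1 : ((Quotient.out q * (n : Γ) : Γ) : Γ ⧸ N) = q := by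
      rw [QuotientGroup.mk_mul_of_mem _ n.2]
      exact QuotientGroup.out_eq' q
    refine Prod.ext h1 (Subtype.ext ?_)
    change (Quotient.out ((Quotient.out q * (n : Γ) : Γ) : Γ ⧸ N))⁻¹ * (Quotient.out q * (n : Γ)) = n
    rw [h1, inv_mul_cancel_left]
  right_inv := by
    intro g
    change Quotient.out (g : Γ ⧸ N) * ((Quotient.out (g : Γ ⧸ N))⁻¹ * g) = g
    rw [mul_inv_cancel_left]

/-- transitivity of the norm: `relNorm_N ∘ subNorm_N = N_Γ` -/
theorem h20nl_relNorm_subNorm (N : Subgroup Γ) (x : V) :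
    relNorm ρ N (subNorm ρ N x) = fullNorm ρ x := by
  classical
  letI : Fintype Γ := Fintype.ofFinite _
  letI : Fintype N := Fintype.ofFinite _
  letI : Fintype (Γ ⧸ N) := Fintype.ofFinite _
  rw [h20nl_relNorm_eq, h20nl_fullNorm_eq]
  simp only [h20nl_subNorm_eq, map_sum]
  rw [← Finset.sum_product', Finset.univ_product_univ]
  refine Fintype.sum_equiv (outMulEquiv N) _ _ fun qn => ?_
  change ρ (Quotient.out qn.1) (ρ (qn.2 : Γ) x) = ρ (Quotient.out qn.1 * (qn.2 : Γ)) x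
  rw [map_mul]
  rfl

theorem h20nl_relNorm_nsmul (N : Subgroup Γ) (k : ℕ) (w : V) :
    relNorm ρ N (k • w) = k • relNorm ρ N w :=
  map_nsmul (relNormHom ρ N) k w

theorem h20nl_subNorm_zsmul (N : Subgroup Γ) (k : ℤ) (w : V) :
    subNorm ρ N (k • w) = k • subNorm ρ N w :=
  map_zsmul (subNormHom ρ N) k w

theorem h20nl_relNorm_zsmul (N : Subgroup Γ) (k : ℤ) (w : V) :
    relNorm ρ N (k • w) = k • relNorm ρ N w :=
  map_zsmul (relNormHom ρ N) k w

theorem h20nl_relNorm_sub (N : Subgroup Γ) (v w : V) :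
    relNorm ρ N (v - w) = relNorm ρ N v - relNorm ρ N w :=
  map_sub (relNormHom ρ N) v w

theorem h20nl_relNorm_neg (N : Subgroup Γ) (v : V) :
    relNorm ρ N (-v) = -relNorm ρ N v :=
  map_neg (relNormHom ρ N) v

/-- **NL-ABS, injectivity**: if `[C^{N_L} : N_{N_L} C] ≤ n`, `|N_L| = n` and `y₁ ∈ C^{N_L}` is such
that `k • T(y₁) ∈ relNorm_{N_M}(C^{N_M})` implies `n ∣ k`, then every `y ∈ C^{N_L}` with
`T(y) ∈ relNorm_{N_M}(C^{N_M})` is a norm from `N_L`. -/
theorem h20nl_inj (NL NM : Subgroup Γ) (n : ℕ) (hn : Nat.card NL = n)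
    (hI1 : ((subNormHom ρ NL).range).relIndex (invSub ρ NL) ≠ 0 ∧
      ((subNormHom ρ NL).range).relIndex (invSub ρ NL) ≤ n)
    (y₁ : V) (hy₁ : ∀ g ∈ NL, ρ g y₁ = y₁)
    (hI2 : ∀ k : ℕ, (∃ w : V, (∀ g ∈ NM, ρ g w = w) ∧ k • relNorm ρ NL y₁ = relNorm ρ NM w) →
      n ∣ k)
    (y : V) (hy : ∀ g ∈ NL, ρ g y = y)
    (hTy : ∃ w : V, (∀ g ∈ NM, ρ g w = w) ∧ relNorm ρ NL y = relNorm ρ NM w) :
    ∃ x : V, y = subNorm ρ NL x := by
  classical
  -- the quotient `Q = C^{N_L} / N C`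
  set Inv := invSub ρ NL with hInv
  set Nrm := ((subNormHom ρ NL).range).addSubgroupOf Inv with hNrm
  haveI hfin : Finite (Inv ⧸ Nrm) := by
    have h : Nrm.index ≠ 0 := hI1.1
    exact Nat.finite_of_card_ne_zero (by rwa [← AddSubgroup.index_eq_card])
  have hcard : Nat.card (Inv ⧸ Nrm) ≤ n := by
    rw [← AddSubgroup.index_eq_card]
    exact hI1.2
  -- integer multiples of `T(y₁)` which are norms
  have hI2z : ∀ k : ℤ, (∃ w : V, (∀ g ∈ NM, ρ g w = w) ∧
      k • relNorm ρ NL y₁ = relNorm ρ NM w) → (n : ℤ) ∣ k := by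
    intro k ⟨w, hw, hk⟩
    rcases Int.natAbs_eq k with h | h
    · rw [h]
      apply Int.natCast_dvd_natCast.mpr
      apply hI2
      refine ⟨w, hw, ?_⟩
      rw [← hk]
      conv_rhs => rw [h]
      rw [natCast_zsmul]
    · rw [h]
      apply (Int.dvd_neg).mpr
      apply Int.natCast_dvd_natCast.mpr
      apply hI2
      refine ⟨-w, fun g hg => by rw [map_neg, hw g hg], ?_⟩
      rw [h20nl_relNorm_neg, ← hk]
      conv_rhs => rw [h]
      rw [neg_zsmul, neg_neg, natCast_zsmul]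
  -- norms from `N_L` go to norms from `N_M`
  have hT : ∀ x : V, ∃ w : V, (∀ g ∈ NM, ρ g w = w) ∧
      relNorm ρ NL (subNorm ρ NL x) = relNorm ρ NM w := by
    intro x
    exact ⟨subNorm ρ NM x, fun g hg => h20nl_subNorm_inv ρ NM x g hg, by
      rw [h20nl_relNorm_subNorm, h20nl_relNorm_subNorm]⟩
  set ybar : Inv ⧸ Nrm := QuotientAddGroup.mk (⟨y₁, hy₁⟩ : Inv) with hybar
  have hmem : ∀ (k : ℤ) (z : Inv), (QuotientAddGroup.mk z : Inv ⧸ Nrm) = k • ybar →
      ∃ x : V, (z : V) = k • y₁ + subNorm ρ NL x := by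
    intro k z hz
    have h1 : (QuotientAddGroup.mk (z - k • (⟨y₁, hy₁⟩ : Inv)) : Inv ⧸ Nrm) = 0 := by
      rw [QuotientAddGroup.mk_sub, QuotientAddGroup.mk_zsmul, hz, sub_self]
    rw [QuotientAddGroup.eq_zero_iff] at h1
    obtain ⟨x, hx⟩ := (AddSubgroup.mem_addSubgroupOf.mp h1 : _ ∈ (subNormHom ρ NL).range)
    refine ⟨x, ?_⟩
    have hx' : subNorm ρ NL x = (z : V) - k • y₁ := by
      rw [← h20nl_subNormHom_apply, hx]
      simp
    rw [hx']
    abel
  have hord : ∀ m : ℕ, m • ybar = 0 → n ∣ m := by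
    intro m hm
    obtain ⟨x, hx⟩ := hmem 0 (m • (⟨y₁, hy₁⟩ : Inv)) (by
      rw [zero_zsmul, QuotientAddGroup.mk_nsmul]
      exact hm)
    apply hI2
    obtain ⟨w, hw, hw'⟩ := hT x
    refine ⟨w, hw, ?_⟩
    rw [← hw', ← h20nl_relNorm_nsmul]
    congr 1
    simpa using hx
  obtain ⟨-, hgen⟩ := H20GEN.h20gen_cyclic n hcard ybar hord
  obtain ⟨k, hk⟩ := hgen (QuotientAddGroup.mk (⟨y, hy⟩ : Inv))
  obtain ⟨x, hx⟩ := hmem k ⟨y, hy⟩ hk
  change y = k • y₁ + subNorm ρ NL x at hx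
  obtain ⟨w, hw, hw'⟩ := hTy
  obtain ⟨w₂, hw₂, hw₂'⟩ := hT x
  have hdvd : (n : ℤ) ∣ k := by
    apply hI2z
    refine ⟨w - w₂, fun g hg => by rw [map_sub, hw g hg, hw₂ g hg], ?_⟩
    rw [h20nl_relNorm_sub, ← hw', ← hw₂', ← h20nl_relNorm_zsmul, ← h20nl_relNorm_sub]
    congr 1
    rw [hx]
    abel
  obtain ⟨t, ht⟩ := hdvd
  refine ⟨t • y₁ + x, ?_⟩
  rw [h20nl_subNorm_add, h20nl_subNorm_zsmul, h20nl_subNorm_of_inv ρ NL y₁ hy₁, hn, hx, ht,
    mul_comm, mul_zsmul, natCast_zsmul]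

/-- **NL-ABS**: the norm limitation, abstract form. -/
theorem h20nl_abs (NL NM : Subgroup Γ) (p M a m' b : ℕ)
    (hcardM : Nat.card (Γ ⧸ NM) = p ^ M) (hcardL : Nat.card (Γ ⧸ NL) = p ^ a * m') (ha : a ≤ M)
    (hb : Nat.card NL = p ^ b)
    (hI1 : ((subNormHom ρ NL).range).relIndex (invSub ρ NL) ≠ 0 ∧
      ((subNormHom ρ NL).range).relIndex (invSub ρ NL) ≤ p ^ b)
    (hI2 : ∃ y₁ : V, (∀ g ∈ NL, ρ g y₁ = y₁) ∧
      ∀ k : ℕ, (∃ w : V, (∀ g ∈ NM, ρ g w = w) ∧ k • relNorm ρ NL y₁ = relNorm ρ NM w) →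
        p ^ b ∣ k)
    (c₀ : V) (hc₀ : ∀ g, ρ g c₀ = c₀) :
    ∃ x : V, p ^ (M - a) • c₀ = subNorm ρ NL x := by
  obtain ⟨y₁, hy₁, hy₁'⟩ := hI2
  have hinv : ∀ (k : ℕ) (g : Γ), ρ g (k • c₀) = k • c₀ := fun k g => by
    rw [map_nsmul, hc₀ g]
  refine h20nl_inj ρ NL NM (p ^ b) hb hI1 y₁ hy₁ hy₁' (p ^ (M - a) • c₀)
    (fun g _ => hinv _ g) ⟨m' • c₀, fun g _ => hinv _ g, ?_⟩
  rw [h20nl_relNorm_of_inv ρ NL _ (hinv _), h20nl_relNorm_of_inv ρ NM _ (hinv _), hcardM, hcardL,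
    ← mul_nsmul, ← mul_nsmul]
  congr 1
  have : p ^ M = p ^ (M - a) * p ^ a := by rw [← pow_add, Nat.sub_add_cancel ha]
  rw [this]
  ring

end H20NL
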