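/-
W2-C (S55) block C-finite, slice NL (helper20), part 2: NL-CARD.
`[C^{N_L} : N_{N_L} C] = |H²(N_L, C)| ≤ |N_L|` for a cyclic `N_L` (CM + the cyclic case).
-/
import Fermat.Agent.CFT2.C.NLAbs_helper20
import Fermat.Agent.CFT2.C.Cyc_helper25
import Fermat.Agent.CFT2.C.Slices5_helper17

set_option autoImplicit false
set_option linter.style.haveILetI false
set_option linter.unusedSectionVars false
set_option linter.unusedVariables false

noncomputable section

namespace H20NL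

open NumberField CategoryTheory H17C

variable (S : Finset Nat.Primes) (Ω : Type) [Field Ω] [NumberField Ω]

theorem h20nl_clsN_eq (H : Subgroup (AutQ Ω)) [Finite H] (x : ClS S Ω) :
    clsN S Ω H x = subNorm (clsRep S ℚ Ω) H x := by
  letI : Fintype H := Fintype.ofFinite H
  change (∑ h : H, clsRep S ℚ Ω (h : AutQ Ω)) x = _
  rw [LinearMap.sum_apply]
  rfl

/-- **NL-CARD** -/
theorem h20nl_card [Finite (AutQ Ω)] (NL : Subgroup (AutQ Ω)) (n : ℕ) (τ : NL)
    (hτ : ∀ x : NL, x ∈ Subgroup.zpowers τ)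
    (hfin : Finite (groupCohomology (H20A.resSub (clsObj S ℚ Ω) NL) 2))
    (hle : Nat.card (groupCohomology (H20A.resSub (clsObj S ℚ Ω) NL) 2) ≤ n) :
    ((subNormHom (clsRep S ℚ Ω) NL).range).relIndex (invSub (clsRep S ℚ Ω) NL) ≠ 0 ∧
      ((subNormHom (clsRep S ℚ Ω) NL).range).relIndex (invSub (clsRep S ℚ Ω) NL) ≤ n := by
  have hNx : ∀ x : ClS S Ω, clsN S Ω NL x = ∑ᶠ g : NL, clsRep S ℚ Ω (g : AutQ Ω) x := by
    intro x
    letI : Fintype NL := Fintype.ofFinite NL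
    rw [finsum_eq_sum_of_fintype]
    change (∑ h : NL, clsRep S ℚ Ω (h : AutQ Ω)) x = _
    rw [LinearMap.sum_apply]
  have key := (H25C.card_coh_cyclic (H20A.resSub (clsObj S ℚ Ω) NL) τ hτ
    (clsD S Ω (τ : AutQ Ω)) (clsN S Ω NL) (fun x => rfl) (fun x => hNx x)).1
  have h1 : (clsN S Ω NL).range = (subNormHom (clsRep S ℚ Ω) NL).range := by
    ext y
    constructor
    · rintro ⟨x, rfl⟩
      exact ⟨x, (h20nl_clsN_eq S Ω NL x).symm⟩
    · rintro ⟨x, rfl⟩
      exact ⟨x, h20nl_clsN_eq S Ω NL x⟩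
  have h2 : (clsD S Ω (τ : AutQ Ω)).ker = invSub (clsRep S ℚ Ω) NL := by
    ext y
    rw [AddMonoidHom.mem_ker, h20nl_mem_invSub]
    have hD : clsD S Ω (τ : AutQ Ω) y = clsRep S ℚ Ω (τ : AutQ Ω) y - y := rfl
    rw [hD, sub_eq_zero]
    constructor
    · intro h g hg
      obtain ⟨k, hk⟩ := Subgroup.mem_zpowers_iff.1 (hτ ⟨g, hg⟩)
      have hk' : g = (τ : AutQ Ω) ^ k := by
        have := congrArg Subtype.val hk
        simpa using this.symm
      rw [hk']
      exact (Subgroup.zpow_mem (fixSub (clsRep S ℚ Ω) y) (show (τ : AutQ Ω) ∈ fixSub _ y from h) k)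
    · intro h
      exact h _ τ.2
  have key' : Nat.card (groupCohomology (H20A.resSub (clsObj S ℚ Ω) NL) 2) =
      (clsN S Ω NL).range.relIndex (clsD S Ω (τ : AutQ Ω)).ker := key
  rw [h1, h2] at key'
  rw [← key']
  exact ⟨Nat.card_pos.ne', hle⟩

end H20NL
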