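/-
W2-C (S55) block C-finite, slice NL (norm limitation, owner helper20): SUB-SLICES.
`H17C.NormLimStatement` is assembled (by helper20, file `NL_helper20.lean`) from
  NL-ABS  (pure algebra, helper20),  NL-CARD (CM + cyclic groups, helper20),  NL-TRANS (TR, helper20),
  NL-INERT `H20NL.InertStatement`       (a prime of `Ω` whose decomposition group is `N_L`; uses NS),
  CYCLO-PRIME `H20NL.CycloPrimeStatement` (the class of a prime `r` modulo norms from the `p^M`-layer),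
  CYCLO-FROB `H17C.CycloFrobStatement` (helper28) and NL-DEG `H20NL.DegStatement`.
Nothing here is proved by a placeholder.
-/
import Fermat.Agent.CFT2.C.Slices5_helper17

set_option autoImplicit false
set_option linter.unusedSectionVars false
set_option linter.unusedVariables false

noncomputable section

namespace H20NL

open NumberField H17C

/-- **(NL-INERT)** for a nontrivial cyclic `p`-subgroup `N_L ≤ Aut(Ω)` (`Ω/ℚ` Galois, unramified
outside `S`) there is a prime `Q` of `Ω` outside `S` whose decomposition group (over `ℚ`) is exactly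
`N_L`.  (NS `H17AN.h17an_nonSplitPrimeExists` for `Ω^{N_L^p} / Ω^{N_L}`, `D = m_S`: a prime `P` of
`L = Ω^{N_L}` of prime norm `r ∤ m_S`, not split completely in the first layer; `Q | P`:
`D(Q|r) ≤ N_L` since `f(P|r) = 1`, and `D(Q|P) ⊄ N_L^p`, so `D(Q|P) = N_L`.) -/
def InertStatement : Prop :=
  ∀ (p : ℕ) (S : Finset Nat.Primes) (Ω : Type) [Field Ω] [NumberField Ω] [IsGalois ℚ Ω]
    (NL : Subgroup (AutQ Ω)),
    p.Prime → UnramOutside S Ω ⊤ → IsCyclic NL → IsPGroup p NL → NL ≠ ⊥ →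
    ∃ Q : PrimesS S Ω, MulAction.stabilizer (AutQ Ω) Q = NL

/-- **(CYCLO-PRIME)** in the `p^M`-layer `F` of the cyclotomic `ℤ_p`-extension: if `k` times the
class of (the pull-back to `F` of) a prime `P = (r)` of `ℚ` outside `S` is a norm from `C_F`, then
`r^{2k(p-1)} ≡ 1 mod p^{M+1}`.
(= helper3's `H3C.h3c_psi_norm` applied to `w = (0, k • single P 1)`, `ψ(w) = r^{-k}`.) -/
def CycloPrimeStatement : Prop :=
  ∀ (p : ℕ) (S : Finset Nat.Primes) (F : Type) [Field F] [NumberField F] [IsGalois ℚ F] (M : ℕ),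
    p.Prime → p ≠ 2 → (∃ q ∈ S, (q : ℕ) = p) → Module.finrank ℚ F = p ^ M →
    Nonempty (F →ₐ[ℚ] CyclotomicField (p ^ (M + 1)) ℚ) →
    ∀ (r : ℕ) (P : PrimesS S ℚ), r.Prime → ((r : ℤ) : 𝓞 ℚ) ∈ P.1 →
      ∀ k : ℕ, k • clsMk S F (ambBase S ℚ F (0, Finsupp.single P 1)) ∈ (clsN S F ⊤).range →
        r ^ (2 * k * (p - 1)) ≡ 1 [MOD p ^ (M + 1)]

/-- **(NL-DEG)** the residue degree in `F = Ω^N` of a prime `Q` of `Ω` (outside `S`, `Ω/ℚ`
unramified outside `S`) whose decomposition group `D` meets `N` trivially is `|D|`: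
`N(Q ∩ F) = r^{|D|}`.
(`|D| = |I| f(Q|r) = f(Q|r)`, `1 = |D ∩ N| = f(Q | Q ∩ F)`, multiplicativity of `f`;
Mathlib `Ideal.card_stabilizer_eq_card_inertia_mul_finrank`, `Ideal.inertiaDeg_algebra_tower`,
`Ideal.absNorm_eq_pow_inertiaDeg`.) -/
def DegStatement : Prop :=
  ∀ (S : Finset Nat.Primes) (Ω : Type) [Field Ω] [NumberField Ω] [IsGalois ℚ Ω]
    (N : Subgroup (AutQ Ω)) [N.Normal] (Q : PrimesS S Ω) (r : ℕ),
    UnramOutside S Ω ⊤ → r.Prime → ((r : ℤ) : 𝓞 Ω) ∈ Q.1 →
    MulAction.stabilizer (AutQ Ω) Q ⊓ N = ⊥ →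
    Ideal.absNorm (PrimesS.under S (IntermediateField.fixedField N) Ω Q).1 =
      r ^ Nat.card (MulAction.stabilizer (AutQ Ω) Q)

end H20NL
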