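/-
W2-C (S55) block C-finite, slice NL (helper20), part 5: CYCLO-PRIME, from helper3's character `ψ`
(`H3C.h3c_psi_norm`): if `k` times the class of a prime `(r)` of `ℚ` (outside `S`) is a norm from
the `p^M`-layer `F`, then `r^{2k(p-1)} ≡ 1 mod p^{M+1}`.
-/
import Fermat.Agent.CFT2.C.NLSlices_helper20
import Fermat.Agent.CFT2.C.Cyclo_helper3

set_option autoImplicit false
set_option linter.style.haveILetI false
set_option linter.unusedSectionVars false
set_option linter.unusedVariables false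

noncomputable section

namespace H20NL

open NumberField H17C

/-- **CYCLO-PRIME** -/
theorem h20nl_cycloPrime : CycloPrimeStatement := by
  intro p S F _ _ _ M hp hp2 hpS hF hι r P hr hrP k hk
  obtain ⟨q, hq, rfl⟩ := hpS
  obtain ⟨ι⟩ := hι
  obtain ⟨x, hx⟩ := hk
  obtain ⟨z, rfl⟩ := clsMk_surjective S F x
  rw [H3C.h3c_clsN_mk S F z] at hx
  have h2 : k • clsMk S F (ambBase S ℚ F (0, Finsupp.single P 1)) =
      clsMk S F (ambBase S ℚ F (k • ((0 : Additive (KS S ℚ)ˣ), Finsupp.single P (1 : ℤ)))) := by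
    rw [map_nsmul, map_nsmul]
  rw [h2, ← sub_eq_zero, ← map_sub, clsMk_eq_zero_iff] at hx
  have hx' : ambBase S ℚ F (k • ((0 : Additive (KS S ℚ)ˣ), Finsupp.single P (1 : ℤ))) -
      ambN S F ⊤ z ∈ princS S F := by
    have := (princS S F).neg_mem hx
    rwa [neg_sub] at this
  have h3 := H3C.h3c_psi_norm S ⟨q, hq⟩ M F hF ι _ z hx'
  -- the value of `ψ`
  have hgen : H3C.h3c_gen S P = r := by
    have h1 := (H3C.h3c_natCast_mem_iff S P r).1 hrP
    exact ((Nat.prime_dvd_prime_iff_eq (H3C.h3c_gen_prime S P) hr).1 h1)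
  have h4 : H3C.h3c_psi S ⟨q, hq⟩ M ((0 : Additive (KS S ℚ)ˣ), Finsupp.single P (1 : ℤ)) =
      Additive.ofMul (H3C.h3c_u S ⟨q, hq⟩ M (H3C.h3c_gen S P))⁻¹ := by
    rw [H3C.h3c_psi_apply]
    change Additive.ofMul (H3C.h3c_psiI S ⟨q, hq⟩ M 1) + H3C.h3c_psiD S ⟨q, hq⟩ M
      (Finsupp.single P 1) = _
    rw [map_one, H3C.h3c_psiD_single, one_zsmul]
    exact zero_add _
  rw [map_nsmul, h4, ← mul_nsmul] at h3
  have h5 : ((H3C.h3c_u S ⟨q, hq⟩ M (H3C.h3c_gen S P))⁻¹) ^ (k * (2 * ((q : ℕ) - 1))) = 1 := by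
    have := congrArg Additive.toMul h3
    simpa using this
  rw [inv_pow, inv_eq_one] at h5
  have h6 := congrArg (fun u : (ZMod ((q : ℕ) ^ (M + 1)))ˣ => (u : ZMod ((q : ℕ) ^ (M + 1)))) h5
  simp only [Units.val_pow_eq_pow_val, Units.val_one] at h6
  have hcop : (H3C.h3c_gen S P).Coprime (q : ℕ) := by
    rw [Nat.coprime_primes (H3C.h3c_gen_prime S P) q.2]
    exact H3C.h3c_gen_notMem S P q hq
  rw [H3C.h3c_u_coe S ⟨q, hq⟩ M _ hcop, hgen] at h6
  have h7 : ((r ^ (2 * k * ((q : ℕ) - 1)) : ℕ) : ZMod ((q : ℕ) ^ (M + 1))) = ((1 : ℕ) : ZMod _) := by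
    rw [Nat.cast_pow, Nat.cast_one, ← h6]
    congr 1
    ring
  exact (ZMod.natCast_eq_natCast_iff _ _ _).1 h7

end H20NL
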