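/-
W2-C (S55) block C-finite, slice NL (helper20), sub-slice NL-DEG (helper9).
`H9NL.deg : H20NL.DegStatement`: the residue degree in `F = Ω^N` of a prime `Q` of `Ω` outside `S`
whose decomposition group `D` meets `N` trivially is `|D|`.
-/
import Fermat.Agent.CFT2.C.NLSlices_helper20

set_option autoImplicit false
set_option linter.unusedSectionVars false
set_option linter.unusedVariables false
set_option linter.style.haveILetI false

noncomputable section

namespace H9NL

open NumberField H17C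
open scoped Pointwise

variable (S : Finset Nat.Primes) (Ω : Type) [Field Ω] [NumberField Ω] [IsGalois ℚ Ω]

/-- the stabilizer of a prime outside `S` is the stabilizer of the underlying ideal -/
theorem stabilizer_eq (Q : PrimesS S Ω) :
    MulAction.stabilizer (AutQ Ω) Q = MulAction.stabilizer (AutQ Ω) Q.1 := by
  ext σ
  rw [MulAction.mem_stabilizer_iff, MulAction.mem_stabilizer_iff]
  constructor
  · intro h
    have := congrArg Subtype.val h
    rwa [smul_primesS_coe] at this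
  · intro h
    apply Subtype.ext
    rw [smul_primesS_coe]
    exact h

/-- the inertia group of a prime outside `S` is trivial if `Ω` is unramified outside `S` -/
theorem inertia_eq_bot (hunr : UnramOutside S Ω ⊤) (Q : PrimesS S Ω) :
    Ideal.inertia (AutQ Ω) Q.1 = ⊥ := by
  rw [eq_bot_iff]
  intro σ hσ
  rw [Subgroup.mem_bot]
  exact hunr Q σ (Subgroup.mem_top σ) hσ

theorem liesOver_span (Q : PrimesS S Ω) (r : ℕ) (hr : r.Prime) (hrQ : ((r : ℤ) : 𝓞 Ω) ∈ Q.1) :
    Q.1.LiesOver (Ideal.span {(r : ℤ)}) := by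
  have hrprime : Prime (r : ℤ) := Nat.prime_iff_prime_int.mp hr
  have hp : (Ideal.span {(r : ℤ)}).IsPrime :=
    (Ideal.span_singleton_prime hrprime.ne_zero).2 hrprime
  have hpmax : (Ideal.span {(r : ℤ)}).IsMaximal :=
    hp.isMaximal (by simpa using hrprime.ne_zero)
  haveI := Q.2.1
  refine ⟨hpmax.eq_of_le (Ideal.comap_ne_top _ (Ideal.IsPrime.ne_top inferInstance)) ?_⟩
  rw [Ideal.span_singleton_le_iff_mem]
  change algebraMap ℤ (𝓞 Ω) (r : ℤ) ∈ Q.1
  rw [eq_intCast]
  exact hrQ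

/-- **NL-DEG** -/
theorem deg : H20NL.DegStatement := by
  intro S Ω _ _ _ N _ Q r hunr hr hrQ hDN
  have hrprime : Prime (r : ℤ) := Nat.prime_iff_prime_int.mp hr
  haveI hp : (Ideal.span {(r : ℤ)}).IsPrime :=
    (Ideal.span_singleton_prime hrprime.ne_zero).2 hrprime
  haveI hpmax : (Ideal.span {(r : ℤ)}).IsMaximal :=
    hp.isMaximal (by simpa using hrprime.ne_zero)
  haveI hQprime : Q.1.IsPrime := Q.2.1
  haveI hQmax : Q.1.IsMaximal := hQprime.isMaximal Q.2.2.1
  haveI hQp : Q.1.LiesOver (Ideal.span {(r : ℤ)}) := liesOver_span S Ω Q r hr hrQ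
  set F := IntermediateField.fixedField N with hF
  set P : Ideal (𝓞 F) := (PrimesS.under S F Ω Q).1 with hP
  haveI hPprime : P.IsPrime := (PrimesS.under S F Ω Q).2.1
  haveI hPmax : P.IsMaximal := hPprime.isMaximal (PrimesS.under S F Ω Q).2.2.1
  haveI hQP : Q.1.LiesOver P := ⟨rfl⟩
  haveI hPp : P.LiesOver (Ideal.span {(r : ℤ)}) := Ideal.LiesOver.tower_bot Q.1 P _
  -- the decomposition group over ℚ
  have h1 := Ideal.card_stabilizer_eq_card_inertia_mul_finrank (G := AutQ Ω)
    (Ideal.span {(r : ℤ)}) Q.1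
  rw [inertia_eq_bot S Ω hunr Q, Subgroup.card_bot, one_mul] at h1
  -- the decomposition group over F
  haveI hGal : IsGaloisGroup N F Ω :=
    IsGaloisGroup.of_fixedPoints_eq (AutQ Ω) ℚ Ω N F rfl
  haveI hGalO : IsGaloisGroup N (𝓞 F) (𝓞 Ω) :=
    IsGaloisGroup.of_isFractionRing N (𝓞 F) (𝓞 Ω) F Ω
  have h2 := Ideal.card_stabilizer_eq_card_inertia_mul_finrank (G := N) P Q.1
  have h3 : MulAction.stabilizer N Q.1 = ⊥ := by
    rw [eq_bot_iff]
    intro n hn
    rw [Subgroup.mem_bot]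
    have h4 : (n : AutQ Ω) ∈ MulAction.stabilizer (AutQ Ω) Q ⊓ N := by
      refine ⟨?_, n.2⟩
      rw [stabilizer_eq]
      exact hn
    rw [hDN, Subgroup.mem_bot] at h4
    exact Subtype.ext h4
  have hcard : Nat.card (MulAction.stabilizer N Q.1) = 1 := by
    rw [h3, Subgroup.card_bot]
  have h2' : 1 = Nat.card (Ideal.inertia N Q.1) * Q.1.inertiaDeg (𝓞 F) := hcard.symm.trans h2
  have h5 : Q.1.inertiaDeg (𝓞 F) = 1 := Nat.eq_one_of_mul_eq_one_left h2'.symm
  -- tower
  have h6 : Q.1.inertiaDeg ℤ = P.inertiaDeg ℤ * Q.1.inertiaDeg (𝓞 F) :=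
    Ideal.inertiaDeg_tower (R := ℤ) P Q.1
  rw [h5, mul_one] at h6
  -- the norm
  rw [Ideal.absNorm_eq_pow_inertiaDeg' P hr,
    Ideal.inertiaDeg'_eq_inertiaDeg (Ideal.span {(r : ℤ)}) P, ← h6, ← h1, stabilizer_eq]

end H9NL
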