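/-
W2-C (S55) block C-finite, slice NL-INERT (helper26): `H26NL.h26c_nlInert : H20NL.InertStatement`.
For a nontrivial cyclic `p`-subgroup `N_L ≤ Aut(Ω)` (`Ω/ℚ` Galois, unramified outside `S`) there is a
prime `Q` of `Ω` outside `S` whose decomposition group is exactly `N_L`.
Proof: `N'` = the maximal subgroup of `Gal(Ω/E)`, `E = Ω^{N_L}`; NS (`H17AN.h17an_nonSplitPrimeExists`)
for `Ω^{N'}/E` gives `P` of prime norm `r ∤ m_S` not split completely; for `Q | P`: `D(Q|P) ⊄ N'`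
(`splits_of_stab_le`: counting with `Ideal.card_stabilizer_eq` in the tower), so `D(Q|P) = Gal(Ω/E)`;
`|D(Q|r)| = f(Q|r) = f(Q|P) = |D(Q|P)|` (unramified, `N(P) = r`).
-/
import Mathlib
import Fermat.Agent.CFT2.C.NLSlices_helper20
import Fermat.Agent.CFT2.C.DescDiv_helper22
import Fermat.Agent.CFT.AN.H17Main

set_option autoImplicit false
set_option linter.style.haveILetI false
set_option linter.unusedSectionVars false
set_option linter.unusedVariables false
noncomputable section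
open NumberField H17C
open scoped Pointwise

namespace H26NL

section rel
variable {S : Finset Nat.Primes} {Ω : Type} [Field Ω] [NumberField Ω] (H : Subgroup (AutQ Ω))

/-- `|D(Q | Q ∩ Ω^H)| = f(Q | Q ∩ Ω^H)` for `Q` outside `S`, `H` unramified outside `S` -/
theorem card_stab_rel (hunr : UnramOutside S Ω H) (Q : PrimesS S Ω) :
    Nat.card (MulAction.stabilizer (Ω ≃ₐ[IntermediateField.fixedField H] Ω) Q.1)
      = Q.1.inertiaDeg (𝓞 (IntermediateField.fixedField H)) := by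
  haveI := H22C.h22c_isGalois Ω H
  haveI : Q.1.IsPrime := Q.2.1
  have h1 := Ideal.card_stabilizer_eq_card_inertia_mul_finrank
    (G := Ω ≃ₐ[IntermediateField.fixedField H] Ω)
    (Q.1.under (𝓞 (IntermediateField.fixedField H))) Q.1
  rw [h1, H22C.h22c_inertia_eq_bot hunr Q]
  simp

theorem liesOver_span (Q : Ideal (𝓞 Ω)) [Q.IsPrime] (r : ℕ) (hr : r.Prime)
    (hrQ : ((r : ℤ) : 𝓞 Ω) ∈ Q) : Q.LiesOver (Ideal.span {(r : ℤ)}) := by
  constructor
  haveI : Fact r.Prime := ⟨hr⟩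
  have hmax : (Ideal.span {(r : ℤ)}).IsMaximal :=
    Int.ideal_span_isMaximal_of_prime r
  refine hmax.eq_of_le ?_ ?_
  · exact (Ideal.IsPrime.under ℤ Q).ne_top
  · rw [Ideal.span_le, Set.singleton_subset_iff]
    change (algebraMap ℤ (𝓞 Ω)) (r : ℤ) ∈ Q
    rw [algebraMap_int_eq, eq_intCast]
    exact hrQ

/-- `|D(Q | r)| = f(Q | r)` for `Q` outside `S`, `Ω/ℚ` unramified outside `S` -/
theorem card_stab_abs [IsGalois ℚ Ω] (hunr : UnramOutside S Ω ⊤) (Q : PrimesS S Ω) (r : ℕ)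
    (hr : r.Prime) (hrQ : ((r : ℤ) : 𝓞 Ω) ∈ Q.1) :
    Nat.card (MulAction.stabilizer (AutQ Ω) Q.1) = Q.1.inertiaDeg ℤ := by
  haveI : Q.1.IsPrime := Q.2.1
  haveI := liesOver_span Q.1 r hr hrQ
  haveI : Fact r.Prime := ⟨hr⟩
  haveI : (Ideal.span {(r : ℤ)}).IsPrime :=
    (Int.ideal_span_isMaximal_of_prime r).isPrime
  have h1 := Ideal.card_stabilizer_eq_card_inertia_mul_finrank (G := AutQ Ω)
    (Ideal.span {(r : ℤ)}) Q.1
  have h2 : Q.1.inertia (AutQ Ω) = ⊥ := by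
    rw [eq_bot_iff]
    intro τ hτ
    rw [Subgroup.mem_bot]
    exact hunr Q τ (Subgroup.mem_top _) (fun x => hτ x)
  rw [h1, h2]
  simp

end rel

/-- a nontrivial cyclic `p`-group has a proper subgroup containing all proper subgroups -/
theorem exists_max_subgroup (p : ℕ) (hp : p.Prime) (G : Type) [Group G] [IsCyclic G]
    (hG : IsPGroup p G) [Nontrivial G] :
    ∃ N : Subgroup G, N ≠ ⊤ ∧ ∀ D : Subgroup G, ¬ D ≤ N → D = ⊤ := by
  haveI : Fact p.Prime := ⟨hp⟩
  obtain ⟨g, hg⟩ := IsCyclic.exists_generator (α := G)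
  obtain ⟨j, hj⟩ := (IsPGroup.iff_orderOf.mp hG) g
  have hg1 : g ≠ 1 := by
    rintro rfl
    obtain ⟨x, hx⟩ := exists_ne (1 : G)
    have := hg x
    rw [Subgroup.zpowers_one_eq_bot, Subgroup.mem_bot] at this
    exact hx this
  have hj0 : j ≠ 0 := by
    rintro rfl
    rw [pow_zero, orderOf_eq_one_iff] at hj
    exact hg1 hj
  have hpo : (p : ℤ) ∣ (orderOf g : ℤ) := by
    rw [hj]
    push_cast
    exact dvd_pow_self _ hj0
  have hpint : Prime (p : ℤ) := Nat.prime_iff_prime_int.mp hp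
  -- key: `g ^ k ∈ zpowers (g ^ p)` implies `p ∣ k`
  have key : ∀ k : ℤ, g ^ k ∈ Subgroup.zpowers (g ^ p) → (p : ℤ) ∣ k := by
    intro k hk
    obtain ⟨a, ha⟩ := Subgroup.mem_zpowers_iff.mp hk
    have h1 : g ^ ((p : ℤ) * a - k) = 1 := by
      rw [zpow_sub, zpow_mul, zpow_natCast, ha, mul_inv_cancel]
    have h2 : (orderOf g : ℤ) ∣ (p : ℤ) * a - k := orderOf_dvd_iff_zpow_eq_one.mpr h1
    have h3 : (p : ℤ) ∣ (p : ℤ) * a - k := hpo.trans h2
    have h4 : (p : ℤ) ∣ (p : ℤ) * a := dvd_mul_right _ _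
    have := dvd_sub h4 h3
    simpa using this
  refine ⟨Subgroup.zpowers (g ^ p), ?_, ?_⟩
  · intro htop
    have h1 : g ^ (1 : ℤ) ∈ Subgroup.zpowers (g ^ p) := by
      rw [htop]
      exact Subgroup.mem_top _
    have := key 1 h1
    exact hpint.not_dvd_one this
  · intro D hD
    obtain ⟨d, hdD, hdN⟩ := SetLike.not_le_iff_exists.mp hD
    obtain ⟨k, rfl⟩ := Subgroup.mem_zpowers_iff.mp (hg d)
    have hpk : ¬ (p : ℤ) ∣ k := by
      intro ⟨c, hc⟩
      apply hdN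
      rw [hc, zpow_mul, zpow_natCast]
      exact Subgroup.zpow_mem_zpowers _ _
    have hcop : IsCoprime k ((p : ℤ) ^ j) :=
      ((hpint.coprime_iff_not_dvd).mpr hpk).symm.pow_right
    obtain ⟨a, b, hab⟩ := hcop
    have hgD : g ∈ D := by
      have h1 : g = (g ^ k) ^ a * (g ^ ((p : ℤ) ^ j)) ^ b := by
        rw [← zpow_mul, ← zpow_mul, ← zpow_add]
        have : k * a + (p : ℤ) ^ j * b = 1 := by linarith
        rw [this, zpow_one]
      have h2 : g ^ ((p : ℤ) ^ j) = 1 := by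
        have : ((p : ℤ) ^ j) = ((p ^ j : ℕ) : ℤ) := by push_cast; rfl
        rw [this, zpow_natCast, ← hj, pow_orderOf_eq_one]
      rw [h1, h2, one_zpow, mul_one]
      exact D.zpow_mem hdD a
    rw [eq_top_iff]
    intro x _
    obtain ⟨n, rfl⟩ := Subgroup.mem_zpowers_iff.mp (hg x)
    exact D.zpow_mem hgD n



/-! ### restriction of scalars on Galois groups and the action on ideals -/

section scalars
variable {K Ω : Type} [Field K] [NumberField K] [Field Ω] [NumberField Ω] [Algebra K Ω]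

theorem smul_ideal_restrict (τ : Ω ≃ₐ[K] Ω) (I : Ideal (𝓞 Ω)) :
    (τ.restrictScalars ℚ : Ω ≃ₐ[ℚ] Ω) • I = τ • I := by
  ext x
  rw [Ideal.mem_pointwise_smul_iff_inv_smul_mem, Ideal.mem_pointwise_smul_iff_inv_smul_mem]
  rfl

end scalars

/-! ### a prime which does not split completely has a large decomposition group -/

section nonsplit
variable {E Ω : Type} [Field E] [NumberField E] [Field Ω] [NumberField Ω] [Algebra E Ω]
  [IsGalois E Ω]

/-- the lift of an element of `N'` to `Gal(Ω / Ω^{N'})` -/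
def liftFix (N' : Subgroup (Ω ≃ₐ[E] Ω)) (τ : N') :
    Ω ≃ₐ[IntermediateField.fixedField N'] Ω :=
  IntermediateField.subgroupEquivAlgEquiv N' τ

theorem liftFix_apply (N' : Subgroup (Ω ≃ₐ[E] Ω)) (τ : N') (x : Ω) :
    liftFix N' τ x = (τ : Ω ≃ₐ[E] Ω) x := rfl

theorem liftFix_smul_ideal (N' : Subgroup (Ω ≃ₐ[E] Ω)) (τ : N') (I : Ideal (𝓞 Ω)) :
    liftFix N' τ • I = (τ : Ω ≃ₐ[E] Ω) • I := by
  ext x
  rw [Ideal.mem_pointwise_smul_iff_inv_smul_mem, Ideal.mem_pointwise_smul_iff_inv_smul_mem]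
  rfl

/-- if the decomposition group of `Q` lies in `N'`, the prime below `Q` splits completely in
`Ω^{N'}` -/
theorem splits_of_stab_le (N' : Subgroup (Ω ≃ₐ[E] Ω)) [N'.Normal] (Q : Ideal (𝓞 Ω)) [Q.IsPrime]
    (hQ : Q ≠ ⊥) (hle : MulAction.stabilizer (Ω ≃ₐ[E] Ω) Q ≤ N') :
    H14CFT.SplitsCompletely E (IntermediateField.fixedField N') (Q.under (𝓞 E)) := by
  classical
  let M := IntermediateField.fixedField N'
  haveI : IsGalois M Ω := IsGalois.of_fixed_field Ω N'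
  haveI : IsGalois E M := inferInstance
  set P : Ideal (𝓞 E) := Q.under (𝓞 E) with hP
  set QM : Ideal (𝓞 M) := Q.under (𝓞 M) with hQM
  haveI : Q.LiesOver P := ⟨rfl⟩
  haveI : Q.LiesOver QM := ⟨rfl⟩
  haveI : QM.LiesOver P := ⟨by
    rw [hP, hQM]
    exact (Ideal.under_under (A := 𝓞 E) (B := 𝓞 M) Q).symm⟩
  have hP0 : P ≠ ⊥ := Ideal.under_ne_bot _ hQ
  have hQM0 : QM ≠ ⊥ := Ideal.under_ne_bot _ hQ
  haveI : P.IsMaximal := Ideal.IsPrime.isMaximal inferInstance hP0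
  haveI : QM.IsMaximal := Ideal.IsPrime.isMaximal inferInstance hQM0
  -- cardinalities of the decomposition groups
  have h1 := Ideal.card_stabilizer_eq (G := Ω ≃ₐ[E] Ω) P Q
  have h2 := Ideal.card_stabilizer_eq (G := Ω ≃ₐ[M] Ω) QM Q
  have h3 : Nat.card (MulAction.stabilizer (Ω ≃ₐ[E] Ω) Q)
      ≤ Nat.card (MulAction.stabilizer (Ω ≃ₐ[M] Ω) Q) := by
    refine Nat.card_le_card_of_injective
      (fun τ => (⟨liftFix N' ⟨τ.1, hle τ.2⟩, ?_⟩ : MulAction.stabilizer (Ω ≃ₐ[M] Ω) Q)) ?_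
    · rw [MulAction.mem_stabilizer_iff, liftFix_smul_ideal]
      exact τ.2
    · intro τ τ' h
      have h' := congrArg Subtype.val h
      apply Subtype.ext
      ext x
      have := congrArg (fun f : Ω ≃ₐ[M] Ω => f x) h'
      exact this
  -- towers
  have he := Ideal.ramificationIdxIn_mul_ramificationIdxIn (p := P) QM (M ≃ₐ[E] M) (𝓞 Ω)
    (Ω ≃ₐ[E] Ω) (Ω ≃ₐ[M] Ω)
  have hf := Ideal.inertiaDegIn_mul_inertiaDegIn P QM (M ≃ₐ[E] M) (𝓞 Ω)
    (Ω ≃ₐ[E] Ω) (Ω ≃ₐ[M] Ω)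
  have hn := Ideal.ncard_primesOver_mul_ramificationIdxIn_mul_inertiaDegIn P (𝓞 M) (M ≃ₐ[E] M)
  have he0 : P.ramificationIdxIn (𝓞 M) ≠ 0 := Ideal.ramificationIdxIn_ne_zero (M ≃ₐ[E] M)
  have hf0 : P.inertiaDegIn (𝓞 M) ≠ 0 := Ideal.inertiaDegIn_ne_zero (M ≃ₐ[E] M)
  have he0' : QM.ramificationIdxIn (𝓞 Ω) ≠ 0 := Ideal.ramificationIdxIn_ne_zero (Ω ≃ₐ[M] Ω)
  have hf0' : QM.inertiaDegIn (𝓞 Ω) ≠ 0 := Ideal.inertiaDegIn_ne_zero (Ω ≃ₐ[M] Ω)
  rw [h1, h2, ← he, ← hf] at h3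
  have h4 : P.ramificationIdxIn (𝓞 M) * P.inertiaDegIn (𝓞 M) = 1 := by
    have hX : 0 < QM.ramificationIdxIn (𝓞 Ω) * QM.inertiaDegIn (𝓞 Ω) :=
      Nat.pos_of_ne_zero (mul_ne_zero he0' hf0')
    have h5 : (P.ramificationIdxIn (𝓞 M) * P.inertiaDegIn (𝓞 M)) *
        (QM.ramificationIdxIn (𝓞 Ω) * QM.inertiaDegIn (𝓞 Ω))
        ≤ 1 * (QM.ramificationIdxIn (𝓞 Ω) * QM.inertiaDegIn (𝓞 Ω)) := by
      rw [one_mul]
      calc _ = P.ramificationIdxIn (𝓞 M) * QM.ramificationIdxIn (𝓞 Ω) *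
            (P.inertiaDegIn (𝓞 M) * QM.inertiaDegIn (𝓞 Ω)) := by ring
        _ ≤ _ := h3
    have h6 := Nat.le_of_mul_le_mul_right h5 hX
    have h7 : 0 < P.ramificationIdxIn (𝓞 M) * P.inertiaDegIn (𝓞 M) :=
      Nat.pos_of_ne_zero (mul_ne_zero he0 hf0)
    omega
  unfold H14CFT.SplitsCompletely
  rw [h4, mul_one] at hn
  rw [hn]
  exact IsGalois.card_aut_eq_finrank E M

end nonsplit


/-! ### the main theorem -/

section main

theorem nl_mS_ne_zero (S : Finset Nat.Primes) : mS S ≠ 0 := by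
  unfold mS
  exact Finset.prod_ne_zero_iff.mpr fun q _ => q.2.ne_zero

theorem normal_of_cyclic {G : Type} [Group G] [IsCyclic G] (N : Subgroup G) : N.Normal := by
  constructor
  intro n hn g
  have h : g * n = n * g := (IsCyclic.isMulCommutative (α := G)).is_comm.comm g n
  rw [h, mul_inv_cancel_right]
  exact hn

/-- **(NL-INERT)** -/
theorem h26c_nlInert : H20NL.InertStatement := by
  intro p S Ω _ _ _ NL hp hunr hcyc hpg hne
  classical
  haveI : IsGalois (IntermediateField.fixedField NL) Ω := IsGalois.of_fixed_field Ω NL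
  let e₀ : NL ≃* (Ω ≃ₐ[IntermediateField.fixedField NL] Ω) :=
    IntermediateField.subgroupEquivAlgEquiv NL
  haveI : IsCyclic (Ω ≃ₐ[IntermediateField.fixedField NL] Ω) :=
    isCyclic_of_surjective e₀ e₀.surjective
  have hpg' : IsPGroup p (Ω ≃ₐ[IntermediateField.fixedField NL] Ω) := hpg.of_equiv e₀
  haveI : Nontrivial NL := (Subgroup.nontrivial_iff_ne_bot NL).mpr hne
  haveI : Nontrivial (Ω ≃ₐ[IntermediateField.fixedField NL] Ω) :=
    e₀.toEquiv.symm.nontrivial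
  obtain ⟨N', hN'top, hN'max⟩ :=
    exists_max_subgroup p hp (Ω ≃ₐ[IntermediateField.fixedField NL] Ω) hpg'
  haveI : N'.Normal := normal_of_cyclic N'
  haveI : IsGalois (IntermediateField.fixedField N') Ω := IsGalois.of_fixed_field Ω N'
  -- the degree of the first layer
  have hdeg : 1 < Module.finrank (IntermediateField.fixedField NL)
      (IntermediateField.fixedField N') := by
    by_contra hcon
    have h1 : Module.finrank (IntermediateField.fixedField NL)
        (IntermediateField.fixedField N') = 1 := by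
      have := Module.finrank_pos (R := IntermediateField.fixedField NL)
        (M := IntermediateField.fixedField N')
      omega
    have h2 := Module.finrank_mul_finrank (IntermediateField.fixedField NL)
      (IntermediateField.fixedField N') Ω
    rw [h1, one_mul, IntermediateField.finrank_fixedField_eq_card,
      ← IsGalois.card_aut_eq_finrank] at h2
    exact hN'top (Subgroup.eq_top_of_card_eq N' h2)
  obtain ⟨P, hPprime, hP0, hPnorm, hPD, hPsplit⟩ :=
    H17AN.h17an_nonSplitPrimeExists (IntermediateField.fixedField NL)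
      (IntermediateField.fixedField N') (mS S) (nl_mS_ne_zero S) hdeg
  haveI := hPprime
  -- a prime of `Ω` over `P`
  obtain ⟨⟨Q, hQprime, hQover⟩⟩ := (inferInstance : Nonempty (P.primesOver (𝓞 Ω)))
  haveI := hQprime
  have hPQ : Q.under (𝓞 (IntermediateField.fixedField NL)) = P := hQover.over.symm
  have hQ0 : Q ≠ ⊥ := by
    intro h
    apply hP0
    rw [← hPQ, h]
    exact Ideal.under_bot _ _
  set r := Ideal.absNorm P with hr
  have hrP : ((r : ℤ) : 𝓞 (IntermediateField.fixedField NL)) ∈ P := by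
    have := Ideal.absNorm_mem P
    rw [hr]
    exact_mod_cast this
  have hrQ : ((r : ℤ) : 𝓞 Ω) ∈ Q := by
    have h1 : ((r : ℤ) : 𝓞 (IntermediateField.fixedField NL)) ∈
        Q.under (𝓞 (IntermediateField.fixedField NL)) := by rw [hPQ]; exact hrP
    rw [Ideal.under_def, Ideal.mem_comap, map_intCast] at h1
    exact h1
  -- `Q` is outside `S`
  have hQS : ∀ q ∈ S, (((q : ℕ) : ℤ) : 𝓞 Ω) ∉ Q := by
    intro q hq hqQ
    have hqr : (q : ℕ) ≠ r := by
      intro h
      apply hPD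
      rw [← h]
      exact Finset.dvd_prod_of_mem (fun q : Nat.Primes => (q : ℕ)) hq
    have hcop : Nat.Coprime (q : ℕ) r := (Nat.coprime_primes q.2 hPnorm).mpr hqr
    have hcopZ : IsCoprime (((q : ℕ) : ℤ)) (r : ℤ) := Nat.isCoprime_iff_coprime.mpr hcop
    obtain ⟨a, b, hab⟩ := hcopZ
    have h1 : ((1 : ℤ) : 𝓞 Ω) ∈ Q := by
      have e : ((1 : ℤ) : 𝓞 Ω) = (a : 𝓞 Ω) * (((q : ℕ) : ℤ) : 𝓞 Ω) + (b : 𝓞 Ω) * ((r : ℤ) : 𝓞 Ω) := by
        rw [← hab]
        simp only [Int.cast_add, Int.cast_mul]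
      rw [e]
      exact Q.add_mem (Q.mul_mem_left _ hqQ) (Q.mul_mem_left _ hrQ)
    rw [Int.cast_one] at h1
    exact hQprime.ne_top ((Ideal.eq_top_iff_one Q).mpr h1)
  let Qs : PrimesS S Ω := ⟨Q, hQprime, hQ0, hQS⟩
  -- the decomposition group over `E` is everything
  have hDE : MulAction.stabilizer (Ω ≃ₐ[IntermediateField.fixedField NL] Ω) Q = ⊤ := by
    apply hN'max
    intro hle
    apply hPsplit
    have := splits_of_stab_le N' Q hQ0 hle
    rwa [hPQ] at this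
  -- `NL` fixes `Q`
  have hNLQ : NL ≤ MulAction.stabilizer (AutQ Ω) Qs := by
    intro σ hσ
    rw [MulAction.mem_stabilizer_iff]
    apply Subtype.ext
    change σ • Q = Q
    have h1 : e₀ ⟨σ, hσ⟩ ∈ MulAction.stabilizer (Ω ≃ₐ[IntermediateField.fixedField NL] Ω) Q := by
      rw [hDE]
      exact Subgroup.mem_top _
    rw [MulAction.mem_stabilizer_iff, ← smul_ideal_restrict] at h1
    exact h1
  -- cardinalities
  have hunrNL : UnramOutside S Ω NL := fun Q' σ _ h => hunr Q' σ (Subgroup.mem_top _) h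
  have hc1 := card_stab_rel NL hunrNL Qs
  have hc2 := card_stab_abs hunr Qs r hPnorm hrQ
  have hstab : MulAction.stabilizer (AutQ Ω) Qs = MulAction.stabilizer (AutQ Ω) Q := by
    ext σ
    rw [MulAction.mem_stabilizer_iff, MulAction.mem_stabilizer_iff]
    exact Subtype.ext_iff
  haveI : Q.LiesOver P := hQover
  haveI : Q.LiesOver (Ideal.span {(r : ℤ)}) := liesOver_span Q r hPnorm hrQ
  have hn1 := Ideal.absNorm_pow_inertiaDeg P Q
  have hn2 := Ideal.pow_inertiaDeg r Q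
  have hf : Q.inertiaDeg (𝓞 (IntermediateField.fixedField NL)) = Q.inertiaDeg ℤ := by
    have h1 : r ^ Q.inertiaDeg (𝓞 (IntermediateField.fixedField NL)) = r ^ Q.inertiaDeg ℤ := by
      rw [hn2]
      exact hn1
    exact Nat.pow_right_injective hPnorm.two_le h1
  have hcard : Nat.card (MulAction.stabilizer (AutQ Ω) Qs) ≤ Nat.card NL := by
    rw [hstab, hc2, ← hf, ← hc1, hDE, Nat.card_congr e₀.toEquiv]
    exact le_of_eq (Nat.card_congr Subgroup.topEquiv.toEquiv)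
  exact ⟨Qs, (Subgroup.eq_of_le_of_card_ge hNLQ hcard).symm⟩

end main

end H26NL
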