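/-
W2-C (S55) block C-finite, slice NL (helper20), part 3: NL-TRANS.
Transfer along TR: a class of `C_Ω` which is a relative norm `relNorm_N(w)`, `w ∈ (C_Ω)^N`, and which
is the base change of a class `c` of `C_F` (`F = Ω^N`), comes from a norm `N_{Aut F}(v) = c` of `C_F`.
-/
import Fermat.Agent.CFT2.C.NLCard_helper20
import Fermat.Agent.CFT2.C.AbsFC2_helper20
import Fermat.Agent.CFT2.C.Slices5_helper17

set_option autoImplicit false
set_option linter.style.haveILetI false
set_option linter.unusedSectionVars false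
set_option linter.unusedVariables false

noncomputable section

namespace H20NL

open NumberField CategoryTheory H17C

variable (S : Finset Nat.Primes) (Ω : Type) [Field Ω] [NumberField Ω] [IsGalois ℚ Ω]

/-- **NL-TRANS** -/
theorem h20nl_trans (hTR : TRStatement) (hS : S.Nonempty) (N : Subgroup (AutQ Ω)) [N.Normal]
    (hunr : UnramOutside S Ω N) (z : AmbS S (IntermediateField.fixedField N))
    (h : ∃ w : ClS S Ω, (∀ g ∈ N, clsRep S ℚ Ω g w = w) ∧
      clsMk S Ω (ambBase S (IntermediateField.fixedField N) Ω z) = relNorm (clsRep S ℚ Ω) N w) :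
    clsMk S (IntermediateField.fixedField N) z ∈
      (clsN S (IntermediateField.fixedField N) ⊤).range := by
  classical
  obtain ⟨e, j, hj1, hj2, hj3⟩ := hTR S Ω N hS hunr
  obtain ⟨w, hw, hw'⟩ := h
  haveI : Finite (AutQ Ω) := inferInstance
  haveI : Finite (AutQ (IntermediateField.fixedField N)) := inferInstance
  letI : Fintype (AutQ Ω ⧸ N) := Fintype.ofFinite _
  letI : Fintype (⊤ : Subgroup (AutQ Ω ⧸ N)) := Fintype.ofFinite _
  letI : Fintype (⊤ : Subgroup (AutQ (IntermediateField.fixedField N))) := Fintype.ofFinite _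
  -- `w` as an element of the invariants
  let w' : ((clsObj S ℚ Ω).quotientToInvariants N).V := ⟨w, fun g => hw g.1 g.2⟩
  refine ⟨j w', ?_⟩
  -- the norm of `w'` for the quotient group
  set nw : ((clsObj S ℚ Ω).quotientToInvariants N).V :=
    subNorm ((clsObj S ℚ Ω).quotientToInvariants N).ρ ⊤ w' with hnw
  have h1 : (nw.val : ClS S Ω) = relNorm (clsRep S ℚ Ω) N w :=
    H20FC.h20fc_subNorm_quot (clsRep S ℚ Ω) N w'
  have h2 : j nw = clsN S (IntermediateField.fixedField N) ⊤ (j w') := by
    rw [h20nl_clsN_eq]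
    rw [hnw, h20nl_subNorm_eq, h20nl_subNorm_eq, map_sum]
    refine Fintype.sum_equiv ((Subgroup.topEquiv.toEquiv.trans e.toEquiv).trans
      Subgroup.topEquiv.toEquiv.symm) _ _ fun n => ?_
    exact hj1 (n : AutQ Ω ⧸ N) w'
  rw [← h2]
  -- compare with the class of `z`
  obtain ⟨b, hb⟩ := j.surjective (clsMk S (IntermediateField.fixedField N) z)
  have h3 := hj3 z b hb
  have h4 : b = nw := by
    apply Subtype.ext
    rw [h3, hw', h1]
  rw [← h4, hb]

end H20NL
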