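/-
W2-C (S55) block C-finite, slice NL (helper20), part 4: NL-ORB.
For a prime `Q` of `Ω` (outside `S`) with decomposition group `N_L`: the class `y₁ = [(0, Q)]` is
`N_L`-invariant and `relNorm_{N_L}(y₁)` is the base change of the class `[(0, Q ∩ ℚ)]` of `C_ℚ`.
-/
import Fermat.Agent.CFT2.C.NLTrans_helper20
import Fermat.Agent.CFT2.C.SIAmb1_helper17

set_option autoImplicit false
set_option linter.style.haveILetI false
set_option linter.unusedSectionVars false
set_option linter.unusedVariables false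

noncomputable section

namespace H20NL

open NumberField CategoryTheory H17C
open scoped Pointwise

variable (S : Finset Nat.Primes) (Ω : Type) [Field Ω] [NumberField Ω]

theorem h20nl_smul_algebraMap (g : AutQ Ω) (x : 𝓞 ℚ) :
    g • (algebraMap (𝓞 ℚ) (𝓞 Ω) x) = algebraMap (𝓞 ℚ) (𝓞 Ω) x := by
  apply RingOfIntegers.ext
  change g (algebraMap ℚ Ω (x : ℚ)) = algebraMap ℚ Ω (x : ℚ)
  exact g.commutes _

theorem h20nl_under_smul (g : AutQ Ω) (Q : PrimesS S Ω) :
    PrimesS.under S ℚ Ω (g • Q) = PrimesS.under S ℚ Ω Q := by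
  apply Subtype.ext
  ext x
  change algebraMap _ _ x ∈ (g • Q.1) ↔ algebraMap _ _ x ∈ Q.1
  rw [Ideal.mem_pointwise_smul_iff_inv_smul_mem, h20nl_smul_algebraMap]

/-- `Aut(Ω)` acts transitively on the primes of `Ω` (outside `S`) above a rational prime -/
theorem h20nl_transitive [IsGalois ℚ Ω] (Q Q' : PrimesS S Ω)
    (h : PrimesS.under S ℚ Ω Q = PrimesS.under S ℚ Ω Q') : ∃ σ : AutQ Ω, σ • Q = Q' := by
  haveI : Q.1.IsPrime := Q.2.1
  haveI : Q'.1.IsPrime := Q'.2.1
  let p : Ideal (𝓞 ℚ) := Q.1.comap (algebraMap (𝓞 ℚ) (𝓞 Ω))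
  haveI : Q.1.LiesOver p := ⟨rfl⟩
  haveI : Q'.1.LiesOver p := ⟨congrArg Subtype.val h⟩
  obtain ⟨τ, hτ⟩ := Ideal.exists_smul_eq_of_isGaloisGroup p Q.1 Q'.1 (Ω ≃ₐ[ℚ] Ω)
  exact ⟨τ, Subtype.ext hτ⟩

/-- the class `y₁ = [(0, Q)]` -/
def primeCls (Q : PrimesS S Ω) : ClS S Ω := clsMk S Ω (0, Finsupp.single Q 1)

theorem h20nl_primeCls_smul (g : AutQ Ω) (Q : PrimesS S Ω) :
    clsRep S ℚ Ω g (primeCls S Ω Q) = primeCls S Ω (g • Q) := by
  unfold primeCls
  rw [clsRep_mk, ambRep_apply]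
  congr 1
  refine Prod.ext ?_ ?_
  · exact map_zero _
  · exact divRep_single S ℚ Ω g Q 1

theorem h20nl_primeCls_inv (NL : Subgroup (AutQ Ω)) (Q : PrimesS S Ω)
    (hQ : MulAction.stabilizer (AutQ Ω) Q = NL) (g : AutQ Ω) (hg : g ∈ NL) :
    clsRep S ℚ Ω g (primeCls S Ω Q) = primeCls S Ω Q := by
  rw [h20nl_primeCls_smul]
  rw [← hQ] at hg
  rw [MulAction.mem_stabilizer_iff.1 hg]

/-- **NL-ORB** -/
theorem h20nl_orb [IsGalois ℚ Ω] (NL : Subgroup (AutQ Ω)) (Q : PrimesS S Ω)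
    (hQ : MulAction.stabilizer (AutQ Ω) Q = NL) :
    relNorm (clsRep S ℚ Ω) NL (primeCls S Ω Q) =
      clsMk S Ω (ambBase S ℚ Ω (0, Finsupp.single (PrimesS.under S ℚ Ω Q) 1)) := by
  classical
  subst hQ
  haveI : Finite (AutQ Ω) := inferInstance
  letI : Fintype (AutQ Ω ⧸ MulAction.stabilizer (AutQ Ω) Q) := Fintype.ofFinite _
  rw [h20nl_relNorm_eq]
  simp only [h20nl_primeCls_smul]
  unfold primeCls
  rw [← map_sum]
  congr 1
  rw [ambBase_apply]
  refine Prod.ext ?_ ?_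
  · rw [Prod.fst_sum]
    simp only [Finset.sum_const_zero]
    change (0 : Additive (KS S Ω)ˣ) = Additive.ofMul (ideleBase S ℚ Ω 1)
    rw [map_one]
    rfl
  · rw [Prod.snd_sum]
    ext Q'
    rw [Finsupp.finsetSum_apply, H17SI.h17si_pullDiv_apply]
    simp only [Finsupp.single_apply]
    by_cases h : PrimesS.under S ℚ Ω Q = PrimesS.under S ℚ Ω Q'
    · rw [if_pos h]
      obtain ⟨σ, hσ⟩ := h20nl_transitive S Ω Q Q' h
      rw [Finset.sum_eq_single (QuotientGroup.mk σ : AutQ Ω ⧸ MulAction.stabilizer (AutQ Ω) Q)]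
      · rw [if_pos]
        have h1 : (QuotientGroup.mk (Quotient.out
            (QuotientGroup.mk σ : AutQ Ω ⧸ MulAction.stabilizer (AutQ Ω) Q)) :
            AutQ Ω ⧸ MulAction.stabilizer (AutQ Ω) Q) = QuotientGroup.mk σ :=
          QuotientGroup.out_eq' _
        have h2 : σ⁻¹ * Quotient.out
            (QuotientGroup.mk σ : AutQ Ω ⧸ MulAction.stabilizer (AutQ Ω) Q) ∈
            MulAction.stabilizer (AutQ Ω) Q :=
          QuotientGroup.leftRel_apply.mp (Quotient.exact' h1.symm)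
        rw [MulAction.mem_stabilizer_iff, mul_smul] at h2
        calc Quotient.out (QuotientGroup.mk σ : AutQ Ω ⧸ MulAction.stabilizer (AutQ Ω) Q) • Q
            = σ • (σ⁻¹ • Quotient.out
                (QuotientGroup.mk σ : AutQ Ω ⧸ MulAction.stabilizer (AutQ Ω) Q) • Q) :=
              (smul_inv_smul σ _).symm
          _ = σ • Q := congrArg (fun X => σ • X) h2
          _ = Q' := hσ
      · intro q _ hq
        rw [if_neg]
        intro hq'
        apply hq
        rw [← QuotientGroup.out_eq' q]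
        apply QuotientGroup.eq.2
        rw [MulAction.mem_stabilizer_iff, mul_smul, hσ, ← hq', inv_smul_smul]
      · intro hn
        exact absurd (Finset.mem_univ _) hn
    · rw [if_neg h]
      apply Finset.sum_eq_zero
      intro q _
      rw [if_neg]
      intro hq
      apply h
      rw [← hq, h20nl_under_smul]

end H20NL
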