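/-
W2-C (S55) block C-finite, slice **NL** (helper20): the norm limitation, assembly.

* `H20NL.h20nl_normLim_of : ClassModuleNE → TRStatement → InertStatement → DegStatement →
    CycloFrobStatement → NormLimStatement`.
-/
import Fermat.Agent.CFT2.C.NLOrb_helper20
import Fermat.Agent.CFT2.C.NLCyclo_helper20
import Fermat.Agent.CFT2.C.FCAsm_helper25

set_option autoImplicit false
set_option linter.style.haveILetI false
set_option linter.unusedSectionVars false
set_option linter.unusedVariables false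

noncomputable section

namespace H20NL

open NumberField CategoryTheory H17C

section trans

variable (S : Finset Nat.Primes) (Ω : Type) [Field Ω] [NumberField Ω]

/-- transitivity of `under` -/
theorem h20nl_under_under (F : IntermediateField ℚ Ω) (Q : PrimesS S Ω) :
    PrimesS.under S ℚ F (PrimesS.under S F Ω Q) = PrimesS.under S ℚ Ω Q := by
  apply Subtype.ext
  change (Q.1.comap (algebraMap (𝓞 F) (𝓞 Ω))).comap (algebraMap (𝓞 ℚ) (𝓞 F)) =
    Q.1.comap (algebraMap (𝓞 ℚ) (𝓞 Ω))
  rw [Ideal.comap_comap, ← IsScalarTower.algebraMap_eq]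

/-- transitivity of the base change, for the class of a prime -/
theorem h20nl_ambBase_trans (F : IntermediateField ℚ Ω) (P : PrimesS S ℚ) :
    ambBase S F Ω (ambBase S ℚ F (0, Finsupp.single P 1)) =
      ambBase S ℚ Ω (0, Finsupp.single P 1) := by
  rw [ambBase_apply, ambBase_apply, ambBase_apply]
  refine Prod.ext ?_ ?_
  · change Additive.ofMul (ideleBase S F Ω (ideleBase S ℚ F 1)) =
      Additive.ofMul (ideleBase S ℚ Ω 1)
    apply congrArg Additive.ofMul
    rw [map_one, map_one, map_one]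
  · ext Q
    change H17SI.pullDiv S F Ω (H17SI.pullDiv S ℚ F (Finsupp.single P 1)) Q =
      H17SI.pullDiv S ℚ Ω (Finsupp.single P 1) Q
    rw [H17SI.h17si_pullDiv_apply, H17SI.h17si_pullDiv_apply, H17SI.h17si_pullDiv_apply,
      h20nl_under_under]

end trans

/-- **(NL)** from CM, TR, NL-INERT, NL-DEG and CYCLO-FROB (and helper3's `ψ`). -/
theorem h20nl_normLim_of (hCM : ClassModuleNE) (hTR : TRStatement) (hInert : InertStatement)
    (hDeg : DegStatement) (hCF : CycloFrobStatement) : NormLimStatement := by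
  intro p S Ω _ _ _ NL NM _ _ M a m' hp hp2 hpS hunr hint hcyc hcardM hemb ha hm' hcardL
  classical
  haveI : Fact p.Prime := ⟨hp⟩
  have hSne : S.Nonempty := by
    obtain ⟨q, hq, -⟩ := hpS
    exact ⟨q, hq⟩
  haveI : Finite (AutQ Ω) := inferInstance
  obtain ⟨σ, hσ⟩ := hcyc.exists_generator
  obtain ⟨b, τ, hbM, hNLcard, hτ, -⟩ := H20FC.h20fc_exists_tau p M hp NL NM hint σ hσ hcardM
  have hc0 : ∀ (k : ℕ) (g : AutQ Ω), clsRep S ℚ Ω g (k • clsP S p Ω) = k • clsP S p Ω := by
    intro k g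
    rw [map_nsmul, H25C.fc_clsP_inv]
  by_cases hb0 : b = 0
  · -- `N_L` is trivial
    subst hb0
    have h1 : Nat.card NL = 1 := by simpa using hNLcard
    refine ⟨p ^ (M - a) • clsP S p Ω, ?_⟩
    rw [h20nl_subNorm_of_inv (clsRep S ℚ Ω) NL _ (fun g _ => hc0 _ g), h1, one_nsmul]
  · -- `N_L` is a nontrivial cyclic `p`-group
    have hNLne : NL ≠ ⊥ := by
      intro h
      rw [h, Subgroup.card_bot] at hNLcard
      have : 1 < p ^ b := Nat.one_lt_pow hb0 hp.one_lt
      omega
    have hpg : IsPGroup p NL := IsPGroup.of_card hNLcard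
    haveI hNLcyc : IsCyclic NL := ⟨τ, hτ⟩
    obtain ⟨Q, hQ⟩ := hInert p S Ω NL hp hunr hNLcyc hpg hNLne
    obtain ⟨-, hfin, hle⟩ := hCM p S Ω NL hSne hp hp2 hpg (H25C.fc_unram_of_top S Ω NL hunr)
    rw [hNLcard] at hle
    have hI1 := h20nl_card S Ω NL (p ^ b) τ hτ hfin hle
    refine h20nl_abs (clsRep S ℚ Ω) NL NM p M a m' b hcardM hcardL ha hNLcard hI1
      ⟨primeCls S Ω Q, h20nl_primeCls_inv S Ω NL Q hQ, ?_⟩ (clsP S p Ω)
      (fun g => H25C.fc_clsP_inv S p Ω g)
    -- the class of `Q` has order `≥ p^b` modulo the norms from `N_M`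
    rintro k ⟨w, hw, hk⟩
    -- the field `F = Ω^{N_M}`
    haveI hgal : IsGalois ℚ (IntermediateField.fixedField NM) :=
      IsGalois.of_fixedField_normal_subgroup NM
    have hfinF : Module.finrank ℚ (IntermediateField.fixedField NM) = p ^ M := by
      obtain ⟨e, -, -, -, -⟩ := hTR S Ω NM hSne (H25C.fc_unram_of_top S Ω NM hunr)
      rw [← IsGalois.card_aut_eq_finrank, ← hcardM]
      exact (Nat.card_congr e.toEquiv).symm
    -- the rational prime under `Q`
    set P : PrimesS S ℚ := PrimesS.under S ℚ Ω Q with hP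
    set r : ℕ := H3C.h3c_gen S P with hr
    have hrp : r.Prime := H3C.h3c_gen_prime S P
    have hrP : ((r : ℤ) : 𝓞 ℚ) ∈ P.1 := (H3C.h3c_natCast_mem_iff S P r).2 dvd_rfl
    have hrQ : ((r : ℤ) : 𝓞 Ω) ∈ Q.1 := by
      have h1 : ((r : ℤ) : 𝓞 ℚ) ∈ Q.1.comap (algebraMap (𝓞 ℚ) (𝓞 Ω)) := hrP
      rw [Ideal.mem_comap, map_intCast] at h1
      exact h1
    have hrne : r ≠ p := by
      obtain ⟨q, hq, hqp⟩ := hpS
      rw [← hqp]
      exact H3C.h3c_gen_notMem S P q hq
    -- transfer to `F`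
    rw [h20nl_orb S Ω NL Q hQ, ← h20nl_ambBase_trans S Ω (IntermediateField.fixedField NM) P,
      ← map_nsmul, ← map_nsmul] at hk
    have h1 := h20nl_trans S Ω hTR hSne NM (H25C.fc_unram_of_top S Ω NM hunr) _ ⟨w, hw, hk⟩
    rw [map_nsmul] at h1
    have h2 := h20nl_cycloPrime p S (IntermediateField.fixedField NM) M hp hp2 hpS hfinF hemb r P
      hrp hrP k h1
    -- the residue degree
    have hstab : MulAction.stabilizer (AutQ Ω) Q ⊓ NM = ⊥ := by rw [hQ, hint]
    have h3 := hDeg S Ω NM Q r hunr hrp hrQ hstab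
    rw [hQ, hNLcard] at h3
    have h4 := (hCF p (IntermediateField.fixedField NM) M hp hp2 hfinF hemb
      (PrimesS.under S (IntermediateField.fixedField NM) Ω Q).1 r (p ^ b)
      (PrimesS.under S (IntermediateField.fixedField NM) Ω Q).2.1 hrp hrne h3 (2 * k)).1 h2
    have hcop : Nat.Coprime (p ^ b) 2 := by
      apply Nat.Coprime.pow_left
      rw [Nat.coprime_primes hp Nat.prime_two]
      exact hp2
    exact hcop.dvd_of_dvd_mul_left h4

end H20NL
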