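/-
W2-C (S55) block C-finite, slice **NL** (helper20): the norm limitation, UNCONDITIONAL
(NL-INERT = `H26NL.h26c_nlInert`, CM = `H17SI.h17c_classModuleNE_final`, TR = `H22C.h22c_tr`, NL-DEG = `H9NL.deg`,
CYCLO-FROB = `H28CF.cycloFrobStatement`).
-/
import Fermat.Agent.CFT2.C.NL_helper20
import Fermat.Agent.CFT2.C.CMFinal_helper17
import Fermat.Agent.CFT2.C.TR_helper22
import Fermat.Agent.CFT2.C.NLDeg_helper9
import Fermat.Agent.CFT2.C.CycloFrob_helper28
import Fermat.Agent.CFT2.C.NLInert_helper26

set_option autoImplicit false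

namespace H20NL

/-- **(NL)** from NL-INERT. -/
theorem h20nl_normLim_of_inert (hInert : InertStatement) : H17C.NormLimStatement :=
  h20nl_normLim_of H17SI.h17c_classModuleNE_final H22C.h22c_tr hInert H9NL.deg
    H28CF.cycloFrobStatement

/-- **(NL)**, unconditional. -/
theorem h20nl_normLim : H17C.NormLimStatement :=
  h20nl_normLim_of_inert H26NL.h26c_nlInert

end H20NL
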