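/-
W2-C (S55) block C-FC, slice **TOWER** (helper21), part 2: the compositum `L · F` of two number
fields inside `ℚ̄ = AlgebraicClosure ℚ`, with the embeddings `L → L·F ← F` whose images generate.
-/
import Mathlib
import Fermat.Agent.CFT2.C.Slices5_helper17

set_option autoImplicit false
set_option linter.unusedSectionVars false
set_option linter.unusedVariables false
set_option linter.style.haveILetI false

noncomputable section

namespace H21TW

open NumberField IsDedekindDomain H17C IntermediateField
open scoped Pointwise

section compositum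

variable (L F : Type) [Field L] [NumberField L] [Field F] [NumberField F]

/-- an embedding of a number field into `ℚ̄` -/
def emb : L →ₐ[ℚ] AlgebraicClosure ℚ := IsAlgClosed.lift

/-- the image of a number field in `ℚ̄` -/
def img : IntermediateField ℚ (AlgebraicClosure ℚ) := (emb L).fieldRange

/-- `L ≅` its image -/
def imgEquiv : L ≃ₐ[ℚ] img L := AlgEquiv.ofInjectiveField (emb L)

instance img_fd : FiniteDimensional ℚ (img L) :=
  LinearEquiv.finiteDimensional (imgEquiv L).toLinearEquiv

instance img_normal [IsGalois ℚ L] : @Normal ℚ (img L) _ _ (img L).algebra' :=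
  Normal.of_algEquiv (imgEquiv L)

/-- the compositum `L · F` inside `ℚ̄` -/
def comp : IntermediateField ℚ (AlgebraicClosure ℚ) := img L ⊔ img F

instance comp_fd : FiniteDimensional ℚ (comp L F) := by
  unfold comp
  infer_instance

instance comp_normal [IsGalois ℚ L] [IsGalois ℚ F] :
    @Normal ℚ (comp L F) _ _ (comp L F).algebra' := by
  unfold comp
  infer_instance

instance comp_nf : NumberField (comp L F) where
  to_charZero := inferInstance
  to_finiteDimensional := comp_fd L F

instance comp_galois [IsGalois ℚ L] [IsGalois ℚ F] : IsGalois ℚ (comp L F) where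
  to_normal := comp_normal L F
  to_isSeparable := inferInstance

/-- `L → L · F` -/
def toComp1 : L →ₐ[ℚ] comp L F :=
  ((IntermediateField.inclusion (le_sup_left : img L ≤ comp L F)).comp
    (imgEquiv L).toAlgHom)

/-- `F → L · F` -/
def toComp2 : F →ₐ[ℚ] comp L F :=
  ((IntermediateField.inclusion (le_sup_right : img F ≤ comp L F)).comp
    (imgEquiv F).toAlgHom)

theorem toComp1_val (x : L) : ((toComp1 L F x : comp L F) : AlgebraicClosure ℚ) = emb L x := rfl

theorem toComp2_val (x : F) : ((toComp2 L F x : comp L F) : AlgebraicClosure ℚ) = emb F x := rfl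

theorem comp_sup : (toComp1 L F).fieldRange ⊔ (toComp2 L F).fieldRange = ⊤ := by
  rw [eq_top_iff]
  intro x _
  -- the image of `J` in `ℚ̄`
  have key : (comp L F).toSubfield ≤
      ((toComp1 L F).fieldRange ⊔ (toComp2 L F).fieldRange).toSubfield.map
        (comp L F).toSubfield.subtype := by
    show Subfield.closure (Set.range (algebraMap ℚ (AlgebraicClosure ℚ)) ∪
      ((img L : Set (AlgebraicClosure ℚ)) ∪ (img F : Set (AlgebraicClosure ℚ)))) ≤ _
    rw [Subfield.closure_le]
    rintro y (⟨r, rfl⟩ | ⟨a, rfl⟩ | ⟨a, rfl⟩)
    · rw [eq_ratCast]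
      exact SubfieldClass.ratCast_mem _ r
    · exact ⟨toComp1 L F a, (le_sup_left : (toComp1 L F).fieldRange ≤ _) ⟨a, rfl⟩, rfl⟩
    · exact ⟨toComp2 L F a, (le_sup_right : (toComp2 L F).fieldRange ≤ _) ⟨a, rfl⟩, rfl⟩
  obtain ⟨z, hz, hzx⟩ := key x.2
  have : z = x := Subtype.ext hzx
  rw [← this]
  exact hz

end compositum

end H21TW
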